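import Mathlib
import Fermat.Agent.Lib.Mero

/-!
# S24 Layer C (part 1): Klein's `j` on `ℍ`: holomorphic, `SL(2, ℤ)`-invariant, surjective.
-/

set_option autoImplicit false

noncomputable section

open UpperHalfPlane ModularForm EisensteinSeries Complex MatrixGroups Filter
open scoped Manifold Topology

namespace Fermat.Agent.S24

open Fermat.Agent.Mero

local notation "Δ" => ModularForm.discriminant

/-- Klein's `j`-function `E₄³ / Δ` (so `j = q⁻¹ + 744 + …`). -/
def FA_S24_j (z : ℍ) : ℂ := E₄ z ^ 3 / Δ z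

theorem FA_S24_j_mdiff : MDiff FA_S24_j :=
  (E₄.holo'.pow 3).div CuspForm.discriminant.holo' discriminant_ne_zero

/-- `j` as an element of the ring of holomorphic functions. -/
def FA_S24_jHol : FA_Mero_Hol := ⟨FA_S24_j, FA_S24_j_mdiff⟩

theorem FA_S24_SL_mem (γ : SL(2, ℤ)) : (Matrix.SpecialLinearGroup.mapGL ℝ γ : GL (Fin 2) ℝ) ∈ 𝒮ℒ :=
  ⟨γ, rfl⟩

theorem FA_S24_modform_smul {k : ℤ} (f : ModularForm 𝒮ℒ k) (γ : SL(2, ℤ)) (z : ℍ) :
    f (γ • z) = (denom (Matrix.SpecialLinearGroup.mapGL ℝ γ) z) ^ k * f z :=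
  SlashInvariantForm.slash_action_eqn'' f (FA_S24_SL_mem γ) z

theorem FA_S24_disc_smul (γ : SL(2, ℤ)) (z : ℍ) :
    Δ (γ • z) = (denom (Matrix.SpecialLinearGroup.mapGL ℝ γ) z) ^ (12 : ℤ) * Δ z :=
  SlashInvariantForm.slash_action_eqn'' CuspForm.discriminant (FA_S24_SL_mem γ) z

theorem FA_S24_j_smul (γ : SL(2, ℤ)) (z : ℍ) : FA_S24_j (γ • z) = FA_S24_j z := by
  unfold FA_S24_j
  rw [FA_S24_modform_smul E₄ γ z, FA_S24_disc_smul γ z]
  have hd : denom (Matrix.SpecialLinearGroup.mapGL ℝ γ) z ≠ 0 := denom_ne_zero _ z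
  have hΔ := discriminant_ne_zero z
  rw [mul_pow, ← zpow_natCast (denom _ z ^ (4 : ℤ)) 3, ← zpow_mul]
  norm_num
  field_simp

theorem FA_S24_jHol_smul (γ : SL(2, ℤ)) : γ • FA_S24_jHol = FA_S24_jHol := by
  apply Subtype.ext
  funext z
  exact FA_S24_j_smul γ⁻¹ z

theorem FA_S24_j_sub_eq (z : ℍ) : FA_S24_j z - 1728 = E₆ z ^ 2 / Δ z := by
  unfold FA_S24_j
  have hΔ := discriminant_ne_zero z
  have h := discriminant_eq_E₄_cube_sub_E₆_sq z
  field_simp
  rw [h]
  ring


/-! ### Values at `i∞` -/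

theorem FA_S24_tendsto_atImInfty {k : ℤ} (f : ModularForm 𝒮ℒ k) :
    Tendsto f atImInfty (𝓝 ((qExpansion 1 f).coeff 0)) := by
  have hper := SlashInvariantFormClass.periodic_comp_ofComplex f one_mem_strictPeriods_SL
  have han := ModularFormClass.analyticAt_cuspFunction_zero f one_pos one_mem_strictPeriods_SL
  have hcomp : (cuspFunction 1 f ∘ fun τ : ℍ ↦ Function.Periodic.qParam 1 τ : ℍ → ℂ) = f := by
    funext τ
    simpa using eq_cuspFunction τ one_ne_zero hper
  have h0 : (qExpansion 1 f).coeff 0 = cuspFunction 1 f 0 := by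
    simp [qExpansion_coeff]
  rw [h0]
  have := han.continuousAt.tendsto.comp (qParam_tendsto_atImInfty one_pos)
  rwa [hcomp] at this

theorem FA_S24_tendsto_E4 : Tendsto E₄ atImInfty (𝓝 1) := by
  have h := FA_S24_tendsto_atImInfty E₄
  rwa [E_qExpansion_coeff_zero _ ⟨2, rfl⟩] at h

theorem FA_S24_tendsto_E6 : Tendsto E₆ atImInfty (𝓝 1) := by
  have h := FA_S24_tendsto_atImInfty E₆
  rwa [E_qExpansion_coeff_zero _ ⟨3, rfl⟩] at h

theorem FA_S24_tendsto_disc : Tendsto Δ atImInfty (𝓝 0) := discriminant_isZeroAtImInfty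

/-! ### Surjectivity of `j` -/

/-- A nowhere vanishing modular form of level one whose value at `i∞` is nonzero does not exist
in positive weight: its inverse would be a modular form of negative weight. -/
theorem FA_S24_exists_zero {k : ℤ} (hk : 0 < k) (f : ModularForm 𝒮ℒ k) {a : ℂ} (ha : a ≠ 0)
    (hf : Tendsto f atImInfty (𝓝 a)) : ∃ z : ℍ, f z = 0 := by
  by_contra hcon
  push Not at hcon
  have hslash : ∀ γ : SL(2, ℤ), (fun z => (f z)⁻¹) ∣[-k] γ = fun z => (f z)⁻¹ := by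
    intro γ
    funext z
    rw [ModularForm.SL_slash_apply]
    have h1 := FA_S24_modform_smul f γ z
    have hd : denom (Matrix.SpecialLinearGroup.mapGL ℝ γ) z ≠ 0 := denom_ne_zero _ z
    show (f (γ • z))⁻¹ * denom (↑γ) z ^ (- -k) = (f z)⁻¹
    rw [h1, neg_neg]
    have : denom (↑γ : GL (Fin 2) ℝ) z = denom (Matrix.SpecialLinearGroup.mapGL ℝ γ) z := rfl
    rw [this, mul_inv, mul_comm, ← mul_assoc, mul_inv_cancel₀ (zpow_ne_zero _ hd), one_mul]
  let G : ModularForm 𝒮ℒ (-k) :=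
    { toFun := fun z => (f z)⁻¹
      slash_action_eq' := fun _ ⟨γ, hγ⟩ ↦ hγ ▸ hslash γ
      holo' := by
        have h1 : MDiff (fun _ : ℍ => (1 : ℂ)) := mdifferentiable_const
        have h2 := h1.div f.holo' hcon
        have h3 : (fun z => (f z)⁻¹) = ((fun _ : ℍ => (1 : ℂ)) / ⇑f.toSlashInvariantForm) := by
          funext z
          simp
        show MDiff (fun z => (f z)⁻¹)
        rw [h3]
        exact h2
      bdd_at_cusps' := fun {c} hc => by
        rw [Subgroup.IsArithmetic.isCusp_iff_isCusp_SL2Z] at hc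
        rw [OnePoint.isBoundedAt_iff_forall_SL2Z hc]
        intro γ _
        rw [hslash γ, IsBoundedAtImInfty, BoundedAtFilter]
        have h2 : Tendsto (fun z => (f z)⁻¹) atImInfty (𝓝 a⁻¹) := hf.inv₀ ha
        exact h2.isBigO_one ℝ }
  have hG : (G : ℍ → ℂ) = 0 := ModularFormClass.levelOne_neg_weight_eq_zero (by omega) G
  have z₀ : ℍ := ⟨Complex.I, by simp⟩
  have := congrFun hG z₀
  have h3 : (f z₀)⁻¹ = 0 := this
  exact hcon z₀ (inv_eq_zero.mp h3)

theorem FA_S24_j_surjective : Function.Surjective FA_S24_j := by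
  intro c
  -- the weight 12 form `E₄³ - c Δ`
  let F : ModularForm 𝒮ℒ 12 :=
    ModularForm.mcast (by norm_num) ((E₄.mul E₄).mul E₄) - c • (CuspForm.discriminant : ModularForm 𝒮ℒ 12)
  have hF : ∀ z, F z = E₄ z ^ 3 - c * Δ z := by
    intro z
    show E₄ z * E₄ z * E₄ z - c * Δ z = _
    ring
  have htend : Tendsto F atImInfty (𝓝 1) := by
    have h1 := ((FA_S24_tendsto_E4.pow 3).sub (FA_S24_tendsto_disc.const_mul c))
    have h2 : (fun z => E₄ z ^ 3 - c * Δ z) = F := by
      funext z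
      exact (hF z).symm
    simpa [h2] using h1
  obtain ⟨z, hz⟩ := FA_S24_exists_zero (by norm_num) F one_ne_zero htend
  refine ⟨z, ?_⟩
  rw [hF z] at hz
  unfold FA_S24_j
  have hΔ := discriminant_ne_zero z
  field_simp
  linear_combination hz

end Fermat.Agent.S24
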