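import Mathlib
import Fermat.Agent.S24.CJ
import Fermat.Prelude.Def_ModularCurve_X0

/-!
# S24 Layer C (part 4): `q`-expansions: `j · q → 1`, and the `q`-expansion of `E₄`
is the prelude's formal series `eisenstein4`.
-/

set_option autoImplicit false

noncomputable section

open UpperHalfPlane hiding I
open ModularForm EisensteinSeries Complex MatrixGroups Filter
open scoped Manifold Topology Real

namespace Fermat.Agent.S24

local notation "Δ" => ModularForm.discriminant
local notation "𝕢" => Function.Periodic.qParam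

/-- **C1**: `j · q → 1` at `i∞`. -/
theorem FA_S24_tendsto_j_mul_q :
    Tendsto (fun z : ℍ => FA_S24_j z * 𝕢 1 z) atImInfty (𝓝 1) := by
  have h1 := (FA_S24_tendsto_E4.pow 3).div tendsto_atImInfty_tprod_one_sub_eta_q_pow one_ne_zero
  simp only [one_pow, div_one] at h1
  refine h1.congr fun z => ?_
  have hq : 𝕢 1 (z : ℂ) ≠ 0 := Function.Periodic.qParam_ne_zero _
  have hΔ := discriminant_ne_zero z
  have hprod := discriminant_eq_q_prod z
  have hP : (∏' n, (1 - eta_q n z) ^ 24) ≠ 0 := by
    intro h0
    rw [h0, mul_zero] at hprod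
    exact hΔ hprod
  unfold FA_S24_j
  rw [hprod]
  simp only [Pi.div_apply]
  field_simp

/-- The `q`-expansion of `E₄` has the coefficients of the prelude's `eisenstein4`. -/
theorem FA_S24_qExpansion_E4_coeff (m : ℕ) :
    (qExpansion 1 E₄).coeff m = ((PowerSeries.coeff m ModularCurve.eisenstein4 : ℤ) : ℂ) := by
  rw [E_qExpansion_coeff _ ⟨2, rfl⟩]
  unfold ModularCurve.eisenstein4
  rw [PowerSeries.coeff_mk]
  by_cases hm : m = 0
  · simp [hm]
  · rw [if_neg hm, if_neg hm]
    have hb : bernoulli 4 = -1 / 30 := by decide +kernel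
    rw [hb]
    have hσ : (ArithmeticFunction.sigma (4 - 1) m : ℂ) = ∑ d ∈ m.divisors, ((d : ℤ) : ℂ) ^ 3 := by
      rw [ArithmeticFunction.sigma_apply]
      push_cast
      rfl
    rw [hσ]
    push_cast
    ring

theorem FA_S24_qExpansion_E4 :
    qExpansion 1 E₄ = PowerSeries.map (Int.castRingHom ℂ) ModularCurve.eisenstein4 := by
  ext m
  rw [PowerSeries.coeff_map]
  exact FA_S24_qExpansion_E4_coeff m

end Fermat.Agent.S24
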