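import Mathlib
import Fermat.Agent.S24.CQ

/-!
# S24 Layer C (part 5): the `q`-expansion of `Δ` is the prelude's formal `X * etaProd ^ 24`.
-/

set_option autoImplicit false

noncomputable section

open UpperHalfPlane hiding I
open ModularForm EisensteinSeries Complex MatrixGroups Filter
open scoped Manifold Topology Real PowerSeries.WithPiTopology

namespace Fermat.Agent.S24

local notation "Δ" => ModularForm.discriminant
local notation "𝕢" => Function.Periodic.qParam

/-- Iterated derivatives of a polynomial function. -/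
theorem FA_S24_iteratedDeriv_poly_fun (p : Polynomial ℂ) (m : ℕ) :
    iteratedDeriv m (fun q => p.eval q) = fun q => (Polynomial.derivative^[m] p).eval q := by
  induction m generalizing p with
  | zero => simp
  | succ m ih =>
    rw [iteratedDeriv_succ, ih]
    funext q
    rw [Polynomial.deriv, Function.iterate_succ_apply']

theorem FA_S24_iteratedDeriv_poly (p : Polynomial ℂ) (m : ℕ) :
    iteratedDeriv m (fun q => p.eval q) 0 = (m.factorial : ℂ) * p.coeff m := by
  rw [FA_S24_iteratedDeriv_poly_fun]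
  show Polynomial.eval 0 (Polynomial.derivative^[m] p) = _
  rw [← Polynomial.coeff_zero_eq_eval_zero, Polynomial.coeff_iterate_derivative]
  simp [Nat.descFactorial_self]

/-- Iterated derivatives of a locally uniform limit of holomorphic functions. -/
theorem FA_S24_tendsto_iteratedDeriv {ι : Type*} {φ : Filter ι} {F : ι → ℂ → ℂ} {f : ℂ → ℂ}
    {U : Set ℂ} (hU : IsOpen U) (hf : TendstoLocallyUniformlyOn F f φ U)
    (hF : ∀ n, DifferentiableOn ℂ (F n) U) (m : ℕ) :
    TendstoLocallyUniformlyOn (fun n => iteratedDeriv m (F n)) (iteratedDeriv m f) φ U ∧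
      ∀ n, DifferentiableOn ℂ (iteratedDeriv m (F n)) U := by
  induction m with
  | zero =>
    refine ⟨?_, ?_⟩
    · simpa [iteratedDeriv_zero] using hf
    · intro n
      simpa [iteratedDeriv_zero] using hF n
  | succ m ih =>
    obtain ⟨h1, h2⟩ := ih
    refine ⟨?_, ?_⟩
    · have := h1.deriv (Filter.Eventually.of_forall h2) hU
      have e1 : (fun n => iteratedDeriv (m + 1) (F n)) = deriv ∘ (fun n => iteratedDeriv m (F n)) := by
        funext n
        simp [iteratedDeriv_succ]
      have e2 : iteratedDeriv (m + 1) f = deriv (iteratedDeriv m f) := by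
        funext x
        rw [iteratedDeriv_succ]
      rw [e1, e2]
      exact this
    · intro n
      have : iteratedDeriv (m + 1) (F n) = deriv (iteratedDeriv m (F n)) := by
        funext x
        rw [iteratedDeriv_succ]
      rw [this]
      exact (h2 n).deriv hU

/-- The finite partial products as polynomials over `ℤ`. -/
def FA_S24_etaPoly (s : Finset ℕ) : Polynomial ℤ :=
  ∏ i ∈ s, (1 - Polynomial.X ^ (i + 1))

theorem FA_S24_etaPoly_coe (s : Finset ℕ) :
    ((FA_S24_etaPoly s : Polynomial ℤ) : PowerSeries ℤ)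
      = ∏ i ∈ s, ((1 : PowerSeries ℤ) - PowerSeries.X ^ (i + 1)) := by
  unfold FA_S24_etaPoly
  have h := map_prod (Polynomial.coeToPowerSeries.ringHom (R := ℤ))
    (fun i : ℕ => (1 : Polynomial ℤ) - Polynomial.X ^ (i + 1)) s
  simp only [Polynomial.coeToPowerSeries.ringHom_apply] at h
  rw [h]
  refine Finset.prod_congr rfl fun i _ => ?_
  simp

theorem FA_S24_etaPoly_eval (s : Finset ℕ) (q : ℂ) :
    ((FA_S24_etaPoly s).map (Int.castRingHom ℂ)).eval q = ∏ i ∈ s, (1 - q ^ (i + 1)) := by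
  unfold FA_S24_etaPoly
  rw [Polynomial.map_prod, Polynomial.eval_prod]
  refine Finset.prod_congr rfl fun i _ => ?_
  simp

/-- Coefficients of the formal `etaProd` as limits of coefficients of partial products. -/
theorem FA_S24_tendsto_coeff_etaProd (m : ℕ) :
    Tendsto (fun s : Finset ℕ => (((FA_S24_etaPoly s).coeff m : ℤ) : ℂ)) atTop
      (𝓝 ((PowerSeries.coeff m ModularCurve.etaProd : ℤ) : ℂ)) := by
  have h1 : HasProd (fun n : ℕ => (1 : PowerSeries ℤ) - PowerSeries.X ^ (n + 1))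
      ModularCurve.etaProd :=
    (PowerSeries.WithPiTopology.multipliable_one_sub_X_pow ℤ).hasProd
  have h2 := ((PowerSeries.WithPiTopology.continuous_coeff ℤ m).tendsto _).comp h1
  have h3 : Continuous (fun n : ℤ => (n : ℂ)) := continuous_of_discreteTopology
  have h4 := (h3.tendsto _).comp h2
  refine h4.congr fun s => ?_
  simp only [Function.comp_apply]
  rw [← FA_S24_etaPoly_coe, Polynomial.coeff_coe]

/-- The Taylor coefficients at `0` of `q ↦ ∏' n, (1 - q ^ (n + 1))`. -/
theorem FA_S24_iteratedDeriv_tprod (m : ℕ) :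
    iteratedDeriv m (fun q : ℂ => ∏' n : ℕ, (1 - q ^ (n + 1))) 0
      = (m.factorial : ℂ) * ((PowerSeries.coeff m ModularCurve.etaProd : ℤ) : ℂ) := by
  have hloc : TendstoLocallyUniformlyOn
      (fun (s : Finset ℕ) (q : ℂ) => ∏ i ∈ s, (1 - q ^ (i + 1)))
      (fun q : ℂ => ∏' n : ℕ, (1 - q ^ (n + 1))) atTop (Metric.ball (0 : ℂ) 1) := by
    have := multipliableLocallyUniformlyOn_one_sub_pow.hasProdLocallyUniformlyOn
    rw [HasProdLocallyUniformlyOn] at this
    exact this
  have hdiff : ∀ s : Finset ℕ, DifferentiableOn ℂ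
      (fun (q : ℂ) => ∏ i ∈ s, (1 - q ^ (i + 1))) (Metric.ball (0 : ℂ) 1) := by
    intro s
    have h : DifferentiableOn ℂ (∏ i ∈ s, fun q : ℂ => (1 - q ^ (i + 1)))
        (Metric.ball (0 : ℂ) 1) :=
      DifferentiableOn.finsetProd (fun i _ => by fun_prop)
    have e : (∏ i ∈ s, fun q : ℂ => (1 - q ^ (i + 1)))
        = (fun (q : ℂ) => ∏ i ∈ s, (1 - q ^ (i + 1))) := by
      funext q
      simp [Finset.prod_apply]
    rwa [e] at h
  obtain ⟨h1, -⟩ := FA_S24_tendsto_iteratedDeriv Metric.isOpen_ball hloc hdiff m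
  have h2 := h1.tendsto_at (Metric.mem_ball_self one_pos)
  have h3 : ∀ s : Finset ℕ, iteratedDeriv m (fun (q : ℂ) => ∏ i ∈ s, (1 - q ^ (i + 1))) 0
      = (m.factorial : ℂ) * (((FA_S24_etaPoly s).coeff m : ℤ) : ℂ) := by
    intro s
    have : (fun (q : ℂ) => ∏ i ∈ s, (1 - q ^ (i + 1)))
        = fun q => ((FA_S24_etaPoly s).map (Int.castRingHom ℂ)).eval q := by
      funext q
      rw [FA_S24_etaPoly_eval]
    rw [this, FA_S24_iteratedDeriv_poly, Polynomial.coeff_map]
    simp
  have h4 := (FA_S24_tendsto_coeff_etaProd m).const_mul (m.factorial : ℂ)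
  have h5 : Tendsto (fun s : Finset ℕ =>
      iteratedDeriv m (fun (q : ℂ) => ∏ i ∈ s, (1 - q ^ (i + 1))) 0) atTop
      (𝓝 ((m.factorial : ℂ) * ((PowerSeries.coeff m ModularCurve.etaProd : ℤ) : ℂ))) :=
    h4.congr fun s => (h3 s).symm
  exact tendsto_nhds_unique h2 h5


/-- The Taylor series at `0` of a function `ℂ → ℂ`. -/
def FA_S24_taylor (g : ℂ → ℂ) : PowerSeries ℂ :=
  PowerSeries.mk fun m => ((m.factorial : ℂ))⁻¹ * iteratedDeriv m g 0

theorem FA_S24_taylor_coeff (g : ℂ → ℂ) (m : ℕ) :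
    (FA_S24_taylor g).coeff m = ((m.factorial : ℂ))⁻¹ * iteratedDeriv m g 0 := by
  simp [FA_S24_taylor]

theorem FA_S24_taylor_congr {g h : ℂ → ℂ} (hgh : g =ᶠ[𝓝 0] h) :
    FA_S24_taylor g = FA_S24_taylor h := by
  ext m
  rw [FA_S24_taylor_coeff, FA_S24_taylor_coeff, hgh.iteratedDeriv_eq]

theorem FA_S24_taylor_mul {g h : ℂ → ℂ} (hg : AnalyticAt ℂ g 0) (hh : AnalyticAt ℂ h 0) :
    FA_S24_taylor (g * h) = FA_S24_taylor g * FA_S24_taylor h := by
  ext m
  simp only [FA_S24_taylor_coeff, iteratedDeriv_mul hg.contDiffAt hh.contDiffAt, Finset.mul_sum,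
    PowerSeries.coeff_mul, Finset.Nat.sum_antidiagonal_eq_sum_range_succ_mk, Nat.succ_eq_add_one]
  refine Finset.sum_congr rfl fun i hi ↦ ?_
  rw [Nat.cast_choose _ (by grind)]
  field_simp [Nat.factorial_ne_zero]

theorem FA_S24_taylor_pow {g : ℂ → ℂ} (hg : AnalyticAt ℂ g 0) (n : ℕ) :
    FA_S24_taylor (g ^ n) = FA_S24_taylor g ^ n := by
  induction n with
  | zero =>
    ext m
    rw [pow_zero, pow_zero, FA_S24_taylor_coeff]
    have : (1 : ℂ → ℂ) = fun q => (Polynomial.C (1 : ℂ)).eval q := by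
      funext q; simp
    rw [this, FA_S24_iteratedDeriv_poly]
    rcases Nat.eq_zero_or_pos m with rfl | hm
    · simp
    · have hm' : m ≠ 0 := Nat.pos_iff_ne_zero.mp hm
      rw [Polynomial.coeff_C, if_neg hm', PowerSeries.coeff_one, if_neg hm']
      simp
  | succ n ih =>
    rw [pow_succ, pow_succ, FA_S24_taylor_mul (hg.pow n) hg, ih]

theorem FA_S24_taylor_id : FA_S24_taylor (fun q : ℂ => q) = PowerSeries.X := by
  ext m
  rw [FA_S24_taylor_coeff]
  have : (fun q : ℂ => q) = fun q => (Polynomial.X : Polynomial ℂ).eval q := by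
    funext q; simp
  rw [this, FA_S24_iteratedDeriv_poly, PowerSeries.coeff_X, Polynomial.coeff_X]
  have hm : (m.factorial : ℂ) ≠ 0 := by exact_mod_cast Nat.factorial_ne_zero m
  by_cases h1 : m = 1
  · subst h1; simp
  · have h1' : ¬ (1 = m) := fun h => h1 h.symm
    simp [h1, h1']

theorem FA_S24_taylor_tprod :
    FA_S24_taylor (fun q : ℂ => ∏' n : ℕ, (1 - q ^ (n + 1)))
      = PowerSeries.map (Int.castRingHom ℂ) ModularCurve.etaProd := by
  ext m
  rw [FA_S24_taylor_coeff, FA_S24_iteratedDeriv_tprod, PowerSeries.coeff_map]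
  have hm : (m.factorial : ℂ) ≠ 0 := by exact_mod_cast Nat.factorial_ne_zero m
  simp only [eq_intCast]
  field_simp

theorem FA_S24_analyticAt_tprod :
    AnalyticAt ℂ (fun q : ℂ => ∏' n : ℕ, (1 - q ^ (n + 1))) 0 :=
  differentiableOn_tprod_one_sub_pow.analyticAt (Metric.ball_mem_nhds 0 one_pos)

/-- **C5** for `Δ`: the `q`-expansion of `Δ` is `X * etaProd ^ 24`. -/
theorem FA_S24_qExpansion_disc :
    qExpansion 1 Δ = PowerSeries.map (Int.castRingHom ℂ)
      (PowerSeries.X * ModularCurve.etaProd ^ 24) := by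
  have h1 : qExpansion 1 Δ = FA_S24_taylor (cuspFunction 1 Δ) := rfl
  have h2 : cuspFunction 1 Δ =ᶠ[𝓝 0]
      (fun q : ℂ => q) * (fun q : ℂ => ∏' n : ℕ, (1 - q ^ (n + 1))) ^ 24 := by
    filter_upwards [Metric.ball_mem_nhds (0 : ℂ) one_pos] with q hq
    rw [discriminant_cuspFunction_eqOn hq]
    simp only [Pi.mul_apply, Pi.pow_apply]
    congr 1
    exact (multipliable_one_sub_pow (by simpa using hq)).tprod_pow 24
  have hid : AnalyticAt ℂ (fun q : ℂ => q) 0 := analyticAt_id
  rw [h1, FA_S24_taylor_congr h2,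
    FA_S24_taylor_mul hid (FA_S24_analyticAt_tprod.pow 24),
    FA_S24_taylor_pow FA_S24_analyticAt_tprod, FA_S24_taylor_tprod, map_mul, map_pow]
  congr 1
  rw [FA_S24_taylor_id]
  simp

end Fermat.Agent.S24
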