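import Mathlib
import Fermat.Prelude.Def_ModularCurve_ArithmeticGalois
import Fermat.Prelude.Def_ModularCurve_GenusNumerics
import Fermat.Prelude.Def_AlgebraicCurve_CanonicalDivisor

/-!
# S24 interface: targets of the layers (see `NOTES/plan/S24.md`)

Everything here is a `def ... : Prop` (a *target*); the layers prove them, `Glue.lean`
derives the frozen statement S24 from the four targets.
-/

set_option autoImplicit false

noncomputable section

namespace Fermat.Agent.S24

open AlgebraicCurve MatrixGroups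

/-- Number of orbits of the subgroup `I` on the left coset space `Γ ⧸ H`
(= number of double cosets `I \ Γ / H`). -/
def FA_S24_orbits {Γ : Type} [Group Γ] (I H : Subgroup Γ) : ℕ :=
  Nat.card (MulAction.orbitRel.Quotient I (Γ ⧸ H))

/-- The Riemann–Hurwitz count: `∑_{c ∈ B} (n - o_c) + (n - o_∞) - 2 n` with `n = [Γ : H]`. -/
def FA_S24_rhDegree {Γ K : Type} [Group Γ] (H : Subgroup Γ) (B : Finset K)
    (I : K → Subgroup Γ) (Iinf : Subgroup Γ) : ℤ :=
  ∑ c ∈ B, ((H.index : ℤ) - (FA_S24_orbits (I c) H : ℤ))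
    + ((H.index : ℤ) - (FA_S24_orbits Iinf H : ℤ)) - 2 * (H.index : ℤ)

/-- **Layer A** (abstract Riemann–Hurwitz with Galois counting).  `K` algebraically closed of
characteristic `0`; `K ⊆ K(x) ⊆ F ⊆ E`; a group `Γ` acts on `E` through a finite quotient with
`E^Γ = K(x)` and `E^H = F`; for every `c : K` some place `w` of `E` over `x = c` is fixed by
`I c` and has `e(w) ≤ #φ(I c)` (so `Stab w = φ (I c)`), `I c = 1` off the finite set `B`;
similarly at `x = ∞`.  Then the genus of `F` is given by Riemann–Hurwitz. -/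
def FA_S24_Target_RH : Prop :=
  ∀ (K F E Γ : Type) [Field K] [IsAlgClosed K] [CharZero K] [Field F] [Algebra K F]
    [Field E] [Algebra K E] [Algebra F E] [IsScalarTower K F E] [Group Γ]
    (φ : Γ →* (E ≃ₐ[K] E)) (_hfin : (Set.range φ).Finite)
    (x : F) (_hx : Transcendental K x)
    (_hxΓ : ∀ γ : Γ, φ γ (algebraMap F E x) = algebraMap F E x)
    (_hfixΓ : ∀ e : E, (∀ γ : Γ, φ γ e = e) →
      ∃ f : F, f ∈ IntermediateField.adjoin K {x} ∧ algebraMap F E f = e)
    (H : Subgroup Γ) (_hker : φ.ker ≤ H)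
    (_hH : ∀ γ ∈ H, ∀ f : F, φ γ (algebraMap F E f) = algebraMap F E f)
    (_hfixH : ∀ e : E, (∀ γ ∈ H, φ γ e = e) → e ∈ Set.range (algebraMap F E))
    (B : Finset K) (I : K → Subgroup Γ) (Iinf : Subgroup Γ)
    (_hI : ∀ c : K, ∃ w : Place K E,
      0 < w.ord (algebraMap F E x - algebraMap K E c) ∧
      (∀ γ ∈ I c, ∀ e : E, w.ord (φ γ e) = w.ord e) ∧
      w.ord (algebraMap F E x - algebraMap K E c) ≤ (Nat.card ((I c).map φ) : ℤ))
    (_hB : ∀ c : K, c ∉ B → I c = ⊥)
    (_hinf : ∃ w : Place K E,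
      w.ord (algebraMap F E x) < 0 ∧
      (∀ γ ∈ Iinf, ∀ e : E, w.ord (φ γ e) = w.ord e) ∧
      - w.ord (algebraMap F E x) ≤ (Nat.card (Iinf.map φ) : ℤ))
    [HasCanonicalDivisor (K := K) (F := F)],
    genus K F = (FA_S24_rhDegree H B I Iinf + 2).toNat / 2

/-- **Layer A, rational case**: the rational function field `K(x)` has genus `0`. -/
def FA_S24_Target_Rational : Prop :=
  ∀ (K F : Type) [Field K] [IsAlgClosed K] [CharZero K] [Field F] [Algebra K F]
    (x : F) (_hx : Transcendental K x) (_htop : IntermediateField.adjoin K {x} = ⊤)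
    [HasCanonicalDivisor (K := K) (F := F)],
    genus K F = 0

/-- The (conjugacy class of the) inertia group over `j = c` in `SL(2, ℤ)`:
`⟨ST⟩` over `0`, `⟨S⟩` over `1728`, trivial elsewhere. -/
def FA_S24_I (c : AlgebraicClosure ℚ) : Subgroup SL(2, ℤ) :=
  letI := Classical.propDecidable
  if c = 0 then Subgroup.zpowers (ModularGroup.S * ModularGroup.T)
  else if c = 1728 then Subgroup.zpowers ModularGroup.S
  else ⊥

/-- The branch locus `{0, 1728}`. -/
def FA_S24_B : Finset (AlgebraicClosure ℚ) :=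
  letI := Classical.decEq (AlgebraicClosure ℚ)
  {0, 1728}

/-- **Layer B** (group theory and arithmetic of `Γ₀(N) \ SL₂(ℤ) ≅ ℙ¹(ℤ/N)`). -/
def FA_S24_Target_Numerics : Prop :=
  ∀ (N : ℕ) [NeZero N],
    ((((FA_S24_rhDegree (CongruenceSubgroup.Gamma0 N) FA_S24_B FA_S24_I
        (Subgroup.zpowers ModularGroup.T) + 2).toNat / 2 : ℕ) : ℚ))
      = ModularCurve.genusFormula N

/-- **Layers C + D** (the modular model): for `N ≥ 2` the prelude's function field
`F = modularFunctionFieldBar N` sits inside a field `E` (the field of modular functions of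
level `N` with `ℚ̄`-rational `q`-expansions) on which `SL(2, ℤ)` acts through a finite
quotient, with `E^{SL₂(ℤ)} = ℚ̄(j)`, `E^{Γ₀(N)} = F`, and with places over every `c`
(resp. `∞`) fixed by `FA_S24_I c` (resp. `⟨T⟩`) and of ramification index at most the
order of the image of that group. -/
def FA_S24_Target_Model : Prop :=
  ∀ (N : ℕ) [NeZero N], 2 ≤ N →
    ∃ (E : Type) (_ : Field E) (_ : Algebra (AlgebraicClosure ℚ) E)
      (_ : Algebra (ModularCurve.modularFunctionFieldBar N) E)
      (_ : IsScalarTower (AlgebraicClosure ℚ) (ModularCurve.modularFunctionFieldBar N) E)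
      (φ : SL(2, ℤ) →* (E ≃ₐ[AlgebraicClosure ℚ] E))
      (x : ModularCurve.modularFunctionFieldBar N),
      (Set.range φ).Finite ∧
      Transcendental (AlgebraicClosure ℚ) x ∧
      (∀ γ : SL(2, ℤ), φ γ (algebraMap _ E x) = algebraMap _ E x) ∧
      (∀ e : E, (∀ γ : SL(2, ℤ), φ γ e = e) →
        ∃ f : ModularCurve.modularFunctionFieldBar N,
          f ∈ IntermediateField.adjoin (AlgebraicClosure ℚ) {x} ∧ algebraMap _ E f = e) ∧
      φ.ker ≤ CongruenceSubgroup.Gamma0 N ∧
      (∀ γ ∈ CongruenceSubgroup.Gamma0 N, ∀ f : ModularCurve.modularFunctionFieldBar N,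
        φ γ (algebraMap _ E f) = algebraMap _ E f) ∧
      (∀ e : E, (∀ γ ∈ CongruenceSubgroup.Gamma0 N, φ γ e = e) →
        e ∈ Set.range (algebraMap (ModularCurve.modularFunctionFieldBar N) E)) ∧
      (∀ c : AlgebraicClosure ℚ, ∃ w : Place (AlgebraicClosure ℚ) E,
        0 < w.ord (algebraMap _ E x - algebraMap (AlgebraicClosure ℚ) E c) ∧
        (∀ γ ∈ FA_S24_I c, ∀ e : E, w.ord (φ γ e) = w.ord e) ∧
        w.ord (algebraMap _ E x - algebraMap (AlgebraicClosure ℚ) E c)
          ≤ (Nat.card ((FA_S24_I c).map φ) : ℤ)) ∧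
      (∃ w : Place (AlgebraicClosure ℚ) E,
        w.ord (algebraMap _ E x) < 0 ∧
        (∀ γ ∈ Subgroup.zpowers ModularGroup.T, ∀ e : E, w.ord (φ γ e) = w.ord e) ∧
        - w.ord (algebraMap _ E x)
          ≤ (Nat.card ((Subgroup.zpowers ModularGroup.T).map φ) : ℤ))

/-- **Layer D, level one**: `modularFunctionFieldBar 1 = ℚ̄(j)` with `j` transcendental. -/
def FA_S24_Target_LevelOne : Prop :=
  ∃ x : ModularCurve.modularFunctionFieldBar 1,
    Transcendental (AlgebraicClosure ℚ) x ∧
    IntermediateField.adjoin (AlgebraicClosure ℚ) {x} = ⊤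

end Fermat.Agent.S24
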