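import Mathlib
import Fermat.Agent.S24.Interface

/-!
# S24 Layer B: sub-targets (see `NOTES/plan/S24.md`, Layer B)

`X = SL(2,ℤ) ⧸ Γ₀(N)` with left multiplication, `n = [SL(2,ℤ) : Γ₀(N)]`,
`o(g)` = number of orbits of `⟨g⟩` on `X`.
-/

set_option autoImplicit false

noncomputable section

namespace Fermat.Agent.S24

open MatrixGroups

/-- B2: the index of `Γ₀(N)` is `ψ(N)`. -/
def FA_S24_Target_B_index : Prop :=
  ∀ (N : ℕ) [NeZero N], (CongruenceSubgroup.Gamma0 N).index = ModularCurve.dedekindPsi N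

/-- B3: `2 o(S) = n + ν₂`. -/
def FA_S24_Target_B_S : Prop :=
  ∀ (N : ℕ) [NeZero N],
    2 * FA_S24_orbits (Subgroup.zpowers ModularGroup.S) (CongruenceSubgroup.Gamma0 N)
      = (CongruenceSubgroup.Gamma0 N).index + ModularCurve.nuTwo N

/-- B4: `3 o(ST) = n + 2 ν₃`. -/
def FA_S24_Target_B_ST : Prop :=
  ∀ (N : ℕ) [NeZero N],
    3 * FA_S24_orbits (Subgroup.zpowers (ModularGroup.S * ModularGroup.T))
        (CongruenceSubgroup.Gamma0 N)
      = (CongruenceSubgroup.Gamma0 N).index + 2 * ModularCurve.nuThree N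

/-- B5: `o(T) = cuspCount N`. -/
def FA_S24_Target_B_T : Prop :=
  ∀ (N : ℕ) [NeZero N],
    FA_S24_orbits (Subgroup.zpowers ModularGroup.T) (CongruenceSubgroup.Gamma0 N)
      = ModularCurve.cuspCount N

/-- B6 (generic, pure group theory): for a subgroup `H` of finite index `n` in a group `Γ` and
`s t : Γ`, the number `o(s) + o(t) + o(s t) + n` is even
(signs of the three permutations of `Γ ⧸ H`: `sign g = (-1)^(n - o(g))`). -/
def FA_S24_Target_B_even : Prop :=
  ∀ (Γ : Type) [Group Γ] (H : Subgroup Γ) [H.FiniteIndex] (s t : Γ),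
    Even (FA_S24_orbits (Subgroup.zpowers s) H + FA_S24_orbits (Subgroup.zpowers t) H
      + FA_S24_orbits (Subgroup.zpowers (s * t)) H + H.index)

/-- B7 (generic, Scott's lemma / Ree's theorem): if moreover `s`, `t` generate `Γ`, then
`o(s) + o(t) + o(s t) ≤ n + 2`. -/
def FA_S24_Target_B_nonneg : Prop :=
  ∀ (Γ : Type) [Group Γ] (H : Subgroup Γ) [H.FiniteIndex] (s t : Γ),
    Subgroup.closure {s, t} = ⊤ →
    FA_S24_orbits (Subgroup.zpowers s) H + FA_S24_orbits (Subgroup.zpowers t) H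
      + FA_S24_orbits (Subgroup.zpowers (s * t)) H ≤ H.index + 2

end Fermat.Agent.S24
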