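import Mathlib
import Fermat.Agent.S24.BInterface

/-!
# S24 Layer B2, part 2: `ψ(M p)` in terms of `ψ(M)`
-/

set_option autoImplicit false

noncomputable section

namespace Fermat.Agent.S24

open Finset

theorem FA_S24_psi_def (N : ℕ) :
    ModularCurve.dedekindPsi N = ∑ d ∈ N.divisors.filter Squarefree, N / d := rfl

/-- A squarefree divisor of `M p` divides `M` if `p ∣ M`. -/
theorem FA_S24_sqfree_dvd_of_dvd {M p d : ℕ} (hp : p.Prime) (hpM : p ∣ M) (hd : Squarefree d)
    (hdvd : d ∣ M * p) : d ∣ M := by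
  by_cases hpd : p ∣ d
  · obtain ⟨e, rfl⟩ := hpd
    have hcop : p.Coprime e := (Nat.squarefree_mul_iff.mp hd).1
    have he : e ∣ M := by
      have : p * e ∣ p * M := by rwa [mul_comm p M]
      exact (Nat.mul_dvd_mul_iff_left hp.pos).mp this
    exact Nat.Coprime.mul_dvd_of_dvd_of_dvd hcop hpM he
  · have hcop : d.Coprime p := ((Nat.Prime.coprime_iff_not_dvd hp).mpr hpd).symm
    exact hcop.dvd_of_dvd_mul_right hdvd

theorem FA_S24_psi_mul_prime_of_dvd {M p : ℕ} (hp : p.Prime) (hM : 0 < M) (hpM : p ∣ M) :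
    ModularCurve.dedekindPsi (M * p) = p * ModularCurve.dedekindPsi M := by
  rw [FA_S24_psi_def, FA_S24_psi_def]
  have hset : (M * p).divisors.filter Squarefree = M.divisors.filter Squarefree := by
    ext d
    simp only [mem_filter, Nat.mem_divisors]
    constructor
    · rintro ⟨⟨hd, -⟩, hs⟩
      exact ⟨⟨FA_S24_sqfree_dvd_of_dvd hp hpM hs hd, hM.ne'⟩, hs⟩
    · rintro ⟨⟨hd, -⟩, hs⟩
      exact ⟨⟨dvd_mul_of_dvd_left hd p, mul_ne_zero hM.ne' hp.pos.ne'⟩, hs⟩
  rw [hset, mul_sum]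
  refine sum_congr rfl fun d hd => ?_
  simp only [mem_filter, Nat.mem_divisors] at hd
  obtain ⟨e, he⟩ := hd.1.1
  have hd0 : 0 < d := Nat.pos_of_ne_zero (fun h => by rw [h, zero_mul] at he; exact hM.ne' he)
  rw [he, mul_assoc, Nat.mul_div_cancel_left _ hd0, Nat.mul_div_cancel_left _ hd0, mul_comm]

theorem FA_S24_psi_mul_prime_of_not_dvd {M p : ℕ} (hp : p.Prime) (hM : 0 < M) (hpM : ¬ p ∣ M) :
    ModularCurve.dedekindPsi (M * p) = (p + 1) * ModularCurve.dedekindPsi M := by
  rw [FA_S24_psi_def, FA_S24_psi_def]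
  have hset : (M * p).divisors.filter Squarefree
      = M.divisors.filter Squarefree ∪ (M.divisors.filter Squarefree).image (· * p) := by
    ext d
    simp only [mem_filter, Nat.mem_divisors, mem_union, mem_image]
    constructor
    · rintro ⟨⟨hd, -⟩, hs⟩
      by_cases hpd : p ∣ d
      · right
        obtain ⟨e, rfl⟩ := hpd
        have he : e ∣ M := by
          have : p * e ∣ p * M := by rwa [mul_comm p M]
          exact (Nat.mul_dvd_mul_iff_left hp.pos).mp this
        exact ⟨e, ⟨⟨he, hM.ne'⟩, (Nat.squarefree_mul_iff.mp hs).2.2⟩, mul_comm e p⟩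
      · left
        have hcop : d.Coprime p := ((Nat.Prime.coprime_iff_not_dvd hp).mpr hpd).symm
        exact ⟨⟨hcop.dvd_of_dvd_mul_right hd, hM.ne'⟩, hs⟩
    · rintro (⟨⟨hd, -⟩, hs⟩ | ⟨e, ⟨⟨he, -⟩, hs⟩, rfl⟩)
      · exact ⟨⟨dvd_mul_of_dvd_left hd p, mul_ne_zero hM.ne' hp.pos.ne'⟩, hs⟩
      · refine ⟨⟨mul_dvd_mul_right he p, mul_ne_zero hM.ne' hp.pos.ne'⟩, ?_⟩
        rw [Nat.squarefree_mul_iff]
        refine ⟨?_, hs, hp.squarefree⟩
        exact ((Nat.Prime.coprime_iff_not_dvd hp).mpr fun h => hpM (dvd_trans h he)).symm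
  have hdisj : Disjoint (M.divisors.filter Squarefree)
      ((M.divisors.filter Squarefree).image (· * p)) := by
    rw [disjoint_left]
    intro d hd hd'
    simp only [mem_filter, Nat.mem_divisors, mem_image] at hd hd'
    obtain ⟨e, -, rfl⟩ := hd'
    exact hpM (dvd_trans (dvd_mul_left p e) hd.1.1)
  have hinj : Set.InjOn (· * p) (M.divisors.filter Squarefree : Set ℕ) := by
    intro a _ b _ hab
    exact Nat.eq_of_mul_eq_mul_right hp.pos hab
  rw [hset, sum_union hdisj, sum_image hinj, add_mul, one_mul, mul_sum]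
  congr 1
  · refine sum_congr rfl fun d hd => ?_
    simp only [mem_filter, Nat.mem_divisors] at hd
    obtain ⟨e, he⟩ := hd.1.1
    have hd0 : 0 < d := Nat.pos_of_ne_zero (fun h => by rw [h, zero_mul] at he; exact hM.ne' he)
    rw [he, mul_assoc, Nat.mul_div_cancel_left _ hd0, Nat.mul_div_cancel_left _ hd0, mul_comm]
  · refine sum_congr rfl fun d hd => ?_
    simp only [mem_filter, Nat.mem_divisors] at hd
    have hd0 : 0 < d := Nat.pos_of_dvd_of_pos hd.1.1 hM
    rw [Nat.mul_div_mul_right _ _ hp.pos]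

theorem FA_S24_psi_mul_prime {M p : ℕ} (hp : p.Prime) (hM : 0 < M) :
    ModularCurve.dedekindPsi (M * p)
      = (if p ∣ M then p else p + 1) * ModularCurve.dedekindPsi M := by
  split_ifs with h
  · exact FA_S24_psi_mul_prime_of_dvd hp hM h
  · exact FA_S24_psi_mul_prime_of_not_dvd hp hM h

end Fermat.Agent.S24
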