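import Mathlib
import Fermat.Agent.S24.BInterface

/-!
# S24 Layer B: cosets of `Γ₀(N)` in `SL(2,ℤ)` via the first column
-/

set_option autoImplicit false

noncomputable section

namespace Fermat.Agent.S24

open MatrixGroups CongruenceSubgroup

/-- `g Γ₀(N) = g' Γ₀(N)` iff the first columns are proportional mod `N`. -/
theorem FA_S24_coset_eq_iff (N : ℕ) (g g' : SL(2, ℤ)) :
    (QuotientGroup.mk g : SL(2, ℤ) ⧸ Gamma0 N) = QuotientGroup.mk g' ↔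
      (N : ℤ) ∣ g.1 0 0 * g'.1 1 0 - g.1 1 0 * g'.1 0 0 := by
  rw [QuotientGroup.eq, Gamma0_mem]
  have : (g⁻¹ * g').1 1 0 = g.1 0 0 * g'.1 1 0 - g.1 1 0 * g'.1 0 0 := by
    rw [Matrix.SpecialLinearGroup.coe_mul, Matrix.SpecialLinearGroup.coe_inv,
      Matrix.adjugate_fin_two, Matrix.mul_apply, Fin.sum_univ_two]
    simp
    ring
  show (((g⁻¹ * g').1 1 0 : ℤ) : ZMod N) = 0 ↔ _
  rw [this, ZMod.intCast_zmod_eq_zero_iff_dvd]

/-- First column of `h * g`. -/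
theorem FA_S24_mul_col (h g : SL(2, ℤ)) :
    (h * g).1 0 0 = h.1 0 0 * g.1 0 0 + h.1 0 1 * g.1 1 0 ∧
    (h * g).1 1 0 = h.1 1 0 * g.1 0 0 + h.1 1 1 * g.1 1 0 := by
  constructor <;>
    simp [Matrix.SpecialLinearGroup.coe_mul, Matrix.mul_apply, Fin.sum_univ_two]

theorem FA_S24_smul_mk (N : ℕ) (h g : SL(2, ℤ)) :
    h • (QuotientGroup.mk g : SL(2, ℤ) ⧸ Gamma0 N) = QuotientGroup.mk (h * g) := rfl

theorem FA_S24_S_entries :
    ModularGroup.S.1 0 0 = 0 ∧ ModularGroup.S.1 0 1 = -1 ∧ ModularGroup.S.1 1 0 = 1 ∧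
      ModularGroup.S.1 1 1 = 0 := by
  refine ⟨?_, ?_, ?_, ?_⟩ <;> simp [ModularGroup.coe_S]

theorem FA_S24_T_entries :
    ModularGroup.T.1 0 0 = 1 ∧ ModularGroup.T.1 0 1 = 1 ∧ ModularGroup.T.1 1 0 = 0 ∧
      ModularGroup.T.1 1 1 = 1 := by
  refine ⟨?_, ?_, ?_, ?_⟩ <;> simp [ModularGroup.coe_T]

theorem FA_S24_ST_entries :
    (ModularGroup.S * ModularGroup.T).1 0 0 = 0 ∧
      (ModularGroup.S * ModularGroup.T).1 0 1 = -1 ∧
      (ModularGroup.S * ModularGroup.T).1 1 0 = 1 ∧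
      (ModularGroup.S * ModularGroup.T).1 1 1 = 1 := by
  refine ⟨?_, ?_, ?_, ?_⟩ <;>
    simp [Matrix.SpecialLinearGroup.coe_mul, ModularGroup.coe_S, ModularGroup.coe_T,
      Matrix.mul_apply, Fin.sum_univ_two]

/-- The matrix `[u, -1; 1, 0]`. -/
def FA_S24_matU (u : ℤ) : SL(2, ℤ) :=
  ⟨!![u, -1; 1, 0], by simp [Matrix.det_fin_two]⟩

@[simp] theorem FA_S24_matU_00 (u : ℤ) : (FA_S24_matU u).1 0 0 = u := rfl
@[simp] theorem FA_S24_matU_10 (u : ℤ) : (FA_S24_matU u).1 1 0 = 1 := rfl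

theorem FA_S24_det_eq (g : SL(2, ℤ)) : g.1 0 0 * g.1 1 1 - g.1 0 1 * g.1 1 0 = 1 := by
  have := g.det_coe
  rw [Matrix.det_fin_two] at this
  exact this

/-- `T ^ m` as a matrix. -/
theorem FA_S24_T_zpow_entries (m : ℤ) :
    (ModularGroup.T ^ m).1 0 0 = 1 ∧ (ModularGroup.T ^ m).1 0 1 = m ∧
      (ModularGroup.T ^ m).1 1 0 = 0 ∧ (ModularGroup.T ^ m).1 1 1 = 1 := by
  rw [ModularGroup.coe_T_zpow]
  refine ⟨?_, ?_, ?_, ?_⟩ <;> simp

/-- `-1` acts trivially on `SL(2,ℤ) ⧸ Γ₀(N)`. -/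
theorem FA_S24_neg_one_smul (N : ℕ) (x : SL(2, ℤ) ⧸ Gamma0 N) :
    (-1 : SL(2, ℤ)) • x = x := by
  induction x using QuotientGroup.induction_on with
  | H g =>
    rw [FA_S24_smul_mk, FA_S24_coset_eq_iff]
    have h1 : ((-1 : SL(2, ℤ)) * g).1 0 0 = - g.1 0 0 := by
      simp [Matrix.SpecialLinearGroup.coe_mul, Matrix.SpecialLinearGroup.coe_neg]
    have h2 : ((-1 : SL(2, ℤ)) * g).1 1 0 = - g.1 1 0 := by
      simp [Matrix.SpecialLinearGroup.coe_mul, Matrix.SpecialLinearGroup.coe_neg]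
    rw [h1, h2]
    have : -g.1 0 0 * g.1 1 0 - -g.1 1 0 * g.1 0 0 = 0 := by ring
    rw [this]
    exact dvd_zero _

end Fermat.Agent.S24
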