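import Mathlib
import Fermat.Agent.S24.BCol

/-!
# S24 Layer B2, part 1: the relative index `[Γ₀(M) : Γ₀(M p)]`

For a prime `p` and `M ≥ 1`: `[Γ₀(M) : Γ₀(M p)] = p` if `p ∣ M` and `p + 1` otherwise.
The cosets are classified by the point `(a : c / M)` of `ℙ¹(𝔽_p)`.
-/

set_option autoImplicit false
set_option linter.unusedSectionVars false
set_option linter.style.haveILetI false

noncomputable section

namespace Fermat.Agent.S24

open MatrixGroups CongruenceSubgroup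

/-- The index of a subgroup is the cardinality of the range of a complete coset invariant. -/
theorem FA_S24_index_eq_card_of_invariant {G Y : Type} [Group G] (H : Subgroup G) (f : G → Y)
    (hf : ∀ g g' : G, f g = f g' ↔ g⁻¹ * g' ∈ H) (hs : Function.Surjective f) :
    H.index = Nat.card Y := by
  rw [Subgroup.index_eq_card]
  let F : G ⧸ H → Y := Quotient.lift f (fun a b hab => (hf a b).mpr (QuotientGroup.leftRel_apply.mp hab))
  have hbij : Function.Bijective F := by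
    constructor
    · intro x y hxy
      induction x using QuotientGroup.induction_on with
      | H a =>
        induction y using QuotientGroup.induction_on with
        | H b =>
          exact QuotientGroup.eq.mpr ((hf a b).mp hxy)
    · intro y
      obtain ⟨g, rfl⟩ := hs y
      exact ⟨QuotientGroup.mk g, rfl⟩
  exact Nat.card_congr (Equiv.ofBijective F hbij)

theorem FA_S24_inv_mul_mem_Gamma0 (N : ℕ) (g g' : SL(2, ℤ)) :
    g⁻¹ * g' ∈ Gamma0 N ↔ (N : ℤ) ∣ g.1 0 0 * g'.1 1 0 - g.1 1 0 * g'.1 0 0 :=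
  QuotientGroup.eq.symm.trans (FA_S24_coset_eq_iff N g g')

theorem FA_S24_mem_Gamma0_iff_dvd (N : ℕ) (g : SL(2, ℤ)) :
    g ∈ Gamma0 N ↔ (N : ℤ) ∣ g.1 1 0 := by
  rw [Gamma0_mem, ZMod.intCast_zmod_eq_zero_iff_dvd]

theorem FA_S24_Gamma0_mul_le (M p : ℕ) : Gamma0 (M * p) ≤ Gamma0 M := by
  intro g hg
  rw [FA_S24_mem_Gamma0_iff_dvd] at hg ⊢
  exact dvd_trans ⟨(p : ℤ), by push_cast; ring⟩ hg

/-- The lower unipotent matrix `[1, 0; c, 1]`. -/
def FA_S24_matL (c : ℤ) : SL(2, ℤ) :=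
  ⟨!![1, 0; c, 1], by simp [Matrix.det_fin_two]⟩

@[simp] theorem FA_S24_matL_00 (c : ℤ) : (FA_S24_matL c).1 0 0 = 1 := rfl
@[simp] theorem FA_S24_matL_10 (c : ℤ) : (FA_S24_matL c).1 1 0 = c := rfl

section

variable (M p : ℕ) [hp : Fact p.Prime]

/-- `(a mod p, (c / M) mod p)` for a matrix with first column `(a, c)`. -/
def FA_S24_pa (g : SL(2, ℤ)) : ZMod p := ((g.1 0 0 : ℤ) : ZMod p)

/-- `(c / M) mod p`. -/
def FA_S24_pc (g : SL(2, ℤ)) : ZMod p := (((g.1 1 0 / (M : ℤ) : ℤ)) : ZMod p)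

theorem FA_S24_c_eq (_hM : 0 < M) (g : SL(2, ℤ)) (hg : g ∈ Gamma0 M) :
    g.1 1 0 = (M : ℤ) * (g.1 1 0 / (M : ℤ)) := by
  rw [FA_S24_mem_Gamma0_iff_dvd] at hg
  exact (Int.mul_ediv_cancel' hg).symm

/-- `(a, c/M)` is not `(0, 0)` mod `p`. -/
theorem FA_S24_pa_pc_ne (hM : 0 < M) (g : SL(2, ℤ)) (hg : g ∈ Gamma0 M) :
    ¬ (FA_S24_pa p g = 0 ∧ FA_S24_pc M p g = 0) := by
  rintro ⟨ha, hc⟩
  have hdet := FA_S24_det_eq g
  have hceq := FA_S24_c_eq M hM g hg
  have h1 : (((g.1 0 0 * g.1 1 1 - g.1 0 1 * g.1 1 0 : ℤ)) : ZMod p) = 1 := by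
    rw [hdet]; simp
  rw [hceq] at h1
  push_cast at h1
  unfold FA_S24_pa at ha
  unfold FA_S24_pc at hc
  rw [ha, hc] at h1
  simp at h1

/-- If `p ∣ M` then `a` is a unit mod `p`. -/
theorem FA_S24_pa_ne_zero (hpM : p ∣ M) (g : SL(2, ℤ)) (hg : g ∈ Gamma0 M) :
    FA_S24_pa p g ≠ 0 := by
  intro ha
  have hdet := FA_S24_det_eq g
  rw [FA_S24_mem_Gamma0_iff_dvd] at hg
  have hpc : ((g.1 1 0 : ℤ) : ZMod p) = 0 := by
    rw [ZMod.intCast_zmod_eq_zero_iff_dvd]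
    exact dvd_trans (Int.natCast_dvd_natCast.mpr hpM) hg
  have h1 : (((g.1 0 0 * g.1 1 1 - g.1 0 1 * g.1 1 0 : ℤ)) : ZMod p) = 1 := by
    rw [hdet]; simp
  push_cast at h1
  unfold FA_S24_pa at ha
  rw [ha, hpc] at h1
  simp at h1

/-- The coset criterion in terms of `(a : c/M)`. -/
theorem FA_S24_rel_iff (hM : 0 < M) (g g' : SL(2, ℤ)) (hg : g ∈ Gamma0 M) (hg' : g' ∈ Gamma0 M) :
    g⁻¹ * g' ∈ Gamma0 (M * p) ↔
      FA_S24_pa p g * FA_S24_pc M p g' = FA_S24_pc M p g * FA_S24_pa p g' := by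
  rw [FA_S24_inv_mul_mem_Gamma0]
  have hc := FA_S24_c_eq M hM g hg
  have hc' := FA_S24_c_eq M hM g' hg'
  have hM' : (M : ℤ) ≠ 0 := by exact_mod_cast hM.ne'
  have e : g.1 0 0 * g'.1 1 0 - g.1 1 0 * g'.1 0 0
      = (M : ℤ) * (g.1 0 0 * (g'.1 1 0 / (M : ℤ)) - (g.1 1 0 / (M : ℤ)) * g'.1 0 0) := by
    linear_combination (g.1 0 0) * hc' - (g'.1 0 0) * hc
  rw [e]
  push_cast
  rw [mul_dvd_mul_iff_left hM', ← ZMod.intCast_zmod_eq_zero_iff_dvd]
  unfold FA_S24_pa FA_S24_pc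
  push_cast
  rw [sub_eq_zero]

end

section

variable (M p : ℕ) [hp : Fact p.Prime]

theorem FA_S24_matL_mem (c : ℤ) : FA_S24_matL ((M : ℤ) * c) ∈ Gamma0 M := by
  rw [FA_S24_mem_Gamma0_iff_dvd]
  exact ⟨c, rfl⟩

theorem FA_S24_pa_matL (c : ℤ) : FA_S24_pa p (FA_S24_matL c) = 1 := by
  simp [FA_S24_pa]

theorem FA_S24_pc_matL (hM : 0 < M) (t : ZMod p) :
    FA_S24_pc M p (FA_S24_matL ((M : ℤ) * (t.val : ℤ))) = t := by
  have hM' : (M : ℤ) ≠ 0 := by exact_mod_cast hM.ne'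
  simp only [FA_S24_pc, FA_S24_matL_10]
  rw [Int.mul_ediv_cancel_left _ hM']
  simp

/-- Coset invariant when `p ∣ M`. -/
def FA_S24_inv1 (g : ↥(Gamma0 M)) : ZMod p := FA_S24_pc M p g.1 / FA_S24_pa p g.1

/-- Coset invariant when `p ∤ M`. -/
def FA_S24_inv2 (g : ↥(Gamma0 M)) : Option (ZMod p) :=
  if FA_S24_pa p g.1 = 0 then none else some (FA_S24_pc M p g.1 / FA_S24_pa p g.1)

theorem FA_S24_relIndex_of_dvd (hM : 0 < M) (hpM : p ∣ M) :
    (Gamma0 (M * p)).relIndex (Gamma0 M) = p := by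
  rw [Subgroup.relIndex,
    FA_S24_index_eq_card_of_invariant ((Gamma0 (M * p)).subgroupOf (Gamma0 M))
      (FA_S24_inv1 M p) ?_ ?_]
  · rw [Nat.card_eq_fintype_card, ZMod.card]
  · intro g g'
    rw [Subgroup.mem_subgroupOf]
    have h := FA_S24_rel_iff M p hM g.1 g'.1 g.2 g'.2
    have ha := FA_S24_pa_ne_zero M p hpM g.1 g.2
    have ha' := FA_S24_pa_ne_zero M p hpM g'.1 g'.2
    have e : ((g⁻¹ * g' : ↥(Gamma0 M)) : SL(2, ℤ)) = (g.1)⁻¹ * g'.1 := rfl
    rw [e, h]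
    unfold FA_S24_inv1
    rw [div_eq_div_iff ha ha']
    constructor <;> intro h' <;> linear_combination -h'
  · intro t
    refine ⟨⟨FA_S24_matL ((M : ℤ) * (t.val : ℤ)), FA_S24_matL_mem M _⟩, ?_⟩
    unfold FA_S24_inv1
    rw [FA_S24_pa_matL, FA_S24_pc_matL M p hM, div_one]

theorem FA_S24_relIndex_of_not_dvd (hM : 0 < M) (hpM : ¬ p ∣ M) :
    (Gamma0 (M * p)).relIndex (Gamma0 M) = p + 1 := by
  rw [Subgroup.relIndex,
    FA_S24_index_eq_card_of_invariant ((Gamma0 (M * p)).subgroupOf (Gamma0 M))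
      (FA_S24_inv2 M p) ?_ ?_]
  · rw [Nat.card_eq_fintype_card, Fintype.card_option, ZMod.card]
  · intro g g'
    rw [Subgroup.mem_subgroupOf]
    have h := FA_S24_rel_iff M p hM g.1 g'.1 g.2 g'.2
    have hne := FA_S24_pa_pc_ne M p hM g.1 g.2
    have hne' := FA_S24_pa_pc_ne M p hM g'.1 g'.2
    have e : ((g⁻¹ * g' : ↥(Gamma0 M)) : SL(2, ℤ)) = (g.1)⁻¹ * g'.1 := rfl
    rw [e, h]
    unfold FA_S24_inv2
    by_cases ha : FA_S24_pa p g.1 = 0
    · by_cases ha' : FA_S24_pa p g'.1 = 0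
      · simp [ha, ha']
      · have hc : FA_S24_pc M p g.1 ≠ 0 := fun hc => hne ⟨ha, hc⟩
        simp only [ha, ha', if_true, if_false, zero_mul, reduceCtorEq, false_iff]
        intro h0
        exact (mul_ne_zero hc ha') h0.symm
    · by_cases ha' : FA_S24_pa p g'.1 = 0
      · have hc' : FA_S24_pc M p g'.1 ≠ 0 := fun hc => hne' ⟨ha', hc⟩
        simp only [ha, ha', if_true, if_false, mul_zero, reduceCtorEq, false_iff]
        intro h0
        exact (mul_ne_zero ha hc') h0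
      · simp only [ha, ha', if_false, Option.some.injEq]
        rw [div_eq_div_iff ha ha']
        constructor <;> intro h' <;> linear_combination -h'
  · intro t
    cases t with
    | none =>
      have hcop : IsCoprime (p : ℤ) (M : ℤ) := by
        rw [Int.isCoprime_iff_gcd_eq_one]
        have := (Nat.Prime.coprime_iff_not_dvd hp.out).mpr hpM
        simpa [Int.gcd_natCast_natCast] using this
      obtain ⟨g, hg0, hg1⟩ := hcop.exists_SL2_col 0
      have hgm : g ∈ Gamma0 M := by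
        rw [FA_S24_mem_Gamma0_iff_dvd]
        exact ⟨1, by rw [mul_one]; exact hg1⟩
      refine ⟨⟨g, hgm⟩, ?_⟩
      unfold FA_S24_inv2
      have : FA_S24_pa p g = 0 := by
        unfold FA_S24_pa
        have : g.1 0 0 = (p : ℤ) := hg0
        rw [this]
        simp
      simp [this]
    | some t =>
      refine ⟨⟨FA_S24_matL ((M : ℤ) * (t.val : ℤ)), FA_S24_matL_mem M _⟩, ?_⟩
      unfold FA_S24_inv2
      rw [FA_S24_pa_matL, FA_S24_pc_matL M p hM, div_one]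
      simp

/-- The index of `Γ₀(M p)` in terms of the index of `Γ₀(M)`. -/
theorem FA_S24_index_mul_prime (hM : 0 < M) :
    (Gamma0 (M * p)).index = (if p ∣ M then p else p + 1) * (Gamma0 M).index := by
  rw [← Subgroup.relIndex_mul_index (FA_S24_Gamma0_mul_le M p)]
  split_ifs with h
  · rw [FA_S24_relIndex_of_dvd M p hM h]
  · rw [FA_S24_relIndex_of_not_dvd M p hM h]

end

end Fermat.Agent.S24
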