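import Mathlib
import Fermat.Agent.S24.BIndexRel
import Fermat.Agent.S24.BIndexPsi

/-!
# S24 Layer B2: `[SL(2,ℤ) : Γ₀(N)] = ψ(N)`
-/

set_option autoImplicit false

noncomputable section

namespace Fermat.Agent.S24

open MatrixGroups CongruenceSubgroup

theorem FA_S24_index_Gamma0_one : (Gamma0 1).index = 1 := by
  rw [Subgroup.index_eq_one, eq_top_iff]
  intro g _
  rw [Gamma0_mem]
  exact Subsingleton.elim _ _

theorem FA_S24_index_Gamma0 (N : ℕ) (hN : 0 < N) :
    (Gamma0 N).index = ModularCurve.dedekindPsi N := by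
  induction N using Nat.strong_induction_on with
  | _ N ih =>
    by_cases h1 : N = 1
    · subst h1
      rw [FA_S24_index_Gamma0_one, ModularCurve.dedekindPsi_one]
    · have hp : N.minFac.Prime := Nat.minFac_prime h1
      have hdvd : N.minFac ∣ N := Nat.minFac_dvd N
      have hM : 0 < N / N.minFac := Nat.div_pos (Nat.le_of_dvd hN hdvd) hp.pos
      have hlt : N / N.minFac < N := Nat.div_lt_self hN hp.one_lt
      have hN' : N = N / N.minFac * N.minFac := (Nat.div_mul_cancel hdvd).symm
      have : Fact N.minFac.Prime := ⟨hp⟩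
      have e1 := FA_S24_index_mul_prime (N / N.minFac) N.minFac hM
      have e2 := FA_S24_psi_mul_prime hp hM
      rw [← hN'] at e1 e2
      rw [e1, e2, ih _ hlt hM]

/-- B2. -/
theorem FA_S24_B_index : FA_S24_Target_B_index := by
  intro N _
  exact FA_S24_index_Gamma0 N (Nat.pos_of_ne_zero (NeZero.ne N))

end Fermat.Agent.S24
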