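import Mathlib

/-!
# S24 Layer B: arithmetic core for the cusp count
-/

set_option autoImplicit false

namespace Fermat.Agent.S24

/-- Solvability of the linear congruence that decides whether two points of `ℙ¹(ℤ/N)` with the
same `d = gcd(c, N)` lie in the same `T`-orbit. -/
theorem FA_S24_cusp_core (d M : ℕ) (hd : 0 < d) (a γ a' γ' : ℤ)
    (hγ : IsCoprime γ (M : ℤ)) (hγ' : IsCoprime γ' (M : ℤ)) :
    (∃ m : ℤ, ((d : ℤ) * (M : ℤ)) ∣ (a + m * (d * γ)) * (d * γ') - (d * γ) * a') ↔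
      ((Nat.gcd d M : ℕ) : ℤ) ∣ a * γ' - a' * γ := by
  have hd0 : (d : ℤ) ≠ 0 := by exact_mod_cast hd.ne'
  have hgd : ((Nat.gcd d M : ℕ) : ℤ) ∣ (d : ℤ) := by
    exact_mod_cast Nat.gcd_dvd_left d M
  have hgM : ((Nat.gcd d M : ℕ) : ℤ) ∣ (M : ℤ) := by
    exact_mod_cast Nat.gcd_dvd_right d M
  constructor
  · rintro ⟨m, hm⟩
    have e : (a + m * (d * γ)) * (d * γ') - (d * γ) * a'
        = (d : ℤ) * (a * γ' - a' * γ + d * (m * γ * γ')) := by ring
    rw [e] at hm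
    have h1 : (M : ℤ) ∣ a * γ' - a' * γ + d * (m * γ * γ') :=
      (mul_dvd_mul_iff_left hd0).1 hm
    have h2 : ((Nat.gcd d M : ℕ) : ℤ) ∣ a * γ' - a' * γ + d * (m * γ * γ') := hgM.trans h1
    have h3 : ((Nat.gcd d M : ℕ) : ℤ) ∣ (d : ℤ) * (m * γ * γ') := Dvd.dvd.mul_right hgd _
    exact (dvd_add_left h3).1 h2
  · rintro ⟨t, ht⟩
    -- Bezout for gcd d M
    have hb : ((Nat.gcd d M : ℕ) : ℤ) = d * Int.gcdA d M + M * Int.gcdB d M := by
      have := Int.gcd_eq_gcd_ab (d : ℤ) (M : ℤ)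
      rw [Int.gcd_natCast_natCast] at this
      exact this
    obtain ⟨x₂, y₂, h₂⟩ : IsCoprime (γ * γ') (M : ℤ) := hγ.mul_left hγ'
    set x₁ := Int.gcdA d M
    set y₁ := Int.gcdB d M
    refine ⟨-t * (x₁ * x₂), ?_⟩
    have e : (a + (-t * (x₁ * x₂)) * (d * γ)) * (d * γ') - (d * γ) * a'
        = (d : ℤ) * (a * γ' - a' * γ - t * (x₁ * x₂) * d * (γ * γ')) := by ring
    rw [e, ht]
    apply mul_dvd_mul_left
    refine ⟨t * (y₁ + d * x₁ * y₂), ?_⟩
    rw [hb]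
    linear_combination (-t * d * x₁) * h₂

/-- The gcd `d = gcd(c, N)` is an invariant of the `T`-orbit. -/
theorem FA_S24_cusp_dvd (N : ℕ) (a c a' c' m : ℤ) (hac : IsCoprime a c)
    (h : (N : ℤ) ∣ (a + m * c) * c' - c * a') : (Int.gcd c N : ℤ) ∣ c' := by
  have hdN : (Int.gcd c N : ℤ) ∣ (N : ℤ) := Int.gcd_dvd_right _ _
  have hdc : (Int.gcd c N : ℤ) ∣ c := Int.gcd_dvd_left _ _
  have h1 : (Int.gcd c N : ℤ) ∣ (a + m * c) * c' - c * a' := hdN.trans h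
  have h2 : (Int.gcd c N : ℤ) ∣ (a + m * c) * c' := by
    have := dvd_add h1 (Dvd.dvd.mul_right hdc a')
    simpa using this
  have hco : IsCoprime (a + m * c) c := by
    simpa [mul_comm] using (IsCoprime.add_mul_left_left hac m)
  have hco' : IsCoprime ((Int.gcd c N : ℤ)) (a + m * c) :=
    (hco.symm.of_isCoprime_of_dvd_left hdc)
  exact hco'.dvd_of_dvd_mul_left h2

end Fermat.Agent.S24
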