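import Mathlib
import Fermat.Agent.S24.BCol
import Fermat.Agent.S24.BCuspArith

/-!
# S24 Layer B: the number of `T`-orbits on `SL(2,ℤ) ⧸ Γ₀(N)` is `cuspCount N` (target `B_T`)
-/

set_option autoImplicit false

noncomputable section

namespace Fermat.Agent.S24

open MatrixGroups CongruenceSubgroup

/-- First column of `T ^ m * g`. -/
theorem FA_S24_T_zpow_mul_col (m : ℤ) (g : SL(2, ℤ)) :
    (ModularGroup.T ^ m * g).1 0 0 = g.1 0 0 + m * g.1 1 0 ∧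
    (ModularGroup.T ^ m * g).1 1 0 = g.1 1 0 := by
  obtain ⟨h1, h2⟩ := FA_S24_mul_col (ModularGroup.T ^ m) g
  obtain ⟨t00, t01, t10, t11⟩ := FA_S24_T_zpow_entries m
  rw [h1, h2, t00, t01, t10, t11]
  constructor <;> ring

/-- Two cosets are in the same `⟨T⟩`-orbit iff a linear congruence is solvable. -/
theorem FA_S24_T_orbit_iff (N : ℕ) (g g' : SL(2, ℤ)) :
    (∃ t : Subgroup.zpowers ModularGroup.T,
        t • (QuotientGroup.mk g : SL(2, ℤ) ⧸ Gamma0 N) = QuotientGroup.mk g') ↔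
      ∃ m : ℤ, (N : ℤ) ∣ (g.1 0 0 + m * g.1 1 0) * g'.1 1 0 - g.1 1 0 * g'.1 0 0 := by
  constructor
  · rintro ⟨⟨t, m, rfl⟩, ht⟩
    refine ⟨m, ?_⟩
    have ht' : (QuotientGroup.mk (ModularGroup.T ^ m * g) : SL(2, ℤ) ⧸ Gamma0 N)
        = QuotientGroup.mk g' := ht
    rw [FA_S24_coset_eq_iff] at ht'
    obtain ⟨h1, h2⟩ := FA_S24_T_zpow_mul_col m g
    rwa [h1, h2] at ht'
  · rintro ⟨m, hm⟩
    refine ⟨⟨ModularGroup.T ^ m, m, rfl⟩, ?_⟩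
    show (QuotientGroup.mk (ModularGroup.T ^ m * g) : SL(2, ℤ) ⧸ Gamma0 N)
        = QuotientGroup.mk g'
    rw [FA_S24_coset_eq_iff]
    obtain ⟨h1, h2⟩ := FA_S24_T_zpow_mul_col m g
    rwa [h1, h2]

theorem FA_S24_isCoprime_col (g : SL(2, ℤ)) : IsCoprime (g.1 0 0) (g.1 1 0) := by
  refine ⟨g.1 1 1, -g.1 0 1, ?_⟩
  have := FA_S24_det_eq g
  linear_combination this

/-- `d(g) = gcd(c, N)`. -/
def FA_S24_cuspD (N : ℕ) (g : SL(2, ℤ)) : ℕ := Int.gcd (g.1 1 0) N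

theorem FA_S24_cuspD_dvd (N : ℕ) (g : SL(2, ℤ)) : FA_S24_cuspD N g ∣ N := by
  have : (FA_S24_cuspD N g : ℤ) ∣ (N : ℤ) := Int.gcd_dvd_right _ _
  exact_mod_cast this

theorem FA_S24_cuspD_pos (N : ℕ) [NeZero N] (g : SL(2, ℤ)) : 0 < FA_S24_cuspD N g :=
  Nat.pos_of_dvd_of_pos (FA_S24_cuspD_dvd N g) (NeZero.pos N)

theorem FA_S24_cuspD_dvd_c (N : ℕ) (g : SL(2, ℤ)) : (FA_S24_cuspD N g : ℤ) ∣ g.1 1 0 :=
  Int.gcd_dvd_left _ _

/-- `γ(g) = c / d`. -/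
def FA_S24_cuspGamma (N : ℕ) (g : SL(2, ℤ)) : ℤ := g.1 1 0 / (FA_S24_cuspD N g : ℤ)

theorem FA_S24_cusp_c_eq (N : ℕ) (g : SL(2, ℤ)) :
    g.1 1 0 = (FA_S24_cuspD N g : ℤ) * FA_S24_cuspGamma N g := by
  unfold FA_S24_cuspGamma
  rw [Int.mul_ediv_cancel' (FA_S24_cuspD_dvd_c N g)]

theorem FA_S24_cusp_N_eq (N : ℕ) (g : SL(2, ℤ)) :
    N = FA_S24_cuspD N g * (N / FA_S24_cuspD N g) :=
  (Nat.mul_div_cancel' (FA_S24_cuspD_dvd N g)).symm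

theorem FA_S24_cuspGamma_isCoprime (N : ℕ) [NeZero N] (g : SL(2, ℤ)) :
    IsCoprime (FA_S24_cuspGamma N g) ((N / FA_S24_cuspD N g : ℕ) : ℤ) := by
  rw [Int.isCoprime_iff_gcd_eq_one]
  have h1 : Int.gcd (g.1 1 0) N = FA_S24_cuspD N g := rfl
  have h2 : Int.gcd ((FA_S24_cuspD N g : ℤ) * FA_S24_cuspGamma N g)
      ((FA_S24_cuspD N g : ℤ) * ((N / FA_S24_cuspD N g : ℕ) : ℤ)) = FA_S24_cuspD N g := by
    rw [← FA_S24_cusp_c_eq]
    have : ((FA_S24_cuspD N g : ℤ) * ((N / FA_S24_cuspD N g : ℕ) : ℤ)) = (N : ℤ) := by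
      exact_mod_cast (FA_S24_cusp_N_eq N g).symm
    rw [this]
    exact h1
  rw [Int.gcd_mul_left, Int.natAbs_natCast] at h2
  have hpos := FA_S24_cuspD_pos N g
  exact Nat.eq_of_mul_eq_mul_left hpos (by rw [h2, mul_one])


/-- `G(d) = gcd(d, N/d)`. -/
def FA_S24_cuspG (N d : ℕ) : ℕ := Nat.gcd d (N / d)

theorem FA_S24_cuspG_pos (N d : ℕ) (hd : 0 < d) : 0 < FA_S24_cuspG N d :=
  Nat.gcd_pos_of_pos_left _ hd

/-- The residue `a γ⁻¹ mod G(d)` as a natural number. -/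
def FA_S24_cuspRho (N d : ℕ) (a γ : ℤ) : ℕ :=
  ZMod.val ((a : ZMod (FA_S24_cuspG N d)) * ((γ : ZMod (FA_S24_cuspG N d)))⁻¹)

theorem FA_S24_isUnit_of_isCoprime (N d : ℕ) (γ : ℤ)
    (hγ : IsCoprime γ ((N / d : ℕ) : ℤ)) : IsUnit ((γ : ZMod (FA_S24_cuspG N d))) := by
  rw [ZMod.coe_int_isUnit_iff_isCoprime]
  have hdvd : ((FA_S24_cuspG N d : ℕ) : ℤ) ∣ ((N / d : ℕ) : ℤ) := by
    exact_mod_cast Nat.gcd_dvd_right d (N / d)
  exact (hγ.of_isCoprime_of_dvd_right hdvd).symm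

theorem FA_S24_cuspRho_eq_iff (N d : ℕ) (hd : 0 < d) (a γ a' γ' : ℤ)
    (hγ : IsCoprime γ ((N / d : ℕ) : ℤ)) (hγ' : IsCoprime γ' ((N / d : ℕ) : ℤ)) :
    FA_S24_cuspRho N d a γ = FA_S24_cuspRho N d a' γ' ↔
      ((Nat.gcd d (N / d) : ℕ) : ℤ) ∣ a * γ' - a' * γ := by
  have : NeZero (FA_S24_cuspG N d) := ⟨(FA_S24_cuspG_pos N d hd).ne'⟩
  have hu := FA_S24_isUnit_of_isCoprime N d γ hγ
  have hu' := FA_S24_isUnit_of_isCoprime N d γ' hγ'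
  unfold FA_S24_cuspRho
  rw [(ZMod.val_injective _).eq_iff]
  have e1 : (γ : ZMod (FA_S24_cuspG N d)) * (γ : ZMod (FA_S24_cuspG N d))⁻¹ = 1 :=
    ZMod.mul_inv_of_unit _ hu
  have e2 : (γ' : ZMod (FA_S24_cuspG N d)) * (γ' : ZMod (FA_S24_cuspG N d))⁻¹ = 1 :=
    ZMod.mul_inv_of_unit _ hu'
  have key : ((a : ZMod (FA_S24_cuspG N d)) * (γ : ZMod (FA_S24_cuspG N d))⁻¹
        = (a' : ZMod (FA_S24_cuspG N d)) * (γ' : ZMod (FA_S24_cuspG N d))⁻¹) ↔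
      ((a * γ' - a' * γ : ℤ) : ZMod (FA_S24_cuspG N d)) = 0 := by
    push_cast
    constructor
    · intro h
      linear_combination ((γ : ZMod (FA_S24_cuspG N d)) * (γ' : ZMod (FA_S24_cuspG N d))) * h
        - (a : ZMod (FA_S24_cuspG N d)) * (γ' : ZMod (FA_S24_cuspG N d)) * e1
        + (a' : ZMod (FA_S24_cuspG N d)) * (γ : ZMod (FA_S24_cuspG N d)) * e2
    · intro h
      linear_combination ((γ : ZMod (FA_S24_cuspG N d))⁻¹ * (γ' : ZMod (FA_S24_cuspG N d))⁻¹) * h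
        - (a : ZMod (FA_S24_cuspG N d)) * (γ : ZMod (FA_S24_cuspG N d))⁻¹ * e2
        + (a' : ZMod (FA_S24_cuspG N d)) * (γ' : ZMod (FA_S24_cuspG N d))⁻¹ * e1
  rw [key, ZMod.intCast_zmod_eq_zero_iff_dvd]
  rfl

/-- The cusp invariant of `g`. -/
def FA_S24_cuspF (N : ℕ) (g : SL(2, ℤ)) : ℕ × ℕ :=
  (FA_S24_cuspD N g, FA_S24_cuspRho N (FA_S24_cuspD N g) (g.1 0 0) (FA_S24_cuspGamma N g))

theorem FA_S24_cong_iff_aux (N : ℕ) [NeZero N] (g g' : SL(2, ℤ))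
    (hd : FA_S24_cuspD N g = FA_S24_cuspD N g') :
    (∃ m : ℤ, (N : ℤ) ∣ (g.1 0 0 + m * g.1 1 0) * g'.1 1 0 - g.1 1 0 * g'.1 0 0) ↔
      ((Nat.gcd (FA_S24_cuspD N g) (N / FA_S24_cuspD N g) : ℕ) : ℤ) ∣
        g.1 0 0 * FA_S24_cuspGamma N g' - g'.1 0 0 * FA_S24_cuspGamma N g := by
  have hc := FA_S24_cusp_c_eq N g
  have hc' := FA_S24_cusp_c_eq N g'
  rw [← hd] at hc'
  have hN : (N : ℤ) = (FA_S24_cuspD N g : ℤ) * ((N / FA_S24_cuspD N g : ℕ) : ℤ) := by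
    exact_mod_cast FA_S24_cusp_N_eq N g
  have hγ := FA_S24_cuspGamma_isCoprime N g
  have hγ' := FA_S24_cuspGamma_isCoprime N g'
  rw [← hd] at hγ'
  have core := FA_S24_cusp_core (FA_S24_cuspD N g) (N / FA_S24_cuspD N g)
    (FA_S24_cuspD_pos N g) (g.1 0 0) (FA_S24_cuspGamma N g) (g'.1 0 0)
    (FA_S24_cuspGamma N g') hγ hγ'
  rw [← core, ← hN, ← hc, ← hc']

theorem FA_S24_cuspD_eq_of_cong (N : ℕ) [NeZero N] (g g' : SL(2, ℤ))
    (h : ∃ m : ℤ, (N : ℤ) ∣ (g.1 0 0 + m * g.1 1 0) * g'.1 1 0 - g.1 1 0 * g'.1 0 0) :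
    FA_S24_cuspD N g = FA_S24_cuspD N g' := by
  obtain ⟨m, hm⟩ := h
  have h1 : (FA_S24_cuspD N g : ℤ) ∣ g'.1 1 0 :=
    FA_S24_cusp_dvd N _ _ _ _ m (FA_S24_isCoprime_col g) hm
  have hm' : (N : ℤ) ∣ (g'.1 0 0 + (-m) * g'.1 1 0) * g.1 1 0 - g'.1 1 0 * g.1 0 0 := by
    have : (g'.1 0 0 + (-m) * g'.1 1 0) * g.1 1 0 - g'.1 1 0 * g.1 0 0
        = -((g.1 0 0 + m * g.1 1 0) * g'.1 1 0 - g.1 1 0 * g'.1 0 0) := by ring
    rw [this]
    exact (dvd_neg).2 hm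
  have h2 : (FA_S24_cuspD N g' : ℤ) ∣ g.1 1 0 :=
    FA_S24_cusp_dvd N _ _ _ _ (-m) (FA_S24_isCoprime_col g') hm'
  apply Nat.dvd_antisymm
  · exact Int.dvd_gcd h1 (by exact_mod_cast FA_S24_cuspD_dvd N g)
  · exact Int.dvd_gcd h2 (by exact_mod_cast FA_S24_cuspD_dvd N g')

/-- Same `⟨T⟩`-orbit iff same invariant. -/
theorem FA_S24_cuspF_eq_iff (N : ℕ) [NeZero N] (g g' : SL(2, ℤ)) :
    FA_S24_cuspF N g = FA_S24_cuspF N g' ↔
      ∃ m : ℤ, (N : ℤ) ∣ (g.1 0 0 + m * g.1 1 0) * g'.1 1 0 - g.1 1 0 * g'.1 0 0 := by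
  constructor
  · intro h
    have hd : FA_S24_cuspD N g = FA_S24_cuspD N g' := congrArg Prod.fst h
    have hr := congrArg Prod.snd h
    simp only [FA_S24_cuspF] at hr
    rw [FA_S24_cong_iff_aux N g g' hd]
    have hγ := FA_S24_cuspGamma_isCoprime N g
    have hγ' := FA_S24_cuspGamma_isCoprime N g'
    rw [← hd] at hγ' hr
    exact (FA_S24_cuspRho_eq_iff N _ (FA_S24_cuspD_pos N g) _ _ _ _ hγ hγ').1 hr
  · intro h
    have hd := FA_S24_cuspD_eq_of_cong N g g' h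
    rw [FA_S24_cong_iff_aux N g g' hd] at h
    have hγ := FA_S24_cuspGamma_isCoprime N g
    have hγ' := FA_S24_cuspGamma_isCoprime N g'
    rw [← hd] at hγ'
    have hr := (FA_S24_cuspRho_eq_iff N _ (FA_S24_cuspD_pos N g) _ _ _ _ hγ hγ').2 h
    unfold FA_S24_cuspF
    rw [← hd]
    exact Prod.ext rfl hr


/-- The set of values of the cusp invariant. -/
def FA_S24_cuspSet (N : ℕ) : Finset (ℕ × ℕ) :=
  (N.divisors.sigma (fun d =>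
    (Finset.range (FA_S24_cuspG N d)).filter (FA_S24_cuspG N d).Coprime)).map
      (Equiv.sigmaEquivProd ℕ ℕ).toEmbedding

theorem FA_S24_mem_cuspSet (N : ℕ) (x : ℕ × ℕ) :
    x ∈ FA_S24_cuspSet N ↔
      x.1 ∈ N.divisors ∧ x.2 < FA_S24_cuspG N x.1 ∧ (FA_S24_cuspG N x.1).Coprime x.2 := by
  unfold FA_S24_cuspSet
  rw [Finset.mem_map_equiv, Finset.mem_sigma, Finset.mem_filter, Finset.mem_range]
  rfl

theorem FA_S24_card_cuspSet (N : ℕ) : (FA_S24_cuspSet N).card = ModularCurve.cuspCount N := by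
  unfold FA_S24_cuspSet ModularCurve.cuspCount
  rw [Finset.card_map, Finset.card_sigma]
  rfl

theorem FA_S24_cuspF_mem (N : ℕ) [NeZero N] (g : SL(2, ℤ)) :
    FA_S24_cuspF N g ∈ FA_S24_cuspSet N := by
  rw [FA_S24_mem_cuspSet]
  have hpos := FA_S24_cuspG_pos N _ (FA_S24_cuspD_pos N g)
  have : NeZero (FA_S24_cuspG N (FA_S24_cuspD N g)) := ⟨hpos.ne'⟩
  refine ⟨?_, ?_, ?_⟩
  · exact Nat.mem_divisors.2 ⟨FA_S24_cuspD_dvd N g, NeZero.ne N⟩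
  · exact ZMod.val_lt _
  · show (FA_S24_cuspG N (FA_S24_cuspD N g)).Coprime
      (ZMod.val (((g.1 0 0 : ℤ) : ZMod (FA_S24_cuspG N (FA_S24_cuspD N g)))
        * ((FA_S24_cuspGamma N g : ℤ) : ZMod (FA_S24_cuspG N (FA_S24_cuspD N g)))⁻¹))
    have hu1 : IsUnit (((g.1 0 0 : ℤ) : ZMod (FA_S24_cuspG N (FA_S24_cuspD N g)))) := by
      rw [ZMod.coe_int_isUnit_iff_isCoprime]
      have hdvd : ((FA_S24_cuspG N (FA_S24_cuspD N g) : ℕ) : ℤ) ∣ g.1 1 0 := by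
        have h1 : ((FA_S24_cuspG N (FA_S24_cuspD N g) : ℕ) : ℤ) ∣ (FA_S24_cuspD N g : ℤ) := by
          exact_mod_cast Nat.gcd_dvd_left _ _
        exact h1.trans (FA_S24_cuspD_dvd_c N g)
      exact ((FA_S24_isCoprime_col g).of_isCoprime_of_dvd_right hdvd).symm
    have hu2 := FA_S24_isUnit_of_isCoprime N _ _ (FA_S24_cuspGamma_isCoprime N g)
    have hu : IsUnit (((g.1 0 0 : ℤ) : ZMod (FA_S24_cuspG N (FA_S24_cuspD N g)))
        * ((FA_S24_cuspGamma N g : ℤ) : ZMod (FA_S24_cuspG N (FA_S24_cuspD N g)))⁻¹) := by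
      refine hu1.mul ?_
      have := ZMod.mul_inv_of_unit _ hu2
      exact IsUnit.of_mul_eq_one _ (by rw [mul_comm]; exact this)
    obtain ⟨u, hu⟩ := hu
    rw [← hu]
    exact (ZMod.val_coe_unit_coprime u).symm


theorem FA_S24_cuspF_surj (N : ℕ) [NeZero N] (x : ℕ × ℕ) (hx : x ∈ FA_S24_cuspSet N) :
    ∃ g : SL(2, ℤ), FA_S24_cuspF N g = x := by
  obtain ⟨d, r⟩ := x
  rw [FA_S24_mem_cuspSet] at hx
  obtain ⟨hdN, hr, hco⟩ := hx
  simp only at hdN hr hco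
  have hd : d ∣ N := (Nat.mem_divisors.1 hdN).1
  have hdpos : 0 < d := Nat.pos_of_dvd_of_pos hd (NeZero.pos N)
  have : NeZero d := ⟨hdpos.ne'⟩
  have hGpos := FA_S24_cuspG_pos N d hdpos
  have : NeZero (FA_S24_cuspG N d) := ⟨hGpos.ne'⟩
  have hGd : FA_S24_cuspG N d ∣ d := Nat.gcd_dvd_left _ _
  obtain ⟨u, hu⟩ := ZMod.unitsMap_surjective hGd (ZMod.unitOfCoprime r hco.symm)
  have hcop : Nat.Coprime (u : ZMod d).val d := ZMod.val_coe_unit_coprime u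
  have hcast : (((u : ZMod d).val : ℕ) : ZMod (FA_S24_cuspG N d)) = (r : ZMod (FA_S24_cuspG N d)) := by
    have h1 := congrArg (fun v : (ZMod (FA_S24_cuspG N d))ˣ => (v : ZMod (FA_S24_cuspG N d))) hu
    simp only [ZMod.coe_unitOfCoprime] at h1
    rw [← h1, ZMod.natCast_val]
    rfl
  obtain ⟨p, q, hpq⟩ : IsCoprime (((u : ZMod d).val : ℕ) : ℤ) (d : ℤ) :=
    Nat.isCoprime_iff_coprime.2 hcop
  let g : SL(2, ℤ) := ⟨!![(((u : ZMod d).val : ℕ) : ℤ), -q; (d : ℤ), p], by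
    rw [Matrix.det_fin_two_of]; linear_combination hpq⟩
  have g00 : g.1 0 0 = (((u : ZMod d).val : ℕ) : ℤ) := rfl
  have g10 : g.1 1 0 = (d : ℤ) := rfl
  have hD : FA_S24_cuspD N g = d := by
    unfold FA_S24_cuspD
    rw [g10, Int.gcd_natCast_natCast]
    exact Nat.gcd_eq_left hd
  have hγ : FA_S24_cuspGamma N g = 1 := by
    unfold FA_S24_cuspGamma
    rw [hD, g10]
    exact Int.ediv_self (by exact_mod_cast hdpos.ne')
  refine ⟨g, ?_⟩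
  unfold FA_S24_cuspF
  rw [hγ, hD, g00]
  refine Prod.ext rfl ?_
  show FA_S24_cuspRho N d _ 1 = r
  unfold FA_S24_cuspRho
  have hone : ((1 : ZMod (FA_S24_cuspG N d)))⁻¹ = 1 := by
    have := ZMod.mul_inv_of_unit (1 : ZMod (FA_S24_cuspG N d)) isUnit_one
    rwa [one_mul] at this
  push_cast
  rw [hone, mul_one, hcast]
  exact ZMod.val_cast_of_lt hr

/-- **B5**: the number of `⟨T⟩`-orbits on `SL(2,ℤ) ⧸ Γ₀(N)` is `cuspCount N`. -/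
theorem FA_S24_B_T : FA_S24_Target_B_T := by
  intro N _
  unfold FA_S24_orbits
  rw [← FA_S24_card_cuspSet, ← Nat.card_eq_finsetCard]
  symm
  have hsurj : ∀ s : ↥(FA_S24_cuspSet N), ∃ g : SL(2, ℤ), FA_S24_cuspF N g = s.1 :=
    fun s => FA_S24_cuspF_surj N s.1 s.2
  choose G hG using hsurj
  let φ : ↥(FA_S24_cuspSet N) →
      MulAction.orbitRel.Quotient (Subgroup.zpowers ModularGroup.T) (SL(2, ℤ) ⧸ Gamma0 N) :=
    fun s => Quotient.mk'' (QuotientGroup.mk (G s))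
  have key : ∀ g g' : SL(2, ℤ),
      (Quotient.mk'' (QuotientGroup.mk g) :
        MulAction.orbitRel.Quotient (Subgroup.zpowers ModularGroup.T) (SL(2, ℤ) ⧸ Gamma0 N))
        = Quotient.mk'' (QuotientGroup.mk g') ↔ FA_S24_cuspF N g = FA_S24_cuspF N g' := by
    intro g g'
    rw [Quotient.eq'', MulAction.orbitRel_apply, MulAction.mem_orbit_iff,
      FA_S24_T_orbit_iff, ← FA_S24_cuspF_eq_iff]
    exact eq_comm
  refine Nat.card_eq_of_bijective φ ⟨?_, ?_⟩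
  · intro s s' h
    have := (key _ _).1 h
    rw [hG, hG] at this
    exact Subtype.ext this
  · intro ω
    induction ω using Quotient.inductionOn' with
    | h x =>
      induction x using QuotientGroup.induction_on with
      | H g =>
        refine ⟨⟨FA_S24_cuspF N g, FA_S24_cuspF_mem N g⟩, ?_⟩
        exact (key _ _).2 (hG _)

end Fermat.Agent.S24
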