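import Mathlib
import Fermat.Agent.S24.BCol

/-!
# S24 Layer B: orbits of `S` and `ST` on `SL(2,ℤ) ⧸ Γ₀(N)` (targets `B_S`, `B_ST`)
-/

set_option autoImplicit false

noncomputable section

namespace Fermat.Agent.S24

open MatrixGroups CongruenceSubgroup

/-- Burnside for a cyclic group generated by an element of finite order. -/
theorem FA_S24_orbits_mul_order {Γ : Type} [Group Γ] (H : Subgroup Γ) [H.FiniteIndex] (s : Γ)
    (hs : IsOfFinOrder s) :
    FA_S24_orbits (Subgroup.zpowers s) H * orderOf s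
      = ∑ i ∈ Finset.range (orderOf s), Nat.card (MulAction.fixedBy (Γ ⧸ H) (s ^ i)) := by
  classical
  have : Finite (Γ ⧸ H) := Subgroup.finite_quotient_of_finiteIndex
  let _ : Fintype (Γ ⧸ H) := Fintype.ofFinite _
  let _ : Fintype (Subgroup.zpowers s) := Fintype.ofEquiv _ (finEquivZPowers hs)
  have hB := MulAction.sum_card_fixedBy_eq_card_orbits_mul_card_group
    (Subgroup.zpowers s) (Γ ⧸ H)
  unfold FA_S24_orbits MulAction.orbitRel.Quotient
  rw [Nat.card_eq_fintype_card]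
  have hc : Fintype.card (Subgroup.zpowers s) = orderOf s := by
    rw [← Nat.card_eq_fintype_card, Nat.card_zpowers]
  rw [hc] at hB
  rw [← hB, ← Fin.sum_univ_eq_sum_range (fun i => Nat.card (MulAction.fixedBy (Γ ⧸ H) (s ^ i)))]
  rw [← Equiv.sum_comp (finEquivZPowers hs)]
  refine Finset.sum_congr rfl fun i _ => ?_
  rw [← Nat.card_eq_fintype_card]
  rfl

/-- If `h` acts trivially, everything is fixed. -/
theorem FA_S24_card_fixedBy_of_trivial {X G : Type} [Group G] [MulAction G X] (h : G)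
    (hh : ∀ x : X, h • x = x) : Nat.card (MulAction.fixedBy X h) = Nat.card X := by
  have : MulAction.fixedBy X h = Set.univ := by
    ext x; simp [MulAction.mem_fixedBy, hh x]
  rw [this]
  exact Nat.card_congr (Equiv.Set.univ X)

/-- `fixedBy` only depends on the element modulo something acting trivially. -/
theorem FA_S24_fixedBy_mul_of_trivial {X G : Type} [Group G] [MulAction G X] (h k : G)
    (hh : ∀ x : X, h • x = x) : MulAction.fixedBy X (h * k) = MulAction.fixedBy X k := by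
  ext x
  simp only [MulAction.mem_fixedBy, mul_smul, hh]

theorem FA_S24_fixedBy_inv' {X G : Type} [Group G] [MulAction G X] (k : G) :
    MulAction.fixedBy X k⁻¹ = MulAction.fixedBy X k := by
  ext x
  simp only [MulAction.mem_fixedBy]
  constructor
  · intro h
    conv_lhs => rw [← h]
    simp
  · intro h
    conv_lhs => rw [← h]
    simp

theorem FA_S24_S_sq : ModularGroup.S ^ 2 = -1 := by decide
theorem FA_S24_S_cube : ModularGroup.S ^ 3 = ModularGroup.S⁻¹ := by decide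
theorem FA_S24_orderOf_S : orderOf ModularGroup.S = 4 := by
  have h := orderOf_eq_prime_pow (x := ModularGroup.S) (p := 2) (n := 1)
    (by decide) (by decide)
  simpa using h

theorem FA_S24_ST_sq :
    (ModularGroup.S * ModularGroup.T) ^ 2 = -1 * (ModularGroup.S * ModularGroup.T)⁻¹ := by
  decide
theorem FA_S24_ST_cube : (ModularGroup.S * ModularGroup.T) ^ 3 = -1 := by decide
theorem FA_S24_ST_four :
    (ModularGroup.S * ModularGroup.T) ^ 4 = -1 * (ModularGroup.S * ModularGroup.T) := by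
  decide
theorem FA_S24_ST_five :
    (ModularGroup.S * ModularGroup.T) ^ 5 = (ModularGroup.S * ModularGroup.T)⁻¹ := by
  decide
theorem FA_S24_orderOf_ST : orderOf (ModularGroup.S * ModularGroup.T) = 6 := by
  refine orderOf_eq_of_pow_and_pow_div_prime (by norm_num) (by decide) ?_
  intro p hp hp6
  have : p = 2 ∨ p = 3 := by
    have h6 : p ∣ 2 * 3 := hp6
    rcases (Nat.Prime.dvd_mul hp).1 h6 with h | h
    · exact Or.inl ((Nat.prime_dvd_prime_iff_eq hp Nat.prime_two).1 h)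
    · exact Or.inr ((Nat.prime_dvd_prime_iff_eq hp Nat.prime_three).1 h)
  rcases this with rfl | rfl
  · decide
  · decide

/-- `2 o(S) = n + #Fix(S)`. -/
theorem FA_S24_two_mul_orbits_S (N : ℕ) [NeZero N] :
    2 * FA_S24_orbits (Subgroup.zpowers ModularGroup.S) (Gamma0 N)
      = (Gamma0 N).index
        + Nat.card (MulAction.fixedBy (SL(2, ℤ) ⧸ Gamma0 N) ModularGroup.S) := by
  have hB := FA_S24_orbits_mul_order (Gamma0 N) ModularGroup.S
    (by rw [← orderOf_pos_iff, FA_S24_orderOf_S]; norm_num)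
  rw [FA_S24_orderOf_S] at hB
  have h0 : Nat.card (MulAction.fixedBy (SL(2, ℤ) ⧸ Gamma0 N) (ModularGroup.S ^ 0))
      = (Gamma0 N).index := by
    rw [pow_zero, FA_S24_card_fixedBy_of_trivial _ (fun x => one_smul _ x)]
    rfl
  have h2 : Nat.card (MulAction.fixedBy (SL(2, ℤ) ⧸ Gamma0 N) (ModularGroup.S ^ 2))
      = (Gamma0 N).index := by
    rw [FA_S24_S_sq, FA_S24_card_fixedBy_of_trivial _ (FA_S24_neg_one_smul N)]
    rfl
  have h3 : MulAction.fixedBy (SL(2, ℤ) ⧸ Gamma0 N) (ModularGroup.S ^ 3)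
      = MulAction.fixedBy (SL(2, ℤ) ⧸ Gamma0 N) ModularGroup.S := by
    rw [FA_S24_S_cube, FA_S24_fixedBy_inv']
  rw [Finset.sum_range_succ, Finset.sum_range_succ, Finset.sum_range_succ,
    Finset.sum_range_one, h0, h2, h3, pow_one] at hB
  omega

/-- `3 o(ST) = n + 2 #Fix(ST)`. -/
theorem FA_S24_three_mul_orbits_ST (N : ℕ) [NeZero N] :
    3 * FA_S24_orbits (Subgroup.zpowers (ModularGroup.S * ModularGroup.T)) (Gamma0 N)
      = (Gamma0 N).index
        + 2 * Nat.card (MulAction.fixedBy (SL(2, ℤ) ⧸ Gamma0 N)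
            (ModularGroup.S * ModularGroup.T)) := by
  have hB := FA_S24_orbits_mul_order (Gamma0 N) (ModularGroup.S * ModularGroup.T)
    (by rw [← orderOf_pos_iff, FA_S24_orderOf_ST]; norm_num)
  rw [FA_S24_orderOf_ST] at hB
  have h0 : Nat.card (MulAction.fixedBy (SL(2, ℤ) ⧸ Gamma0 N)
      ((ModularGroup.S * ModularGroup.T) ^ 0)) = (Gamma0 N).index := by
    rw [pow_zero, FA_S24_card_fixedBy_of_trivial _ (fun x => one_smul _ x)]
    rfl
  have h3 : Nat.card (MulAction.fixedBy (SL(2, ℤ) ⧸ Gamma0 N)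
      ((ModularGroup.S * ModularGroup.T) ^ 3)) = (Gamma0 N).index := by
    rw [FA_S24_ST_cube, FA_S24_card_fixedBy_of_trivial _ (FA_S24_neg_one_smul N)]
    rfl
  have h2 : MulAction.fixedBy (SL(2, ℤ) ⧸ Gamma0 N) ((ModularGroup.S * ModularGroup.T) ^ 2)
      = MulAction.fixedBy (SL(2, ℤ) ⧸ Gamma0 N) (ModularGroup.S * ModularGroup.T) := by
    rw [FA_S24_ST_sq, FA_S24_fixedBy_mul_of_trivial _ _ (FA_S24_neg_one_smul N),
      FA_S24_fixedBy_inv']
  have h4 : MulAction.fixedBy (SL(2, ℤ) ⧸ Gamma0 N) ((ModularGroup.S * ModularGroup.T) ^ 4)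
      = MulAction.fixedBy (SL(2, ℤ) ⧸ Gamma0 N) (ModularGroup.S * ModularGroup.T) := by
    rw [FA_S24_ST_four, FA_S24_fixedBy_mul_of_trivial _ _ (FA_S24_neg_one_smul N)]
  have h5 : MulAction.fixedBy (SL(2, ℤ) ⧸ Gamma0 N) ((ModularGroup.S * ModularGroup.T) ^ 5)
      = MulAction.fixedBy (SL(2, ℤ) ⧸ Gamma0 N) (ModularGroup.S * ModularGroup.T) := by
    rw [FA_S24_ST_five, FA_S24_fixedBy_inv']
  rw [Finset.sum_range_succ, Finset.sum_range_succ, Finset.sum_range_succ,
    Finset.sum_range_succ, Finset.sum_range_succ,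
    Finset.sum_range_one, h0, h2, h3, h4, h5, pow_one] at hB
  omega


/-! ### Fixed points -/

theorem FA_S24_mem_fixedBy_S_iff (N : ℕ) [NeZero N] (g : SL(2, ℤ)) :
    (QuotientGroup.mk g : SL(2, ℤ) ⧸ Gamma0 N) ∈ MulAction.fixedBy _ ModularGroup.S ↔
      ((g.1 0 0 : ℤ) : ZMod N) ^ 2 + ((g.1 1 0 : ℤ) : ZMod N) ^ 2 = 0 := by
  rw [MulAction.mem_fixedBy, FA_S24_smul_mk, FA_S24_coset_eq_iff]
  obtain ⟨h1, h2⟩ := FA_S24_mul_col ModularGroup.S g
  obtain ⟨s00, s01, s10, s11⟩ := FA_S24_S_entries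
  rw [h1, h2, s00, s01, s10, s11, ← ZMod.intCast_zmod_eq_zero_iff_dvd]
  push_cast
  constructor
  · intro h; linear_combination -h
  · intro h; linear_combination -h

theorem FA_S24_mem_fixedBy_ST_iff (N : ℕ) [NeZero N] (g : SL(2, ℤ)) :
    (QuotientGroup.mk g : SL(2, ℤ) ⧸ Gamma0 N) ∈
        MulAction.fixedBy _ (ModularGroup.S * ModularGroup.T) ↔
      ((g.1 0 0 : ℤ) : ZMod N) ^ 2 + ((g.1 0 0 : ℤ) : ZMod N) * ((g.1 1 0 : ℤ) : ZMod N)
        + ((g.1 1 0 : ℤ) : ZMod N) ^ 2 = 0 := by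
  rw [MulAction.mem_fixedBy, FA_S24_smul_mk, FA_S24_coset_eq_iff]
  obtain ⟨h1, h2⟩ := FA_S24_mul_col (ModularGroup.S * ModularGroup.T) g
  obtain ⟨s00, s01, s10, s11⟩ := FA_S24_ST_entries
  rw [h1, h2, s00, s01, s10, s11, ← ZMod.intCast_zmod_eq_zero_iff_dvd]
  push_cast
  constructor
  · intro h; linear_combination -h
  · intro h; linear_combination -h

theorem FA_S24_mk_matU_eq_iff (N : ℕ) [NeZero N] (u : ℤ) (g : SL(2, ℤ)) :
    (QuotientGroup.mk (FA_S24_matU u) : SL(2, ℤ) ⧸ Gamma0 N) = QuotientGroup.mk g ↔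
      (u : ZMod N) * ((g.1 1 0 : ℤ) : ZMod N) = ((g.1 0 0 : ℤ) : ZMod N) := by
  rw [FA_S24_coset_eq_iff, FA_S24_matU_00, FA_S24_matU_10,
    ← ZMod.intCast_zmod_eq_zero_iff_dvd]
  push_cast
  constructor
  · intro h; linear_combination h
  · intro h; linear_combination h

theorem FA_S24_det_zmod (N : ℕ) (g : SL(2, ℤ)) :
    ((g.1 0 0 : ℤ) : ZMod N) * ((g.1 1 1 : ℤ) : ZMod N)
      - ((g.1 0 1 : ℤ) : ZMod N) * ((g.1 1 0 : ℤ) : ZMod N) = 1 := by
  have := FA_S24_det_eq g
  have h2 : (((g.1 0 0 * g.1 1 1 - g.1 0 1 * g.1 1 0 : ℤ)) : ZMod N) = ((1 : ℤ) : ZMod N) := by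
    rw [this]
  push_cast at h2
  exact h2

/-- `#Fix(S) = ν₂`. -/
theorem FA_S24_card_fixedBy_S (N : ℕ) [NeZero N] :
    Nat.card (MulAction.fixedBy (SL(2, ℤ) ⧸ Gamma0 N) ModularGroup.S)
      = ModularCurve.nuTwo N := by
  unfold ModularCurve.nuTwo
  symm
  let f : {x : ZMod N // x ^ 2 + 1 = 0} →
      MulAction.fixedBy (SL(2, ℤ) ⧸ Gamma0 N) ModularGroup.S := fun u =>
    ⟨QuotientGroup.mk (FA_S24_matU (u.1.cast : ℤ)), by
      rw [FA_S24_mem_fixedBy_S_iff, FA_S24_matU_00, FA_S24_matU_10]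
      rw [ZMod.intCast_zmod_cast]
      push_cast
      linear_combination u.2⟩
  refine Nat.card_eq_of_bijective f ⟨?_, ?_⟩
  · intro u v huv
    have h := congrArg Subtype.val huv
    simp only [f] at h
    rw [FA_S24_mk_matU_eq_iff, FA_S24_matU_00, FA_S24_matU_10] at h
    rw [ZMod.intCast_zmod_cast, ZMod.intCast_zmod_cast] at h
    apply Subtype.ext
    simpa using h
  · rintro ⟨x, hx⟩
    induction x using QuotientGroup.induction_on with
    | H g =>
      rw [FA_S24_mem_fixedBy_S_iff] at hx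
      have hdet := FA_S24_det_zmod N g
      set A : ZMod N := ((g.1 0 0 : ℤ) : ZMod N)
      set B : ZMod N := ((g.1 0 1 : ℤ) : ZMod N)
      set C : ZMod N := ((g.1 1 0 : ℤ) : ZMod N)
      set D : ZMod N := ((g.1 1 1 : ℤ) : ZMod N)
      set w : ZMod N := -C * D ^ 2 - 2 * A * B * D + B ^ 2 * C with hw
      have hCw : C * w = 1 := by
        rw [hw]
        linear_combination (A * D - B * C + 1) * hdet - D ^ 2 * hx
      refine ⟨⟨A * w, ?_⟩, ?_⟩
      · linear_combination w ^ 2 * hx - (C * w + 1) * hCw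
      · apply Subtype.ext
        simp only [f]
        rw [FA_S24_mk_matU_eq_iff, ZMod.intCast_zmod_cast]
        linear_combination A * hCw

/-- `#Fix(ST) = ν₃`. -/
theorem FA_S24_card_fixedBy_ST (N : ℕ) [NeZero N] :
    Nat.card (MulAction.fixedBy (SL(2, ℤ) ⧸ Gamma0 N) (ModularGroup.S * ModularGroup.T))
      = ModularCurve.nuThree N := by
  unfold ModularCurve.nuThree
  symm
  let f : {x : ZMod N // x ^ 2 + x + 1 = 0} →
      MulAction.fixedBy (SL(2, ℤ) ⧸ Gamma0 N) (ModularGroup.S * ModularGroup.T) := fun u =>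
    ⟨QuotientGroup.mk (FA_S24_matU (u.1.cast : ℤ)), by
      rw [FA_S24_mem_fixedBy_ST_iff, FA_S24_matU_00, FA_S24_matU_10]
      rw [ZMod.intCast_zmod_cast]
      push_cast
      linear_combination u.2⟩
  refine Nat.card_eq_of_bijective f ⟨?_, ?_⟩
  · intro u v huv
    have h := congrArg Subtype.val huv
    simp only [f] at h
    rw [FA_S24_mk_matU_eq_iff, FA_S24_matU_00, FA_S24_matU_10] at h
    rw [ZMod.intCast_zmod_cast, ZMod.intCast_zmod_cast] at h
    apply Subtype.ext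
    simpa using h
  · rintro ⟨x, hx⟩
    induction x using QuotientGroup.induction_on with
    | H g =>
      rw [FA_S24_mem_fixedBy_ST_iff] at hx
      have hdet := FA_S24_det_zmod N g
      set A : ZMod N := ((g.1 0 0 : ℤ) : ZMod N)
      set B : ZMod N := ((g.1 0 1 : ℤ) : ZMod N)
      set C : ZMod N := ((g.1 1 0 : ℤ) : ZMod N)
      set D : ZMod N := ((g.1 1 1 : ℤ) : ZMod N)
      set w : ZMod N := -(A + C) * D ^ 2 - 2 * A * B * D + B ^ 2 * C with hw
      have hCw : C * w = 1 := by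
        rw [hw]
        linear_combination (A * D - B * C + 1) * hdet - D ^ 2 * hx
      refine ⟨⟨A * w, ?_⟩, ?_⟩
      · linear_combination w ^ 2 * hx - (A * w + C * w + 1) * hCw
      · apply Subtype.ext
        simp only [f]
        rw [FA_S24_mk_matU_eq_iff, ZMod.intCast_zmod_cast]
        linear_combination A * hCw

theorem FA_S24_B_S : FA_S24_Target_B_S := by
  intro N _
  rw [FA_S24_two_mul_orbits_S, FA_S24_card_fixedBy_S]

theorem FA_S24_B_ST : FA_S24_Target_B_ST := by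
  intro N _
  rw [FA_S24_three_mul_orbits_ST, FA_S24_card_fixedBy_ST]

end Fermat.Agent.S24
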