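import Mathlib
import Fermat.Prelude.Def_ModularCurve_ArithmeticGalois

/-!
# S24 Layer D: third batch of leaf targets (up for grabs), all formal / algebraic

See `NOTES/plan/S24.md`.  None of these statements involves analysis.
-/

set_option autoImplicit false

noncomputable section

namespace Fermat.Agent.S24

/-- **Leaf COEF**: the Laurent series with coefficients in a subfield `L ⊆ ℂ` form a subfield
of `ℂ((X))`. -/
def FA_S24_Target_COEF : Prop :=
  ∀ (L : Subfield ℂ), ∃ S : Subfield (LaurentSeries ℂ),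
    ∀ x : LaurentSeries ℂ, x ∈ S ↔ ∀ i : ℤ, x.coeff i ∈ L

/-- **Leaf QX**: if `t(X) = s(X^k)` coefficientwise, then `t = qExpand k s` as Laurent series. -/
def FA_S24_Target_QX : Prop :=
  ∀ (s t : PowerSeries ℂ) (k : ℕ) [NeZero k],
    (∀ m : ℕ, PowerSeries.coeff m t = if k ∣ m then PowerSeries.coeff (m / k) s else 0) →
    HahnSeries.ofPowerSeries ℤ ℂ t
      = ModularCurve.qExpand ℂ k (HahnSeries.ofPowerSeries ℤ ℂ s)

/-- **Leaf JQ** (formal identity `j · Δ = E₄³` for the prelude's series, over `ℂ`). -/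
def FA_S24_Target_JQ : Prop :=
  ModularCurve.coeffMap (algebraMap ℚ ℂ) ModularCurve.jq
      * HahnSeries.ofPowerSeries ℤ ℂ (PowerSeries.map (Int.castRingHom ℂ)
          (PowerSeries.X * ModularCurve.etaProd ^ 24))
    = HahnSeries.ofPowerSeries ℤ ℂ
        (PowerSeries.map (Int.castRingHom ℂ) ModularCurve.eisenstein4) ^ 3

/-- **Leaf BC**: the prelude's `modularFunctionFieldBar N` is generated over `ℚ̄` by the
series `j(q^d)`, `d ∣ N`. -/
def FA_S24_Target_BC : Prop :=
  ∀ (N : ℕ) [NeZero N],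
    ModularCurve.modularFunctionFieldBar N
      = IntermediateField.adjoin (AlgebraicClosure ℚ)
          {x | ∃ (d : ℕ) (_ : NeZero d), d ∣ N ∧
            x = ModularCurve.coeffEmb (AlgebraicClosure ℚ)
                  (ModularCurve.qExpand ℚ d ModularCurve.jq)}

/-- **Leaf TR** (transfer of structure).  `Q : M → 𝓛` is an injective ring homomorphism on
the subfield `G ⊆ M`, `Λ : B →+* 𝓛`, both compatible with the constants `K`; if
`Q (t i) = Λ (s i)` then `K(s i : i) ≅ K(t i : i)` over `K`, `s i ↦ t i`. -/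
def FA_S24_Target_TR : Prop :=
  ∀ (K M B 𝓛 : Type) [Field K] [Field M] [Field B] [Field 𝓛] [Algebra K M] [Algebra K B]
    (Λ : B →+* 𝓛) (G : Subfield M) (Q : M → 𝓛)
    (_hadd : ∀ x ∈ G, ∀ y ∈ G, Q (x + y) = Q x + Q y)
    (_hmul : ∀ x ∈ G, ∀ y ∈ G, Q (x * y) = Q x * Q y)
    (_hinj : ∀ x ∈ G, Q x = 0 → x = 0)
    (_hconst : ∀ c : K, algebraMap K M c ∈ G ∧ Q (algebraMap K M c) = Λ (algebraMap K B c))
    (I : Type) (s : I → B) (t : I → M)
    (_ht : ∀ i, t i ∈ G ∧ Q (t i) = Λ (s i)),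
    ∃ τ : IntermediateField.adjoin K (Set.range s) →ₐ[K] M,
      Set.range τ = ↑(IntermediateField.adjoin K (Set.range t)) ∧
      ∀ x : IntermediateField.adjoin K (Set.range s), Q (τ x) = Λ (x : B)

end Fermat.Agent.S24
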