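import Mathlib
import Fermat.Agent.S24.Interface
import Fermat.Prelude.Thm_ModularCurve_coeff_jqModC_pow_of_lt

/-!
# S24 Layer D, leaf LevelOne: `modularFunctionFieldBar 1 = ℚ̄(j)` with `j` transcendental
-/

set_option autoImplicit false

noncomputable section

open ModularCurve IntermediateField

namespace Fermat.Agent.S24

theorem FA_S24_L1_coeffEmb_jq :
    coeffEmb (AlgebraicClosure ℚ) jq = jqModC (AlgebraicClosure ℚ) := by
  rw [← jqModC_rat]
  exact map_jqModC (algebraMap ℚ (AlgebraicClosure ℚ))

theorem FA_S24_L1_full_one : modularFunctionFieldFull 1 = adjoin ℚ {jq} := by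
  unfold modularFunctionFieldFull
  congr 1
  ext x
  constructor
  · rintro ⟨d, hne, hd, rfl⟩
    have hd1 : d = 1 := Nat.dvd_one.mp hd
    subst hd1
    rw [Set.mem_singleton_iff]
    exact qExpand_one_apply _
  · intro hx
    rw [Set.mem_singleton_iff] at hx
    subst hx
    exact ⟨1, inferInstance, dvd_rfl, (qExpand_one_apply _).symm⟩

theorem FA_S24_L1_coeffEmb_algebraMap (c : ℚ) :
    coeffEmb (AlgebraicClosure ℚ) (algebraMap ℚ (LaurentSeries ℚ) c)
      = algebraMap (AlgebraicClosure ℚ) (LaurentSeries (AlgebraicClosure ℚ))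
          (algebraMap ℚ (AlgebraicClosure ℚ) c) := by
  rw [algebraMap_laurentSeries_eq_single, algebraMap_laurentSeries_eq_single]
  exact coeffMap_single _ _ _

theorem FA_S24_L1_bar_one :
    modularFunctionFieldBar 1 = adjoin (AlgebraicClosure ℚ) {jqModC (AlgebraicClosure ℚ)} := by
  apply le_antisymm
  · show laurentBaseChange (AlgebraicClosure ℚ) (modularFunctionFieldFull 1) ≤ _
    unfold laurentBaseChange
    rw [adjoin_le_iff]
    rintro y ⟨x, hx, rfl⟩
    rw [SetLike.mem_coe, FA_S24_L1_full_one] at hx
    induction hx using IntermediateField.adjoin_induction with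
    | mem x hx =>
      rw [Set.mem_singleton_iff] at hx
      subst hx
      rw [FA_S24_L1_coeffEmb_jq]
      exact subset_adjoin _ _ (Set.mem_singleton _)
    | algebraMap c =>
      rw [FA_S24_L1_coeffEmb_algebraMap]
      exact IntermediateField.algebraMap_mem _ _
    | add x y _ _ hx hy =>
      rw [map_add]
      exact add_mem hx hy
    | inv x _ hx =>
      rw [map_inv₀]
      exact inv_mem hx
    | mul x y _ _ hx hy =>
      rw [map_mul]
      exact mul_mem hx hy
  · rw [adjoin_le_iff]
    intro y hy
    rw [Set.mem_singleton_iff] at hy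
    subst hy
    rw [← FA_S24_L1_coeffEmb_jq]
    refine coeffEmb_mem_laurentBaseChange (AlgebraicClosure ℚ) ?_
    rw [FA_S24_L1_full_one]
    exact subset_adjoin _ _ (Set.mem_singleton _)

theorem FA_S24_LevelOne : FA_S24_Target_LevelOne := by
  have hmem : jqModC (AlgebraicClosure ℚ) ∈ modularFunctionFieldBar 1 := by
    rw [FA_S24_L1_bar_one]
    exact subset_adjoin _ _ (Set.mem_singleton _)
  refine ⟨⟨jqModC (AlgebraicClosure ℚ), hmem⟩, ?_, ?_⟩
  · intro halg
    have h2 := halg.algHom (modularFunctionFieldBar 1).val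
    exact P2MW.S_ModularCurve_coeff_jqModC_pow_of_lt.ModularCurve.CharLRows.transcendental_jqModC
      (AlgebraicClosure ℚ) h2
  · apply IntermediateField.lift_injective (modularFunctionFieldBar 1)
    rw [IntermediateField.lift_adjoin, IntermediateField.lift_top, Set.image_singleton]
    exact FA_S24_L1_bar_one.symm

end Fermat.Agent.S24
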