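import Mathlib
import Fermat.Agent.S24.DInterface3
import Fermat.Agent.S24.DLevelOne

/-!
# S24 Layer D, leaf BC: `modularFunctionFieldBar N = ℚ̄(j(q^d) : d ∣ N)`
-/

set_option autoImplicit false

noncomputable section

open ModularCurve IntermediateField

namespace Fermat.Agent.S24

theorem FA_S24_BC : FA_S24_Target_BC := by
  intro N _
  apply le_antisymm
  · show laurentBaseChange (AlgebraicClosure ℚ) (modularFunctionFieldFull N) ≤ _
    unfold laurentBaseChange
    rw [adjoin_le_iff]
    rintro y ⟨x, hx, rfl⟩
    rw [SetLike.mem_coe] at hx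
    unfold modularFunctionFieldFull at hx
    induction hx using IntermediateField.adjoin_induction with
    | mem x hx =>
      obtain ⟨d, hne, hd, rfl⟩ := hx
      exact subset_adjoin _ _ ⟨d, hne, hd, rfl⟩
    | algebraMap c =>
      rw [FA_S24_L1_coeffEmb_algebraMap]
      exact IntermediateField.algebraMap_mem _ _
    | add x y _ _ hx hy =>
      rw [map_add]
      exact add_mem hx hy
    | inv x _ hx =>
      rw [map_inv₀]
      exact inv_mem hx
    | mul x y _ _ hx hy =>
      rw [map_mul]
      exact mul_mem hx hy
  · rw [adjoin_le_iff]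
    rintro y ⟨d, hne, hd, rfl⟩
    refine coeffEmb_mem_laurentBaseChange (AlgebraicClosure ℚ) ?_
    exact subset_adjoin _ _ ⟨d, hne, hd, rfl⟩

end Fermat.Agent.S24
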