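import Mathlib
import Fermat.Agent.S24.DInterface3
import Fermat.Prelude.Def_ModularCurve_JqCoeff

/-!
# S24 Layer D, leaf JQ: the formal identity `j · Δ = E₄³` for the prelude's series
-/

set_option autoImplicit false

noncomputable section

open ModularCurve

namespace Fermat.Agent.S24

theorem FA_S24_JQ_int :
    jNum * (PowerSeries.X * etaProd ^ 24) = PowerSeries.X * eisenstein4 ^ 3 := by
  have h : dedekindEtaUnitInv * etaProd ^ 24 = 1 := by
    have := dedekindEtaUnit_mul_inv
    rw [dedekindEtaUnit] at this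
    rw [mul_comm]
    exact this
  calc jNum * (PowerSeries.X * etaProd ^ 24)
      = PowerSeries.X * (eisenstein4 ^ 3 * (dedekindEtaUnitInv * etaProd ^ 24)) := by
        rw [jNum]; ring
    _ = PowerSeries.X * eisenstein4 ^ 3 := by rw [h, mul_one]

theorem FA_S24_JQ_coeffMap_jq :
    coeffMap (algebraMap ℚ ℂ) jq = jqModC ℂ := by
  rw [← jqModC_rat]
  exact map_jqModC (algebraMap ℚ ℂ)

theorem FA_S24_JQ : FA_S24_Target_JQ := by
  unfold FA_S24_Target_JQ
  rw [FA_S24_JQ_coeffMap_jq, jqModC, mul_assoc, ← map_mul, ← map_mul, FA_S24_JQ_int,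
    map_mul, map_mul, PowerSeries.map_X, HahnSeries.ofPowerSeries_X, ← mul_assoc,
    HahnSeries.single_mul_single, map_pow, map_pow]
  have h1 : (HahnSeries.single ((-1 : ℤ) + 1) ((1 : ℂ) * 1) : LaurentSeries ℂ) = 1 := by
    simp
  rw [h1, one_mul]

end Fermat.Agent.S24
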