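import Mathlib
import Fermat.Agent.S24.CJ
import Fermat.Agent.Lib.Mero2

/-!
# S24 Layer C (part 2): derivative of `j`, orders of `j - c`.
-/

set_option autoImplicit false

noncomputable section

open UpperHalfPlane hiding I
open ModularForm EisensteinSeries Complex MatrixGroups Filter Derivative
open scoped Manifold Topology Real Derivative

namespace Fermat.Agent.S24

open Fermat.Agent.Mero

local notation "Δ" => ModularForm.discriminant
local notation "𝕢" => Function.Periodic.qParam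

/-- `D f = q · d/dq (cuspFunction)` for a 1-periodic function. -/
theorem FA_S24_D_eq_q_mul_deriv {f : ℍ → ℂ} (hper : Function.Periodic (f ∘ ofComplex) 1)
    (hhol : MDiff f) (hbdd : IsBoundedAtImInfty f) (z : ℍ) :
    D f z = 𝕢 1 z * deriv (cuspFunction 1 f) (𝕢 1 z) := by
  have hfun : f ∘ ofComplex = cuspFunction 1 f ∘ 𝕢 1 := by
    funext w
    exact (Function.Periodic.eq_cuspFunction one_ne_zero hper w).symm
  have hq : ‖𝕢 1 (z : ℂ)‖ < 1 := Function.Periodic.norm_qParam_lt_one one_pos z.im_pos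
  have hF : DifferentiableAt ℂ (cuspFunction 1 f) (𝕢 1 (z : ℂ)) :=
    differentiableAt_cuspFunction one_pos hper hhol hbdd hq
  have hqd : HasDerivAt (𝕢 1) (2 * π * I * 𝕢 1 (z : ℂ)) (z : ℂ) := by
    have h1 : HasDerivAt (fun w : ℂ => 2 * π * I * w / (1 : ℝ)) (2 * π * I) (z : ℂ) := by
      have := (hasDerivAt_id (z : ℂ)).const_mul (2 * π * I)
      simpa using this
    have h2 := h1.cexp
    have h3 : (fun w : ℂ => cexp (2 * π * I * w / (1 : ℝ))) = 𝕢 1 := by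
      funext w
      simp [Function.Periodic.qParam]
    rw [h3] at h2
    have h4 : cexp (2 * π * I * (z : ℂ) / (1 : ℝ)) = 𝕢 1 (z : ℂ) := by
      simp [Function.Periodic.qParam]
    rw [h4] at h2
    rw [mul_comm]
    exact h2
  have hcomp := (hF.hasDerivAt.comp (z : ℂ) hqd).deriv
  unfold normalizedDerivOfComplex
  rw [hfun, hcomp]
  have hpi : (2 * π * I : ℂ) ≠ 0 := by
    simp [Real.pi_ne_zero]
  field_simp

theorem FA_S24_D_tendsto_zero {f : ℍ → ℂ} (hper : Function.Periodic (f ∘ ofComplex) 1)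
    (hhol : MDiff f) (hbdd : IsBoundedAtImInfty f) :
    Tendsto (D f) atImInfty (𝓝 0) := by
  have han : AnalyticAt ℂ (cuspFunction 1 f) 0 :=
    analyticAt_cuspFunction_zero one_pos hper hhol hbdd
  have hcont : ContinuousAt (fun q : ℂ => q * deriv (cuspFunction 1 f) q) 0 :=
    continuousAt_id.mul han.deriv.continuousAt
  have h0 : Tendsto (fun q : ℂ => q * deriv (cuspFunction 1 f) q) (𝓝 0) (𝓝 0) := by
    have := hcont.tendsto
    simpa using this
  have h1 := h0.comp (qParam_tendsto_atImInfty one_pos)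
  refine h1.congr fun z => ?_
  exact (FA_S24_D_eq_q_mul_deriv hper hhol hbdd z).symm

theorem FA_S24_D_tendsto_zero_modform {k : ℤ} (f : ModularForm 𝒮ℒ k) :
    Tendsto (D f) atImInfty (𝓝 0) :=
  FA_S24_D_tendsto_zero
    (SlashInvariantFormClass.periodic_comp_ofComplex f one_mem_strictPeriods_SL)
    f.holo' (ModularFormClass.bdd_at_infty f)


/-! ### `D Δ = E₂ Δ` -/

theorem FA_S24_D_disc (z : ℍ) : D Δ z = E2 z * Δ z := by
  have hz : (z : ℂ) ∈ upperHalfPlaneSet := z.2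
  have heq : (Δ ∘ ofComplex) =ᶠ[𝓝 (z : ℂ)] fun w => ModularForm.eta w ^ 24 := by
    filter_upwards [isOpen_upperHalfPlaneSet.mem_nhds hz] with w hw
    simp [ModularForm.discriminant, ofComplex_apply_of_im_pos hw]
  have hη : DifferentiableAt ℂ ModularForm.eta (z : ℂ) := differentiableAt_eta_of_mem_upperHalfPlaneSet hz
  have hη0 : ModularForm.eta (z : ℂ) ≠ 0 := eta_ne_zero hz
  have hlog := logDeriv_eta_eq_E2 z
  rw [logDeriv_apply] at hlog
  have hderiv : deriv ModularForm.eta (z : ℂ) = (π * I / 12) * E2 z * ModularForm.eta (z : ℂ) := by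
    field_simp at hlog ⊢
    linear_combination hlog
  have h24 : deriv (fun w => ModularForm.eta w ^ 24) (z : ℂ) = 24 * ModularForm.eta (z : ℂ) ^ 23 * deriv ModularForm.eta (z : ℂ) := by
    have := (hη.hasDerivAt.pow 24).deriv
    have h0 : (fun w => ModularForm.eta w ^ 24) = ModularForm.eta ^ 24 := rfl
    rw [h0, this]
    norm_num
  unfold normalizedDerivOfComplex
  rw [heq.deriv_eq, h24, hderiv]
  have hpi : (2 * π * I : ℂ) ≠ 0 := by
    simp [Real.pi_ne_zero]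
  have hΔ : Δ z = ModularForm.eta (z : ℂ) ^ 24 := rfl
  rw [hΔ]
  field_simp
  ring

/-! ### The Serre derivative of `E₄` is a multiple of `E₆` -/

theorem FA_S24_slash_eq_of_mem {k : ℤ} (f : ModularForm 𝒮ℒ k) (γ : SL(2, ℤ)) :
    (f : ℍ → ℂ) ∣[k] γ = f :=
  SlashInvariantForm.slash_action_eqn f _ (FA_S24_SL_mem γ)

/-- The Serre derivative `∂₄ E₄` as a modular form of weight `6`. -/
def FA_S24_serreE4 : ModularForm 𝒮ℒ 6 where
  toFun := serreDerivative 4 E₄
  slash_action_eq' := by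
    rintro _ ⟨γ, rfl⟩
    have h := serreDerivative_slash_invariant (k := 4) (F := E₄) E₄.holo' (γ := γ)
      (FA_S24_slash_eq_of_mem E₄ γ)
    exact_mod_cast h
  holo' := serreDerivative_mdifferentiable 4 E₄.holo'
  bdd_at_cusps' := fun {c} hc => by
    rw [Subgroup.IsArithmetic.isCusp_iff_isCusp_SL2Z] at hc
    rw [OnePoint.isBoundedAt_iff_forall_SL2Z hc]
    intro γ _
    have h := serreDerivative_slash_invariant (k := 4) (F := E₄) E₄.holo' (γ := γ)
      (FA_S24_slash_eq_of_mem E₄ γ)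
    have h' : (serreDerivative 4 (E₄ : ℍ → ℂ)) ∣[(6 : ℤ)] γ = serreDerivative 4 (E₄ : ℍ → ℂ) := by
      exact_mod_cast h
    rw [h']
    have h1 : IsBoundedAtImInfty (D (E₄ : ℍ → ℂ)) :=
      (FA_S24_D_tendsto_zero_modform E₄).isBigO_one ℝ
    have h2 : IsBoundedAtImInfty (fun z => (4 : ℂ) * 12⁻¹ * E2 z * E₄ z) := by
      have h3 : IsBoundedAtImInfty (E₄ : ℍ → ℂ) := ModularFormClass.bdd_at_infty E₄
      have h4 := (isBoundedAtImInfty_E2.mul h3).const_mul_left ((4 : ℂ) * 12⁻¹)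
      refine h4.congr_left fun z => ?_
      simp only [Pi.mul_apply]
      ring
    have h5 := h1.sub h2
    refine h5.congr_left fun z => ?_
    simp [serreDerivative]

theorem FA_S24_serreE4_apply (z : ℍ) :
    FA_S24_serreE4 z = D E₄ z - 4 * 12⁻¹ * E2 z * E₄ z := rfl

theorem FA_S24_exists_serreE4 : ∃ c : ℂ, ∀ z : ℍ, D E₄ z - 4 * 12⁻¹ * E2 z * E₄ z = c * E₆ z := by
  obtain ⟨c, hc⟩ : ∃ c : ℂ, c • E₆ = FA_S24_serreE4 :=
    (finrank_eq_one_iff_of_nonzero' E₆ (E_ne_zero _ ⟨3, rfl⟩)).mp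
      (Module.rank_eq_one_iff_finrank_eq_one.mp levelOne_weight_six_rank_one) _
  refine ⟨c, fun z => ?_⟩
  rw [← FA_S24_serreE4_apply, ← hc]
  rfl

/-! ### The derivative of `j` -/

theorem FA_S24_D_j_mul_disc (z : ℍ) :
    D FA_S24_j z * Δ z = 3 * E₄ z ^ 2 * (D E₄ z - 4 * 12⁻¹ * E2 z * E₄ z) := by
  have hΔ := discriminant_ne_zero z
  have hprod : FA_S24_j * Δ = (E₄ : ℍ → ℂ) ^ 3 := by
    funext w
    simp only [Pi.mul_apply, Pi.pow_apply, FA_S24_j]
    field_simp [discriminant_ne_zero w]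
  have h1 := congrFun (normalizedDerivOfComplex_mul FA_S24_j Δ FA_S24_j_mdiff
    CuspForm.discriminant.holo') z
  have h2 := congrFun (normalizedDerivOfComplex_pow (E₄ : ℍ → ℂ) 3 E₄.holo') z
  rw [hprod] at h1
  rw [h2] at h1
  simp only [Pi.mul_apply, Pi.add_apply, Pi.pow_apply, Pi.natCast_apply] at h1
  rw [FA_S24_D_disc] at h1
  have hj : FA_S24_j z * Δ z = E₄ z ^ 3 := congrFun hprod z
  have h3 : FA_S24_j z * (E2 z * Δ z) = E2 z * E₄ z ^ 3 := by
    rw [← hj]; ring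
  rw [h3] at h1
  push_cast at h1
  linear_combination -h1

theorem FA_S24_exists_D_j : ∃ c : ℂ, ∀ z : ℍ, D FA_S24_j z * Δ z = c * E₄ z ^ 2 * E₆ z := by
  obtain ⟨c, hc⟩ := FA_S24_exists_serreE4
  refine ⟨3 * c, fun z => ?_⟩
  rw [FA_S24_D_j_mul_disc, hc]
  ring


/-! ### Orders of `j - c` -/

/-- `E₄` as a holomorphic function. -/
def FA_S24_E4Hol : FA_Mero_Hol := ⟨E₄, E₄.holo'⟩

/-- `E₆` as a holomorphic function. -/
def FA_S24_E6Hol : FA_Mero_Hol := ⟨E₆, E₆.holo'⟩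

/-- `Δ` as a holomorphic function. -/
def FA_S24_discHol : FA_Mero_Hol := ⟨Δ, CuspForm.discriminant.holo'⟩

theorem FA_S24_discHol_ne_zero : FA_S24_discHol ≠ 0 := by
  intro h
  have := congrFun (congrArg Subtype.val h) ⟨Complex.I, by simp⟩
  exact discriminant_ne_zero _ this

theorem FA_S24_ordHol_disc (z₀ : ℍ) : FA_Mero_ordHol z₀ FA_S24_discHol = 0 :=
  (FA_Mero_ordHol_eq_zero_iff z₀ FA_S24_discHol_ne_zero).mpr (discriminant_ne_zero z₀)

theorem FA_S24_jHol_mul_disc : FA_S24_jHol * FA_S24_discHol = FA_S24_E4Hol ^ 3 := by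
  apply Subtype.ext
  funext z
  show FA_S24_j z * Δ z = E₄ z ^ 3
  unfold FA_S24_j
  field_simp [discriminant_ne_zero z]

theorem FA_S24_jHol_sub_mul_disc :
    (FA_S24_jHol - algebraMap ℂ FA_Mero_Hol 1728) * FA_S24_discHol = FA_S24_E6Hol ^ 2 := by
  apply Subtype.ext
  funext z
  show (FA_S24_j z - 1728) * Δ z = E₆ z ^ 2
  rw [FA_S24_j_sub_eq]
  field_simp [discriminant_ne_zero z]

theorem FA_S24_jHol_sub_ne_zero (c : ℂ) : FA_S24_jHol - algebraMap ℂ FA_Mero_Hol c ≠ 0 := by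
  intro h
  obtain ⟨z, hz⟩ := FA_S24_j_surjective (c + 1)
  have := congrFun (congrArg Subtype.val h) z
  have h2 : FA_S24_j z - c = 0 := this
  rw [hz] at h2
  simp at h2

theorem FA_S24_DjHol_ne_zero : FA_Mero_DHol FA_S24_jHol ≠ 0 :=
  FA_Mero_DHol_ne_zero FA_S24_jHol ⟨Complex.I, by simp⟩ (FA_S24_jHol_sub_ne_zero _)

theorem FA_S24_exists_DjHol : ∃ c : ℂ, c ≠ 0 ∧
    FA_Mero_DHol FA_S24_jHol * FA_S24_discHol = c • (FA_S24_E4Hol ^ 2 * FA_S24_E6Hol) := by
  obtain ⟨c, hc⟩ := FA_S24_exists_D_j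
  have heq : FA_Mero_DHol FA_S24_jHol * FA_S24_discHol
      = c • (FA_S24_E4Hol ^ 2 * FA_S24_E6Hol) := by
    apply Subtype.ext
    funext z
    show D FA_S24_j z * Δ z = c * (E₄ z ^ 2 * E₆ z)
    rw [hc z]
    ring
  refine ⟨c, ?_, heq⟩
  rintro rfl
  rw [zero_smul] at heq
  rcases mul_eq_zero.mp heq with h | h
  · exact FA_S24_DjHol_ne_zero h
  · exact FA_S24_discHol_ne_zero h

theorem FA_S24_E4Hol_ne_zero : FA_S24_E4Hol ≠ 0 := by
  obtain ⟨c, hc, h⟩ := FA_S24_exists_DjHol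
  intro h0
  rw [h0] at h
  simp at h
  rcases h with h | h
  · exact FA_S24_DjHol_ne_zero h
  · exact FA_S24_discHol_ne_zero h

theorem FA_S24_E6Hol_ne_zero : FA_S24_E6Hol ≠ 0 := by
  obtain ⟨c, hc, h⟩ := FA_S24_exists_DjHol
  intro h0
  rw [h0] at h
  simp at h
  rcases h with h | h
  · exact FA_S24_DjHol_ne_zero h
  · exact FA_S24_discHol_ne_zero h

/-- `ord (D j) = 2 ord E₄ + ord E₆`. -/
theorem FA_S24_ordHol_Dj (z₀ : ℍ) :
    FA_Mero_ordHol z₀ (FA_Mero_DHol FA_S24_jHol)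
      = 2 * FA_Mero_ordHol z₀ FA_S24_E4Hol + FA_Mero_ordHol z₀ FA_S24_E6Hol := by
  obtain ⟨c, hc, h⟩ := FA_S24_exists_DjHol
  have h1 := congrArg (FA_Mero_ordHol z₀) h
  have hcne : algebraMap ℂ FA_Mero_Hol c ≠ 0 := by
    intro h0
    exact hc ((map_eq_zero_iff _ (algebraMap ℂ FA_Mero_Hol).injective).mp h0)
  rw [FA_Mero_ordHol_mul z₀ FA_S24_DjHol_ne_zero FA_S24_discHol_ne_zero, FA_S24_ordHol_disc,
    Algebra.smul_def, FA_Mero_ordHol_mul z₀ hcne
      (mul_ne_zero (pow_ne_zero 2 FA_S24_E4Hol_ne_zero) FA_S24_E6Hol_ne_zero),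
    FA_Mero_ordHol_algebraMap z₀ hc,
    FA_Mero_ordHol_mul z₀ (pow_ne_zero 2 FA_S24_E4Hol_ne_zero) FA_S24_E6Hol_ne_zero,
    pow_two, FA_Mero_ordHol_mul z₀ FA_S24_E4Hol_ne_zero FA_S24_E4Hol_ne_zero] at h1
  omega

/-- The ramification index of `j` at `z₀`. -/
def FA_S24_eJ (c : ℂ) : ℕ :=
  letI := Classical.propDecidable
  if c = 0 then 3 else if c = 1728 then 2 else 1

/-- **C3**: the order of `j - j z₀` at `z₀` is `3`, `2` or `1` according to
`j z₀ = 0`, `j z₀ = 1728` or neither. -/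
theorem FA_S24_ordHol_j_sub (z₀ : ℍ) :
    FA_Mero_ordHol z₀ (FA_S24_jHol - algebraMap ℂ FA_Mero_Hol (FA_S24_j z₀))
      = FA_S24_eJ (FA_S24_j z₀) := by
  classical
  have hD := FA_Mero_ordHol_DHol FA_S24_jHol z₀ (FA_S24_jHol_sub_ne_zero _)
  have hDj := FA_S24_ordHol_Dj z₀
  have hΔ := discriminant_ne_zero z₀
  have hrel := discriminant_eq_E₄_cube_sub_E₆_sq z₀
  change FA_Mero_ordHol z₀ (FA_Mero_DHol FA_S24_jHol) + 1
    = FA_Mero_ordHol z₀ (FA_S24_jHol - algebraMap ℂ FA_Mero_Hol (FA_S24_j z₀)) at hD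
  unfold FA_S24_eJ
  by_cases h0 : FA_S24_j z₀ = 0
  · -- `E₄ z₀ = 0`, `E₆ z₀ ≠ 0`
    rw [if_pos h0]
    have hE4 : E₄ z₀ = 0 := by
      unfold FA_S24_j at h0
      rcases div_eq_zero_iff.mp h0 with h | h
      · exact pow_eq_zero_iff (by norm_num) |>.mp h
      · exact absurd h hΔ
    have hE6 : E₆ z₀ ≠ 0 := by
      intro h6
      rw [hE4, h6] at hrel
      simp at hrel
      exact hΔ hrel
    have h6 : FA_Mero_ordHol z₀ FA_S24_E6Hol = 0 :=
      (FA_Mero_ordHol_eq_zero_iff z₀ FA_S24_E6Hol_ne_zero).mpr hE6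
    have h3 := congrArg (FA_Mero_ordHol z₀) FA_S24_jHol_mul_disc
    have hj0 : FA_S24_jHol ≠ 0 := by
      have := FA_S24_jHol_sub_ne_zero 0
      simpa using this
    rw [FA_Mero_ordHol_mul z₀ hj0 FA_S24_discHol_ne_zero, FA_S24_ordHol_disc, pow_succ, pow_two,
      FA_Mero_ordHol_mul z₀ (mul_ne_zero FA_S24_E4Hol_ne_zero FA_S24_E4Hol_ne_zero)
        FA_S24_E4Hol_ne_zero,
      FA_Mero_ordHol_mul z₀ FA_S24_E4Hol_ne_zero FA_S24_E4Hol_ne_zero] at h3
    rw [h0, map_zero, sub_zero] at hD ⊢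
    omega
  · rw [if_neg h0]
    by_cases h1 : FA_S24_j z₀ = 1728
    · rw [if_pos h1]
      have hE6 : E₆ z₀ = 0 := by
        have := FA_S24_j_sub_eq z₀
        rw [h1, sub_self] at this
        rcases div_eq_zero_iff.mp this.symm with h | h
        · exact pow_eq_zero_iff (by norm_num) |>.mp h
        · exact absurd h hΔ
      have hE4 : E₄ z₀ ≠ 0 := by
        intro h4
        rw [hE6, h4] at hrel
        simp at hrel
        exact hΔ hrel
      have h4 : FA_Mero_ordHol z₀ FA_S24_E4Hol = 0 :=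
        (FA_Mero_ordHol_eq_zero_iff z₀ FA_S24_E4Hol_ne_zero).mpr hE4
      have h3 := congrArg (FA_Mero_ordHol z₀) FA_S24_jHol_sub_mul_disc
      rw [FA_Mero_ordHol_mul z₀ (FA_S24_jHol_sub_ne_zero _) FA_S24_discHol_ne_zero,
        FA_S24_ordHol_disc, pow_two,
        FA_Mero_ordHol_mul z₀ FA_S24_E6Hol_ne_zero FA_S24_E6Hol_ne_zero] at h3
      rw [h1] at hD ⊢
      omega
    · rw [if_neg h1]
      have hE4 : E₄ z₀ ≠ 0 := by
        intro h4
        apply h0
        unfold FA_S24_j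
        rw [h4]
        simp
      have hE6 : E₆ z₀ ≠ 0 := by
        intro h6
        apply h1
        have := FA_S24_j_sub_eq z₀
        rw [h6] at this
        simp at this
        linear_combination this
      have h4 : FA_Mero_ordHol z₀ FA_S24_E4Hol = 0 :=
        (FA_Mero_ordHol_eq_zero_iff z₀ FA_S24_E4Hol_ne_zero).mpr hE4
      have h6 : FA_Mero_ordHol z₀ FA_S24_E6Hol = 0 :=
        (FA_Mero_ordHol_eq_zero_iff z₀ FA_S24_E6Hol_ne_zero).mpr hE6
      omega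

end Fermat.Agent.S24
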