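import Mathlib
import Fermat.Agent.S24.Interface
import Fermat.Agent.Lib.RR.Interface

/-!
# S24 layer A: internal interface (owner helper2)

`FA_S24_Target_RH` is split into
* `FA_S24_Target_A_degree` + `FA_S24_Target_A_count` : Galois theory of places (A5),
* the assembly (A6, `S24/ARH.lean`), which uses the RR library `Fermat/Agent/Lib/RR/*`.
-/

set_option autoImplicit false

noncomputable section

namespace Fermat.Agent.S24

open AlgebraicCurve

/-- **A5a** (Galois theory): in the situation of `FA_S24_Target_RH`, `F` is a function field and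
`[F : K(x)] = [Γ : H]`. -/
def FA_S24_Target_A_degree : Prop :=
  ∀ (K F E Γ : Type) [Field K] [IsAlgClosed K] [CharZero K] [Field F] [Algebra K F]
    [Field E] [Algebra K E] [Algebra F E] [IsScalarTower K F E] [Group Γ]
    (φ : Γ →* (E ≃ₐ[K] E)) (_hfin : (Set.range φ).Finite)
    (x : F) (_hx : Transcendental K x)
    (_hxΓ : ∀ γ : Γ, φ γ (algebraMap F E x) = algebraMap F E x)
    (_hfixΓ : ∀ e : E, (∀ γ : Γ, φ γ e = e) →
      ∃ f : F, f ∈ IntermediateField.adjoin K {x} ∧ algebraMap F E f = e)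
    (H : Subgroup Γ) (_hker : φ.ker ≤ H)
    (_hH : ∀ γ ∈ H, ∀ f : F, φ γ (algebraMap F E f) = algebraMap F E f)
    (_hfixH : ∀ e : E, (∀ γ ∈ H, φ γ e = e) → e ∈ Set.range (algebraMap F E)),
    FA_RR_IsFF K F ∧ Module.finrank (IntermediateField.adjoin K {x}) F = H.index

/-- **A5b** (Galois counting of places): in the situation of `FA_S24_Target_RH`, if a place `w`
of `E` over `x = 0` is fixed by `I` and `e(w) ≤ #φ(I)`, then the number of places of `F` over
`x = 0` is the number of orbits of `I` on `Γ ⧸ H`. -/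
def FA_S24_Target_A_count : Prop :=
  ∀ (K F E Γ : Type) [Field K] [IsAlgClosed K] [CharZero K] [Field F] [Algebra K F]
    [Field E] [Algebra K E] [Algebra F E] [IsScalarTower K F E] [Group Γ]
    (φ : Γ →* (E ≃ₐ[K] E)) (_hfin : (Set.range φ).Finite)
    (x : F) (_hx : Transcendental K x)
    (_hxΓ : ∀ γ : Γ, φ γ (algebraMap F E x) = algebraMap F E x)
    (_hfixΓ : ∀ e : E, (∀ γ : Γ, φ γ e = e) →
      ∃ f : F, f ∈ IntermediateField.adjoin K {x} ∧ algebraMap F E f = e)
    (H : Subgroup Γ) (_hker : φ.ker ≤ H)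
    (_hH : ∀ γ ∈ H, ∀ f : F, φ γ (algebraMap F E f) = algebraMap F E f)
    (_hfixH : ∀ e : E, (∀ γ ∈ H, φ γ e = e) → e ∈ Set.range (algebraMap F E))
    (I : Subgroup Γ) (w : Place K E)
    (_hw : 0 < w.ord (algebraMap F E x))
    (_hI : ∀ γ ∈ I, ∀ e : E, w.ord (φ γ e) = w.ord e)
    (_he : w.ord (algebraMap F E x) ≤ (Nat.card (I.map φ) : ℤ)),
    Nat.card {v : Place K F // 0 < v.ord x} = FA_S24_orbits I H

end Fermat.Agent.S24

end
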