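import Mathlib
import Fermat.Agent.S24.AInterface
import Fermat.Agent.Lib.RR.SumZeros

/-!
# S24 layer A5a: the degree `[F : K(x)] = [Γ : H]` (Artin's theorem)
-/

set_option autoImplicit false
set_option linter.style.haveILetI false

noncomputable section

namespace Fermat.Agent.S24

open AlgebraicCurve IntermediateField

section
variable {K F E Γ : Type} [Field K] [Field F] [Algebra K F]
    [Field E] [Algebra K E] [Algebra F E] [IsScalarTower K F E] [Group Γ]
    (φ : Γ →* (E ≃ₐ[K] E))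

/-- elements of `K(x)` are fixed by `Γ` -/
theorem FA_S24_fixed_of_mem_adjoin {x : F}
    (hxΓ : ∀ γ : Γ, φ γ (algebraMap F E x) = algebraMap F E x) (γ : Γ) {f : F}
    (hf : f ∈ K⟮x⟯) : φ γ (algebraMap F E f) = algebraMap F E f := by
  induction hf using IntermediateField.adjoin_induction with
  | mem y hy =>
    rw [Set.mem_singleton_iff] at hy
    subst hy
    exact hxΓ γ
  | algebraMap c =>
    rw [← IsScalarTower.algebraMap_apply K F E, AlgEquiv.commutes]
  | add a b _ _ ha hb => rw [map_add, map_add, ha, hb]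
  | inv a _ ha => rw [map_inv₀, map_inv₀, ha]
  | mul a b _ _ ha hb => rw [map_mul, map_mul, ha, hb]

/-- `φ(H)` is a Galois group for `E / F₀` as soon as `F₀` is its fixed field. -/
theorem FA_S24_isGaloisGroup_map (F₀ : Type) [Field F₀] [Algebra F₀ E] (H : Subgroup Γ)
    (hH : ∀ γ ∈ H, ∀ f : F₀, φ γ (algebraMap F₀ E f) = algebraMap F₀ E f)
    (hfixH : ∀ e : E, (∀ γ ∈ H, φ γ e = e) → e ∈ Set.range (algebraMap F₀ E)) :
    IsGaloisGroup (H.map φ) F₀ E where
  faithful := inferInstance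
  commutes := ⟨by
    rintro ⟨g, γ, hγ, rfl⟩ a e
    show φ γ (a • e) = a • φ γ e
    rw [Algebra.smul_def, Algebra.smul_def, map_mul, hH γ hγ]⟩
  isInvariant := ⟨by
    intro e he
    refine hfixH e fun γ hγ => ?_
    exact he ⟨φ γ, γ, hγ, rfl⟩⟩

theorem FA_S24_finite_map (hfin : (Set.range φ).Finite) (H : Subgroup Γ) :
    Finite (H.map φ) := by
  refine Set.Finite.subset hfin ?_
  rintro g ⟨γ, -, rfl⟩
  exact ⟨γ, rfl⟩

theorem FA_S24_card_map_mul_index (H : Subgroup Γ) (hker : φ.ker ≤ H) :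
    Nat.card (H.map φ) * H.index = Nat.card (φ.range) := by
  rw [← Subgroup.relIndex_ker, Subgroup.relIndex_mul_index hker, Subgroup.index_ker]

end

theorem FA_S24_A_degree : FA_S24_Target_A_degree := by
  intro K F E Γ _ _ _ _ _ _ _ _ _ _ φ hfin x hx hxΓ hfixΓ H hker hH hfixH
  -- the two Galois groups
  have hG1 : IsGaloisGroup ((⊤ : Subgroup Γ).map φ) K⟮x⟯ E := by
    refine FA_S24_isGaloisGroup_map φ K⟮x⟯ ⊤ ?_ ?_
    · intro γ _ f
      exact FA_S24_fixed_of_mem_adjoin φ hxΓ γ f.2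
    · intro e he
      obtain ⟨f, hf, hfe⟩ := hfixΓ e fun γ => he γ (Subgroup.mem_top γ)
      exact ⟨⟨f, hf⟩, hfe⟩
  have hG2 : IsGaloisGroup (H.map φ) F E := FA_S24_isGaloisGroup_map φ F H hH hfixH
  haveI := FA_S24_finite_map φ hfin ⊤
  haveI := FA_S24_finite_map φ hfin H
  have hc1 := IsGaloisGroup.card_eq_finrank ((⊤ : Subgroup Γ).map φ) K⟮x⟯ E
  have hc2 := IsGaloisGroup.card_eq_finrank (H.map φ) F E
  haveI : FiniteDimensional K⟮x⟯ E := IsGaloisGroup.finiteDimensional ((⊤ : Subgroup Γ).map φ) _ _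
  haveI : FiniteDimensional K⟮x⟯ F := FiniteDimensional.left K⟮x⟯ F E
  refine ⟨⟨x, hx, inferInstance⟩, ?_⟩
  have htower := Module.finrank_mul_finrank K⟮x⟯ F E
  have hidx := FA_S24_card_map_mul_index φ H hker
  rw [MonoidHom.range_eq_map] at hidx
  rw [← hc1, ← hc2, ← hidx, mul_comm] at htower
  have hpos : 0 < Nat.card (H.map φ) := Nat.card_pos
  exact Nat.eq_of_mul_eq_mul_left hpos htower

end Fermat.Agent.S24

end
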