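import Mathlib
import Fermat.Agent.S24.AInterface
import Fermat.Agent.Lib.RR.Hurwitz
import Fermat.Prelude.Def_AlgebraicCurve_DivisorPushPull

/-!
# S24 layer A5b, part 1: automorphisms acting on places

* `FA_S24_ord_apply` : `ord_w (σ f) = ord_{σ⁻¹ w} f`
* `FA_S24_smul_eq_of_ord` : `σ` fixes `w` if it preserves `ord_w`
* `FA_S24_ord_ratfunc` : `ord_w (r(x)) = m · ord_w x` at the zeros of `x`
* `FA_S24_exists_smul_eq` : transitivity of a finite group on the places over a place of the
  fixed field (prime avoidance + norm)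
* `FA_S24_exists_restrict_eq` : lying over
-/

set_option autoImplicit false
set_option linter.style.haveILetI false

noncomputable section

namespace Fermat.Agent.S24

open AlgebraicCurve IntermediateField IsDedekindDomain

section Basic

variable {K E : Type*} [Field K] [Field E] [Algebra K E]

theorem FA_S24_ord_apply (σ : E ≃ₐ[K] E) (w : Place K E) (f : E) :
    w.ord (σ f) = (σ⁻¹ • w).ord f := by
  have h := Place.ord_smul σ (σ⁻¹ • w) f
  rwa [smul_inv_smul] at h

theorem FA_S24_mem_smul_iff (σ : E ≃ₐ[K] E) (w : Place K E) (f : E) :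
    f ∈ (σ • w).toValuationSubring ↔ σ⁻¹ f ∈ w.toValuationSubring := by
  rw [Place.smul_toValuationSubring, ValuationSubring.mem_pointwise_smul_iff_inv_smul_mem]
  rfl

theorem FA_S24_apply_mem_smul (σ : E ≃ₐ[K] E) (w : Place K E) {f : E}
    (hf : f ∈ w.toValuationSubring) : σ f ∈ (σ • w).toValuationSubring := by
  rw [FA_S24_mem_smul_iff]
  have : σ⁻¹ (σ f) = f := σ.symm_apply_apply f
  rw [this]
  exact hf

/-- `σ` fixes the place `w` as soon as it preserves `ord_w`. -/
theorem FA_S24_smul_eq_of_ord (σ : E ≃ₐ[K] E) (w : Place K E)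
    (h : ∀ e : E, w.ord (σ e) = w.ord e) : σ • w = w := by
  apply Place.ext
  ext f
  rw [FA_S24_mem_smul_iff, FA_RR.mem_iff_ord, FA_RR.mem_iff_ord]
  have h1 : w.ord f = w.ord (σ⁻¹ f) := by
    have := h (σ⁻¹ f)
    have h2 : σ (σ⁻¹ f) = f := σ.apply_symm_apply f
    rw [h2] at this
    exact this
  rw [h1]
  constructor
  · rintro (h0 | h0)
    · left
      have h2 : σ (σ⁻¹ f) = f := σ.apply_symm_apply f
      rw [← h2, h0, map_zero]
    · exact Or.inr h0
  · rintro (h0 | h0)
    · left
      rw [h0, map_zero]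
    · exact Or.inr h0

theorem FA_S24_ord_smul_of_fixed (σ : E ≃ₐ[K] E) (w : Place K E) {x : E} (hx : σ x = x) :
    (σ • w).ord x = w.ord x := by
  have := Place.ord_smul σ w x
  rwa [hx] at this

theorem FA_S24_ord_prod {ι : Type*} (s : Finset ι) (f : ι → E) (hf : ∀ i ∈ s, f i ≠ 0)
    (w : Place K E) : w.ord (∏ i ∈ s, f i) = ∑ i ∈ s, w.ord (f i) := by
  classical
  induction s using Finset.induction_on with
  | empty => simp
  | insert a s ha ih =>
    rw [Finset.prod_insert ha, Finset.sum_insert ha,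
      w.ord_mul (hf a (Finset.mem_insert_self a s))
        (Finset.prod_ne_zero_iff.mpr fun i hi => hf i (Finset.mem_insert_of_mem hi)),
      ih fun i hi => hf i (Finset.mem_insert_of_mem hi)]

theorem FA_S24_aeval_mem (w : Place K E) {x : E} (hx : x ∈ w.toValuationSubring)
    (p : Polynomial K) : Polynomial.aeval x p ∈ w.toValuationSubring := by
  have h1 : Polynomial.aeval x p ∈ Algebra.adjoin K {x} :=
    Polynomial.aeval_mem_adjoin_singleton K x
  exact FA_RR.adjoin_le_placeSubalgebra (K := K) hx h1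

/-- `ord_w p(x) = 0` if `p(0) ≠ 0` and `ord_w x > 0` -/
theorem FA_S24_ord_aeval_of_coeff_zero_ne (w : Place K E) {x : E} (hx : 0 < w.ord x)
    (p : Polynomial K) (hp : p.coeff 0 ≠ 0) :
    Polynomial.aeval x p ≠ 0 ∧ w.ord (Polynomial.aeval x p) = 0 := by
  have hx0 : x ≠ 0 := by
    rintro rfl
    simp at hx
  have hxm : x ∈ w.toValuationSubring := (FA_RR.mem_iff_ord w).mpr (Or.inr hx.le)
  have hdec : Polynomial.aeval x p =
      algebraMap K E (p.coeff 0) + Polynomial.aeval x p.divX * x := by
    conv_lhs => rw [← Polynomial.divX_mul_X_add p]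
    rw [map_add, map_mul, Polynomial.aeval_X, Polynomial.aeval_C, add_comm]
  have hc : algebraMap K E (p.coeff 0) ≠ 0 := by
    simpa using hp
  have hlt : Polynomial.aeval x p.divX * x = 0 ∨
      w.ord (algebraMap K E (p.coeff 0)) < w.ord (Polynomial.aeval x p.divX * x) := by
    by_cases h0 : Polynomial.aeval x p.divX = 0
    · left; rw [h0, zero_mul]
    · right
      rw [FA_RR.ord_algebraMap, w.ord_mul h0 hx0]
      have := (FA_RR.mem_iff_ord w).mp (FA_S24_aeval_mem w hxm p.divX)
      rcases this with h | h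
      · exact absurd h h0
      · omega
  have hord := FA_RR.ord_add_eq_of_lt w hc hlt
  rw [← hdec, FA_RR.ord_algebraMap] at hord
  refine ⟨?_, hord⟩
  intro h0
  rw [hdec] at h0
  rcases hlt with h | h
  · rw [h, add_zero] at h0
    exact hc h0
  · have h1 : Polynomial.aeval x p.divX * x = -algebraMap K E (p.coeff 0) :=
      eq_neg_of_add_eq_zero_right h0
    rw [h1, FA_RR.ord_neg] at h
    exact lt_irrefl _ h

/-- `ord_w p(x) = mult₀(p) · ord_w x` if `ord_w x > 0` -/
theorem FA_S24_ord_aeval (w : Place K E) {x : E} (hx : 0 < w.ord x)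
    (p : Polynomial K) (hp : p ≠ 0) :
    Polynomial.aeval x p ≠ 0 ∧
      w.ord (Polynomial.aeval x p) = (Polynomial.rootMultiplicity 0 p : ℤ) * w.ord x := by
  have hx0 : x ≠ 0 := by
    rintro rfl
    simp at hx
  obtain ⟨q, hq, hnd⟩ := Polynomial.exists_eq_pow_rootMultiplicity_mul_and_not_dvd p hp 0
  rw [map_zero, sub_zero] at hq hnd
  have hq0 : q.coeff 0 ≠ 0 := fun h => hnd (Polynomial.X_dvd_iff.mpr h)
  obtain ⟨h1, h2⟩ := FA_S24_ord_aeval_of_coeff_zero_ne w hx q hq0
  have hdec : Polynomial.aeval x p = x ^ (Polynomial.rootMultiplicity 0 p) *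
      Polynomial.aeval x q := by
    conv_lhs => rw [hq]
    rw [map_mul, map_pow, Polynomial.aeval_X]
  refine ⟨?_, ?_⟩
  · rw [hdec]
    exact mul_ne_zero (pow_ne_zero _ hx0) h1
  · rw [hdec, w.ord_mul (pow_ne_zero _ hx0) h1, h2, add_zero, ← zpow_natCast, w.ord_zpow]

/-- For `f ∈ K(x)`, the order of `f` at a zero `w` of `x` is `m · ord_w x` with `m` independent
of `w`. -/
theorem FA_S24_ord_ratfunc {x f : E} (hf : f ∈ K⟮x⟯) :
    ∃ m : ℤ, ∀ w : Place K E, 0 < w.ord x → w.ord f = m * w.ord x := by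
  obtain ⟨p, q, rfl⟩ := (IntermediateField.mem_adjoin_simple_iff K f).mp hf
  by_cases hp : p = 0
  · refine ⟨0, fun w _ => ?_⟩
    rw [hp, map_zero, zero_div, zero_mul]
    exact w.ord_zero
  by_cases hq : q = 0
  · refine ⟨0, fun w _ => ?_⟩
    rw [hq, map_zero, div_zero, zero_mul]
    exact w.ord_zero
  refine ⟨(Polynomial.rootMultiplicity 0 p : ℤ) - (Polynomial.rootMultiplicity 0 q : ℤ),
    fun w hw => ?_⟩
  obtain ⟨hp1, hp2⟩ := FA_S24_ord_aeval w hw p hp
  obtain ⟨hq1, hq2⟩ := FA_S24_ord_aeval w hw q hq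
  rw [div_eq_mul_inv, w.ord_mul hp1 (inv_ne_zero hq1), w.ord_inv, hp2, hq2]
  ring

end Basic

section Trans

variable {K E : Type*} [Field K] [Field E] [Algebra K E] [CharZero K]
  {x : E} (hx : Transcendental K x) [FiniteDimensional K⟮x⟯ E]
include hx

/-- prime avoidance in the chart ring -/
theorem FA_S24_exists_mem_not_mem
    (s : Finset (@HeightOneSpectrum (FA_RR.chartRing K x) _))
    (P : @HeightOneSpectrum (FA_RR.chartRing K x) _) (hP : P ∉ s) :
    ∃ z : FA_RR.chartRing K x, z ∈ P.asIdeal ∧ ∀ Q ∈ s, z ∉ Q.asIdeal := by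
  haveI := FA_RR.isDedekindDomain_chartRing hx
  by_contra h
  push Not at h
  have hsub : (P.asIdeal : Set (FA_RR.chartRing K x)) ⊆
      ⋃ Q ∈ (s : Set (@HeightOneSpectrum (FA_RR.chartRing K x) _)), (Q.asIdeal : Set _) := by
    intro z hz
    obtain ⟨Q, hQ, hzQ⟩ := h z hz
    exact Set.mem_biUnion (Finset.mem_coe.mpr hQ) hzQ
  rw [Ideal.subset_union_prime P P (fun Q _ _ _ => Q.isPrime)] at hsub
  obtain ⟨Q, hQ, hle⟩ := hsub
  have : P = Q := HeightOneSpectrum.ext (P.isMaximal.eq_of_le Q.isPrime.ne_top hle)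
  exact hP (this ▸ hQ)

theorem FA_S24_ord_pos_of_mem (P : @HeightOneSpectrum (FA_RR.chartRing K x) _)
    (z : FA_RR.chartRing K x) (hz : z ∈ P.asIdeal) (hz0 : (z : E) ≠ 0) :
    0 < (FA_RR.chartPlace hx P).ord (z : E) := by
  haveI := FA_RR.isDedekindDomain_chartRing hx
  haveI := FA_RR.isFractionRing_chartRing (K := K) x
  have h1 : (FA_RR.chartPlace hx P).adicValuation (z : E) < 1 := by
    rw [FA_RR.chartPlace_adicValuation]
    exact (P.valuation_lt_one_iff_mem z).mpr hz
  rcases (FA_RR.adicValuation_lt_one_iff _).mp h1 with h | h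
  · exact absurd h hz0
  · exact h

theorem FA_S24_ord_eq_zero_of_not_mem (P : @HeightOneSpectrum (FA_RR.chartRing K x) _)
    (z : FA_RR.chartRing K x) (hz : z ∉ P.asIdeal) :
    (FA_RR.chartPlace hx P).ord (z : E) = 0 := by
  haveI := FA_RR.isDedekindDomain_chartRing hx
  haveI := FA_RR.isFractionRing_chartRing (K := K) x
  have hz0 : (z : E) ≠ 0 := by
    intro h
    apply hz
    have : z = 0 := Subtype.ext h
    rw [this]
    exact Ideal.zero_mem _
  have h1 : (FA_RR.chartPlace hx P).adicValuation (z : E) = 1 := by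
    rw [FA_RR.chartPlace_adicValuation]
    refine le_antisymm (P.valuation_le_one z) ?_
    by_contra hlt
    push Not at hlt
    exact hz ((P.valuation_lt_one_iff_mem z).mp hlt)
  exact (FA_RR.adicValuation_eq_one_iff _ hz0).mp h1

/-- **Transitivity**: a finite group `G` of automorphisms fixing `x` acts transitively on the
places of `E` (in the chart of `x`) which agree on the `G`-invariants. -/
theorem FA_S24_exists_smul_eq (G : Subgroup (E ≃ₐ[K] E)) [Finite G]
    (hxG : ∀ g ∈ G, g x = x) (w₁ w₂ : Place K E)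
    (h₁ : x ∈ w₁.toValuationSubring) (h₂ : x ∈ w₂.toValuationSubring)
    (hinv : ∀ z : E, (∀ g ∈ G, g z = z) → 0 < w₂.ord z → 0 < w₁.ord z) :
    ∃ g ∈ G, w₂ = g • w₁ := by
  classical
  by_contra hne
  push Not at hne
  cases nonempty_fintype G
  have hmem1 : ∀ g : G, x ∈ ((g : E ≃ₐ[K] E) • w₁).toValuationSubring := fun g => by
    have := FA_S24_apply_mem_smul (g : E ≃ₐ[K] E) w₁ h₁
    rwa [hxG g g.2] at this
  have hmem2 : ∀ g : G, x ∈ ((g : E ≃ₐ[K] E) • w₂).toValuationSubring := fun g => by
    have := FA_S24_apply_mem_smul (g : E ≃ₐ[K] E) w₂ h₂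
    rwa [hxG g g.2] at this
  choose P hP using fun g : G => FA_RR.exists_chartPlace_eq hx _ (hmem1 g)
  obtain ⟨P₂, hP₂⟩ := FA_RR.exists_chartPlace_eq hx w₂ h₂
  have hnot : P₂ ∉ Finset.univ.image P := by
    intro h
    obtain ⟨g, -, hg⟩ := Finset.mem_image.mp h
    apply hne g g.2
    rw [← hP₂, ← hg, hP g]
  obtain ⟨z, hz2, hz1⟩ := FA_S24_exists_mem_not_mem hx _ P₂ hnot
  have hz1' : ∀ g : G, ((g : E ≃ₐ[K] E) • w₁).ord (z : E) = 0 := fun g => by
    rw [← hP g]
    exact FA_S24_ord_eq_zero_of_not_mem hx _ z (hz1 _ (Finset.mem_image_of_mem P (Finset.mem_univ g)))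
  have hz0 : (z : E) ≠ 0 := by
    intro h
    apply hz1 (P 1) (Finset.mem_image_of_mem P (Finset.mem_univ 1))
    have : z = 0 := Subtype.ext h
    rw [this]
    exact Ideal.zero_mem _
  have hz2' : 0 < w₂.ord (z : E) := by
    rw [← hP₂]
    exact FA_S24_ord_pos_of_mem hx _ z hz2 hz0
  have hz3 : ∀ g : G, 0 ≤ ((g : E ≃ₐ[K] E) • w₂).ord (z : E) := fun g => by
    rcases (FA_RR.mem_iff_ord _).mp (FA_RR.chartRing_le _ (hmem2 g) z) with h | h
    · exact absurd h hz0
    · exact h
  -- the norm
  set N : E := ∏ g : G, (g : E ≃ₐ[K] E) (z : E) with hN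
  have hNinv : ∀ g ∈ G, g N = N := by
    intro g hg
    exact Finset.smul_prod_perm (z : E) (⟨g, hg⟩ : G)
  have hterm : ∀ g : G, (g : E ≃ₐ[K] E) (z : E) ≠ 0 := fun g => by
    simpa using hz0
  have hord : ∀ w : Place K E, w.ord N = ∑ g : G, (((g⁻¹ : G) : E ≃ₐ[K] E) • w).ord (z : E) := by
    intro w
    rw [hN, FA_S24_ord_prod _ _ (fun g _ => hterm g)]
    refine Finset.sum_congr rfl fun g _ => ?_
    rw [FA_S24_ord_apply]
    rfl
  have h1 : w₁.ord N = 0 := by
    rw [hord]
    exact Finset.sum_eq_zero fun g _ => hz1' g⁻¹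
  have h2 : 0 < w₂.ord N := by
    rw [hord]
    refine Finset.sum_pos' (fun g _ => hz3 g⁻¹) ⟨1, Finset.mem_univ 1, ?_⟩
    simpa using hz2'
  have := hinv N hNinv h2
  omega

end Trans

section LyingOver

variable {K F E : Type*} [Field K] [CharZero K] [Field F] [Algebra K F] [Field E] [Algebra K E]
  [Algebra F E] [IsScalarTower K F E] [FiniteDimensional F E]

/-- **Lying over**: every place of `F` is the restriction of a place of `E`. -/
theorem FA_S24_exists_restrict_eq (v : Place K F) : ∃ w : Place K E, w.restrict F = v := by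
  haveI : CharZero F := charZero_of_injective_algebraMap (algebraMap K F).injective
  letI : Algebra v.toValuationSubring E :=
    ((algebraMap F E).comp (algebraMap v.toValuationSubring F)).toAlgebra
  haveI : IsScalarTower v.toValuationSubring F E := IsScalarTower.of_algebraMap_eq fun _ => rfl
  haveI : IsDedekindDomain (integralClosure v.toValuationSubring E) :=
    integralClosure.isDedekindDomain v.toValuationSubring F E
  haveI : IsFractionRing (integralClosure v.toValuationSubring E) E :=
    integralClosure.isFractionRing_of_finite_extension F E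
  letI : Algebra K (integralClosure v.toValuationSubring E) :=
    ((algebraMap v.toValuationSubring (integralClosure v.toValuationSubring E)).comp
      (algebraMap K v.toValuationSubring)).toAlgebra
  haveI : IsScalarTower K (integralClosure v.toValuationSubring E) E :=
    IsScalarTower.of_algebraMap_eq fun c => by
      rw [IsScalarTower.algebraMap_apply K F E]
      rfl
  -- the integral closure is not a field
  have hinj : Function.Injective
      (algebraMap v.toValuationSubring (integralClosure v.toValuationSubring E)) := by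
    intro a b hab
    have h1 : algebraMap F E (a : F) = algebraMap F E (b : F) :=
      congrArg (fun c : integralClosure v.toValuationSubring E => (c : E)) hab
    exact Subtype.ext ((algebraMap F E).injective h1)
  have hnf : ¬ IsField (integralClosure v.toValuationSubring E) := fun hf =>
    ValuationSubring.not_isField_of_ne_top F v.ne_top'
      (isField_of_isIntegral_of_isField hinj hf)
  obtain ⟨M, hM⟩ := Ideal.exists_maximal (integralClosure v.toValuationSubring E)
  have hM0 : M ≠ ⊥ := Ring.ne_bot_of_isMaximal_of_not_isField hM hnf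
  let Q : HeightOneSpectrum (integralClosure v.toValuationSubring E) := ⟨M, hM.isPrime, hM0⟩
  refine ⟨Place.ofHeightOneSpectrum (K := K) (F := E) Q, ?_⟩
  apply Place.ext
  symm
  refine ValuationSubring.eq_of_le_of_ne_top _ ?_ (Place.ne_top' _)
  intro f hf
  rw [Place.mem_restrict_iff, Place.ofHeightOneSpectrum_toValuationSubring,
    Valuation.mem_valuationSubring_iff]
  exact Q.valuation_le_one
    (algebraMap v.toValuationSubring (integralClosure v.toValuationSubring E) ⟨f, hf⟩)

end LyingOver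

end Fermat.Agent.S24

end
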