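import Mathlib
import Fermat.Agent.S24.APlaces
import Fermat.Agent.S24.ADegree

/-!
# S24 layer A5b: counting the places of `F` over `x = 0` by double cosets
-/

set_option autoImplicit false
set_option linter.style.haveILetI false

noncomputable section

namespace Fermat.Agent.S24

open AlgebraicCurve IntermediateField

/-- two surjections with the same fibres have targets of the same cardinality -/
theorem FA_S24_card_eq_of_fibres {Γ A B : Type*} (p : Γ → A) (q : Γ → B)
    (hp : Function.Surjective p) (hq : Function.Surjective q)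
    (h : ∀ γ γ', p γ = p γ' ↔ q γ = q γ') : Nat.card A = Nat.card B := by
  refine Nat.card_congr (Equiv.ofBijective (fun a => q (Function.surjInv hp a)) ⟨?_, ?_⟩)
  · intro a a' haa
    have := (h _ _).mpr haa
    rwa [Function.surjInv_eq hp, Function.surjInv_eq hp] at this
  · intro b
    obtain ⟨γ, rfl⟩ := hq b
    exact ⟨p γ, (h _ _).mp (Function.surjInv_eq hp (p γ))⟩

section Count

variable {K F E Γ : Type} [Field K] [IsAlgClosed K] [CharZero K] [Field F] [Algebra K F]
    [Field E] [Algebra K E] [Algebra F E] [IsScalarTower K F E] [Group Γ]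
    (φ : Γ →* (E ≃ₐ[K] E))

omit [IsAlgClosed K] [CharZero K] in
theorem FA_S24_mem_adjoin_map {x f : F} (hf : f ∈ K⟮x⟯) :
    algebraMap F E f ∈ K⟮algebraMap F E x⟯ := by
  have h := IntermediateField.adjoin_map K {x} (IsScalarTower.toAlgHom K F E)
  rw [Set.image_singleton] at h
  have h2 : algebraMap F E f ∈ (K⟮x⟯).map (IsScalarTower.toAlgHom K F E) :=
    ⟨f, hf, rfl⟩
  rw [h] at h2
  exact h2

/-- `E` is a function field and `[E : K(x)] = #φ(Γ)`. -/
theorem FA_S24_isFF_top (hfin : (Set.range φ).Finite)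
    (x : F) (hx : Transcendental K x)
    (hxΓ : ∀ γ : Γ, φ γ (algebraMap F E x) = algebraMap F E x)
    (hfixΓ : ∀ e : E, (∀ γ : Γ, φ γ e = e) →
      ∃ f : F, f ∈ IntermediateField.adjoin K {x} ∧ algebraMap F E f = e) :
    FA_RR_IsFF K E ∧ Module.finrank K⟮algebraMap F E x⟯ E = Nat.card φ.range := by
  have hxE : Transcendental K (algebraMap F E x) :=
    (transcendental_algebraMap_iff (algebraMap F E).injective).mpr hx
  have := FA_S24_A_degree K E E Γ φ hfin (algebraMap F E x) hxE hxΓ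
    (fun e he => by
      obtain ⟨f, hf, hfe⟩ := hfixΓ e he
      exact ⟨e, hfe ▸ FA_S24_mem_adjoin_map hf, rfl⟩)
    φ.ker le_rfl
    (fun γ hγ f => by
      rw [MonoidHom.mem_ker] at hγ
      rw [hγ]
      rfl)
    (fun e _ => ⟨e, rfl⟩)
  rw [Subgroup.index_ker] at this
  exact this

omit [IsAlgClosed K] [CharZero K] in
/-- automorphisms fixing `F` do not change the restriction to `F` -/
theorem FA_S24_restrict_smul [Algebra.IsIntegral F E] (σ : E ≃ₐ[K] E)
    (hσ : ∀ f : F, σ (algebraMap F E f) = algebraMap F E f) (w : Place K E) :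
    (σ • w).restrict F = w.restrict F := by
  apply Place.ext
  ext f
  rw [Place.mem_restrict_iff, Place.mem_restrict_iff, FA_S24_mem_smul_iff]
  have : σ⁻¹ (algebraMap F E f) = algebraMap F E f := by
    have h := hσ f
    exact (σ.symm_apply_eq).mpr h.symm
  rw [this]

omit [IsAlgClosed K] [CharZero K] [Algebra K F] [IsScalarTower K F E] in
theorem FA_S24_orbit_eq_iff (I H : Subgroup Γ) (γ γ' : Γ) :
    (Quotient.mk'' (γ : Γ ⧸ H) : MulAction.orbitRel.Quotient I (Γ ⧸ H)) =
        Quotient.mk'' (γ' : Γ ⧸ H)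
      ↔ ∃ i ∈ I, (i * γ')⁻¹ * γ ∈ H := by
  rw [Quotient.eq'', MulAction.orbitRel_apply, MulAction.mem_orbit_iff]
  constructor
  · rintro ⟨i, hi⟩
    refine ⟨i, i.2, ?_⟩
    have : ((i : Γ) * γ' : Γ ⧸ H) = (γ : Γ ⧸ H) := hi
    exact QuotientGroup.eq.mp this
  · rintro ⟨i, hi, h⟩
    exact ⟨⟨i, hi⟩, QuotientGroup.eq.mpr h⟩

end Count

theorem FA_S24_A_count : FA_S24_Target_A_count := by
  intro K F E Γ _ _ _ _ _ _ _ _ _ _ φ hfin x hx hxΓ hfixΓ H hker hH hfixH I w hw hI he
  classical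
  have hxE : Transcendental K (algebraMap F E x) :=
    (transcendental_algebraMap_iff (algebraMap F E).injective).mpr hx
  obtain ⟨hFE, hcardG⟩ := FA_S24_isFF_top φ hfin x hx hxΓ hfixΓ
  haveI : FiniteDimensional K⟮algebraMap F E x⟯ E := FA_RR.finiteDimensional_adjoin hFE hxE
  have hG2 : IsGaloisGroup (H.map φ) F E := FA_S24_isGaloisGroup_map φ F H hH hfixH
  haveI hfinH : Finite (H.map φ) := FA_S24_finite_map φ hfin H
  haveI hfinI : Finite (I.map φ) := FA_S24_finite_map φ hfin I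
  haveI hfinG : Finite φ.range := hfin
  haveI : FiniteDimensional F E := IsGaloisGroup.finiteDimensional (H.map φ) F E
  have hxne : algebraMap F E x ≠ 0 := by
    intro h
    rw [h] at hw
    simp at hw
  -- (a) transitivity of `Γ` on the zeros of `x`
  have hT1 : ∀ w' : Place K E, 0 < w'.ord (algebraMap F E x) → ∃ γ : Γ, w' = φ γ • w := by
    intro w' hw'
    obtain ⟨g, ⟨γ, rfl⟩, hg⟩ := FA_S24_exists_smul_eq hxE φ.range
      (by rintro g ⟨γ, rfl⟩; exact hxΓ γ) w w'
      ((FA_RR.mem_iff_ord w).mpr (Or.inr hw.le)) ((FA_RR.mem_iff_ord w').mpr (Or.inr hw'.le))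
      (by
        intro z hz hpos
        obtain ⟨f, hf, rfl⟩ := hfixΓ z (fun γ => hz (φ γ) ⟨γ, rfl⟩)
        obtain ⟨m, hm⟩ := FA_S24_ord_ratfunc (K := K) (FA_S24_mem_adjoin_map (E := E) hf)
        rw [hm w' hw'] at hpos
        rw [hm w hw]
        have hm0 : 0 < m := by
          by_contra hneg
          push Not at hneg
          have : m * w'.ord (algebraMap F E x) ≤ 0 :=
            mul_nonpos_of_nonpos_of_nonneg hneg hw'.le
          omega
        exact mul_pos hm0 hw)
    exact ⟨γ, hg⟩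
  -- (b) all ramification indices are equal
  have hord : ∀ γ : Γ, (φ γ • w).ord (algebraMap F E x) = w.ord (algebraMap F E x) :=
    fun γ => FA_S24_ord_smul_of_fixed (φ γ) w (hxΓ γ)
  -- (c) `#zeros * e = #G`
  have hdeg := FA_RR.degree_zeroDiv hFE hxE
  have hsum : Divisor.degree (FA_RR.zeroDiv hFE hxE) =
      ∑ w' ∈ (FA_RR.zeroDiv hFE hxE).support, FA_RR.zeroDiv hFE hxE w' := by
    conv_lhs => rw [← Finsupp.sum_single (FA_RR.zeroDiv hFE hxE)]
    rw [Finsupp.sum, map_sum]
    simp only [Divisor.degree_single, FA_RR.deg_eq_one hFE, Nat.cast_one, mul_one]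
  have hcount : ((FA_RR.zeroDiv hFE hxE).support.card : ℤ) * w.ord (algebraMap F E x) =
      (Nat.card φ.range : ℤ) := by
    rw [← hcardG, ← hdeg, hsum]
    have : ∀ w' ∈ (FA_RR.zeroDiv hFE hxE).support,
        FA_RR.zeroDiv hFE hxE w' = w.ord (algebraMap F E x) := by
      intro w' hw'
      have hpos := (FA_RR.mem_support_zeroDiv hFE hxE w').mp hw'
      obtain ⟨γ, rfl⟩ := hT1 w' hpos
      rw [FA_RR.zeroDiv_apply, max_eq_left hpos.le, hord]
    rw [Finset.sum_congr rfl this, Finset.sum_const, nsmul_eq_mul]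
  -- (d) orbit-stabiliser
  have horb : MulAction.orbit φ.range w = {w' : Place K E | 0 < w'.ord (algebraMap F E x)} := by
    ext w'
    constructor
    · rintro ⟨⟨g, γ, rfl⟩, rfl⟩
      show 0 < (φ γ • w).ord (algebraMap F E x)
      rw [hord]
      exact hw
    · intro hw'
      obtain ⟨γ, rfl⟩ := hT1 w' hw'
      exact ⟨⟨φ γ, γ, rfl⟩, rfl⟩
  have hos : Nat.card (MulAction.stabilizer φ.range w) *
      (FA_RR.zeroDiv hFE hxE).support.card = Nat.card φ.range := by
    rw [FA_RR.card_support_zeroDiv hFE hxE]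
    have h1 := Subgroup.card_mul_index (MulAction.stabilizer φ.range w)
    rw [MulAction.index_stabilizer, horb] at h1
    exact h1
  have hsupp_pos : 0 < (FA_RR.zeroDiv hFE hxE).support.card :=
    Finset.card_pos.mpr ⟨w, (FA_RR.mem_support_zeroDiv hFE hxE w).mpr hw⟩
  have hstab_card : (Nat.card (MulAction.stabilizer φ.range w) : ℤ) =
      w.ord (algebraMap F E x) := by
    have h1 : (Nat.card (MulAction.stabilizer φ.range w) : ℤ) *
        ((FA_RR.zeroDiv hFE hxE).support.card : ℤ) =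
        ((FA_RR.zeroDiv hFE hxE).support.card : ℤ) * w.ord (algebraMap F E x) := by
      rw [hcount]
      exact_mod_cast hos
    have h2 : ((FA_RR.zeroDiv hFE hxE).support.card : ℤ) ≠ 0 := by
      exact_mod_cast hsupp_pos.ne'
    rw [mul_comm] at h1
    exact mul_left_cancel₀ h2 h1
  -- (e) the stabiliser is `φ(I)`
  have hIle : (I.map φ).subgroupOf φ.range ≤ MulAction.stabilizer φ.range w := by
    rintro ⟨g, hg⟩ hmem
    rw [Subgroup.mem_subgroupOf] at hmem
    obtain ⟨i, hi, rfl⟩ := hmem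
    rw [MulAction.mem_stabilizer_iff]
    exact FA_S24_smul_eq_of_ord (φ i) w (hI i hi)
  have hIeq : (I.map φ).subgroupOf φ.range = MulAction.stabilizer φ.range w := by
    refine Subgroup.eq_of_le_of_card_ge hIle ?_
    have hle : I.map φ ≤ φ.range := by
      rintro g ⟨i, -, rfl⟩
      exact ⟨i, rfl⟩
    rw [Nat.card_congr (Subgroup.subgroupOfEquivOfLe hle).toEquiv]
    have : (Nat.card (MulAction.stabilizer φ.range w) : ℤ) ≤ (Nat.card (I.map φ) : ℤ) := by
      rw [hstab_card]
      exact he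
    exact_mod_cast this
  have hstab : ∀ γ : Γ, φ γ • w = w → ∃ i ∈ I, φ i = φ γ := by
    intro γ hγ
    have hmem : (⟨φ γ, γ, rfl⟩ : φ.range) ∈ MulAction.stabilizer φ.range w := by
      rw [MulAction.mem_stabilizer_iff]
      exact hγ
    rw [← hIeq, Subgroup.mem_subgroupOf] at hmem
    exact hmem
  -- (f) transitivity of `H` on the fibres of the restriction
  have hres_ord : ∀ w' : Place K E, 0 < w'.ord (algebraMap F E x) ↔ 0 < (w'.restrict F).ord x := by
    intro w'
    rw [w'.ord_restrict x]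
    have hpos := w'.ramificationIndex_pos (F := F)
    constructor
    · intro h
      by_contra hneg
      push Not at hneg
      have : (w'.ramificationIndex F : ℤ) * (w'.restrict F).ord x ≤ 0 :=
        mul_nonpos_of_nonneg_of_nonpos (by positivity) hneg
      omega
    · intro h
      exact mul_pos (by exact_mod_cast hpos) h
  have hT3 : ∀ w₁ w₂ : Place K E, 0 < w₁.ord (algebraMap F E x) →
      0 < w₂.ord (algebraMap F E x) → w₁.restrict F = w₂.restrict F →
      ∃ h ∈ H, w₂ = φ h • w₁ := by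
    intro w₁ w₂ hw₁ hw₂ hres
    obtain ⟨g, ⟨h, hh, rfl⟩, hg⟩ := FA_S24_exists_smul_eq hxE (H.map φ)
      (by rintro g ⟨γ, -, rfl⟩; exact hxΓ γ) w₁ w₂
      ((FA_RR.mem_iff_ord w₁).mpr (Or.inr hw₁.le)) ((FA_RR.mem_iff_ord w₂).mpr (Or.inr hw₂.le))
      (by
        intro z hz hpos
        obtain ⟨n, rfl⟩ := hfixH z (fun γ hγ => hz (φ γ) ⟨γ, hγ, rfl⟩)
        rw [w₂.ord_restrict n, ← hres] at hpos
        rw [w₁.ord_restrict n]
        have hp1 := w₁.ramificationIndex_pos (F := F)
        have hp2 := w₂.ramificationIndex_pos (F := F)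
        have h0 : 0 < (w₁.restrict F).ord n := by
          by_contra hneg
          push Not at hneg
          have : (w₂.ramificationIndex F : ℤ) * (w₁.restrict F).ord n ≤ 0 :=
            mul_nonpos_of_nonneg_of_nonpos (by positivity) hneg
          omega
        exact mul_pos (by exact_mod_cast hp1) h0)
    exact ⟨h, hh, hg⟩
  -- (g) the two surjections
  have hΘpos : ∀ γ : Γ, 0 < (((φ γ)⁻¹ • w).restrict F).ord x := by
    intro γ
    rw [← hres_ord, ← map_inv, hord]
    exact hw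
  unfold FA_S24_orbits
  symm
  refine FA_S24_card_eq_of_fibres
    (fun γ : Γ => (Quotient.mk'' (γ : Γ ⧸ H) : MulAction.orbitRel.Quotient I (Γ ⧸ H)))
    (fun γ : Γ => (⟨((φ γ)⁻¹ • w).restrict F, hΘpos γ⟩ : {v : Place K F // 0 < v.ord x}))
    ?_ ?_ ?_
  · exact Quotient.mk''_surjective.comp QuotientGroup.mk_surjective
  · rintro ⟨v, hv⟩
    obtain ⟨w', hw'⟩ := FA_S24_exists_restrict_eq (E := E) v
    have hw'pos : 0 < w'.ord (algebraMap F E x) := by
      rw [hres_ord, hw']
      exact hv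
    obtain ⟨γ, rfl⟩ := hT1 w' hw'pos
    refine ⟨γ⁻¹, Subtype.ext ?_⟩
    show ((φ γ⁻¹)⁻¹ • w).restrict F = v
    rw [map_inv, inv_inv]
    exact hw'
  · intro γ γ'
    rw [FA_S24_orbit_eq_iff, Subtype.mk.injEq]
    constructor
    · rintro ⟨i, hi, hh⟩
      have hiw : (φ i)⁻¹ • w = w := by
        rw [inv_smul_eq_iff]
        exact (FA_S24_smul_eq_of_ord (φ i) w (hI i hi)).symm
      obtain ⟨h, hh', rfl⟩ : ∃ h ∈ H, γ = i * γ' * h := ⟨(i * γ')⁻¹ * γ, hh, by group⟩
      have h1 : (φ (i * γ' * h))⁻¹ • w = φ h⁻¹ • ((φ γ')⁻¹ • w) := by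
        rw [map_mul, map_mul, mul_inv_rev, mul_inv_rev, mul_smul, mul_smul, hiw, map_inv]
      rw [h1]
      exact FA_S24_restrict_smul _ (hH _ (H.inv_mem hh')) _
    · intro hres
      obtain ⟨h, hh, hg⟩ := hT3 ((φ γ')⁻¹ • w) ((φ γ)⁻¹ • w)
        (by rw [← map_inv, hord]; exact hw) (by rw [← map_inv, hord]; exact hw) hres.symm
      have hfix : φ (γ * h * γ'⁻¹) • w = w := by
        rw [map_mul, map_mul, mul_smul, mul_smul, map_inv, ← hg, smul_inv_smul]
      obtain ⟨i, hi, hφi⟩ := hstab _ hfix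
      refine ⟨i, hi, ?_⟩
      -- `k = i⁻¹ γ h γ'⁻¹ ∈ ker φ`
      have hk : i⁻¹ * (γ * h * γ'⁻¹) ∈ φ.ker := by
        rw [MonoidHom.mem_ker, map_mul, map_inv, hφi, inv_mul_cancel]
      have hk' : γ'⁻¹ * (i⁻¹ * (γ * h * γ'⁻¹)) * γ' ∈ H := by
        apply hker
        have := (inferInstance : φ.ker.Normal).conj_mem _ hk γ'⁻¹
        simpa using this
      have : (i * γ')⁻¹ * γ = γ'⁻¹ * (i⁻¹ * (γ * h * γ'⁻¹)) * γ' * h⁻¹ := by group
      rw [this]
      exact H.mul_mem hk' (H.inv_mem hh)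

end Fermat.Agent.S24

end
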