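import Mathlib
import Fermat.Agent.S24.AInterface
import Fermat.Agent.Lib.RR.Hurwitz

/-!
# S24 layer A6: assembly of Riemann–Hurwitz

`FA_S24_RH_of : A_degree → A_count → FA_S24_Target_RH` and `FA_S24_Rational`.
-/

set_option autoImplicit false
set_option linter.style.haveILetI false

noncomputable section

namespace Fermat.Agent.S24

open AlgebraicCurve IntermediateField KaehlerDifferential

/-- orbits of the trivial subgroup -/
theorem FA_S24_orbits_bot {Γ : Type} [Group Γ] (H : Subgroup Γ) :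
    FA_S24_orbits (⊥ : Subgroup Γ) H = H.index := by
  unfold FA_S24_orbits Subgroup.index
  refine Nat.card_congr (Equiv.symm (Equiv.ofBijective
    (Quotient.mk'' : Γ ⧸ H → MulAction.orbitRel.Quotient (⊥ : Subgroup Γ) (Γ ⧸ H)) ⟨?_, ?_⟩))
  · intro a b hab
    have h := Quotient.exact' hab
    rw [MulAction.orbitRel_apply] at h
    obtain ⟨g, hg⟩ := h
    have hg1 : (g : Γ) = 1 := Subgroup.mem_bot.mp g.2
    have : g = 1 := Subtype.ext hg1
    rw [this] at hg
    have hg' : (1 : (⊥ : Subgroup Γ)) • b = a := hg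
    rw [one_smul] at hg'
    exact hg'.symm
  · exact Quotient.mk''_surjective

/-- genus from the degree of `div (dx)` -/
theorem FA_S24_genus_eq {K F : Type} [Field K] [IsAlgClosed K] [CharZero K] [Field F]
    [Algebra K F] (hF : FA_RR_IsFF K F) [HasCanonicalDivisor (K := K) (F := F)]
    {x : F} (hx : Transcendental K x) :
    genus K F =
      (Divisor.degree (canonicalDivisorOf (FA_RR.D_ne_zero' hF x hx)) + 2).toNat / 2 := by
  have h : ∃ ω : Ω[F⁄K], ω ≠ 0 := ⟨_, FA_RR.D_ne_zero' hF x hx⟩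
  unfold genus
  rw [dif_pos h, FA_RR.degree_canonicalDivisorOf hF hx h.choose_spec]

theorem FA_S24_RH_of (hdeg : FA_S24_Target_A_degree) (hcount : FA_S24_Target_A_count) :
    FA_S24_Target_RH := by
  intro K F E Γ _ _ _ _ _ _ _ _ _ _ φ hfin x hx hxΓ hfixΓ H hker hH hfixH B I Iinf hI hB hinf _
  obtain ⟨hF, hn⟩ := hdeg K F E Γ φ hfin x hx hxΓ hfixΓ H hker hH hfixH
  -- counting zeros of `x - c`
  have hNc : ∀ c : K, Nat.card {v : Place K F // 0 < v.ord (x - algebraMap K F c)}
      = FA_S24_orbits (I c) H := by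
    intro c
    obtain ⟨w, hw1, hw2, hw3⟩ := hI c
    have hmap : algebraMap F E (x - algebraMap K F c) =
        algebraMap F E x - algebraMap K E c := by
      rw [map_sub, ← IsScalarTower.algebraMap_apply K F E]
    refine hcount K F E Γ φ hfin (x - algebraMap K F c) (FA_RR.transcendental_sub_const hx c)
      ?_ ?_ H hker hH hfixH (I c) w ?_ hw2 ?_
    · intro γ
      rw [hmap, map_sub, hxΓ γ, AlgEquiv.commutes]
    · intro e he
      obtain ⟨f, hf, hfe⟩ := hfixΓ e he
      exact ⟨f, by rw [FA_RR.adjoin_sub_const_eq]; exact hf, hfe⟩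
    · rw [hmap]; exact hw1
    · rw [hmap]; exact hw3
  have hNinf : Nat.card {v : Place K F // 0 < v.ord x⁻¹} = FA_S24_orbits Iinf H := by
    obtain ⟨w, hw1, hw2, hw3⟩ := hinf
    have hmap : algebraMap F E x⁻¹ = (algebraMap F E x)⁻¹ := map_inv₀ _ _
    refine hcount K F E Γ φ hfin x⁻¹ (FA_RR.transcendental_inv hx)
      ?_ ?_ H hker hH hfixH Iinf w ?_ hw2 ?_
    · intro γ
      rw [hmap, map_inv₀, hxΓ γ]
    · intro e he
      obtain ⟨f, hf, hfe⟩ := hfixΓ e he
      exact ⟨f, by rw [FA_RR.adjoin_inv_eq]; exact hf, hfe⟩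
    · rw [hmap, w.ord_inv]; omega
    · rw [hmap, w.ord_inv]; exact hw3
  -- unramified outside `B`
  have hunr : ∀ c, c ∉ B → ∀ v : Place K F, v.ord (x - algebraMap K F c) ≤ 1 := by
    intro c hc v
    refine FA_RR.ord_le_one_of_card hF (FA_RR.transcendental_sub_const hx c) ?_ v
    rw [hNc c, hB c hc, FA_S24_orbits_bot, FA_RR.finrank_adjoin_sub_const, hn]
  rw [FA_S24_genus_eq hF hx,
    FA_RR.degree_divisor_D hF hx B hunr _ (fun v => canonicalDivisorOf_apply _ v)]
  congr 2
  unfold FA_S24_rhDegree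
  simp only [hNc, hNinf, hn]
  ring

/-- if `[F : K(y)] = 1` then `y` has exactly one zero -/
theorem FA_S24_card_zeros_of_finrank_one {K F : Type} [Field K] [IsAlgClosed K] [CharZero K]
    [Field F] [Algebra K F] (hF : FA_RR_IsFF K F) {y : F} (hy : Transcendental K y)
    (h1 : Module.finrank K⟮y⟯ F = 1) :
    Nat.card {v : Place K F // 0 < v.ord y} = 1 := by
  classical
  rw [← FA_RR.card_support_zeroDiv hF hy]
  have hdeg := FA_RR.degree_zeroDiv hF hy
  rw [h1] at hdeg
  have hsum : Divisor.degree (FA_RR.zeroDiv hF hy) =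
      ∑ w ∈ (FA_RR.zeroDiv hF hy).support, FA_RR.zeroDiv hF hy w := by
    conv_lhs => rw [← Finsupp.sum_single (FA_RR.zeroDiv hF hy)]
    rw [Finsupp.sum, map_sum]
    simp only [Divisor.degree_single, FA_RR.deg_eq_one hF, Nat.cast_one, mul_one]
  have hge : ∀ w ∈ (FA_RR.zeroDiv hF hy).support, (1 : ℤ) ≤ FA_RR.zeroDiv hF hy w := by
    intro w hw
    have := (FA_RR.mem_support_zeroDiv hF hy w).mp hw
    rw [FA_RR.zeroDiv_apply, max_eq_left this.le]
    omega
  have hle : ((FA_RR.zeroDiv hF hy).support.card : ℤ) ≤ 1 := by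
    calc ((FA_RR.zeroDiv hF hy).support.card : ℤ)
        = ∑ w ∈ (FA_RR.zeroDiv hF hy).support, (1 : ℤ) := by simp
      _ ≤ ∑ w ∈ (FA_RR.zeroDiv hF hy).support, FA_RR.zeroDiv hF hy w :=
          Finset.sum_le_sum hge
      _ = 1 := by rw [← hsum, hdeg]; rfl
  have hne : (FA_RR.zeroDiv hF hy).support.card ≠ 0 := by
    intro h0
    rw [Finset.card_eq_zero] at h0
    rw [hsum, h0, Finset.sum_empty] at hdeg
    simp at hdeg
  omega

theorem FA_S24_Rational : FA_S24_Target_Rational := by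
  intro K F _ _ _ _ _ x hx htop _
  have hfin : FiniteDimensional K⟮x⟯ F := by
    rw [htop]
    exact Module.finite_of_finrank_pos (by rw [IntermediateField.finrank_top]; exact one_pos)
  have hF : FA_RR_IsFF K F := ⟨x, hx, hfin⟩
  have hn : Module.finrank K⟮x⟯ F = 1 := by rw [htop]; exact IntermediateField.finrank_top
  have hunr : ∀ c, c ∉ (∅ : Finset K) → ∀ v : Place K F, v.ord (x - algebraMap K F c) ≤ 1 := by
    intro c _ v
    refine FA_RR.ord_le_one_of_card hF (FA_RR.transcendental_sub_const hx c) ?_ v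
    rw [FA_S24_card_zeros_of_finrank_one hF (FA_RR.transcendental_sub_const hx c)
      (by rw [FA_RR.finrank_adjoin_sub_const, hn]), FA_RR.finrank_adjoin_sub_const, hn]
  rw [FA_S24_genus_eq hF hx,
    FA_RR.degree_divisor_D hF hx ∅ hunr _ (fun v => canonicalDivisorOf_apply _ v),
    FA_S24_card_zeros_of_finrank_one hF (FA_RR.transcendental_inv hx)
      (by rw [FA_RR.finrank_adjoin_inv, hn]), hn]
  simp

end Fermat.Agent.S24

end
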