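import Mathlib
import Fermat.Agent.S24.ARH
import Fermat.Agent.S24.ACount

/-!
# S24 layer A: Riemann–Hurwitz, unconditional

`FA_S24_RH : FA_S24_Target_RH`.
-/

set_option autoImplicit false

namespace Fermat.Agent.S24

theorem FA_S24_RH : FA_S24_Target_RH := FA_S24_RH_of FA_S24_A_degree FA_S24_A_count

end Fermat.Agent.S24
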