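import Mathlib
import Fermat.Agent.S24.BInterface

/-!
# S24 Layer B6: parity of `o(s) + o(t) + o(s t) + n`

For a permutation `σ` of a finite set `X` with `n` elements and `o(σ)` orbits,
`sign σ = (-1) ^ (n + o(σ))`.  Multiplicativity of the sign gives the parity statement.
-/

set_option autoImplicit false
set_option linter.unusedSectionVars false
set_option linter.style.haveILetI false

noncomputable section

namespace Fermat.Agent.S24

open MulAction Equiv

section Perm

variable {X : Type} [Fintype X] [DecidableEq X]

/-- Number of orbits of a permutation: `o(σ) + |supp σ| = (number of cycles) + n`. -/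
theorem FA_S24_card_sameCycle (σ : Perm X) :
    Nat.card (Quotient (Perm.SameCycle.setoid σ)) + σ.support.card
      = σ.cycleFactorsFinset.card + Fintype.card X := by
  classical
  letI : Fintype (Quotient (Perm.SameCycle.setoid σ)) := Fintype.ofFinite _
  let F : X → Perm X ⊕ X := fun x => if σ x = x then Sum.inr x else Sum.inl (σ.cycleOf x)
  have hF : ∀ x y, (Perm.SameCycle.setoid σ).r x y → F x = F y := by
    intro x y hxy
    have hxy' : σ.SameCycle x y := hxy
    by_cases hx : σ x = x
    · have : x = y := hxy'.eq_of_left hx
      rw [this]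
    · have hy : ¬ σ y = y := fun hy => hx (hxy'.apply_eq_self_iff.mpr hy)
      simp only [F, hx, hy, if_false]
      rw [hxy'.cycleOf_eq]
  let Fq : Quotient (Perm.SameCycle.setoid σ) → Perm X ⊕ X := Quotient.lift F hF
  have hinj : Function.Injective Fq := by
    intro a b hab
    induction a using Quotient.inductionOn with
    | h x =>
      induction b using Quotient.inductionOn with
      | h y =>
        have hab' : F x = F y := hab
        apply Quotient.sound
        show σ.SameCycle x y
        by_cases hx : σ x = x
        · by_cases hy : σ y = y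
          · simp only [F, hx, hy, if_true, Sum.inr.injEq] at hab'
            rw [hab']
          · simp only [F, hx, hy, if_true, if_false] at hab'
            exact absurd hab' (by simp)
        · by_cases hy : σ y = y
          · simp only [F, hx, hy, if_true, if_false] at hab'
            exact absurd hab' (by simp)
          · simp only [F, hx, hy, if_false, Sum.inl.injEq] at hab'
            exact (Perm.sameCycle_iff_cycleOf_eq_of_mem_support (Perm.mem_support.mpr hx)
              (Perm.mem_support.mpr hy)).mpr hab'
  have himage : (Finset.univ : Finset (Quotient (Perm.SameCycle.setoid σ))).image Fq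
      = σ.cycleFactorsFinset.image Sum.inl ∪ (Finset.univ \ σ.support).image Sum.inr := by
    ext z
    simp only [Finset.mem_image, Finset.mem_univ, true_and, Finset.mem_union, Finset.mem_sdiff,
      Perm.mem_support, not_not]
    constructor
    · rintro ⟨q, rfl⟩
      induction q using Quotient.inductionOn with
      | h x =>
        show _ ∨ _
        by_cases hx : σ x = x
        · right
          refine ⟨x, hx, ?_⟩
          show Sum.inr x = F x
          simp only [F, hx, if_true]
        · left
          refine ⟨σ.cycleOf x, Perm.cycleOf_mem_cycleFactorsFinset_iff.mpr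
            (Perm.mem_support.mpr hx), ?_⟩
          show Sum.inl (σ.cycleOf x) = F x
          simp only [F, hx, if_false]
    · rintro (⟨c, hc, rfl⟩ | ⟨x, hx, rfl⟩)
      · have hcyc := (Perm.mem_cycleFactorsFinset_iff.mp hc).1
        obtain ⟨a, ha⟩ := hcyc.nonempty_support
        have hca := Perm.cycle_is_cycleOf ha hc
        have haσ : σ a ≠ a := Perm.mem_support.mp (Perm.mem_cycleFactorsFinset_support_le hc ha)
        refine ⟨Quotient.mk _ a, ?_⟩
        show F a = Sum.inl c
        simp only [F, haσ, if_false]
        rw [← hca]
      · refine ⟨Quotient.mk _ x, ?_⟩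
        show F x = Sum.inr x
        simp only [F, hx, if_true]
  have hdisj : Disjoint (σ.cycleFactorsFinset.image (Sum.inl : Perm X → Perm X ⊕ X))
      ((Finset.univ \ σ.support).image Sum.inr) := by
    rw [Finset.disjoint_left]
    intro z hz hz'
    simp only [Finset.mem_image] at hz hz'
    obtain ⟨c, -, rfl⟩ := hz
    obtain ⟨x, -, hx⟩ := hz'
    exact absurd hx (by simp)
  have hcard := Finset.card_image_of_injective
    (Finset.univ : Finset (Quotient (Perm.SameCycle.setoid σ))) hinj
  rw [himage, Finset.card_union_of_disjoint hdisj,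
    Finset.card_image_of_injective _ Sum.inl_injective,
    Finset.card_image_of_injective _ Sum.inr_injective, Finset.card_univ,
    Finset.card_sdiff_of_subset (Finset.subset_univ _), Finset.card_univ] at hcard
  rw [Nat.card_eq_fintype_card, ← hcard]
  have := Finset.card_le_univ σ.support
  omega

/-- `sign σ = (-1) ^ (n + o(σ))`. -/
theorem FA_S24_sign_eq (σ : Perm X) :
    Perm.sign σ = (-1 : ℤˣ) ^ (Fintype.card X + Nat.card (Quotient (Perm.SameCycle.setoid σ))) := by
  rw [Perm.sign_of_cycleType, Perm.sum_cycleType]
  have h := FA_S24_card_sameCycle σ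
  have hc : Multiset.card σ.cycleType = σ.cycleFactorsFinset.card := by
    rw [Perm.cycleType_def, Multiset.card_map]
    rfl
  rw [hc]
  have hle := Finset.card_le_univ σ.support
  have e : Fintype.card X + Nat.card (Quotient (Perm.SameCycle.setoid σ))
      = (σ.support.card + σ.cycleFactorsFinset.card) + 2 * (Fintype.card X - σ.support.card) := by
    omega
  rw [e, pow_add _ (σ.support.card + σ.cycleFactorsFinset.card), pow_mul]
  simp

end Perm

section Action

variable {Γ X : Type} [Group Γ] [MulAction Γ X] [Fintype X] [DecidableEq X]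

/-- The orbits of `⟨g⟩` are the cycles of the permutation `x ↦ g • x`. -/
theorem FA_S24_card_orbits_eq (g : Γ) :
    Nat.card (orbitRel.Quotient (Subgroup.zpowers g) X)
      = Nat.card (Quotient (Perm.SameCycle.setoid (MulAction.toPerm g : Perm X))) := by
  refine Nat.card_congr (Quotient.congrRight ?_)
  intro x y
  show x ∈ MulAction.orbit (Subgroup.zpowers g) y ↔ Perm.SameCycle (MulAction.toPerm g) x y
  have hpow : ∀ (k : ℤ) (z : X), ((MulAction.toPerm g : Perm X) ^ k) z = g ^ k • z := by
    intro k z
    have : (MulAction.toPerm g : Perm X) ^ k = MulAction.toPerm (g ^ k) :=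
      (map_zpow (MulAction.toPermHom Γ X) g k).symm
    rw [this]
    rfl
  constructor
  · rintro ⟨⟨h, hh⟩, rfl⟩
    obtain ⟨k, rfl⟩ := Subgroup.mem_zpowers_iff.mp hh
    refine ⟨-k, ?_⟩
    rw [hpow]
    show g ^ (-k) • (g ^ k • y) = y
    rw [← mul_smul, ← zpow_add]
    simp
  · rintro ⟨k, hk⟩
    rw [hpow] at hk
    refine ⟨⟨g ^ (-k), Subgroup.zpow_mem_zpowers g _⟩, ?_⟩
    show g ^ (-k) • y = x
    rw [← hk, ← mul_smul, ← zpow_add]
    simp

/-- Parity statement for an action on a finite set. -/
theorem FA_S24_even_action (s t : Γ) :
    Even (Nat.card (orbitRel.Quotient (Subgroup.zpowers s) X)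
      + Nat.card (orbitRel.Quotient (Subgroup.zpowers t) X)
      + Nat.card (orbitRel.Quotient (Subgroup.zpowers (s * t)) X) + Nat.card X) := by
  rw [FA_S24_card_orbits_eq, FA_S24_card_orbits_eq, FA_S24_card_orbits_eq,
    Nat.card_eq_fintype_card (α := X)]
  have hmul : (MulAction.toPerm (s * t) : Perm X) = MulAction.toPerm s * MulAction.toPerm t :=
    map_mul (MulAction.toPermHom Γ X) s t
  have h1 := FA_S24_sign_eq (MulAction.toPerm s : Perm X)
  have h2 := FA_S24_sign_eq (MulAction.toPerm t : Perm X)
  have h3 := FA_S24_sign_eq (MulAction.toPerm (s * t) : Perm X)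
  rw [hmul, map_mul, h1, h2, ← hmul, ← pow_add] at h3
  -- `(-1)^a = (-1)^b` gives `Even (a + b)`
  have h4 : (-1 : ℤˣ) ^ ((Fintype.card X
      + Nat.card (Quotient (Perm.SameCycle.setoid (MulAction.toPerm s : Perm X)))
      + (Fintype.card X
        + Nat.card (Quotient (Perm.SameCycle.setoid (MulAction.toPerm t : Perm X)))))
      + (Fintype.card X
        + Nat.card (Quotient (Perm.SameCycle.setoid (MulAction.toPerm (s * t) : Perm X))))) = 1 := by
    rw [pow_add, h3, ← pow_add, ← two_mul, pow_mul]
    simp
  have h5 := (neg_one_pow_eq_one_iff_even (R := ℤˣ) (by decide)).mp h4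
  have e : Nat.card (Quotient (Perm.SameCycle.setoid (MulAction.toPerm s : Perm X)))
      + Nat.card (Quotient (Perm.SameCycle.setoid (MulAction.toPerm t : Perm X)))
      + Nat.card (Quotient (Perm.SameCycle.setoid (MulAction.toPerm (s * t) : Perm X)))
      + Fintype.card X + 2 * Fintype.card X
      = (Fintype.card X
      + Nat.card (Quotient (Perm.SameCycle.setoid (MulAction.toPerm s : Perm X)))
      + (Fintype.card X
        + Nat.card (Quotient (Perm.SameCycle.setoid (MulAction.toPerm t : Perm X)))))
      + (Fintype.card X
        + Nat.card (Quotient (Perm.SameCycle.setoid (MulAction.toPerm (s * t) : Perm X)))) := by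
    ring
  rw [← e] at h5
  exact (Nat.even_add.mp h5).mpr (even_two_mul _)

end Action

/-- B6. -/
theorem FA_S24_B_even : FA_S24_Target_B_even := by
  classical
  intro Γ _ H _ s t
  letI : Fintype (Γ ⧸ H) := Fintype.ofFinite _
  exact FA_S24_even_action (Γ := Γ) (X := Γ ⧸ H) s t

end Fermat.Agent.S24
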