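import Mathlib
import Fermat.Agent.S24.BInterface

/-!
# S24 Layer B: `FA_S24_Target_Numerics` from the sub-targets
-/

set_option autoImplicit false

noncomputable section

namespace Fermat.Agent.S24

open MatrixGroups

theorem FA_S24_B_zero_ne : (0 : AlgebraicClosure ℚ) ≠ 1728 := by
  intro h
  have : ((1728 : ℕ) : AlgebraicClosure ℚ) = 0 := by exact_mod_cast h.symm
  rw [Nat.cast_eq_zero] at this
  omega

theorem FA_S24_I_zero : FA_S24_I 0 = Subgroup.zpowers (ModularGroup.S * ModularGroup.T) := by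
  unfold FA_S24_I
  simp

theorem FA_S24_I_1728 : FA_S24_I 1728 = Subgroup.zpowers ModularGroup.S := by
  unfold FA_S24_I
  have h : (1728 : AlgebraicClosure ℚ) ≠ 0 := fun h => FA_S24_B_zero_ne h.symm
  simp [h]

theorem FA_S24_rhDegree_eq (N : ℕ) :
    FA_S24_rhDegree (CongruenceSubgroup.Gamma0 N) FA_S24_B FA_S24_I
        (Subgroup.zpowers ModularGroup.T)
      = (((CongruenceSubgroup.Gamma0 N).index : ℤ)
          - (FA_S24_orbits (Subgroup.zpowers (ModularGroup.S * ModularGroup.T))
              (CongruenceSubgroup.Gamma0 N) : ℤ))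
        + (((CongruenceSubgroup.Gamma0 N).index : ℤ)
          - (FA_S24_orbits (Subgroup.zpowers ModularGroup.S)
              (CongruenceSubgroup.Gamma0 N) : ℤ))
        + (((CongruenceSubgroup.Gamma0 N).index : ℤ)
          - (FA_S24_orbits (Subgroup.zpowers ModularGroup.T)
              (CongruenceSubgroup.Gamma0 N) : ℤ))
        - 2 * ((CongruenceSubgroup.Gamma0 N).index : ℤ) := by
  classical
  unfold FA_S24_rhDegree FA_S24_B
  rw [Finset.sum_pair FA_S24_B_zero_ne, FA_S24_I_zero, FA_S24_I_1728]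

theorem FA_S24_numerics_of
    (hidx : FA_S24_Target_B_index) (hS : FA_S24_Target_B_S) (hST : FA_S24_Target_B_ST)
    (hT : FA_S24_Target_B_T) (heven : FA_S24_Target_B_even)
    (hnn : FA_S24_Target_B_nonneg) : FA_S24_Target_Numerics := by
  intro N _
  have : (CongruenceSubgroup.Gamma0 N).FiniteIndex := inferInstance
  have h1 := hidx N
  have h2 := hS N
  have h3 := hST N
  have h4 := hT N
  have h5 := heven SL(2, ℤ) (CongruenceSubgroup.Gamma0 N) ModularGroup.S ModularGroup.T
  have h6 := hnn SL(2, ℤ) (CongruenceSubgroup.Gamma0 N) ModularGroup.S ModularGroup.T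
    SpecialLinearGroup.SL2Z_generators
  rw [FA_S24_rhDegree_eq]
  set n := (CongruenceSubgroup.Gamma0 N).index with hn
  set oS := FA_S24_orbits (Subgroup.zpowers ModularGroup.S) (CongruenceSubgroup.Gamma0 N)
  set oST := FA_S24_orbits (Subgroup.zpowers (ModularGroup.S * ModularGroup.T))
    (CongruenceSubgroup.Gamma0 N)
  set oT := FA_S24_orbits (Subgroup.zpowers ModularGroup.T) (CongruenceSubgroup.Gamma0 N)
  obtain ⟨k, hk⟩ := h5
  -- `oS + oT + oST + n = 2k`, `oS + oT + oST ≤ n + 2`
  have hkn : k ≤ n + 1 := by omega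
  have hval : ((n : ℤ) - oST + ((n : ℤ) - oS) + ((n : ℤ) - oT) - 2 * n + 2)
      = 2 * (((n + 1 - k : ℕ) : ℤ)) := by
    push_cast [Nat.cast_sub hkn]
    have : ((oS : ℤ) + oT + oST + n) = k + k := by exact_mod_cast hk
    linarith
  rw [hval]
  have htn : (2 * (((n + 1 - k : ℕ) : ℤ))).toNat / 2 = n + 1 - k := by
    have : (2 * (((n + 1 - k : ℕ) : ℤ))) = ((2 * (n + 1 - k) : ℕ) : ℤ) := by push_cast; ring
    rw [this, Int.toNat_natCast]
    omega
  rw [htn]
  unfold ModularCurve.genusFormula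
  rw [← h1, ← h4]
  have e2 : (ModularCurve.nuTwo N : ℚ) = 2 * oS - n := by
    have : ((2 * oS : ℕ) : ℚ) = ((n + ModularCurve.nuTwo N : ℕ) : ℚ) := by rw [h2]
    push_cast at this
    linarith
  have e3 : (ModularCurve.nuThree N : ℚ) = (3 * oST - n) / 2 := by
    have : ((3 * oST : ℕ) : ℚ) = ((n + 2 * ModularCurve.nuThree N : ℕ) : ℚ) := by rw [h3]
    push_cast at this
    linarith
  rw [e2, e3]
  have hk' : ((oS : ℚ) + oT + oST + n) = k + k := by exact_mod_cast hk
  push_cast [Nat.cast_sub hkn]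
  linarith

end Fermat.Agent.S24
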