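import Mathlib
import Fermat.Agent.S24.BInterface

/-!
# S24 Layer B7: Scott's lemma / Ree's theorem for permutation actions

For a group `Γ` acting transitively on a finite set `X`, generated by `s` and `t`:
`o(s) + o(t) + o(s t) ≤ |X| + 2`, where `o(g)` is the number of orbits of `⟨g⟩`.

Proof (linear algebra on `V = X → ℚ`): with `A f = f ∘ s`, `B f = f ∘ t`, `D = B A`,
`V^A ∩ V^B` = constants; `(1 - A)` maps `V^D` into `W_A ∩ W_B` with kernel the constants;
`W_A ∩ W_B` is orthogonal to `V^A + V^B` for the standard inner product.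
-/

set_option autoImplicit false
set_option linter.unusedSectionVars false
set_option linter.style.haveILetI false

noncomputable section

namespace Fermat.Agent.S24

open MulAction Module

section Scott

variable {Γ X : Type} [Group Γ] [MulAction Γ X] [Fintype X]

/-- Precomposition with the action of `g`. -/
def FA_S24_R (g : Γ) : (X → ℚ) →ₗ[ℚ] (X → ℚ) :=
  LinearMap.funLeft ℚ ℚ (fun x => g • x)

omit [Fintype X] in
theorem FA_S24_R_apply (g : Γ) (f : X → ℚ) (x : X) : FA_S24_R g f x = f (g • x) := rfl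

/-- The invariants of `g`. -/
def FA_S24_Inv (g : Γ) : Submodule ℚ (X → ℚ) :=
  LinearMap.ker (LinearMap.id - FA_S24_R (X := X) g)

/-- The image of `1 - g`. -/
def FA_S24_Aug (g : Γ) : Submodule ℚ (X → ℚ) :=
  LinearMap.range (LinearMap.id - FA_S24_R (X := X) g)

omit [Fintype X] in
theorem FA_S24_mem_Inv (g : Γ) (f : X → ℚ) :
    f ∈ FA_S24_Inv g ↔ ∀ x, f (g • x) = f x := by
  simp only [FA_S24_Inv, LinearMap.mem_ker, LinearMap.sub_apply, LinearMap.id_coe, id_eq,
    sub_eq_zero]
  constructor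
  · intro h x
    have := congrFun h x
    rw [FA_S24_R_apply] at this
    exact this.symm
  · intro h
    funext x
    rw [FA_S24_R_apply]
    exact (h x).symm

omit [Fintype X] in
theorem FA_S24_Inv_zpow (g : Γ) (f : X → ℚ) (hf : f ∈ FA_S24_Inv g) (k : ℤ) (x : X) :
    f (g ^ k • x) = f x := by
  rw [FA_S24_mem_Inv] at hf
  induction k using Int.induction_on generalizing x with
  | zero => simp
  | succ n ih =>
    rw [zpow_add_one, mul_smul, ih, hf]
  | pred n ih =>
    rw [zpow_sub_one, mul_smul, ih]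
    have := hf (g⁻¹ • x)
    rw [smul_inv_smul] at this
    exact this.symm

/-- `dim V^g` is the number of orbits of `⟨g⟩`. -/
theorem FA_S24_finrank_Inv (g : Γ) :
    finrank ℚ (FA_S24_Inv (X := X) g)
      = Nat.card (orbitRel.Quotient (Subgroup.zpowers g) X) := by
  classical
  let Q := orbitRel.Quotient (Subgroup.zpowers g) X
  let π : X → Q := Quotient.mk''
  have hπ : Function.Surjective π := Quotient.mk''_surjective
  letI : Fintype Q := Fintype.ofFinite Q
  let Φ : (Q → ℚ) →ₗ[ℚ] (X → ℚ) := LinearMap.funLeft ℚ ℚ π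
  have hinj : Function.Injective Φ := LinearMap.funLeft_injective_of_surjective ℚ ℚ π hπ
  have hrange : LinearMap.range Φ = FA_S24_Inv (X := X) g := by
    ext f
    rw [FA_S24_mem_Inv]
    constructor
    · rintro ⟨h, rfl⟩ x
      show h (π (g • x)) = h (π x)
      congr 1
      apply Quotient.sound'
      show g • x ∈ MulAction.orbit (Subgroup.zpowers g) x
      exact ⟨⟨g, Subgroup.mem_zpowers g⟩, rfl⟩
    · intro hf
      have hf' : f ∈ FA_S24_Inv g := (FA_S24_mem_Inv g f).mpr hf
      refine ⟨fun q => Quotient.liftOn' q f ?_, ?_⟩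
      · intro a b hab
        have hab' : a ∈ MulAction.orbit (Subgroup.zpowers g) b := hab
        obtain ⟨⟨h, hh⟩, rfl⟩ := hab'
        obtain ⟨k, rfl⟩ := Subgroup.mem_zpowers_iff.mp hh
        exact FA_S24_Inv_zpow g f hf' k b
      · funext x
        rfl
  rw [← hrange, LinearMap.finrank_range_of_inj hinj, Module.finrank_fintype_fun_eq_card,
    Nat.card_eq_fintype_card]

omit [Fintype X] in
/-- A function invariant under `s` and `t` is invariant under the group they generate. -/
theorem FA_S24_Inv_closure (s t : Γ) (hgen : Subgroup.closure {s, t} = ⊤) (f : X → ℚ)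
    (hs : f ∈ FA_S24_Inv s) (ht : f ∈ FA_S24_Inv t) (g : Γ) (x : X) : f (g • x) = f x := by
  rw [FA_S24_mem_Inv] at hs ht
  have hg : g ∈ Subgroup.closure {s, t} := by rw [hgen]; trivial
  induction hg using Subgroup.closure_induction generalizing x with
  | mem y hy =>
    rcases hy with rfl | rfl
    · exact hs x
    · exact ht x
  | one => simp
  | mul a b _ _ iha ihb => rw [mul_smul, iha, ihb]
  | inv a _ iha =>
    have := iha (a⁻¹ • x)
    rw [smul_inv_smul] at this
    exact this.symm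

/-- For a transitive action generated by `s`, `t`, the common invariants are constant. -/
theorem FA_S24_finrank_Inv_inf [IsPretransitive Γ X] (s t : Γ)
    (hgen : Subgroup.closure {s, t} = ⊤) :
    finrank ℚ (FA_S24_Inv (X := X) s ⊓ FA_S24_Inv t : Submodule ℚ (X → ℚ)) ≤ 1 := by
  have hle : (FA_S24_Inv (X := X) s ⊓ FA_S24_Inv t : Submodule ℚ (X → ℚ))
      ≤ Submodule.span ℚ {(fun _ => (1 : ℚ) : X → ℚ)} := by
    intro f hf
    rw [Submodule.mem_inf] at hf
    rw [Submodule.mem_span_singleton]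
    by_cases hX : Nonempty X
    · obtain ⟨x₀⟩ := hX
      refine ⟨f x₀, ?_⟩
      funext x
      obtain ⟨g, rfl⟩ := MulAction.exists_smul_eq Γ x₀ x
      simp only [Pi.smul_apply, smul_eq_mul, mul_one]
      exact (FA_S24_Inv_closure s t hgen f hf.1 hf.2 g x₀).symm
    · refine ⟨0, ?_⟩
      funext x
      exact absurd ⟨x⟩ hX
  refine (Submodule.finrank_mono hle).trans ?_
  exact (finrank_span_le_card _).trans (by simp)

/-- The standard inner product is invariant under the action. -/
theorem FA_S24_sum_smul (g : Γ) (F : X → ℚ) : ∑ x, F (g • x) = ∑ x, F x :=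
  Fintype.sum_equiv (MulAction.toPerm g) _ _ (fun _ => rfl)

/-- `W_g` is orthogonal to `V^g`. -/
theorem FA_S24_Aug_orth (g : Γ) (w u : X → ℚ) (hw : w ∈ FA_S24_Aug g) (hu : u ∈ FA_S24_Inv g) :
    ∑ x, w x * u x = 0 := by
  obtain ⟨f, rfl⟩ := hw
  rw [FA_S24_mem_Inv] at hu
  simp only [LinearMap.sub_apply, LinearMap.id_coe, id_eq, Pi.sub_apply, FA_S24_R_apply, sub_mul,
    Finset.sum_sub_distrib]
  rw [sub_eq_zero]
  have := FA_S24_sum_smul g (fun x => f x * u x)
  rw [← this]
  refine Finset.sum_congr rfl fun x _ => ?_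
  rw [hu x]

/-- `W_s ∩ W_t` meets `V^s + V^t` trivially. -/
theorem FA_S24_disjoint (s t : Γ) :
    Disjoint (FA_S24_Aug (X := X) s ⊓ FA_S24_Aug t) (FA_S24_Inv s ⊔ FA_S24_Inv t) := by
  rw [Submodule.disjoint_def]
  intro w hw hw'
  rw [Submodule.mem_inf] at hw
  obtain ⟨u₁, hu₁, u₂, hu₂, rfl⟩ := Submodule.mem_sup.mp hw'
  have h1 := FA_S24_Aug_orth s _ u₁ hw.1 hu₁
  have h2 := FA_S24_Aug_orth t _ u₂ hw.2 hu₂
  have hsq : ∑ x, (u₁ + u₂) x * (u₁ + u₂) x = 0 := by
    have : ∀ x, (u₁ + u₂) x * (u₁ + u₂) x = (u₁ + u₂) x * u₁ x + (u₁ + u₂) x * u₂ x := by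
      intro x
      simp only [Pi.add_apply]
      ring
    simp only [this, Finset.sum_add_distrib, h1, h2, add_zero]
  have hz := (Finset.sum_eq_zero_iff_of_nonneg (fun x _ => mul_self_nonneg ((u₁ + u₂) x))).mp hsq
  funext x
  exact mul_self_eq_zero.mp (hz x (Finset.mem_univ x))

/-- `dim V^{st} ≤ 1 + dim (W_s ∩ W_t)`. -/
theorem FA_S24_finrank_Inv_mul_le [IsPretransitive Γ X] (s t : Γ)
    (hgen : Subgroup.closure {s, t} = ⊤) :
    finrank ℚ (FA_S24_Inv (X := X) (s * t))
      ≤ 1 + finrank ℚ (FA_S24_Aug (X := X) s ⊓ FA_S24_Aug t : Submodule ℚ (X → ℚ)) := by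
  -- the map `f ↦ f - f ∘ s` restricted to `V^{st}`
  let L : FA_S24_Inv (X := X) (s * t) →ₗ[ℚ] (X → ℚ) :=
    (LinearMap.id - FA_S24_R (X := X) s).comp (Submodule.subtype _)
  have hrange : LinearMap.range L ≤ FA_S24_Aug (X := X) s ⊓ FA_S24_Aug t := by
    rintro _ ⟨⟨f, hf⟩, rfl⟩
    rw [FA_S24_mem_Inv] at hf
    rw [Submodule.mem_inf]
    constructor
    · exact ⟨f, rfl⟩
    · -- `f - f ∘ s = (1 - t) (- f ∘ s)`
      refine ⟨-(FA_S24_R s f), ?_⟩
      funext x
      simp only [L, LinearMap.comp_apply, Submodule.subtype_apply, LinearMap.sub_apply,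
        LinearMap.id_coe, id_eq, Pi.sub_apply, FA_S24_R_apply, Pi.neg_apply, map_neg]
      have := hf x
      rw [mul_smul] at this
      rw [this]
      ring
  have hker : finrank ℚ (LinearMap.ker L) ≤ 1 := by
    have hmap : Function.Injective ((Submodule.subtype (FA_S24_Inv (X := X) (s * t))).domRestrict
        (LinearMap.ker L)) := by
      intro a b hab
      exact Subtype.ext (Subtype.ext hab)
    have hle : LinearMap.range ((Submodule.subtype (FA_S24_Inv (X := X) (s * t))).domRestrict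
        (LinearMap.ker L)) ≤ (FA_S24_Inv (X := X) s ⊓ FA_S24_Inv t) := by
      rintro _ ⟨⟨⟨f, hf⟩, hfk⟩, rfl⟩
      simp only [LinearMap.domRestrict_apply, Submodule.subtype_apply]
      have hfs : f ∈ FA_S24_Inv (X := X) s := hfk
      rw [Submodule.mem_inf]
      refine ⟨hfs, ?_⟩
      rw [FA_S24_mem_Inv] at hf hfs ⊢
      intro x
      rw [← hfs (t • x), ← mul_smul]
      exact hf x
    rw [← LinearMap.finrank_range_of_inj hmap]
    exact (Submodule.finrank_mono hle).trans (FA_S24_finrank_Inv_inf s t hgen)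
  have hrk := LinearMap.finrank_range_add_finrank_ker L
  have hr := Submodule.finrank_mono hrange
  omega

/-- Scott's inequality for a transitive action on a finite set. -/
theorem FA_S24_scott_action [IsPretransitive Γ X] (s t : Γ)
    (hgen : Subgroup.closure {s, t} = ⊤) :
    Nat.card (orbitRel.Quotient (Subgroup.zpowers s) X)
      + Nat.card (orbitRel.Quotient (Subgroup.zpowers t) X)
      + Nat.card (orbitRel.Quotient (Subgroup.zpowers (s * t)) X) ≤ Nat.card X + 2 := by
  rw [← FA_S24_finrank_Inv, ← FA_S24_finrank_Inv, ← FA_S24_finrank_Inv]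
  have h1 := FA_S24_finrank_Inv_mul_le (X := X) s t hgen
  have h2 := Submodule.finrank_add_finrank_le_of_disjoint (FA_S24_disjoint (X := X) s t)
  have h3 := Submodule.finrank_sup_add_finrank_inf_eq (FA_S24_Inv (X := X) s) (FA_S24_Inv t)
  have h4 := FA_S24_finrank_Inv_inf (X := X) s t hgen
  have h5 : finrank ℚ (X → ℚ) = Nat.card X := by
    rw [Module.finrank_fintype_fun_eq_card, Nat.card_eq_fintype_card]
  omega

end Scott

/-- B7. -/
theorem FA_S24_B_nonneg : FA_S24_Target_B_nonneg := by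
  intro Γ _ H _ s t hgen
  letI : Fintype (Γ ⧸ H) := Fintype.ofFinite _
  have := FA_S24_scott_action (Γ := Γ) (X := Γ ⧸ H) s t hgen
  exact this

end Fermat.Agent.S24
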