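import Mathlib
import Fermat.Agent.S24.BGlue
import Fermat.Agent.S24.BFix
import Fermat.Agent.S24.BCusp
import Fermat.Agent.S24.BIndex
import Fermat.Agent.S24.BEven
import Fermat.Agent.S24.BScott

/-!
# S24 Layer B: `FA_S24_Target_Numerics`
-/

set_option autoImplicit false

namespace Fermat.Agent.S24

/-- **Layer B** of S24: the Riemann–Hurwitz count for `Γ₀(N) ⊂ SL(2,ℤ)` equals `genusFormula N`. -/
theorem FA_S24_numerics : FA_S24_Target_Numerics :=
  FA_S24_numerics_of FA_S24_B_index FA_S24_B_S FA_S24_B_ST FA_S24_B_T FA_S24_B_even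
    FA_S24_B_nonneg

end Fermat.Agent.S24
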