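import Fermat.Agent.S24.DQ1
import Fermat.Agent.S24.CJ
import Fermat.Prelude.Def_ModularCurve_LaurentCoeff

/-!
# S24 Layer D: second batch of leaf targets (up for grabs)

See `NOTES/plan/S24.md`.  All statements are about Mathlib objects, `Lib/Mero.lean`,
`S24/CJ.lean` (`FA_S24_j`) and `S24/DQ1.lean` (`FA_S24_HolPlus`, `FA_S24_qN`).
-/

set_option autoImplicit false

noncomputable section

open UpperHalfPlane ModularForm EisensteinSeries Complex MatrixGroups Filter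
open scoped Manifold Topology

namespace Fermat.Agent.S24

open Fermat.Agent.Mero

local notation "Δ" => ModularForm.discriminant

/-- **Leaf TW** (translation twist): if `f ∈ 𝓗⁺_N` then `z ↦ f (γ • z)` for `γ = T ^ t` is in
`𝓗⁺_N` and its `m`-th `q`-coefficient is `exp (2πi m t / N)` times that of `f`; in particular
the orders of the two `q`-expansions agree. -/
def FA_S24_Target_TW : Prop :=
  ∀ (N : ℕ) [NeZero N] (f : FA_S24_HolPlus N) (t : ℤ),
    ∃ h : (fun z : ℍ => (f : ℍ → ℂ) ((ModularGroup.T ^ t) • z)) ∈ FA_S24_HolPlus N,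
      (∀ m : ℕ, PowerSeries.coeff m (FA_S24_qN N ⟨_, h⟩)
        = Complex.exp (2 * Real.pi * Complex.I * (m : ℂ) * (t : ℂ) / (N : ℂ))
          * PowerSeries.coeff m (FA_S24_qN N f)) ∧
      (FA_S24_qN N ⟨_, h⟩).order = (FA_S24_qN N f).order

/-- **Leaf BDD** (bounded at `i∞` from the orders of `q`-expansions): if `h · b = a` with
`a, b ∈ 𝓗⁺_N`, `b ≠ 0` and `order (q-exp b) ≤ order (q-exp a)`, then `h` is bounded at `i∞`. -/
def FA_S24_Target_BDD : Prop :=
  ∀ (N : ℕ) [NeZero N] (a b : FA_S24_HolPlus N) (h : ℍ → ℂ),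
    b ≠ 0 → (∀ z : ℍ, h z * (b : ℍ → ℂ) z = (a : ℍ → ℂ) z) →
    (FA_S24_qN N b).order ≤ (FA_S24_qN N a).order → IsBoundedAtImInfty h

/-- **Leaf HOL** (holomorphic modular functions of level one are polynomials in `j`): if `h`
is holomorphic on `ℍ`, `SL(2, ℤ)`-invariant and `Δ ^ m · h` is bounded at `i∞`, then
`h = P(j)` with `deg P ≤ m`. -/
def FA_S24_Target_HOL : Prop :=
  ∀ (h : ℍ → ℂ) (m : ℕ), MDiff h → (∀ (γ : SL(2, ℤ)) (z : ℍ), h (γ • z) = h z) →
    IsBoundedAtImInfty (fun z : ℍ => Δ z ^ m * h z) →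
    ∃ P : Polynomial ℂ, P.natDegree ≤ m ∧ ∀ z : ℍ, h z = P.eval (FA_S24_j z)

/-- **Leaf RAT** (rationality of the coefficients of a polynomial in `J`): let `L` be a
subfield of `ℂ`, `J` a Laurent series of order `-n < 0` all of whose coefficients are in `L`,
and `P ∈ ℂ[X]` such that all coefficients of `P(J)` are in `L`.  Then `P ∈ L[X]`. -/
def FA_S24_Target_RAT : Prop :=
  ∀ (L : Subfield ℂ) (J : LaurentSeries ℂ) (P : Polynomial ℂ),
    J.order < 0 → (∀ i : ℤ, J.coeff i ∈ L) →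
    (∀ i : ℤ, (Polynomial.aeval J P).coeff i ∈ L) →
    ∀ i : ℕ, P.coeff i ∈ L

/-- **Leaf NORM** (norm trick): `M/K` fields, a group `Γ` acting on `M` over `K`, `S ⊆ M`
stable under `Γ`, and the action on `K(S)` has finite image.  Every `Γ`-invariant element of
`K(S)` is a quotient of two `Γ`-invariant elements of the ring `K[S]`. -/
def FA_S24_Target_NORM : Prop :=
  ∀ (K M Γ : Type) [Field K] [Field M] [Algebra K M] [Group Γ]
    (ρ : Γ →* (M ≃ₐ[K] M)) (S : Set M),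
    (∀ γ : Γ, ∀ s ∈ S, ρ γ s ∈ S) →
    (∃ T : Finset Γ, ∀ γ : Γ, ∃ t ∈ T, ∀ s ∈ S, ρ γ s = ρ t s) →
    ∀ e ∈ IntermediateField.adjoin K S, (∀ γ : Γ, ρ γ e = e) →
      ∃ A B : M, A ∈ Algebra.adjoin K S ∧ B ∈ Algebra.adjoin K S ∧ B ≠ 0 ∧
        (∀ γ : Γ, ρ γ A = A) ∧ (∀ γ : Γ, ρ γ B = B) ∧ e * B = A

end Fermat.Agent.S24
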