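import Mathlib
import Fermat.Agent.S24.DInterface2

/-!
# S24 Layer D, leaf BDD: boundedness at `i∞` of a quotient from the orders of `q`-expansions
-/

set_option autoImplicit false

noncomputable section

open UpperHalfPlane ModularForm Complex Filter Function
open scoped Manifold Topology Real

namespace Fermat.Agent.S24

local notation "𝕢" => Periodic.qParam

/-- Shifting a power series expansion. -/
theorem FA_S24_BDD_shift (c : ℕ → ℂ) (q : ℂ) (hq : q ≠ 0) (s : ℂ)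
    (hs : HasSum (fun m => c m • q ^ m) s) (n : ℕ) :
    HasSum (fun m => c (m + n) • q ^ m)
      ((s - ∑ i ∈ Finset.range n, c i • q ^ i) / q ^ n) := by
  have h1 := ((hasSum_nat_add_iff' n).mpr hs).div_const (q ^ n)
  have h2 : (fun m => c (m + n) • q ^ m) = (fun i => c (i + n) • q ^ (i + n) / q ^ n) := by
    funext m
    simp only [smul_eq_mul]
    rw [pow_add]
    field_simp
  rw [h2]
  exact h1

/-- A function given by a `q`-expansion tends to the constant coefficient at `i∞`. -/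
theorem FA_S24_BDD_tendsto {h : ℝ} (hh : 0 < h) (f : ℍ → ℂ) (c : ℕ → ℂ)
    (hf : ∀ τ : ℍ, HasSum (fun m => c m • 𝕢 h τ ^ m) (f τ)) :
    Tendsto f atImInfty (𝓝 (c 0)) := by
  -- `f = c 0 + 𝕢 * f₂` with `f₂` bounded
  have hq0 : ∀ τ : ℍ, 𝕢 h τ ≠ 0 := fun τ => Periodic.qParam_ne_zero _
  have h2 : ∀ τ : ℍ, HasSum (fun m => c (m + 1) • 𝕢 h τ ^ m)
      ((f τ - c 0) / 𝕢 h τ) := by
    intro τ
    have := FA_S24_BDD_shift c (𝕢 h τ) (hq0 τ) (f τ) (hf τ) 1
    simpa using this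
  have hb2 : IsBoundedAtImInfty (fun τ : ℍ => (f τ - c 0) / 𝕢 h τ) :=
    isBoundedAtImInfty_of_hasSum_qExpansion hh h2
  have hz : ZeroAtFilter atImInfty (fun τ : ℍ => 𝕢 h τ) := qParam_tendsto_atImInfty hh
  have hprod := hz.mul_boundedAtFilter hb2
  have hprod' : Tendsto (fun τ : ℍ => f τ - c 0) atImInfty (𝓝 0) := by
    refine Tendsto.congr (fun τ => ?_) hprod
    simp only [Pi.mul_apply]
    field_simp [hq0 τ]
  have := hprod'.add_const (c 0)
  simpa using this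

theorem FA_S24_BDD : FA_S24_Target_BDD := by
  intro N _ a b h hb hab hord
  have hN := FA_S24_Npos N
  have hqb : FA_S24_qN N b ≠ 0 := fun h0 =>
    hb (FA_S24_qN_injective (by rw [h0, map_zero]))
  obtain ⟨n, hn⟩ : ∃ n : ℕ, n = (FA_S24_qN N b).order.toNat := ⟨_, rfl⟩
  have hbn : PowerSeries.coeff n (FA_S24_qN N b) ≠ 0 := by
    rw [hn]
    exact PowerSeries.coeff_order hqb
  have hblt : ∀ m < n, PowerSeries.coeff m (FA_S24_qN N b) = 0 := by
    intro m hm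
    rw [hn] at hm
    exact PowerSeries.coeff_of_lt_order_toNat m hm
  have halt : ∀ m < n, PowerSeries.coeff m (FA_S24_qN N a) = 0 := by
    intro m hm
    apply PowerSeries.coeff_of_lt_order
    refine lt_of_lt_of_le ?_ hord
    rw [← PowerSeries.coe_toNat_order hqb, ← hn]
    exact_mod_cast hm
  have hq0 : ∀ τ : ℍ, 𝕢 (N : ℝ) τ ≠ 0 := fun τ => Periodic.qParam_ne_zero _
  -- the shifted expansions
  have hsa : ∀ τ : ℍ, HasSum
      (fun m => PowerSeries.coeff (m + n) (FA_S24_qN N a) • 𝕢 (N : ℝ) τ ^ m)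
      ((a : ℍ → ℂ) τ / 𝕢 (N : ℝ) τ ^ n) := by
    intro τ
    have hs := hasSum_qExpansion hN (FA_S24_HolPlus_per a) (FA_S24_HolPlus_mdiff a)
      (FA_S24_HolPlus_bdd a) τ
    have := FA_S24_BDD_shift _ (𝕢 (N : ℝ) τ) (hq0 τ) _ hs n
    rw [Finset.sum_eq_zero (fun i hi => by
      rw [← FA_S24_qN_apply, halt i (Finset.mem_range.mp hi), zero_smul]), sub_zero] at this
    exact this
  have hsb : ∀ τ : ℍ, HasSum
      (fun m => PowerSeries.coeff (m + n) (FA_S24_qN N b) • 𝕢 (N : ℝ) τ ^ m)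
      ((b : ℍ → ℂ) τ / 𝕢 (N : ℝ) τ ^ n) := by
    intro τ
    have hs := hasSum_qExpansion hN (FA_S24_HolPlus_per b) (FA_S24_HolPlus_mdiff b)
      (FA_S24_HolPlus_bdd b) τ
    have := FA_S24_BDD_shift _ (𝕢 (N : ℝ) τ) (hq0 τ) _ hs n
    rw [Finset.sum_eq_zero (fun i hi => by
      rw [← FA_S24_qN_apply, hblt i (Finset.mem_range.mp hi), zero_smul]), sub_zero] at this
    exact this
  have hba : IsBoundedAtImInfty (fun τ : ℍ => (a : ℍ → ℂ) τ / 𝕢 (N : ℝ) τ ^ n) :=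
    isBoundedAtImInfty_of_hasSum_qExpansion hN hsa
  have htb : Tendsto (fun τ : ℍ => (b : ℍ → ℂ) τ / 𝕢 (N : ℝ) τ ^ n) atImInfty
      (𝓝 (PowerSeries.coeff (0 + n) (FA_S24_qN N b))) :=
    FA_S24_BDD_tendsto hN _ (fun m => PowerSeries.coeff (m + n) (FA_S24_qN N b)) hsb
  rw [zero_add] at htb
  have hinv : IsBoundedAtImInfty (fun τ : ℍ => ((b : ℍ → ℂ) τ / 𝕢 (N : ℝ) τ ^ n)⁻¹) :=
    (htb.inv₀ hbn).isBigO_one ℝ
  have hne : ∀ᶠ τ in atImInfty, (b : ℍ → ℂ) τ / 𝕢 (N : ℝ) τ ^ n ≠ 0 :=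
    htb.eventually_ne hbn
  have hmul := BoundedAtFilter.mul hba hinv
  refine Asymptotics.IsBigO.congr' hmul ?_ (Filter.EventuallyEq.refl _ _)
  filter_upwards [hne] with τ hτ
  simp only [Pi.mul_apply]
  have hbτ : (b : ℍ → ℂ) τ ≠ 0 := by
    intro h0
    apply hτ
    rw [h0, zero_div]
  rw [← hab τ]
  have hqn : 𝕢 (N : ℝ) τ ^ n ≠ 0 := pow_ne_zero n (hq0 τ)
  field_simp

end Fermat.Agent.S24
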