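import Mathlib
import Fermat.Agent.S24.DInterface3
import Fermat.Prelude.Def_ModularCurve_LaurentCoeff

/-!
# S24 Layer D leaf COEF: Laurent series with coefficients in a subfield form a subfield
-/

set_option autoImplicit false

noncomputable section

namespace Fermat.Agent.S24

/-- The subfield of Laurent series with coefficients in `L`. -/
def FA_S24_coefField (L : Subfield ℂ) : Subfield (LaurentSeries ℂ) :=
  (ModularCurve.coeffMap L.subtype).fieldRange

theorem FA_S24_mem_coefField (L : Subfield ℂ) (x : LaurentSeries ℂ) :
    x ∈ FA_S24_coefField L ↔ ∀ i : ℤ, x.coeff i ∈ L := by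
  unfold FA_S24_coefField
  rw [RingHom.mem_fieldRange]
  constructor
  · rintro ⟨y, rfl⟩ i
    rw [ModularCurve.coeffMap_coeff]
    exact (y.coeff i).2
  · intro h
    have hsupp : {i : ℤ | (⟨x.coeff i, h i⟩ : L) ≠ 0} = x.support := by
      ext i
      simp only [Set.mem_ofPred_eq, HahnSeries.mem_support, ne_eq]
      constructor
      · intro h1 h2
        apply h1
        exact Subtype.ext h2
      · intro h1 h2
        apply h1
        exact congrArg Subtype.val h2
    refine ⟨⟨fun i => ⟨x.coeff i, h i⟩, ?_⟩, ?_⟩
    · show (Function.support fun i => (⟨x.coeff i, h i⟩ : L)).IsPWO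
      have : (Function.support fun i => (⟨x.coeff i, h i⟩ : L)) = x.support := hsupp
      rw [this]
      exact x.isPWO_support
    · ext i
      rfl

/-- Leaf COEF. -/
theorem FA_S24_COEF : FA_S24_Target_COEF := fun L =>
  ⟨FA_S24_coefField L, FA_S24_mem_coefField L⟩

end Fermat.Agent.S24
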