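import Mathlib
import Fermat.Agent.S24.CJ

/-!
# S24 Layer D: leaf targets (pure Mathlib statements), up for grabs

See `NOTES/plan/S24.md`, section "Layer D leaves".
-/

set_option autoImplicit false

noncomputable section

open UpperHalfPlane ModularForm EisensteinSeries Complex MatrixGroups Filter
open scoped Manifold Topology

namespace Fermat.Agent.S24

local notation "Δ" => ModularForm.discriminant

/-- The affine map `z ↦ (a z + b) / δ` of `ℍ` (`a, δ > 0`). -/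
def FA_S24_aff (a b δ : ℤ) (ha : 0 < a) (hδ : 0 < δ) (z : ℍ) : ℍ :=
  ⟨((a : ℂ) * z + b) / δ, by
    have h1 : (((a : ℂ) * z + b) / δ).im = (a : ℝ) * z.im / δ := by
      have : ((a : ℂ) * z + b) / δ = (((a : ℝ) * (z : ℂ) + (b : ℝ)) / (δ : ℝ) : ℂ) := by
        push_cast; rfl
      rw [this, Complex.div_ofReal_im]
      simp
    rw [h1]
    have ha' : (0 : ℝ) < a := by exact_mod_cast ha
    have hδ' : (0 : ℝ) < δ := by exact_mod_cast hδ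
    exact div_pos (mul_pos ha' z.im_pos) hδ'⟩

theorem FA_S24_aff_coe (a b δ : ℤ) (ha : 0 < a) (hδ : 0 < δ) (z : ℍ) :
    (FA_S24_aff a b δ ha hδ z : ℂ) = ((a : ℂ) * z + b) / δ := rfl

/-- **Leaf UT** (Hermite normal form): for `d > 0` and `γ ∈ SL(2, ℤ)` there are
`γ' ∈ SL(2, ℤ)` and an upper triangular `[a b; 0 δ]`, `a δ = d`, `a, δ > 0`, with
`[d 0; 0 1] γ = γ' [a b; 0 δ]`; hence `d · (γ z) = γ' · ((a z + b)/δ)` on `ℍ`. -/
def FA_S24_Target_UT : Prop :=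
  ∀ (d : ℕ) (hd : 0 < (d : ℤ)) (γ : SL(2, ℤ)),
    ∃ (a b δ : ℤ) (ha : 0 < a) (hδ : 0 < δ) (γ' : SL(2, ℤ)),
      a * δ = d ∧
      (!![(d : ℤ), 0; 0, 1] * (γ : Matrix (Fin 2) (Fin 2) ℤ)
        = (γ' : Matrix (Fin 2) (Fin 2) ℤ) * !![a, b; 0, δ]) ∧
      ∀ z : ℍ, FA_S24_aff d 0 1 hd one_pos (γ • z) = γ' • FA_S24_aff a b δ ha hδ z

/-- **Leaf UT0**: for `γ ∈ Γ₀(d)`: `d · (γ z) = γ' · (d z)`. -/
def FA_S24_Target_UT0 : Prop :=
  ∀ (d : ℕ) (hd : 0 < (d : ℤ)) (γ : SL(2, ℤ)), γ ∈ CongruenceSubgroup.Gamma0 d →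
    ∃ γ' : SL(2, ℤ), ∀ z : ℍ,
      FA_S24_aff d 0 1 hd one_pos (γ • z) = γ' • FA_S24_aff d 0 1 hd one_pos z

/-- **Leaf QE** (`q`-expansion of `f ((a z + b)/δ)` in `u = exp (2πi z / N)`): if `f` is
holomorphic, `1`-periodic and bounded at `i∞`, and `δ ∣ a N`, `k := a N / δ`, then
`f ∘ aff` is holomorphic, `N`-periodic, bounded at `i∞` and its `m`-th coefficient is
`c_{m/k} · exp (2πi b (m/k) / δ)` if `k ∣ m` and `0` otherwise. -/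
def FA_S24_Target_QE : Prop :=
  ∀ (f : ℍ → ℂ) (_hf : MDiff f) (_hper : Function.Periodic (f ∘ ofComplex) (1 : ℝ))
    (_hbdd : IsBoundedAtImInfty f)
    (N : ℕ) (_hN : 0 < N) (a b δ : ℤ) (ha : 0 < a) (hδ : 0 < δ) (k : ℕ)
    (_hk : (k : ℤ) * δ = a * N),
    MDiff (f ∘ FA_S24_aff a b δ ha hδ) ∧
    Function.Periodic ((f ∘ FA_S24_aff a b δ ha hδ) ∘ ofComplex) (N : ℝ) ∧
    IsBoundedAtImInfty (f ∘ FA_S24_aff a b δ ha hδ) ∧
    ∀ m : ℕ, (qExpansion (N : ℝ) (f ∘ FA_S24_aff a b δ ha hδ)).coeff m =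
      if k ∣ m then (qExpansion (1 : ℝ) f).coeff (m / k)
        * Complex.exp (2 * Real.pi * Complex.I * (b : ℂ) * ((m / k : ℕ) : ℂ) / (δ : ℂ))
      else 0

/-- **Leaf P8**: a level-one modular form of weight `12 m` is `Δ^m · P(j)`, `deg P ≤ m`. -/
def FA_S24_Target_P8 : Prop :=
  ∀ (m : ℕ) (f : ModularForm 𝒮ℒ ((12 * m : ℕ) : ℤ)),
    ∃ P : Polynomial ℂ, P.natDegree ≤ m ∧ ∀ z : ℍ, f z = Δ z ^ m * P.eval (FA_S24_j z)

end Fermat.Agent.S24
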