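import Mathlib
import Fermat.Agent.S24.DInterface

/-!
# S24 Layer D leaf P8: a level-one modular form of weight `12 m` is `Δ^m · P(j)`, `deg P ≤ m`
-/

set_option autoImplicit false

noncomputable section

open UpperHalfPlane ModularForm EisensteinSeries Complex MatrixGroups Filter Polynomial
open scoped Manifold Topology

namespace Fermat.Agent.S24

local notation "Δ" => ModularForm.discriminant

theorem FA_S24_P8_E4_cube (z : ℍ) : E₄ z ^ 3 = FA_S24_j z * Δ z := by
  unfold FA_S24_j
  rw [div_mul_cancel₀ _ (discriminant_ne_zero z)]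

theorem FA_S24_P8_aux (m : ℕ) : ∀ (k : ℤ), k = 12 * (m : ℤ) → ∀ f : ModularForm 𝒮ℒ k,
    ∃ P : Polynomial ℂ, P.natDegree ≤ m ∧ ∀ z : ℍ, f z = Δ z ^ m * P.eval (FA_S24_j z) := by
  induction m with
  | zero =>
    intro k hk f
    have hk0 : k = 0 := by simpa using hk
    subst hk0
    obtain ⟨c, hc⟩ := ModularFormClass.levelOne_weight_zero_const f
    refine ⟨Polynomial.C c, by simp, fun z => ?_⟩
    rw [hc]
    simp
  | succ m ih =>
    intro k hk f
    have hwt : ((3 * (m + 1) : ℕ) : ℤ) * 4 = k := by rw [hk]; push_cast; ring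
    let G : ModularForm 𝒮ℒ k := ModularForm.mcast hwt (E₄.pow (3 * (m + 1)))
    have hGval : ∀ z, G z = E₄ z ^ (3 * (m + 1)) := by
      intro z
      show (E₄.pow (3 * (m + 1))) z = _
      rw [ModularForm.coe_pow]
      rfl
    have hG0 : (qExpansion 1 G).coeff 0 = 1 := by
      show (qExpansion 1 (ModularForm.mcast hwt (E₄.pow (3 * (m + 1))))).coeff 0 = 1
      rw [ModularForm.qExpansion_mcast,
        ModularForm.qExpansion_pow one_pos one_mem_strictPeriods_SL,
        PowerSeries.coeff_zero_eq_constantCoeff_apply, map_pow,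
        ← PowerSeries.coeff_zero_eq_constantCoeff_apply, E_qExpansion_coeff_zero _ ⟨2, rfl⟩,
        one_pow]
    have hcusp := ModularForm.sub_smul_isCuspForm f G hG0
    have h0 := (ModularForm.isCuspForm_iff_coeffZero_eq_zero _).mp hcusp
    obtain ⟨Q, hQdeg, hQ⟩ := ih (k - 12) (by rw [hk]; push_cast; ring)
      (CuspForm.discriminantEquiv (ModularForm.toCuspForm _ h0))
    refine ⟨Polynomial.C ((qExpansion 1 f).coeff 0) * Polynomial.X ^ (m + 1) + Q, ?_, ?_⟩
    · refine (Polynomial.natDegree_add_le _ _).trans ?_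
      refine max_le (Polynomial.natDegree_C_mul_X_pow_le _ _) (hQdeg.trans (Nat.le_succ m))
    · intro z
      have h1 := ModularForm.discriminant_mul_discriminantEquiv_apply
        (ModularForm.toCuspForm _ h0) z
      rw [ModularForm.toCuspForm_apply] at h1
      have h2 : (f - (qExpansion 1 f).coeff 0 • G) z = f z - (qExpansion 1 f).coeff 0 * G z := rfl
      rw [h2, hQ z, hGval z, pow_mul, FA_S24_P8_E4_cube z] at h1
      simp only [Polynomial.eval_add, Polynomial.eval_mul, Polynomial.eval_C, Polynomial.eval_pow,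
        Polynomial.eval_X]
      linear_combination -h1

/-- Leaf P8. -/
theorem FA_S24_P8 : FA_S24_Target_P8 := by
  intro m f
  exact FA_S24_P8_aux m _ (by push_cast; ring) f

end Fermat.Agent.S24
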