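import Mathlib
import Fermat.Agent.S24.DInterface2
import Fermat.Agent.S24.DP8

/-!
# S24 Layer D leaf HOL: holomorphic level-one modular functions are polynomials in `j`
-/

set_option autoImplicit false

noncomputable section

open UpperHalfPlane ModularForm EisensteinSeries Complex MatrixGroups Filter Polynomial
open scoped Manifold Topology

namespace Fermat.Agent.S24

local notation "Δ" => ModularForm.discriminant

theorem FA_S24_HOL_slash (h : ℍ → ℂ) (m : ℕ)
    (hinv : ∀ (γ : SL(2, ℤ)) (z : ℍ), h (γ • z) = h z) (γ : SL(2, ℤ)) :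
    (fun z : ℍ => Δ z ^ m * h z) ∣[(12 * (m : ℤ))] γ = fun z : ℍ => Δ z ^ m * h z := by
  funext z
  rw [ModularForm.SL_slash_apply]
  have h1 := FA_S24_disc_smul γ z
  have hd : denom (Matrix.SpecialLinearGroup.mapGL ℝ γ) z ≠ 0 := denom_ne_zero _ z
  show Δ (γ • z) ^ m * h (γ • z) * denom (↑γ) z ^ (-(12 * (m : ℤ))) = Δ z ^ m * h z
  rw [h1, hinv γ z]
  have : denom (↑γ : GL (Fin 2) ℝ) z = denom (Matrix.SpecialLinearGroup.mapGL ℝ γ) z := rfl
  rw [this, mul_pow, ← zpow_natCast (denom _ z ^ (12 : ℤ)) m, ← zpow_mul, zpow_neg]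
  have hne : denom (Matrix.SpecialLinearGroup.mapGL ℝ γ) z ^ (12 * (m : ℤ)) ≠ 0 :=
    zpow_ne_zero _ hd
  field_simp

/-- Leaf HOL. -/
theorem FA_S24_HOL : FA_S24_Target_HOL := by
  intro h m hh hinv hbdd
  have hslash := FA_S24_HOL_slash h m hinv
  let F : ModularForm 𝒮ℒ (12 * (m : ℤ)) :=
    { toFun := fun z => Δ z ^ m * h z
      slash_action_eq' := fun _ ⟨γ, hγ⟩ ↦ hγ ▸ hslash γ
      holo' := by
        have h1 : MDiff (fun z : ℍ => Δ z) := CuspForm.discriminant.holo'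
        exact (h1.pow m).mul hh
      bdd_at_cusps' := fun {c} hc => by
        rw [Subgroup.IsArithmetic.isCusp_iff_isCusp_SL2Z] at hc
        rw [OnePoint.isBoundedAt_iff_forall_SL2Z hc]
        intro γ _
        rw [hslash γ]
        exact hbdd }
  obtain ⟨P, hP, hPe⟩ := FA_S24_P8_aux m (12 * (m : ℤ)) rfl F
  refine ⟨P, hP, fun z => ?_⟩
  have h2 : Δ z ^ m * h z = Δ z ^ m * P.eval (FA_S24_j z) := hPe z
  exact mul_left_cancel₀ (pow_ne_zero m (discriminant_ne_zero z)) h2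

end Fermat.Agent.S24
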