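import Mathlib
import Fermat.Agent.S24.DInterface2

/-!
# S24 Layer D leaf NORM: the norm trick
-/

set_option autoImplicit false

noncomputable section

namespace Fermat.Agent.S24

/-- Two automorphisms which agree on `S` agree on `K[S]`. -/
theorem FA_S24_NORM_agree {K M : Type} [Field K] [Field M] [Algebra K M] (S : Set M)
    (φ ψ : M ≃ₐ[K] M) (h : ∀ s ∈ S, φ s = ψ s) :
    ∀ x ∈ Algebra.adjoin K S, φ x = ψ x := by
  intro x hx
  have h1 := AlgHom.adjoin_le_equalizer (φ : M →ₐ[K] M) (ψ : M →ₐ[K] M) (s := S)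
    (fun s hs => h s hs)
  exact h1 hx

/-- An automorphism which maps `S` into `S` maps `K[S]` into `K[S]`. -/
theorem FA_S24_NORM_stable {K M : Type} [Field K] [Field M] [Algebra K M] (S : Set M)
    (φ : M ≃ₐ[K] M) (h : ∀ s ∈ S, φ s ∈ S) :
    ∀ x ∈ Algebra.adjoin K S, φ x ∈ Algebra.adjoin K S := by
  intro x hx
  have h1 : (Algebra.adjoin K S).map (φ : M →ₐ[K] M) ≤ Algebra.adjoin K S := by
    rw [AlgHom.map_adjoin]
    apply Algebra.adjoin_mono
    rintro _ ⟨s, hs, rfl⟩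
    exact h s hs
  exact h1 ⟨x, hx, rfl⟩

/-- Leaf NORM. -/
theorem FA_S24_NORM : FA_S24_Target_NORM := by
  classical
  intro K M Γ _ _ _ _ ρ S hS hT e he hinv
  obtain ⟨T, hT⟩ := hT
  obtain ⟨a, ha, b, hb, hab⟩ := IntermediateField.mem_adjoin_iff_div.mp he
  by_cases hb0 : b = 0
  · refine ⟨0, 1, Subalgebra.zero_mem _, Subalgebra.one_mem _, one_ne_zero, ?_, ?_, ?_⟩
    · intro γ
      exact map_zero _
    · intro γ
      exact map_one _
    · rw [hab, hb0, div_zero, zero_mul]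
  have hstab : ∀ γ : Γ, ∀ x ∈ Algebra.adjoin K S, ρ γ x ∈ Algebra.adjoin K S :=
    fun γ => FA_S24_NORM_stable S (ρ γ) (hS γ)
  -- the (finite) orbit of `b`
  obtain ⟨O, hO⟩ : ∃ O : Finset M, O = T.image (fun t => ρ t b) := ⟨_, rfl⟩
  have hmemO : ∀ γ : Γ, ρ γ b ∈ O := by
    intro γ
    obtain ⟨t, ht, hγt⟩ := hT γ
    rw [hO, Finset.mem_image]
    exact ⟨t, ht, (FA_S24_NORM_agree S (ρ γ) (ρ t) hγt b hb).symm⟩
  have hOR : ∀ x ∈ O, x ∈ Algebra.adjoin K S := by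
    intro x hx
    rw [hO, Finset.mem_image] at hx
    obtain ⟨t, _, rfl⟩ := hx
    exact hstab t b hb
  have hO0 : ∀ x ∈ O, x ≠ 0 := by
    intro x hx
    rw [hO, Finset.mem_image] at hx
    obtain ⟨t, _, rfl⟩ := hx
    intro h0
    exact hb0 ((map_eq_zero_iff (ρ t) (ρ t).injective).mp h0)
  have hOstab : ∀ γ : Γ, ∀ x ∈ O, ρ γ x ∈ O := by
    intro γ x hx
    rw [hO, Finset.mem_image] at hx
    obtain ⟨t, _, rfl⟩ := hx
    have : ρ γ (ρ t b) = ρ (γ * t) b := by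
      rw [map_mul]
      rfl
    rw [this]
    exact hmemO _
  have himage : ∀ γ : Γ, O.image (fun x => ρ γ x) = O := by
    intro γ
    apply Finset.eq_of_subset_of_card_le
    · intro y hy
      rw [Finset.mem_image] at hy
      obtain ⟨x, hx, rfl⟩ := hy
      exact hOstab γ x hx
    · rw [Finset.card_image_of_injective _ (ρ γ).injective]
  have hbO : b ∈ O := by
    have := hmemO 1
    rwa [map_one, AlgEquiv.one_apply] at this
  obtain ⟨B, hB⟩ : ∃ B : M, B = ∏ x ∈ O, x := ⟨_, rfl⟩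
  have hBinv : ∀ γ : Γ, ρ γ B = B := by
    intro γ
    have h1 : ∏ x ∈ O.image (fun x => ρ γ x), x = ∏ x ∈ O, ρ γ x :=
      Finset.prod_image (fun x _ y _ hxy => (ρ γ).injective hxy)
    rw [hB, map_prod, ← h1, himage γ]
  have hB0 : B ≠ 0 := hB ▸ Finset.prod_ne_zero_iff.mpr hO0
  have hBR : B ∈ Algebra.adjoin K S := hB ▸ Subalgebra.prod_mem _ hOR
  have hBeq : B = b * ∏ x ∈ O.erase b, x := by
    rw [hB, Finset.mul_prod_erase O (fun x => x) hbO]
  refine ⟨e * B, B, ?_, hBR, hB0, ?_, hBinv, rfl⟩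
  · have h1 : e * B = a * ∏ x ∈ O.erase b, x := by
      rw [hBeq, hab, ← mul_assoc, div_mul_cancel₀ a hb0]
    rw [h1]
    refine Subalgebra.mul_mem _ ha (Subalgebra.prod_mem _ ?_)
    intro x hx
    exact hOR x (Finset.mem_of_mem_erase hx)
  · intro γ
    rw [map_mul, hinv γ, hBinv γ]

end Fermat.Agent.S24
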