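import Mathlib
import Fermat.Agent.S24.DInterface

/-!
# S24 Layer D, leaf QE: the `q`-expansion of `f ((a z + b) / δ)` in `exp (2 π i z / N)`
-/

set_option autoImplicit false

noncomputable section

open UpperHalfPlane ModularForm Complex Filter Function
open scoped Manifold Topology Real

namespace Fermat.Agent.S24

local notation "𝕢" => Periodic.qParam

/-- The affine map on `ℂ`. -/
def FA_S24_QE_affC (a b δ : ℤ) (w : ℂ) : ℂ := ((a : ℂ) * w + b) / δ

theorem FA_S24_QE_affC_im (a b δ : ℤ) (w : ℂ) :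
    (FA_S24_QE_affC a b δ w).im = (a : ℝ) * w.im / δ := by
  have : FA_S24_QE_affC a b δ w = (((a : ℝ) * w + (b : ℝ)) / (δ : ℝ) : ℂ) := by
    unfold FA_S24_QE_affC
    push_cast
    rfl
  rw [this, Complex.div_ofReal_im]
  simp

theorem FA_S24_QE_affC_im_pos (a b δ : ℤ) (ha : 0 < a) (hδ : 0 < δ) {w : ℂ} (hw : 0 < w.im) :
    0 < (FA_S24_QE_affC a b δ w).im := by
  rw [FA_S24_QE_affC_im]
  have ha' : (0 : ℝ) < a := by exact_mod_cast ha
  have hδ' : (0 : ℝ) < δ := by exact_mod_cast hδ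
  positivity

theorem FA_S24_QE_aff_ofComplex (a b δ : ℤ) (ha : 0 < a) (hδ : 0 < δ) {w : ℂ} (hw : 0 < w.im) :
    FA_S24_aff a b δ ha hδ (ofComplex w) = ofComplex (FA_S24_QE_affC a b δ w) := by
  rw [ofComplex_apply_of_im_pos (FA_S24_QE_affC_im_pos a b δ ha hδ hw),
    ofComplex_apply_of_im_pos hw]
  rfl

theorem FA_S24_QE_aff_im (a b δ : ℤ) (ha : 0 < a) (hδ : 0 < δ) (z : ℍ) :
    (FA_S24_aff a b δ ha hδ z).im = (a : ℝ) * z.im / δ :=
  FA_S24_QE_affC_im a b δ (z : ℂ)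

theorem FA_S24_QE_aff_tendsto (a b δ : ℤ) (ha : 0 < a) (hδ : 0 < δ) :
    Tendsto (FA_S24_aff a b δ ha hδ) atImInfty atImInfty := by
  have ha' : (0 : ℝ) < a := by exact_mod_cast ha
  have hδ' : (0 : ℝ) < δ := by exact_mod_cast hδ
  suffices Tendsto (fun τ : ℍ => ((a : ℝ) / δ) * τ.im) atImInfty atTop by
    simp only [atImInfty, tendsto_comap_iff, Function.comp_def, FA_S24_QE_aff_im]
    refine this.congr fun τ => ?_
    ring
  exact tendsto_comap.const_mul_atTop (by positivity)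

theorem FA_S24_QE_mdiff (f : ℍ → ℂ) (hf : MDiff f) (a b δ : ℤ) (ha : 0 < a) (hδ : 0 < δ) :
    MDiff (f ∘ FA_S24_aff a b δ ha hδ) := by
  rw [UpperHalfPlane.mdifferentiable_iff] at hf ⊢
  have hA : Differentiable ℂ (FA_S24_QE_affC a b δ) := by
    unfold FA_S24_QE_affC
    fun_prop
  have h1 : DifferentiableOn ℂ ((f ∘ ofComplex) ∘ FA_S24_QE_affC a b δ) {z | 0 < z.im} :=
    hf.comp hA.differentiableOn (fun w hw => FA_S24_QE_affC_im_pos a b δ ha hδ hw)
  refine h1.congr fun w hw => ?_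
  simp only [Function.comp_apply]
  rw [FA_S24_QE_aff_ofComplex a b δ ha hδ hw]

theorem FA_S24_QE_periodic (f : ℍ → ℂ) (hper : Function.Periodic (f ∘ ofComplex) (1 : ℝ))
    (N : ℕ) (a b δ : ℤ) (ha : 0 < a) (hδ : 0 < δ) (k : ℕ)
    (hk : (k : ℤ) * δ = a * N) :
    Function.Periodic ((f ∘ FA_S24_aff a b δ ha hδ) ∘ ofComplex) (N : ℝ) := by
  intro w
  have hδ' : (δ : ℂ) ≠ 0 := by exact_mod_cast hδ.ne'
  by_cases hw : 0 < w.im
  · have hw' : 0 < (w + ((N : ℝ) : ℂ)).im := by simpa using hw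
    simp only [Function.comp_apply]
    rw [FA_S24_QE_aff_ofComplex a b δ ha hδ hw, FA_S24_QE_aff_ofComplex a b δ ha hδ hw']
    have h1 : FA_S24_QE_affC a b δ (w + ((N : ℝ) : ℂ)) = FA_S24_QE_affC a b δ w + (k : ℂ) * ((1 : ℝ) : ℂ) := by
      unfold FA_S24_QE_affC
      have hk' : (k : ℂ) * (δ : ℂ) = (a : ℂ) * (N : ℂ) := by exact_mod_cast hk
      field_simp
      push_cast
      linear_combination -hk'
    rw [h1]
    exact hper.nat_mul k _
  · have hw1 : w.im ≤ 0 := not_lt.mp hw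
    have hw2 : (w + ((N : ℝ) : ℂ)).im ≤ 0 := by simpa using hw1
    simp only [Function.comp_apply]
    rw [ofComplex_apply_eq_of_im_nonpos hw2 hw1]

theorem FA_S24_QE_bdd (f : ℍ → ℂ) (hbdd : IsBoundedAtImInfty f)
    (a b δ : ℤ) (ha : 0 < a) (hδ : 0 < δ) :
    IsBoundedAtImInfty (f ∘ FA_S24_aff a b δ ha hδ) := by
  have := Asymptotics.IsBigO.comp_tendsto hbdd (FA_S24_QE_aff_tendsto a b δ ha hδ)
  exact this

/-- Uniqueness of `q`-expansion coefficients for plain functions. -/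
theorem FA_S24_QE_coeff_unique (f : ℍ → ℂ) {c : ℕ → ℂ} {h : ℝ} (hh : 0 < h)
    (hfanalytic : AnalyticAt ℂ (cuspFunction h f) 0)
    (hf : ∀ τ : ℍ, HasSum (fun m ↦ c m • 𝕢 h τ ^ m) (f τ)) (m : ℕ) :
    c m = (qExpansion h f).coeff m := by
  have h1 := (hasFPowerSeriesOnBall_cuspFunction hh hfanalytic hf).hasFPowerSeriesAt
  have h2 := hfanalytic.hasFPowerSeriesAt
  have h3 := h1.eq_formalMultilinearSeries h2
  have h4 := congrArg (fun p : FormalMultilinearSeries ℂ ℂ ℂ => p.coeff m) h3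
  simp only [FormalMultilinearSeries.coeff_ofScalars] at h4
  rw [h4, qExpansion_coeff]
  field_simp

theorem FA_S24_QE_qParam (N : ℕ) (hN : 0 < N) (a b δ : ℤ) (ha : 0 < a) (hδ : 0 < δ) (k : ℕ)
    (hk : (k : ℤ) * δ = a * N) (τ : ℍ) :
    𝕢 (1 : ℝ) (FA_S24_aff a b δ ha hδ τ : ℂ)
      = (𝕢 (N : ℝ) τ) ^ k * Complex.exp (2 * π * Complex.I * b / δ) := by
  have hδ' : (δ : ℂ) ≠ 0 := by exact_mod_cast hδ.ne'
  have hN' : (N : ℂ) ≠ 0 := by exact_mod_cast hN.ne'
  have hk' : (k : ℂ) * (δ : ℂ) = (a : ℂ) * (N : ℂ) := by exact_mod_cast hk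
  simp only [Periodic.qParam, FA_S24_aff_coe]
  rw [← Complex.exp_nat_mul, ← Complex.exp_add]
  congr 1
  push_cast
  field_simp
  linear_combination (-(τ : ℂ)) * hk'

theorem FA_S24_QE : FA_S24_Target_QE := by
  intro f hf hper hbdd N hN a b δ ha hδ k hk
  have hNr : (0 : ℝ) < (N : ℝ) := by exact_mod_cast hN
  have h1 := FA_S24_QE_mdiff f hf a b δ ha hδ
  have h2 := FA_S24_QE_periodic f hper N a b δ ha hδ k hk
  have h3 := FA_S24_QE_bdd f hbdd a b δ ha hδ
  refine ⟨h1, h2, h3, fun m => ?_⟩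
  have hkpos : 0 < k := by
    rcases Nat.eq_zero_or_pos k with h0 | h0
    · exfalso
      subst h0
      have hpos : 0 < a * (N : ℤ) := mul_pos ha (by exact_mod_cast hN)
      rw [← hk] at hpos
      simp at hpos
    · exact h0
  have han := analyticAt_cuspFunction_zero hNr h2 h1 h3
  symm
  refine FA_S24_QE_coeff_unique (f ∘ FA_S24_aff a b δ ha hδ)
    (c := fun m => if k ∣ m then (qExpansion (1 : ℝ) f).coeff (m / k)
        * Complex.exp (2 * Real.pi * Complex.I * (b : ℂ) * ((m / k : ℕ) : ℂ) / (δ : ℂ))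
      else 0) hNr han (fun τ => ?_) m
  have hs := hasSum_qExpansion (h := 1) one_pos hper hf hbdd (FA_S24_aff a b δ ha hδ τ)
  have hinj : Function.Injective (fun n : ℕ => k * n) := fun x y hxy =>
    Nat.eq_of_mul_eq_mul_left hkpos hxy
  rw [← hinj.hasSum_iff]
  · convert hs using 1
    swap
    · rfl
    funext n
    simp only [Function.comp_apply, dvd_mul_right, if_true, Nat.mul_div_cancel_left n hkpos]
    rw [FA_S24_QE_qParam N hN a b δ ha hδ k hk τ, mul_pow, ← pow_mul, ← Complex.exp_nat_mul]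
    simp only [smul_eq_mul]
    have he : Complex.exp (2 * π * Complex.I * (b : ℂ) * (n : ℂ) / (δ : ℂ))
        = Complex.exp ((n : ℂ) * (2 * π * Complex.I * (b : ℂ) / (δ : ℂ))) := by
      congr 1
      ring
    rw [he]
    ring
  · intro x hx
    have hnd : ¬ k ∣ x := by
      rintro ⟨n, rfl⟩
      exact hx ⟨n, rfl⟩
    simp only [if_neg hnd, zero_smul]

end Fermat.Agent.S24
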