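import Mathlib
import Fermat.Agent.S24.DInterface3

/-!
# S24 Layer D, leaf QX: `t(X) = s(X^k)` coefficientwise implies `t = qExpand k s`
-/

set_option autoImplicit false

noncomputable section

open ModularCurve

namespace Fermat.Agent.S24

theorem FA_S24_QX_coeff_nat (s : PowerSeries ℂ) (m : ℕ) :
    (HahnSeries.ofPowerSeries ℤ ℂ s).coeff (m : ℤ) = PowerSeries.coeff m s := by
  have h := HahnSeries.ofPowerSeries_apply_coeff (Γ := ℤ) (R := ℂ) s m
  simpa using h

theorem FA_S24_QX : FA_S24_Target_QX := by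
  intro s t k _ h
  have hk0 : k ≠ 0 := NeZero.ne k
  have hkpos : (0 : ℤ) < (k : ℤ) := by exact_mod_cast Nat.pos_of_ne_zero hk0
  ext i
  rcases lt_or_ge i 0 with hi | hi
  · rw [ofPowerSeries_coeff_of_neg _ hi]
    by_cases hd : (k : ℤ) ∣ i
    · obtain ⟨j, rfl⟩ := hd
      rw [qExpand_coeff_mul]
      have hj : j < 0 := by
        by_contra hj
        have hj' : 0 ≤ j := not_lt.mp hj
        have : 0 ≤ (k : ℤ) * j := mul_nonneg hkpos.le hj'
        exact absurd hi (not_lt.mpr this)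
      rw [ofPowerSeries_coeff_of_neg _ hj]
    · rw [qExpand_coeff_of_not_dvd _ _ hd]
  · obtain ⟨m, rfl⟩ := Int.eq_ofNat_of_zero_le hi
    rw [FA_S24_QX_coeff_nat, h m]
    by_cases hd : k ∣ m
    · rw [if_pos hd]
      obtain ⟨j, rfl⟩ := hd
      rw [Nat.mul_div_cancel_left _ (Nat.pos_of_ne_zero hk0)]
      push_cast
      rw [qExpand_coeff_mul, FA_S24_QX_coeff_nat]
    · rw [if_neg hd]
      have hd' : ¬ (k : ℤ) ∣ (m : ℤ) := by
        intro hh
        exact hd (Int.natCast_dvd_natCast.mp hh)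
      rw [qExpand_coeff_of_not_dvd _ _ hd']

end Fermat.Agent.S24
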