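import Mathlib
import Fermat.Agent.S24.DInterface2
import Fermat.Agent.S24.DCOEF

/-!
# S24 Layer D leaf RAT: rationality of the coefficients of a polynomial in `J`
-/

set_option autoImplicit false

noncomputable section

open Polynomial

namespace Fermat.Agent.S24

theorem FA_S24_RAT_leadingCoeff_pow (J : LaurentSeries ℂ) (k : ℕ) :
    (J ^ k).leadingCoeff = J.leadingCoeff ^ k := by
  induction k with
  | zero => simp
  | succ k ih => rw [pow_succ, HahnSeries.leadingCoeff_mul, ih, pow_succ]

theorem FA_S24_RAT_pow_coeff (J : LaurentSeries ℂ) (k : ℕ) :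
    (J ^ k).coeff ((k : ℤ) * J.order) = (J.coeff J.order) ^ k := by
  have h1 := FA_S24_RAT_leadingCoeff_pow J k
  rw [HahnSeries.leadingCoeff_eq, HahnSeries.leadingCoeff_eq, HahnSeries.order_pow] at h1
  simpa using h1

theorem FA_S24_RAT_pow_coeff_lt (J : LaurentSeries ℂ) (k : ℕ) (i : ℤ)
    (hi : i < (k : ℤ) * J.order) : (J ^ k).coeff i = 0 := by
  apply HahnSeries.coeff_eq_zero_of_lt_order
  rw [HahnSeries.order_pow]
  simpa using hi

theorem FA_S24_RAT_algebraMap (a : ℂ) : algebraMap ℂ (LaurentSeries ℂ) a = HahnSeries.C a := by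
  show (HahnSeries.ofPowerSeries ℤ ℂ) (algebraMap ℂ (PowerSeries ℂ) a) = _
  simp

theorem FA_S24_RAT_algebraMap_mul_coeff (a : ℂ) (x : LaurentSeries ℂ) (i : ℤ) :
    (algebraMap ℂ (LaurentSeries ℂ) a * x).coeff i = a * x.coeff i := by
  rw [FA_S24_RAT_algebraMap, HahnSeries.C_mul_eq_smul, HahnSeries.coeff_smul, smul_eq_mul]

theorem FA_S24_RAT_aeval_eq (J : LaurentSeries ℂ) (Q : Polynomial ℂ) :
    aeval J Q = ∑ k ∈ Q.support, algebraMap ℂ (LaurentSeries ℂ) (Q.coeff k) * J ^ k := by
  rw [Polynomial.aeval_def, Polynomial.eval₂_eq_sum, Polynomial.sum_def]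

theorem FA_S24_RAT_aeval_coeff (J : LaurentSeries ℂ) (Q : Polynomial ℂ) (i : ℤ) :
    (aeval J Q).coeff i = ∑ k ∈ Q.support, Q.coeff k * (J ^ k).coeff i := by
  rw [FA_S24_RAT_aeval_eq, HahnSeries.coeff_sum]
  exact Finset.sum_congr rfl (fun k _ => FA_S24_RAT_algebraMap_mul_coeff _ _ _)

/-- The coefficient of `P(J)` at `deg P · ord J` is `lc P · lc J ^ deg P`. -/
theorem FA_S24_RAT_top_coeff (J : LaurentSeries ℂ) (hJ : J.order < 0) (P : Polynomial ℂ) :
    (aeval J P).coeff ((P.natDegree : ℤ) * J.order)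
      = P.leadingCoeff * (J.coeff J.order) ^ P.natDegree := by
  rw [FA_S24_RAT_aeval_coeff]
  by_cases hP : P = 0
  · subst hP
    simp
  rw [Finset.sum_eq_single P.natDegree]
  · rw [FA_S24_RAT_pow_coeff]
    rfl
  · intro k hk hkd
    have hle : k ≤ P.natDegree := Polynomial.le_natDegree_of_mem_supp k hk
    have hlt : k < P.natDegree := lt_of_le_of_ne hle hkd
    rw [FA_S24_RAT_pow_coeff_lt J k _ ?_, mul_zero]
    have : (k : ℤ) < (P.natDegree : ℤ) := by exact_mod_cast hlt
    nlinarith
  · intro h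
    exfalso
    exact h (Polynomial.natDegree_mem_support_of_nonzero hP)

theorem FA_S24_RAT_aux (L : Subfield ℂ) (J : LaurentSeries ℂ) (hJ : J.order < 0)
    (hJL : ∀ i : ℤ, J.coeff i ∈ L) :
    ∀ (n : ℕ) (P : Polynomial ℂ), P.support.card ≤ n →
      (∀ i : ℤ, (aeval J P).coeff i ∈ L) → ∀ i : ℕ, P.coeff i ∈ L := by
  have hJ0 : J ≠ 0 := by
    rintro rfl
    simp at hJ
  have hc : J.coeff J.order ≠ 0 := fun h => hJ0 (HahnSeries.coeff_order_eq_zero.mp h)
  have hJmem : J ∈ FA_S24_coefField L := (FA_S24_mem_coefField L J).mpr hJL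
  intro n
  induction n with
  | zero =>
    intro P hP _ i
    have : P = 0 := by
      rw [← Polynomial.support_eq_empty, ← Finset.card_eq_zero]
      omega
    subst this
    simp
  | succ n ih =>
    intro P hP hPL i
    by_cases hP0 : P = 0
    · subst hP0
      simp
    have ha : P.leadingCoeff ∈ L := by
      have h1 := hPL ((P.natDegree : ℤ) * J.order)
      rw [FA_S24_RAT_top_coeff J hJ P] at h1
      have h2 : (J.coeff J.order) ^ P.natDegree ∈ L := L.pow_mem (hJL _) _
      have h3 : (J.coeff J.order) ^ P.natDegree ≠ 0 := pow_ne_zero _ hc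
      have h4 := L.mul_mem h1 (L.inv_mem h2)
      rwa [mul_assoc, mul_inv_cancel₀ h3, mul_one] at h4
    have hcard : P.eraseLead.support.card ≤ n := by
      have := Polynomial.eraseLead_support_card_lt hP0
      omega
    have hPmem : aeval J P ∈ FA_S24_coefField L := (FA_S24_mem_coefField L _).mpr hPL
    have hamem : algebraMap ℂ (LaurentSeries ℂ) P.leadingCoeff ∈ FA_S24_coefField L := by
      rw [FA_S24_mem_coefField]
      intro j
      rw [FA_S24_RAT_algebraMap, HahnSeries.C_apply, HahnSeries.coeff_single]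
      split_ifs
      · exact ha
      · exact L.zero_mem
    have hQmem : aeval J P.eraseLead ∈ FA_S24_coefField L := by
      have h1 : aeval J P.eraseLead
          = aeval J P - algebraMap ℂ (LaurentSeries ℂ) P.leadingCoeff * J ^ P.natDegree := by
        have h2 := congrArg (aeval J) (Polynomial.eraseLead_add_C_mul_X_pow P)
        rw [map_add, map_mul, map_pow, Polynomial.aeval_C, Polynomial.aeval_X] at h2
        rw [← h2]
        ring
      rw [h1]
      exact (FA_S24_coefField L).sub_mem hPmem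
        ((FA_S24_coefField L).mul_mem hamem ((FA_S24_coefField L).pow_mem hJmem _))
    have hQ := ih P.eraseLead hcard ((FA_S24_mem_coefField L _).mp hQmem) i
    by_cases hi : i = P.natDegree
    · subst hi
      exact ha
    · rwa [Polynomial.eraseLead_coeff_of_ne _ hi] at hQ

/-- Leaf RAT. -/
theorem FA_S24_RAT : FA_S24_Target_RAT := by
  intro L J P hJ hJL hPL i
  exact FA_S24_RAT_aux L J hJ hJL _ P le_rfl hPL i

end Fermat.Agent.S24
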