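import Mathlib
import Fermat.Agent.S24.DInterface3

/-!
# S24 Layer D leaf TR: transfer of structure
-/

set_option autoImplicit false

noncomputable section

namespace Fermat.Agent.S24

/-- Leaf TR. -/
theorem FA_S24_TR : FA_S24_Target_TR := by
  classical
  intro K M B 𝓛 _ _ _ _ _ _ Λ G Q hadd hmul hinj hconst I s t ht
  have hQ0 : Q 0 = 0 := by
    have h := hadd 0 G.zero_mem 0 G.zero_mem
    rw [add_zero] at h
    exact left_eq_add.mp h
  have hQ1 : Q 1 = 1 := by
    have h := (hconst 1).2
    rwa [map_one, map_one, map_one] at h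
  obtain ⟨QG, hQG⟩ : ∃ QG : G →+* 𝓛, ∀ x : G, QG x = Q (x : M) :=
    ⟨{ toFun := fun x => Q x
       map_one' := hQ1
       map_mul' := fun x y => hmul x x.2 y y.2
       map_zero' := hQ0
       map_add' := fun x y => hadd x x.2 y y.2 }, fun _ => rfl⟩
  have hQGinj : Function.Injective QG := QG.injective
  -- the generators, inside `G`
  obtain ⟨U, hU⟩ : ∃ U : Set G, U = {x : G | (x : M) ∈ Set.range (algebraMap K M) ∪ Set.range t} :=
    ⟨_, rfl⟩
  have himU : G.subtype '' U = Set.range (algebraMap K M) ∪ Set.range t := by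
    ext m
    constructor
    · rintro ⟨x, hx, rfl⟩
      rw [hU] at hx
      exact hx
    · intro hm
      have hmG : m ∈ G := by
        rcases hm with ⟨c, rfl⟩ | ⟨i, rfl⟩
        · exact (hconst c).1
        · exact (ht i).1
      refine ⟨⟨m, hmG⟩, ?_, rfl⟩
      rw [hU]
      exact hm
  have himQ : QG '' U = Λ '' (Set.range (algebraMap K B) ∪ Set.range s) := by
    ext l
    constructor
    · rintro ⟨x, hx, rfl⟩
      rw [hU] at hx
      rcases hx with ⟨c, hc⟩ | ⟨i, hi⟩
      · refine ⟨algebraMap K B c, Or.inl ⟨c, rfl⟩, ?_⟩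
        rw [hQG, ← hc]
        exact (hconst c).2.symm
      · refine ⟨s i, Or.inr ⟨i, rfl⟩, ?_⟩
        rw [hQG, ← hi]
        exact (ht i).2.symm
    · rintro ⟨b, hb, rfl⟩
      rcases hb with ⟨c, rfl⟩ | ⟨i, rfl⟩
      · refine ⟨⟨algebraMap K M c, (hconst c).1⟩, ?_, ?_⟩
        · rw [hU]
          exact Or.inl ⟨c, rfl⟩
        · rw [hQG]
          exact (hconst c).2
      · refine ⟨⟨t i, (ht i).1⟩, ?_, ?_⟩
        · rw [hU]
          exact Or.inr ⟨i, rfl⟩
        · rw [hQG]
          exact (ht i).2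
  -- the two subfields of `𝓛` agree
  have hT : (Subfield.closure U).map G.subtype
      = (IntermediateField.adjoin K (Set.range t)).toSubfield := by
    rw [IntermediateField.adjoin_toSubfield, RingHom.map_field_closure, himU]
  have hS : (Subfield.closure U).map QG
      = (IntermediateField.adjoin K (Set.range s)).toSubfield.map Λ := by
    rw [IntermediateField.adjoin_toSubfield, RingHom.map_field_closure,
      RingHom.map_field_closure, himQ]
  -- the preimage
  have hex : ∀ x : IntermediateField.adjoin K (Set.range s),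
      ∃ y : G, y ∈ Subfield.closure U ∧ QG y = Λ (x : B) := by
    intro x
    have h1 : Λ (x : B) ∈ (IntermediateField.adjoin K (Set.range s)).toSubfield.map Λ :=
      Subfield.mem_map.mpr ⟨x, x.2, rfl⟩
    rw [← hS] at h1
    exact Subfield.mem_map.mp h1
  choose τ₀ hτ₀mem hτ₀ using hex
  have hτ₀Q : ∀ x, Q (τ₀ x : M) = Λ (x : B) := fun x => by rw [← hQG]; exact hτ₀ x
  let τ : IntermediateField.adjoin K (Set.range s) →ₐ[K] M :=
    { toFun := fun x => (τ₀ x : M)
      map_one' := by
        have h : τ₀ 1 = 1 := hQGinj (by rw [hτ₀]; simp)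
        rw [h]
        rfl
      map_mul' := fun x y => by
        have h : τ₀ (x * y) = τ₀ x * τ₀ y := hQGinj (by rw [map_mul, hτ₀, hτ₀, hτ₀]; simp)
        rw [h]
        rfl
      map_zero' := by
        have h : τ₀ 0 = 0 := hQGinj (by rw [hτ₀]; simp)
        rw [h]
        rfl
      map_add' := fun x y => by
        have h : τ₀ (x + y) = τ₀ x + τ₀ y := hQGinj (by rw [map_add, hτ₀, hτ₀, hτ₀]; simp)
        rw [h]
        rfl
      commutes' := fun c => by
        have h : τ₀ (algebraMap K _ c) = ⟨algebraMap K M c, (hconst c).1⟩ :=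
          hQGinj (by
            rw [hτ₀, hQG]
            exact (hconst c).2.symm)
        show ((τ₀ (algebraMap K _ c) : G) : M) = algebraMap K M c
        rw [h] }
  have hτ : ∀ x, τ x = (τ₀ x : M) := fun _ => rfl
  refine ⟨τ, ?_, fun x => by rw [hτ]; exact hτ₀Q x⟩
  ext m
  constructor
  · rintro ⟨x, rfl⟩
    rw [hτ]
    have h1 : ((τ₀ x : G) : M) ∈ (Subfield.closure U).map G.subtype :=
      Subfield.mem_map.mpr ⟨τ₀ x, hτ₀mem x, rfl⟩
    rw [hT] at h1
    exact h1
  · intro hm
    have h1 : m ∈ (IntermediateField.adjoin K (Set.range t)).toSubfield := hm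
    rw [← hT] at h1
    obtain ⟨y, hy, rfl⟩ := Subfield.mem_map.mp h1
    have h2 : QG y ∈ (Subfield.closure U).map QG := Subfield.mem_map.mpr ⟨y, hy, rfl⟩
    rw [hS] at h2
    obtain ⟨b, hb, hby⟩ := Subfield.mem_map.mp h2
    refine ⟨⟨b, hb⟩, ?_⟩
    rw [hτ]
    have h3 : τ₀ ⟨b, hb⟩ = y := hQGinj (by rw [hτ₀]; exact hby)
    rw [h3]
    rfl

end Fermat.Agent.S24
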