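import Mathlib
import Fermat.Agent.S24.DInterface2
import Fermat.Agent.S24.DQE

/-!
# S24 Layer D, leaf TW: the `q`-expansion of `f (z + t)`
-/

set_option autoImplicit false

noncomputable section

open UpperHalfPlane ModularForm Complex Filter Function
open scoped Manifold Topology Real

namespace Fermat.Agent.S24

local notation "𝕢" => Periodic.qParam

theorem FA_S24_TW_smul (t : ℤ) (z : ℍ) :
    (ModularGroup.T ^ t) • z = FA_S24_aff 1 t 1 one_pos one_pos z := by
  apply UpperHalfPlane.ext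
  rw [UpperHalfPlane.modular_T_zpow_smul, FA_S24_aff_coe, UpperHalfPlane.coe_vadd]
  push_cast
  ring

/-- Two power series whose coefficients vanish simultaneously have the same order. -/
theorem FA_S24_TW_order_eq (φ ψ : PowerSeries ℂ)
    (h : ∀ m : ℕ, PowerSeries.coeff m ψ = 0 ↔ PowerSeries.coeff m φ = 0) :
    ψ.order = φ.order := by
  apply le_antisymm
  · exact PowerSeries.le_order φ _ fun i hi => (h i).mp (PowerSeries.coeff_of_lt_order i hi)
  · exact PowerSeries.le_order ψ _ fun i hi => (h i).mpr (PowerSeries.coeff_of_lt_order i hi)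

theorem FA_S24_TW_periodic (N : ℕ) (f : ℍ → ℂ)
    (hper : Function.Periodic (f ∘ ofComplex) (N : ℝ)) (t : ℤ) :
    Function.Periodic ((f ∘ FA_S24_aff 1 t 1 one_pos one_pos) ∘ ofComplex) (N : ℝ) := by
  intro w
  by_cases hw : 0 < w.im
  · have hw' : 0 < (w + ((N : ℝ) : ℂ)).im := by simpa using hw
    simp only [Function.comp_apply]
    rw [FA_S24_QE_aff_ofComplex 1 t 1 one_pos one_pos hw,
      FA_S24_QE_aff_ofComplex 1 t 1 one_pos one_pos hw']
    have h1 : FA_S24_QE_affC 1 t 1 (w + ((N : ℝ) : ℂ))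
        = FA_S24_QE_affC 1 t 1 w + ((N : ℝ) : ℂ) := by
      unfold FA_S24_QE_affC
      push_cast
      ring
    rw [h1]
    exact hper _
  · have hw1 : w.im ≤ 0 := not_lt.mp hw
    have hw2 : (w + ((N : ℝ) : ℂ)).im ≤ 0 := by simpa using hw1
    simp only [Function.comp_apply]
    rw [ofComplex_apply_eq_of_im_nonpos hw2 hw1]

theorem FA_S24_TW_qParam (N : ℕ) (hN : 0 < N) (t : ℤ) (τ : ℍ) :
    𝕢 (N : ℝ) (FA_S24_aff 1 t 1 one_pos one_pos τ : ℂ)
      = 𝕢 (N : ℝ) τ * Complex.exp (2 * π * Complex.I * t / N) := by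
  have hN' : (N : ℂ) ≠ 0 := by exact_mod_cast hN.ne'
  simp only [Periodic.qParam, FA_S24_aff_coe]
  rw [← Complex.exp_add]
  congr 1
  push_cast
  field_simp

theorem FA_S24_TW : FA_S24_Target_TW := by
  intro N _ f t
  have hN : 0 < N := Nat.pos_of_ne_zero (NeZero.ne N)
  have hfun : (fun z : ℍ => (f : ℍ → ℂ) ((ModularGroup.T ^ t) • z))
      = (f : ℍ → ℂ) ∘ FA_S24_aff 1 t 1 one_pos one_pos := by
    funext z
    rw [FA_S24_TW_smul]
    rfl
  have h1 := FA_S24_QE_mdiff (f : ℍ → ℂ) (FA_S24_HolPlus_mdiff f) 1 t 1 one_pos one_pos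
  have h2 := FA_S24_TW_periodic N (f : ℍ → ℂ) (FA_S24_HolPlus_per f) t
  have h3 := FA_S24_QE_bdd (f : ℍ → ℂ) (FA_S24_HolPlus_bdd f) 1 t 1 one_pos one_pos
  have hmem : (fun z : ℍ => (f : ℍ → ℂ) ((ModularGroup.T ^ t) • z)) ∈ FA_S24_HolPlus N := by
    rw [hfun]
    exact ⟨h1, h2, h3⟩
  have hcoeff : ∀ m : ℕ, PowerSeries.coeff m (FA_S24_qN N ⟨_, hmem⟩)
        = Complex.exp (2 * Real.pi * Complex.I * (m : ℂ) * (t : ℂ) / (N : ℂ))
          * PowerSeries.coeff m (FA_S24_qN N f) := by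
    intro m
    rw [FA_S24_qN_apply, FA_S24_qN_apply]
    simp only [hfun]
    symm
    have han := analyticAt_cuspFunction_zero (FA_S24_Npos N) h2 h1 h3
    refine FA_S24_QE_coeff_unique ((f : ℍ → ℂ) ∘ FA_S24_aff 1 t 1 one_pos one_pos)
      (c := fun m => Complex.exp (2 * Real.pi * Complex.I * (m : ℂ) * (t : ℂ) / (N : ℂ))
          * PowerSeries.coeff m (qExpansion (N : ℝ) (f : ℍ → ℂ)))
      (FA_S24_Npos N) han (fun τ => ?_) m
    have hs := hasSum_qExpansion (FA_S24_Npos N) (FA_S24_HolPlus_per f) (FA_S24_HolPlus_mdiff f)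
      (FA_S24_HolPlus_bdd f) (FA_S24_aff 1 t 1 one_pos one_pos τ)
    convert hs using 1
    swap
    · rfl
    funext n
    rw [FA_S24_TW_qParam N hN t τ, mul_pow, ← Complex.exp_nat_mul]
    simp only [smul_eq_mul]
    have he : Complex.exp (2 * π * Complex.I * (n : ℂ) * (t : ℂ) / (N : ℂ))
        = Complex.exp ((n : ℂ) * (2 * π * Complex.I * (t : ℂ) / (N : ℂ))) := by
      congr 1
      ring
    rw [he]
    ring
  refine ⟨hmem, hcoeff, ?_⟩
  refine FA_S24_TW_order_eq _ _ fun m => ?_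
  rw [hcoeff m]
  constructor
  · intro h
    rcases mul_eq_zero.mp h with h | h
    · exact absurd h (Complex.exp_ne_zero _)
    · exact h
  · intro h
    rw [h, mul_zero]

end Fermat.Agent.S24
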