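import Mathlib
import Fermat.Agent.S24.DInterface

/-!
# S24 Layer D leaves UT, UT0: Hermite normal form of `[d 0; 0 1] γ`
-/

set_option autoImplicit false

noncomputable section

open UpperHalfPlane Complex MatrixGroups

namespace Fermat.Agent.S24

/-- Coordinates of the Möbius action of `SL(2, ℤ)`. -/
theorem FA_S24_UT_smul_coe (g : SL(2, ℤ)) (z : ℍ) :
    ((g • z : ℍ) : ℂ) = (((g.1 0 0 : ℤ) : ℂ) * z + ((g.1 0 1 : ℤ) : ℂ))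
      / (((g.1 1 0 : ℤ) : ℂ) * z + ((g.1 1 1 : ℤ) : ℂ)) := by
  rw [UpperHalfPlane.coe_specialLinearGroup_apply]
  simp

/-- The denominator of the Möbius action does not vanish. -/
theorem FA_S24_UT_denom_ne (g : SL(2, ℤ)) (z : ℍ) :
    ((g.1 1 0 : ℤ) : ℂ) * z + ((g.1 1 1 : ℤ) : ℂ) ≠ 0 := by
  intro h
  have h1 := FA_S24_UT_smul_coe g z
  rw [h, div_zero] at h1
  have h2 := (g • z).im_pos
  have h3 : ((g • z : ℍ) : ℂ).im = 0 := by rw [h1]; simp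
  have h4 : (g • z).im = ((g • z : ℍ) : ℂ).im := rfl
  rw [h4, h3] at h2
  exact lt_irrefl _ h2

theorem FA_S24_UT_det (g : SL(2, ℤ)) : g.1 0 0 * g.1 1 1 - g.1 0 1 * g.1 1 0 = 1 := by
  have := g.det_coe
  rw [Matrix.det_fin_two] at this
  exact this

/-- Möbius form of a matrix identity `[d 0; 0 1] γ = γ' [a b; 0 δ]`. -/
theorem FA_S24_UT_moebius (d : ℤ) (hd : 0 < d) (γ γ' : SL(2, ℤ)) (a b δ : ℤ) (ha : 0 < a)
    (hδ : 0 < δ)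
    (h00 : d * γ.1 0 0 = γ'.1 0 0 * a) (h01 : d * γ.1 0 1 = γ'.1 0 0 * b + γ'.1 0 1 * δ)
    (h10 : γ.1 1 0 = γ'.1 1 0 * a) (h11 : γ.1 1 1 = γ'.1 1 0 * b + γ'.1 1 1 * δ) (z : ℍ) :
    FA_S24_aff d 0 1 hd one_pos (γ • z) = γ' • FA_S24_aff a b δ ha hδ z := by
  apply UpperHalfPlane.ext
  rw [FA_S24_aff_coe, FA_S24_UT_smul_coe γ' (FA_S24_aff a b δ ha hδ z), FA_S24_aff_coe,
    FA_S24_UT_smul_coe γ z]
  have hD1 := FA_S24_UT_denom_ne γ z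
  have hD2 := FA_S24_UT_denom_ne γ' (FA_S24_aff a b δ ha hδ z)
  rw [FA_S24_aff_coe] at hD2
  have hδ' : (δ : ℂ) ≠ 0 := by exact_mod_cast hδ.ne'
  have e00 : (d : ℂ) * (γ.1 0 0 : ℤ) = (γ'.1 0 0 : ℤ) * (a : ℂ) := by exact_mod_cast h00
  have e01 : (d : ℂ) * (γ.1 0 1 : ℤ) = (γ'.1 0 0 : ℤ) * (b : ℂ) + (γ'.1 0 1 : ℤ) * (δ : ℂ) := by
    exact_mod_cast h01
  have e10 : ((γ.1 1 0 : ℤ) : ℂ) = (γ'.1 1 0 : ℤ) * (a : ℂ) := by exact_mod_cast h10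
  have e11 : ((γ.1 1 1 : ℤ) : ℂ) = (γ'.1 1 0 : ℤ) * (b : ℂ) + (γ'.1 1 1 : ℤ) * (δ : ℂ) := by
    exact_mod_cast h11
  simp only [Int.cast_zero, Int.cast_one, add_zero, div_one]
  have num_eq : ((γ'.1 0 0 : ℤ) : ℂ) * (((a : ℂ) * z + b) / δ) + (γ'.1 0 1 : ℤ)
      = ((d : ℂ) * (((γ.1 0 0 : ℤ) : ℂ) * z + (γ.1 0 1 : ℤ))) / δ := by
    field_simp
    linear_combination -(z : ℂ) * e00 - e01
  have den_eq : ((γ'.1 1 0 : ℤ) : ℂ) * (((a : ℂ) * z + b) / δ) + (γ'.1 1 1 : ℤ)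
      = (((γ.1 1 0 : ℤ) : ℂ) * z + (γ.1 1 1 : ℤ)) / δ := by
    field_simp
    linear_combination -(z : ℂ) * e10 - e11
  rw [num_eq, den_eq, div_div_div_cancel_right₀ hδ', mul_div_assoc]

/-- Leaf UT. -/
theorem FA_S24_UT : FA_S24_Target_UT := by
  intro d hd γ
  have hdet := FA_S24_UT_det γ
  -- `a = gcd (d p, r) > 0`
  have hne : ¬ ((d : ℤ) * γ.1 0 0 = 0 ∧ γ.1 1 0 = 0) := by
    rintro ⟨h1, h2⟩
    have hp : γ.1 0 0 = 0 := by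
      rcases mul_eq_zero.mp h1 with h | h
      · exact absurd h hd.ne'
      · exact h
    rw [hp, h2] at hdet
    simp at hdet
  have hg0 : Int.gcd ((d : ℤ) * γ.1 0 0) (γ.1 1 0) ≠ 0 := by
    intro h
    rw [Int.gcd_eq_zero_iff] at h
    exact hne h
  have ha : (0 : ℤ) < (Int.gcd ((d : ℤ) * γ.1 0 0) (γ.1 1 0) : ℤ) := by
    exact_mod_cast Nat.pos_of_ne_zero hg0
  obtain ⟨x, hx⟩ : ((Int.gcd ((d : ℤ) * γ.1 0 0) (γ.1 1 0) : ℤ)) ∣ (d : ℤ) * γ.1 0 0 :=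
    Int.gcd_dvd_left _ _
  obtain ⟨y, hy⟩ : ((Int.gcd ((d : ℤ) * γ.1 0 0) (γ.1 1 0) : ℤ)) ∣ γ.1 1 0 :=
    Int.gcd_dvd_right _ _
  obtain ⟨a, haeq⟩ : ∃ a : ℤ, a = (Int.gcd ((d : ℤ) * γ.1 0 0) (γ.1 1 0) : ℤ) := ⟨_, rfl⟩
  rw [← haeq] at ha hx hy
  -- Bezout for `a`
  obtain ⟨u₀, v₀, huv₀⟩ : ∃ u₀ v₀ : ℤ, a = (d : ℤ) * γ.1 0 0 * u₀ + γ.1 1 0 * v₀ := by
    refine ⟨Int.gcdA ((d : ℤ) * γ.1 0 0) (γ.1 1 0), Int.gcdB ((d : ℤ) * γ.1 0 0) (γ.1 1 0), ?_⟩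
    rw [haeq]
    exact Int.gcd_eq_gcd_ab _ _
  have huv : x * u₀ + y * v₀ = 1 := by
    have h1 : a * (x * u₀ + y * v₀) = a * 1 := by
      rw [mul_one]
      conv_rhs => rw [huv₀, hx, hy]
      ring
    exact mul_left_cancel₀ ha.ne' h1
  let γ' : SL(2, ℤ) := ⟨!![x, -v₀; y, u₀], by
    rw [Matrix.det_fin_two_of]
    linear_combination huv⟩
  have hγ00 : γ'.1 0 0 = x := rfl
  have hγ01 : γ'.1 0 1 = -v₀ := rfl
  have hγ10 : γ'.1 1 0 = y := rfl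
  have hγ11 : γ'.1 1 1 = u₀ := rfl
  have haδ : a * (x * γ.1 1 1 - y * ((d : ℤ) * γ.1 0 1)) = d := by
    have : a * (x * γ.1 1 1 - y * ((d : ℤ) * γ.1 0 1))
        = (a * x) * γ.1 1 1 - (a * y) * ((d : ℤ) * γ.1 0 1) := by ring
    rw [this, ← hx, ← hy]
    linear_combination (d : ℤ) * hdet
  have hδ : 0 < x * γ.1 1 1 - y * ((d : ℤ) * γ.1 0 1) := by
    by_contra hcon
    rw [not_lt] at hcon
    have : a * (x * γ.1 1 1 - y * ((d : ℤ) * γ.1 0 1)) ≤ 0 :=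
      mul_nonpos_of_nonneg_of_nonpos ha.le hcon
    rw [haδ] at this
    exact absurd hd (not_lt.mpr this)
  have h00 : (d : ℤ) * γ.1 0 0 = γ'.1 0 0 * a := by rw [hγ00, hx]; ring
  have h10 : γ.1 1 0 = γ'.1 1 0 * a := by rw [hγ10]; conv_lhs => rw [hy]
                                          ring
  have h01 : (d : ℤ) * γ.1 0 1 = γ'.1 0 0 * (u₀ * ((d : ℤ) * γ.1 0 1) + v₀ * γ.1 1 1)
      + γ'.1 0 1 * (x * γ.1 1 1 - y * ((d : ℤ) * γ.1 0 1)) := by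
    rw [hγ00, hγ01]
    linear_combination -((d : ℤ) * γ.1 0 1) * huv
  have h11 : γ.1 1 1 = γ'.1 1 0 * (u₀ * ((d : ℤ) * γ.1 0 1) + v₀ * γ.1 1 1)
      + γ'.1 1 1 * (x * γ.1 1 1 - y * ((d : ℤ) * γ.1 0 1)) := by
    rw [hγ10, hγ11]
    linear_combination -(γ.1 1 1) * huv
  refine ⟨a, u₀ * ((d : ℤ) * γ.1 0 1) + v₀ * γ.1 1 1, x * γ.1 1 1 - y * ((d : ℤ) * γ.1 0 1),
    ha, hδ, γ', haδ, ?_, ?_⟩
  · ext i j
    fin_cases i <;> fin_cases j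
    · simpa [Matrix.mul_apply, Fin.sum_univ_two] using h00
    · simpa [Matrix.mul_apply, Fin.sum_univ_two] using h01
    · simpa [Matrix.mul_apply, Fin.sum_univ_two] using h10
    · simpa [Matrix.mul_apply, Fin.sum_univ_two] using h11
  · intro z
    exact FA_S24_UT_moebius d hd γ γ' a _ _ ha hδ h00 h01 h10 h11 z

/-- Leaf UT0. -/
theorem FA_S24_UT0 : FA_S24_Target_UT0 := by
  intro d hd γ hγ
  rw [CongruenceSubgroup.Gamma0_mem, ZMod.intCast_zmod_eq_zero_iff_dvd] at hγ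
  obtain ⟨y, hy⟩ := hγ
  have hdet := FA_S24_UT_det γ
  let γ' : SL(2, ℤ) := ⟨!![γ.1 0 0, (d : ℤ) * γ.1 0 1; y, γ.1 1 1], by
    rw [Matrix.det_fin_two_of]
    have : γ.1 0 0 * γ.1 1 1 - (d : ℤ) * γ.1 0 1 * y
        = γ.1 0 0 * γ.1 1 1 - γ.1 0 1 * ((d : ℤ) * y) := by ring
    rw [this, ← hy]
    exact hdet⟩
  have hγ00 : γ'.1 0 0 = γ.1 0 0 := rfl
  have hγ01 : γ'.1 0 1 = (d : ℤ) * γ.1 0 1 := rfl
  have hγ10 : γ'.1 1 0 = y := rfl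
  have hγ11 : γ'.1 1 1 = γ.1 1 1 := rfl
  refine ⟨γ', fun z => ?_⟩
  refine FA_S24_UT_moebius d hd γ γ' d 0 1 hd one_pos ?_ ?_ ?_ ?_ z
  · rw [hγ00]; ring
  · rw [hγ00, hγ01]; ring
  · rw [hγ10, hy]; ring
  · rw [hγ10, hγ11]; ring

end Fermat.Agent.S24
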