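import Fermat.Agent.S24.DModel
import Fermat.Agent.S24.DUT
import Fermat.Agent.S24.DQE
import Fermat.Agent.S24.DTW
import Fermat.Agent.S24.DBDD
import Fermat.Agent.S24.DHOL
import Fermat.Agent.S24.DRAT
import Fermat.Agent.S24.DNORM
import Fermat.Agent.S24.DCOEF
import Fermat.Agent.S24.DQX
import Fermat.Agent.S24.DJQ
import Fermat.Agent.S24.DTR
import Fermat.Agent.S24.DBC

/-!
# S24 Layers C + D: the modular model (unconditional)
-/

set_option autoImplicit false

namespace Fermat.Agent.S24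

/-- **Layers C + D**: the modular model. -/
theorem FA_S24_Model : FA_S24_Target_Model :=
  FA_S24_Model_of FA_S24_UT FA_S24_UT0 FA_S24_QE FA_S24_TW FA_S24_BDD FA_S24_HOL FA_S24_RAT
    FA_S24_NORM FA_S24_COEF FA_S24_QX FA_S24_JQ FA_S24_TR FA_S24_BC

end Fermat.Agent.S24
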