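import Fermat.Agent.S24.Interface

/-!
# S24 glue: the frozen statement from the layer targets
-/

set_option autoImplicit false

noncomputable section

namespace Fermat.Agent.S24

open AlgebraicCurve MatrixGroups

theorem FA_S24_I_eq_bot {c : AlgebraicClosure ℚ} (hc : c ∉ FA_S24_B) : FA_S24_I c = ⊥ := by
  classical
  have h0 : c ≠ 0 := by
    rintro rfl
    exact hc (by simp [FA_S24_B])
  have h1 : c ≠ 1728 := by
    rintro rfl
    exact hc (by simp [FA_S24_B])
  unfold FA_S24_I
  rw [if_neg h0, if_neg h1]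

theorem FA_S24_nuTwo_one : ModularCurve.nuTwo 1 = 1 := by
  unfold ModularCurve.nuTwo
  have : Unique {x : ZMod 1 // x ^ 2 + 1 = 0} :=
    { default := ⟨0, Subsingleton.elim _ _⟩
      uniq := fun a => Subtype.ext (Subsingleton.elim _ _) }
  exact Nat.card_unique

theorem FA_S24_nuThree_one : ModularCurve.nuThree 1 = 1 := by
  unfold ModularCurve.nuThree
  have : Unique {x : ZMod 1 // x ^ 2 + x + 1 = 0} :=
    { default := ⟨0, Subsingleton.elim _ _⟩
      uniq := fun a => Subtype.ext (Subsingleton.elim _ _) }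
  exact Nat.card_unique

theorem FA_S24_genusFormula_one : ModularCurve.genusFormula 1 = 0 := by
  unfold ModularCurve.genusFormula
  rw [ModularCurve.dedekindPsi_one, FA_S24_nuTwo_one, FA_S24_nuThree_one,
    ModularCurve.cuspCount_one]
  norm_num

/-- The frozen statement S24, from the five targets. -/
theorem FA_S24_of_targets (hRH : FA_S24_Target_RH) (hRat : FA_S24_Target_Rational)
    (hNum : FA_S24_Target_Numerics) (hMod : FA_S24_Target_Model)
    (hOne : FA_S24_Target_LevelOne) (N : ℕ) [NeZero N]
    [AlgebraicCurve.HasCanonicalDivisor (K := AlgebraicClosure ℚ)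
      (F := ↥(ModularCurve.modularFunctionFieldBar N))] :
    (AlgebraicCurve.genus (AlgebraicClosure ℚ) ↥(ModularCurve.modularFunctionFieldBar N) : ℚ)
      = ModularCurve.genusFormula N := by
  rcases Nat.lt_or_ge N 2 with hN | hN
  · have hN1 : N = 1 := by
      have := NeZero.ne N
      omega
    subst hN1
    obtain ⟨x, hx, htop⟩ := hOne
    rw [hRat (AlgebraicClosure ℚ) (ModularCurve.modularFunctionFieldBar 1) x hx htop,
      FA_S24_genusFormula_one]
    simp
  · obtain ⟨E, _, _, _, _, φ, x, hfin, hx, hxΓ, hfixΓ, hker, hH, hfixH, hI, hinf⟩ := hMod N hN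
    rw [hRH (AlgebraicClosure ℚ) (ModularCurve.modularFunctionFieldBar N) E SL(2, ℤ) φ hfin x hx
      hxΓ hfixΓ (CongruenceSubgroup.Gamma0 N) hker hH hfixH FA_S24_B FA_S24_I
      (Subgroup.zpowers ModularGroup.T) hI (fun c hc => FA_S24_I_eq_bot hc) hinf]
    exact hNum N

end Fermat.Agent.S24
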