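import Mathlib
import Fermat.Prelude.Def_AlgebraicCurve_DivisorClassGroup

/-!
# S24, Layer D, tool V: a place from a `ℤ`-valued valuation

A nontrivial function `ν : E → ℤ` which is additive on products, satisfies the ultrametric
inequality and vanishes on the nonzero constants defines a `Place K E` `w`, and
`ν a = m * w.ord a` for a positive integer `m`.
-/

set_option autoImplicit false

noncomputable section

namespace Fermat.Agent.S24

open AlgebraicCurve

section

variable {K E : Type*} [Field K] [Field E] [Algebra K E]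

/-- The hypotheses on a `ℤ`-valued valuation (the value at `0` is irrelevant). -/
structure FA_S24_IsVal (K : Type*) {E : Type*} [Field K] [Field E] [Algebra K E]
    (ν : E → ℤ) : Prop where
  map_mul : ∀ a b : E, a ≠ 0 → b ≠ 0 → ν (a * b) = ν a + ν b
  map_add : ∀ a b : E, a ≠ 0 → b ≠ 0 → a + b ≠ 0 → min (ν a) (ν b) ≤ ν (a + b)
  map_const : ∀ c : K, algebraMap K E c ≠ 0 → ν (algebraMap K E c) = 0
  nontrivial : ∃ a : E, a ≠ 0 ∧ ν a ≠ 0

namespace FA_S24_IsVal

variable {ν : E → ℤ} (h : FA_S24_IsVal K ν)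

include h

theorem map_one : ν 1 = 0 := by
  have := h.map_mul 1 1 one_ne_zero one_ne_zero
  rw [mul_one] at this
  omega

theorem map_neg_one : ν (-1) = 0 := by
  have := h.map_mul (-1) (-1) (neg_ne_zero.mpr one_ne_zero) (neg_ne_zero.mpr one_ne_zero)
  rw [neg_mul_neg, mul_one, h.map_one] at this
  omega

theorem map_neg (a : E) (ha : a ≠ 0) : ν (-a) = ν a := by
  have := h.map_mul (-1) a (neg_ne_zero.mpr one_ne_zero) ha
  rw [neg_one_mul, h.map_neg_one, zero_add] at this
  exact this

theorem map_inv (a : E) (ha : a ≠ 0) : ν a⁻¹ = - ν a := by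
  have := h.map_mul a a⁻¹ ha (inv_ne_zero ha)
  rw [mul_inv_cancel₀ ha, h.map_one] at this
  omega

/-- The valuation subring `{a | a = 0 ∨ 0 ≤ ν a}`. -/
def valuationSubring : ValuationSubring E where
  carrier := {a | a = 0 ∨ 0 ≤ ν a}
  mul_mem' := by
    rintro a b (rfl | ha) (rfl | hb)
    · left; simp
    · left; simp
    · left; simp
    · by_cases ha0 : a = 0
      · left; simp [ha0]
      by_cases hb0 : b = 0
      · left; simp [hb0]
      right
      rw [h.map_mul a b ha0 hb0]
      omega
  one_mem' := Or.inr (by rw [h.map_one])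
  add_mem' := by
    rintro a b ha hb
    by_cases ha0 : a = 0
    · simpa [ha0] using hb
    by_cases hb0 : b = 0
    · simpa [hb0] using ha
    by_cases hab : a + b = 0
    · left; exact hab
    right
    have ha' : 0 ≤ ν a := ha.resolve_left ha0
    have hb' : 0 ≤ ν b := hb.resolve_left hb0
    exact le_trans (le_min ha' hb') (h.map_add a b ha0 hb0 hab)
  zero_mem' := Or.inl rfl
  neg_mem' := by
    rintro a (rfl | ha)
    · left; simp
    · by_cases ha0 : a = 0
      · left; simp [ha0]
      right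
      rw [h.map_neg a ha0]
      exact ha
  mem_or_inv_mem' := by
    intro a
    by_cases ha0 : a = 0
    · left; left; exact ha0
    rcases le_total 0 (ν a) with h1 | h1
    · left; right; exact h1
    · right; right
      rw [h.map_inv a ha0]
      omega

theorem mem_valuationSubring_iff {a : E} :
    a ∈ h.valuationSubring ↔ a = 0 ∨ 0 ≤ ν a := Iff.rfl

theorem mem_valuationSubring_of_ne {a : E} (ha : a ≠ 0) :
    a ∈ h.valuationSubring ↔ 0 ≤ ν a := by
  rw [h.mem_valuationSubring_iff]
  exact ⟨fun h' => h'.resolve_left ha, Or.inr⟩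

theorem valuationSubring_ne_top : h.valuationSubring ≠ ⊤ := by
  obtain ⟨a, ha0, ha⟩ := h.nontrivial
  intro htop
  have h1 : a ∈ h.valuationSubring := htop ▸ ValuationSubring.mem_top a
  have h2 : a⁻¹ ∈ h.valuationSubring := htop ▸ ValuationSubring.mem_top a⁻¹
  rw [h.mem_valuationSubring_of_ne ha0] at h1
  rw [h.mem_valuationSubring_of_ne (inv_ne_zero ha0), h.map_inv a ha0] at h2
  omega

theorem isPrincipalIdealRing_valuationSubring : IsPrincipalIdealRing h.valuationSubring := by
  classical
  refine ⟨fun I => ?_⟩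
  by_cases hI : I = ⊥
  · subst hI
    exact ⟨⟨0, by simp⟩⟩
  -- the set of values `ν a` for `a ∈ I`, `a ≠ 0`, as natural numbers
  have hex : ∃ n : ℕ, ∃ a : h.valuationSubring, a ∈ I ∧ a ≠ 0 ∧ ν (a : E) = n := by
    obtain ⟨a, haI, ha0⟩ := Submodule.exists_mem_ne_zero_of_ne_bot hI
    have ha0' : (a : E) ≠ 0 := fun h0 => ha0 (Subtype.ext h0)
    have hnn : 0 ≤ ν (a : E) := (h.mem_valuationSubring_of_ne ha0').mp a.2
    exact ⟨(ν (a : E)).toNat, a, haI, ha0, (Int.toNat_of_nonneg hnn).symm⟩
  obtain ⟨a, haI, ha0, han⟩ := Nat.find_spec hex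
  have hmin : ∀ b : h.valuationSubring, b ∈ I → b ≠ 0 → ν (a : E) ≤ ν (b : E) := by
    intro b hbI hb0
    have hb0' : (b : E) ≠ 0 := fun h0 => hb0 (Subtype.ext h0)
    have hnn : 0 ≤ ν (b : E) := (h.mem_valuationSubring_of_ne hb0').mp b.2
    have := Nat.find_min' hex ⟨b, hbI, hb0, (Int.toNat_of_nonneg hnn).symm⟩
    rw [han]
    omega
  have ha0' : (a : E) ≠ 0 := fun h0 => ha0 (Subtype.ext h0)
  refine ⟨⟨a, ?_⟩⟩
  apply le_antisymm
  · intro b hbI
    rw [Submodule.mem_span_singleton]
    by_cases hb0 : b = 0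
    · exact ⟨0, by simp [hb0]⟩
    have hb0' : (b : E) ≠ 0 := fun h0 => hb0 (Subtype.ext h0)
    have hq0 : (b : E) * (a : E)⁻¹ ≠ 0 := mul_ne_zero hb0' (inv_ne_zero ha0')
    have hq : (b : E) * (a : E)⁻¹ ∈ h.valuationSubring := by
      rw [h.mem_valuationSubring_of_ne hq0, h.map_mul _ _ hb0' (inv_ne_zero ha0'),
        h.map_inv _ ha0']
      have := hmin b hbI hb0
      omega
    refine ⟨⟨_, hq⟩, Subtype.ext ?_⟩
    show (b : E) * (a : E)⁻¹ * (a : E) = (b : E)
    field_simp
  · rw [Submodule.span_le]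
    intro b hb
    rw [Set.mem_singleton_iff] at hb
    subst hb
    exact haI

/-- The place defined by a `ℤ`-valued valuation. -/
def place : Place K E where
  toValuationSubring := h.valuationSubring
  algebraMap_mem' := fun c => by
    by_cases hc : algebraMap K E c = 0
    · exact Or.inl hc
    · exact Or.inr (by rw [h.map_const c hc])
  ne_top' := h.valuationSubring_ne_top
  isPrincipalIdealRing' := h.isPrincipalIdealRing_valuationSubring

theorem place_toValuationSubring : h.place.toValuationSubring = h.valuationSubring := rfl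

theorem map_unit (u : h.place.toValuationSubringˣ) :
    ν ((u : h.place.toValuationSubring) : E) = 0 := by
  have hu0 : ((u : h.place.toValuationSubring) : E) ≠ 0 := by
    simp [ne_eq, ZeroMemClass.coe_eq_zero]
  have hu0' : (((u⁻¹ : h.place.toValuationSubringˣ) : h.place.toValuationSubring) : E) ≠ 0 := by
    simp [ne_eq, ZeroMemClass.coe_eq_zero]
  have h1 : 0 ≤ ν ((u : h.place.toValuationSubring) : E) :=
    (h.mem_valuationSubring_of_ne hu0).mp (u : h.place.toValuationSubring).2
  have h2 : 0 ≤ ν (((u⁻¹ : h.place.toValuationSubringˣ) : h.place.toValuationSubring) : E) :=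
    (h.mem_valuationSubring_of_ne hu0').mp
      ((u⁻¹ : h.place.toValuationSubringˣ) : h.place.toValuationSubring).2
  have h3 : ((u : h.place.toValuationSubring) : E)
      * (((u⁻¹ : h.place.toValuationSubringˣ) : h.place.toValuationSubring) : E) = 1 := by
    have h5 : (u : h.place.toValuationSubring)
        * ((u⁻¹ : h.place.toValuationSubringˣ) : h.place.toValuationSubring) = 1 := u.mul_inv
    have h6 := congrArg (fun x : h.place.toValuationSubring => (x : E)) h5
    exact h6
  have h4 := h.map_mul _ _ hu0 hu0'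
  rw [h3, h.map_one] at h4
  omega

theorem map_zpow (a : E) (ha : a ≠ 0) (n : ℤ) : ν (a ^ n) = n * ν a := by
  induction n using Int.induction_on with
  | zero => simp [h.map_one]
  | succ n ih =>
      rw [zpow_add_one₀ ha, h.map_mul _ _ (zpow_ne_zero _ ha) ha, ih]
      ring
  | pred n ih =>
      rw [zpow_sub_one₀ ha, h.map_mul _ _ (zpow_ne_zero _ ha) (inv_ne_zero ha), ih,
        h.map_inv a ha]
      ring

/-- **Tool V**: `ν = m * ord_w` for a positive integer `m`. -/
theorem exists_place : ∃ w : Place K E, ∃ m : ℤ, 0 < m ∧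
    (∀ a : E, a ≠ 0 → ν a = m * w.ord a) ∧
    (∀ a : E, a ∈ w.toValuationSubring ↔ a = 0 ∨ 0 ≤ ν a) := by
  refine ⟨h.place, ?_⟩
  obtain ⟨π, hπ⟩ := IsDiscreteValuationRing.exists_irreducible h.place.toValuationSubring
  have hπ0 : (π : E) ≠ 0 := by
    simpa [ne_eq, ZeroMemClass.coe_eq_zero] using hπ.ne_zero
  have hπnn : 0 ≤ ν (π : E) := (h.mem_valuationSubring_of_ne hπ0).mp π.2
  have hπpos : 0 < ν (π : E) := by
    rcases hπnn.lt_or_eq with h1 | h1
    · exact h1
    · exfalso
      -- then `π⁻¹` is in the valuation ring, so `π` is a unit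
      have hinv : (π : E)⁻¹ ∈ h.valuationSubring := by
        rw [h.mem_valuationSubring_of_ne (inv_ne_zero hπ0), h.map_inv _ hπ0]
        omega
      apply hπ.not_isUnit
      refine IsUnit.of_mul_eq_one (⟨_, hinv⟩ : h.place.toValuationSubring) (Subtype.ext ?_)
      show (π : E) * (π : E)⁻¹ = 1
      exact mul_inv_cancel₀ hπ0
  refine ⟨ν (π : E), hπpos, fun a ha => ?_, fun a => Iff.rfl⟩
  obtain ⟨u, hu⟩ := h.place.exists_unit_mul_zpow ha hπ
  have hu0 : ((u : h.place.toValuationSubring) : E) ≠ 0 := by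
    simp [ne_eq, ZeroMemClass.coe_eq_zero]
  conv_lhs => rw [hu]
  rw [h.map_mul _ _ hu0 (zpow_ne_zero _ hπ0), h.map_unit u, zero_add, h.map_zpow _ hπ0]
  ring

end FA_S24_IsVal

end

end Fermat.Agent.S24
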