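import Mathlib
import Fermat.Agent.Lib.Mero

/-!
# S24 Layer D, `q`-expansions 1: the ring `𝓗⁺_N` and the expansion at `∞`

`𝓗⁺_N` = holomorphic functions on `ℍ`, `N`-periodic, bounded at `i∞`; `qExpansion N` is an
injective ring hom `𝓗⁺_N → ℂ⟦X⟧`; it extends to `Frac 𝓗⁺_N → ℂ((X))`.
-/

set_option autoImplicit false

noncomputable section

open UpperHalfPlane Complex MatrixGroups Filter
open scoped Manifold Topology

namespace Fermat.Agent.S24

open Fermat.Agent.Mero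

/-- Holomorphic, `N`-periodic, bounded at `i∞`. -/
def FA_S24_HolPlus (N : ℕ) : Subalgebra ℂ (ℍ → ℂ) where
  carrier := {f | MDiff f ∧ Function.Periodic (f ∘ ofComplex) (N : ℝ) ∧ IsBoundedAtImInfty f}
  mul_mem' := by
    rintro f g ⟨hf0, hf1, hf2⟩ ⟨hg0, hg1, hg2⟩
    exact ⟨hf0.mul hg0, hf1.mul hg1, hf2.mul hg2⟩
  add_mem' := by
    rintro f g ⟨hf0, hf1, hf2⟩ ⟨hg0, hg1, hg2⟩
    exact ⟨hf0.add hg0, hf1.add hg1, hf2.add hg2⟩
  algebraMap_mem' := by
    intro c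
    refine ⟨mdifferentiable_const, fun z => rfl, ?_⟩
    exact Filter.const_boundedAtFilter _ c

theorem FA_S24_mem_HolPlus {N : ℕ} {f : ℍ → ℂ} :
    f ∈ FA_S24_HolPlus N ↔ MDiff f ∧ Function.Periodic (f ∘ ofComplex) (N : ℝ) ∧
      IsBoundedAtImInfty f := Iff.rfl

variable {N : ℕ}

theorem FA_S24_HolPlus_mdiff (f : FA_S24_HolPlus N) : MDiff (f : ℍ → ℂ) := f.2.1

theorem FA_S24_HolPlus_per (f : FA_S24_HolPlus N) :
    Function.Periodic ((f : ℍ → ℂ) ∘ ofComplex) (N : ℝ) := f.2.2.1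

theorem FA_S24_HolPlus_bdd (f : FA_S24_HolPlus N) : IsBoundedAtImInfty (f : ℍ → ℂ) := f.2.2.2

theorem FA_S24_Npos (N : ℕ) [NeZero N] : (0 : ℝ) < (N : ℝ) := by
  exact_mod_cast Nat.pos_of_ne_zero (NeZero.ne N)

theorem FA_S24_HolPlus_analytic [NeZero N] (f : FA_S24_HolPlus N) :
    AnalyticAt ℂ (cuspFunction (N : ℝ) (f : ℍ → ℂ)) 0 :=
  analyticAt_cuspFunction_zero (FA_S24_Npos N)
    (FA_S24_HolPlus_per f) (FA_S24_HolPlus_mdiff f) (FA_S24_HolPlus_bdd f)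

/-- The inclusion `𝓗⁺_N → 𝓗`. -/
def FA_S24_toHol (N : ℕ) : FA_S24_HolPlus N →+* FA_Mero_Hol where
  toFun f := ⟨(f : ℍ → ℂ), FA_S24_HolPlus_mdiff f⟩
  map_one' := rfl
  map_mul' _ _ := rfl
  map_zero' := rfl
  map_add' _ _ := rfl

theorem FA_S24_toHol_injective : Function.Injective (FA_S24_toHol N) := by
  intro f g h
  apply Subtype.ext
  exact congrArg (fun x : FA_Mero_Hol => (x : ℍ → ℂ)) h

instance FA_S24_HolPlus_isDomain : IsDomain (FA_S24_HolPlus N) :=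
  Function.Injective.isDomain (FA_S24_toHol N) FA_S24_toHol_injective

/-- The `q`-expansion ring homomorphism on `𝓗⁺_N`. -/
def FA_S24_qN (N : ℕ) [NeZero N] : FA_S24_HolPlus N →+* PowerSeries ℂ where
  toFun f := qExpansion (N : ℝ) (f : ℍ → ℂ)
  map_one' := qExpansion_one _
  map_mul' f g := qExpansion_mul (FA_S24_HolPlus_analytic f) (FA_S24_HolPlus_analytic g)
  map_zero' := qExpansion_zero _
  map_add' f g := qExpansion_add (FA_S24_HolPlus_analytic f) (FA_S24_HolPlus_analytic g)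

theorem FA_S24_qN_apply [NeZero N] (f : FA_S24_HolPlus N) :
    FA_S24_qN N f = qExpansion (N : ℝ) (f : ℍ → ℂ) := rfl

theorem FA_S24_qN_injective [NeZero N] : Function.Injective (FA_S24_qN N) := by
  rw [injective_iff_map_eq_zero]
  intro f hf
  have h := (qExpansion_eq_zero_iff (FA_S24_Npos N)
    (FA_S24_HolPlus_per f) (FA_S24_HolPlus_mdiff f) (FA_S24_HolPlus_bdd f)).mp hf
  exact Subtype.ext h

theorem FA_S24_qN_algebraMap [NeZero N] (c : ℂ) :
    FA_S24_qN N (algebraMap ℂ (FA_S24_HolPlus N) c) = PowerSeries.C c := by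
  have h2 : FA_S24_qN N (algebraMap ℂ (FA_S24_HolPlus N) c)
      = qExpansion (N : ℝ) (c • (1 : ℍ → ℂ)) := by
    rw [FA_S24_qN_apply]
    congr 1
    funext z
    simp [Algebra.algebraMap_eq_smul_one]
  have h3 : AnalyticAt ℂ (cuspFunction (N : ℝ) (1 : ℍ → ℂ)) 0 :=
    FA_S24_HolPlus_analytic (1 : FA_S24_HolPlus N)
  rw [h2, qExpansion_smul h3, qExpansion_one]
  ext m
  simp [PowerSeries.coeff_C, PowerSeries.coeff_one]

/-- The expansion at `∞` on the fraction field of `𝓗⁺_N`. -/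
def FA_S24_Qfrac (N : ℕ) [NeZero N] : FractionRing (FA_S24_HolPlus N) →+* LaurentSeries ℂ :=
  IsFractionRing.lift (g := (HahnSeries.ofPowerSeries ℤ ℂ).comp (FA_S24_qN N))
    (fun _ _ h => FA_S24_qN_injective (HahnSeries.ofPowerSeries_injective h))

theorem FA_S24_Qfrac_algebraMap [NeZero N] (f : FA_S24_HolPlus N) :
    FA_S24_Qfrac N (algebraMap _ _ f) = HahnSeries.ofPowerSeries ℤ ℂ (FA_S24_qN N f) :=
  IsFractionRing.lift_algebraMap _ f

/-- The inclusion of `Frac 𝓗⁺_N` into the field of meromorphic functions. -/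
def FA_S24_kappa (N : ℕ) : FractionRing (FA_S24_HolPlus N) →+* FA_Mero_Field :=
  IsFractionRing.lift (g := (algebraMap FA_Mero_Hol FA_Mero_Field).comp (FA_S24_toHol N))
    (fun _ _ h => FA_S24_toHol_injective (IsFractionRing.injective FA_Mero_Hol FA_Mero_Field h))

theorem FA_S24_kappa_algebraMap (f : FA_S24_HolPlus N) :
    FA_S24_kappa N (algebraMap _ _ f) = algebraMap FA_Mero_Hol FA_Mero_Field (FA_S24_toHol N f) :=
  IsFractionRing.lift_algebraMap _ f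

theorem FA_S24_kappa_injective : Function.Injective (FA_S24_kappa N) :=
  (FA_S24_kappa N).injective

/-- The expansion at `∞` of a meromorphic function (junk value `0` outside the range of
`κ`). -/
def FA_S24_Qinf (N : ℕ) [NeZero N] (x : FA_Mero_Field) : LaurentSeries ℂ :=
  letI := Classical.propDecidable
  if h : ∃ y, FA_S24_kappa N y = x then FA_S24_Qfrac N h.choose else 0

theorem FA_S24_Qinf_kappa [NeZero N] (y : FractionRing (FA_S24_HolPlus N)) :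
    FA_S24_Qinf N (FA_S24_kappa N y) = FA_S24_Qfrac N y := by
  have h : ∃ y', FA_S24_kappa N y' = FA_S24_kappa N y := ⟨y, rfl⟩
  unfold FA_S24_Qinf
  rw [dif_pos h]
  exact congrArg _ (FA_S24_kappa_injective h.choose_spec)

/-- The subfield of `N`-good meromorphic functions. -/
def FA_S24_good (N : ℕ) : Subfield FA_Mero_Field := (FA_S24_kappa N).fieldRange

theorem FA_S24_mem_good {x : FA_Mero_Field} :
    x ∈ FA_S24_good N ↔ ∃ y, FA_S24_kappa N y = x := Iff.rfl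

theorem FA_S24_Qinf_mul [NeZero N] {x y : FA_Mero_Field} (hx : x ∈ FA_S24_good N)
    (hy : y ∈ FA_S24_good N) : FA_S24_Qinf N (x * y) = FA_S24_Qinf N x * FA_S24_Qinf N y := by
  obtain ⟨a, rfl⟩ := hx
  obtain ⟨b, rfl⟩ := hy
  rw [← (FA_S24_kappa N).map_mul, FA_S24_Qinf_kappa, FA_S24_Qinf_kappa, FA_S24_Qinf_kappa,
    (FA_S24_Qfrac N).map_mul]

theorem FA_S24_Qinf_add [NeZero N] {x y : FA_Mero_Field} (hx : x ∈ FA_S24_good N)
    (hy : y ∈ FA_S24_good N) : FA_S24_Qinf N (x + y) = FA_S24_Qinf N x + FA_S24_Qinf N y := by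
  obtain ⟨a, rfl⟩ := hx
  obtain ⟨b, rfl⟩ := hy
  rw [← (FA_S24_kappa N).map_add, FA_S24_Qinf_kappa, FA_S24_Qinf_kappa, FA_S24_Qinf_kappa,
    (FA_S24_Qfrac N).map_add]

theorem FA_S24_Qinf_inv [NeZero N] {x : FA_Mero_Field} (hx : x ∈ FA_S24_good N) :
    FA_S24_Qinf N x⁻¹ = (FA_S24_Qinf N x)⁻¹ := by
  obtain ⟨a, rfl⟩ := hx
  rw [← map_inv₀, FA_S24_Qinf_kappa, FA_S24_Qinf_kappa, map_inv₀]

theorem FA_S24_Qinf_ne_zero [NeZero N] {x : FA_Mero_Field} (hx : x ∈ FA_S24_good N)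
    (hx0 : x ≠ 0) : FA_S24_Qinf N x ≠ 0 := by
  obtain ⟨a, rfl⟩ := hx
  rw [FA_S24_Qinf_kappa]
  intro h
  apply hx0
  rw [(map_eq_zero (FA_S24_Qfrac N)).mp h, map_zero]

theorem FA_S24_Qinf_hol [NeZero N] (f : FA_S24_HolPlus N) :
    FA_S24_Qinf N (algebraMap FA_Mero_Hol FA_Mero_Field (FA_S24_toHol N f))
      = HahnSeries.ofPowerSeries ℤ ℂ (FA_S24_qN N f) := by
  rw [← FA_S24_kappa_algebraMap, FA_S24_Qinf_kappa, FA_S24_Qfrac_algebraMap]

theorem FA_S24_hol_mem_good (f : FA_S24_HolPlus N) :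
    algebraMap FA_Mero_Hol FA_Mero_Field (FA_S24_toHol N f) ∈ FA_S24_good N :=
  ⟨algebraMap _ _ f, FA_S24_kappa_algebraMap f⟩

theorem FA_S24_toHol_algebraMap (c : ℂ) :
    FA_S24_toHol N (algebraMap ℂ (FA_S24_HolPlus N) c) = algebraMap ℂ FA_Mero_Hol c := rfl

theorem FA_S24_const_mem_good (c : ℂ) : algebraMap ℂ FA_Mero_Field c ∈ FA_S24_good N := by
  have := FA_S24_hol_mem_good (N := N) (algebraMap ℂ (FA_S24_HolPlus N) c)
  rw [FA_S24_toHol_algebraMap, ← IsScalarTower.algebraMap_apply] at this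
  exact this

theorem FA_S24_Qinf_const [NeZero N] (c : ℂ) :
    FA_S24_Qinf N (algebraMap ℂ FA_Mero_Field c) = HahnSeries.C c := by
  have h1 := FA_S24_Qinf_hol (N := N) (algebraMap ℂ (FA_S24_HolPlus N) c)
  rw [FA_S24_qN_algebraMap, HahnSeries.ofPowerSeries_C, FA_S24_toHol_algebraMap,
    ← IsScalarTower.algebraMap_apply] at h1
  exact h1

end Fermat.Agent.S24
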