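import Fermat.Agent.S24.DQ1
import Fermat.Agent.S24.DInterface

/-!
# S24 Layer D, `q`-expansions 2: the functions `j ∘ aff` and their expansions at `∞`
-/

set_option autoImplicit false

noncomputable section

open UpperHalfPlane ModularForm EisensteinSeries Complex MatrixGroups Filter
open scoped Manifold Topology

namespace Fermat.Agent.S24

open Fermat.Agent.Mero

local notation "Δ" => ModularForm.discriminant

/-- Order of a power series viewed as a Laurent series. -/
theorem FA_S24_order_ofPowerSeries (s : PowerSeries ℂ) (k : ℕ) (hk : PowerSeries.coeff k s ≠ 0)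
    (hlt : ∀ m : ℕ, m < k → PowerSeries.coeff m s = 0) :
    (HahnSeries.ofPowerSeries ℤ ℂ s).order = (k : ℤ) := by
  have hcoeff : ∀ m : ℕ, (HahnSeries.ofPowerSeries ℤ ℂ s).coeff (m : ℤ) = PowerSeries.coeff m s :=
    fun m => HahnSeries.ofPowerSeries_apply_coeff s m
  have hneg : ∀ i : ℤ, i < 0 → (HahnSeries.ofPowerSeries ℤ ℂ s).coeff i = 0 := by
    intro i hi
    rw [HahnSeries.ofPowerSeries_apply]
    refine HahnSeries.embDomain_of_notMem_range ?_
    rintro ⟨m, rfl⟩
    exact absurd hi (not_lt.mpr (Int.natCast_nonneg m))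
  have hne : HahnSeries.ofPowerSeries ℤ ℂ s ≠ 0 := by
    intro h
    have := hcoeff k
    rw [h] at this
    exact hk this.symm
  apply le_antisymm
  · exact HahnSeries.order_le_of_coeff_ne_zero (by rw [hcoeff]; exact hk)
  · by_contra hcon
    have hcon' := not_le.mp hcon
    have h1 : (HahnSeries.ofPowerSeries ℤ ℂ s).coeff (HahnSeries.ofPowerSeries ℤ ℂ s).order ≠ 0 :=
      fun h => hne (HahnSeries.coeff_order_eq_zero.mp h)
    rcases lt_or_ge (HahnSeries.ofPowerSeries ℤ ℂ s).order 0 with h2 | h2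
    · exact h1 (hneg _ h2)
    · obtain ⟨m, hm⟩ := Int.eq_ofNat_of_zero_le h2
      rw [hm] at h1 hcon'
      rw [hcoeff] at h1
      exact h1 (hlt m (by exact_mod_cast hcon'))

section aff

variable (a b δ : ℤ) (ha : 0 < a) (hδ : 0 < δ)

include ha hδ in
theorem FA_S24_affC_im_pos {w : ℂ} (hw : 0 < w.im) : 0 < (((a : ℂ) * w + b) / δ).im := by
  have h1 : (((a : ℂ) * w + b) / δ).im = (a : ℝ) * w.im / δ := by
    have : ((a : ℂ) * w + b) / δ = (((a : ℝ) * w + (b : ℝ)) / (δ : ℝ) : ℂ) := by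
      push_cast; rfl
    rw [this, Complex.div_ofReal_im]
    simp
  rw [h1]
  have ha' : (0 : ℝ) < a := by exact_mod_cast ha
  have hδ' : (0 : ℝ) < δ := by exact_mod_cast hδ
  exact div_pos (mul_pos ha' hw) hδ'

theorem FA_S24_comp_aff_ofComplex (F : ℍ → ℂ) {w : ℂ} (hw : 0 < w.im) :
    ((F ∘ FA_S24_aff a b δ ha hδ) ∘ ofComplex) w
      = (F ∘ ofComplex) (((a : ℂ) * w + b) / δ) := by
  simp only [Function.comp_apply]
  congr 1
  apply UpperHalfPlane.ext
  rw [FA_S24_aff_coe, ofComplex_apply_of_im_pos hw,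
    ofComplex_apply_of_im_pos (FA_S24_affC_im_pos a b δ ha hδ hw)]

theorem FA_S24_mdiff_comp_aff {F : ℍ → ℂ} (hF : MDiff F) :
    MDiff (F ∘ FA_S24_aff a b δ ha hδ) := by
  rw [UpperHalfPlane.mdifferentiable_iff] at hF ⊢
  have h1 : DifferentiableOn ℂ ((F ∘ ofComplex) ∘ fun w : ℂ => ((a : ℂ) * w + b) / δ)
      {z | 0 < z.im} := by
    apply hF.comp
    · intro w _
      apply DifferentiableAt.differentiableWithinAt
      fun_prop
    · intro w hw
      exact FA_S24_affC_im_pos a b δ ha hδ hw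
  refine h1.congr ?_
  intro w hw
  exact FA_S24_comp_aff_ofComplex a b δ ha hδ F hw

/-- The function `j ((a z + b)/δ)` as a holomorphic function. -/
def FA_S24_jaff : FA_Mero_Hol :=
  ⟨FA_S24_j ∘ FA_S24_aff a b δ ha hδ, FA_S24_mdiff_comp_aff a b δ ha hδ FA_S24_j_mdiff⟩

theorem FA_S24_jaff_apply (z : ℍ) :
    (FA_S24_jaff a b δ ha hδ : ℍ → ℂ) z = FA_S24_j (FA_S24_aff a b δ ha hδ z) := rfl

end aff

end Fermat.Agent.S24
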