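import Fermat.Agent.S24.DModelFinal
import Fermat.Agent.S24.Glue
import Fermat.Agent.S24.ARHFinal
import Fermat.Agent.S24.B

/-!
# S24, generic in the constant field `K ⊆ ℂ` (for S20: `K = ℂ`)

For `K` algebraically closed of characteristic `0` with `K → ℂ`, the field
`F₀ = K(j (d z) : d ∣ N)` of meromorphic functions on `ℍ` has genus `genusFormula N`.
-/

set_option autoImplicit false

noncomputable section

open UpperHalfPlane ModularForm EisensteinSeries Complex MatrixGroups Filter
open scoped Manifold Topology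

namespace Fermat.Agent.S24

open Fermat.Agent.Mero AlgebraicCurve

section generic

variable (K : Type) [Field K] [IsAlgClosed K] [CharZero K] [Algebra K ℂ]
  [Algebra K FA_Mero_Field] (ht : FA_S24_Tower K) (N : ℕ) [NeZero N]

omit [CharZero K] in
/-- The analytic package over `K` (unconditional). -/
theorem FA_S24_props_final : FA_S24_Props (FA_S24_rho K ht) FA_S24_g N :=
  FA_S24_props FA_S24_UT FA_S24_UT0 FA_S24_QE FA_S24_TW FA_S24_BDD FA_S24_HOL FA_S24_RAT
    FA_S24_NORM FA_S24_COEF K ht N (FA_S24_roots_mem K)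

/-- The branch locus `{0, 1728}` in `K`. -/
def FA_S24_BK : Finset K :=
  letI := Classical.decEq K
  {0, 1728}

omit [IsAlgClosed K] [CharZero K] [Algebra K ℂ] [Algebra K FA_Mero_Field] in
theorem FA_S24_IK_eq_bot {c : K} (hc : c ∉ FA_S24_BK K) : FA_S24_IK c = ⊥ := by
  classical
  have h0 : c ≠ 0 := by
    rintro rfl
    exact hc (by simp [FA_S24_BK])
  have h1 : c ≠ 1728 := by
    rintro rfl
    exact hc (by simp [FA_S24_BK])
  unfold FA_S24_IK
  rw [if_neg h0, if_neg h1]

omit [IsAlgClosed K] [Algebra K ℂ] [Algebra K FA_Mero_Field] in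
theorem FA_S24_rhDegree_K (H : Subgroup SL(2, ℤ)) (Iinf : Subgroup SL(2, ℤ)) :
    FA_S24_rhDegree H (FA_S24_BK K) (FA_S24_IK (K := K)) Iinf
      = FA_S24_rhDegree H FA_S24_B FA_S24_I Iinf := by
  classical
  have hK : (0 : K) ≠ 1728 := by
    have : ((1728 : ℕ) : K) ≠ 0 := Nat.cast_ne_zero.mpr (by norm_num)
    intro h
    apply this
    rw [Nat.cast_ofNat]
    exact h.symm
  have hQ : (0 : AlgebraicClosure ℚ) ≠ 1728 := by
    have : ((1728 : ℕ) : AlgebraicClosure ℚ) ≠ 0 := Nat.cast_ne_zero.mpr (by norm_num)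
    intro h
    apply this
    rw [Nat.cast_ofNat]
    exact h.symm
  unfold FA_S24_rhDegree FA_S24_BK FA_S24_B
  rw [Finset.sum_pair hK, Finset.sum_pair hQ]
  have e1 : FA_S24_IK (0 : K) = FA_S24_I 0 := by
    unfold FA_S24_IK FA_S24_I
    rw [if_pos rfl, if_pos rfl]
  have e2 : FA_S24_IK (1728 : K) = FA_S24_I 1728 := by
    unfold FA_S24_IK FA_S24_I
    rw [if_neg hK.symm, if_pos rfl, if_neg hQ.symm, if_pos rfl]
  rw [e1, e2]

include ht in
/-- **S24 over `K`**: the genus of `F₀ = K(j (d z) : d ∣ N)`, `N ≥ 2`. -/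
theorem FA_S24_genus_F0_of_two_le (hN : 2 ≤ N)
    [HasCanonicalDivisor (K := K) (F := ↥(FA_S24_F0 K FA_S24_g N))] :
    (genus K ↥(FA_S24_F0 K FA_S24_g N) : ℚ) = ModularCurve.genusFormula N := by
  have hP := FA_S24_props_final K ht N
  have hM : FA_S24_ModelFor K ↥(FA_S24_F0 K FA_S24_g N) N :=
    hP.modelFor hN ↥(FA_S24_F0 K FA_S24_g N) (FA_S24_F0 K FA_S24_g N).val (by
      ext x
      constructor
      · rintro ⟨y, rfl⟩
        exact y.2
      · intro hx
        exact ⟨⟨x, hx⟩, rfl⟩)
  obtain ⟨E, _, _, _, _, φ, x, hfin, hx, hxΓ, hfixΓ, hker, hH, hfixH, hI, hinf⟩ := hM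
  rw [FA_S24_RH K ↥(FA_S24_F0 K FA_S24_g N) E SL(2, ℤ) φ hfin x hx
    hxΓ hfixΓ (CongruenceSubgroup.Gamma0 N) hker hH hfixH (FA_S24_BK K) FA_S24_IK
    (Subgroup.zpowers ModularGroup.T) hI (fun c hc => FA_S24_IK_eq_bot K hc) hinf,
    FA_S24_rhDegree_K]
  exact FA_S24_numerics N

omit [IsAlgClosed K] [CharZero K] [NeZero N] in
theorem FA_S24_F0_one_le :
    FA_S24_F0 K FA_S24_g 1 ≤ IntermediateField.adjoin K {FA_S24_g 1} := by
  unfold FA_S24_F0
  rw [IntermediateField.adjoin_le_iff]
  rintro x ⟨d, hd, rfl⟩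
  rw [Nat.dvd_one.mp hd]
  exact IntermediateField.subset_adjoin K _ rfl

include ht in
omit [NeZero N] in
/-- **S24 over `K`**, level one: `K(j)` has genus `0`. -/
theorem FA_S24_genus_F0_one
    [HasCanonicalDivisor (K := K) (F := ↥(FA_S24_F0 K FA_S24_g 1))] :
    (genus K ↥(FA_S24_F0 K FA_S24_g 1) : ℚ) = ModularCurve.genusFormula 1 := by
  have hmem : FA_S24_g 1 ∈ FA_S24_F0 K FA_S24_g 1 := FA_S24_g_mem_F0 K FA_S24_g 1 dvd_rfl
  have hx : Transcendental K (⟨FA_S24_g 1, hmem⟩ : ↥(FA_S24_F0 K FA_S24_g 1)) := by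
    intro halg
    apply FA_S24_transc K ht
    have := halg.algHom (FA_S24_F0 K FA_S24_g 1).val
    exact this
  have htop : IntermediateField.adjoin K
      {(⟨FA_S24_g 1, hmem⟩ : ↥(FA_S24_F0 K FA_S24_g 1))} = ⊤ := by
    rw [eq_top_iff]
    rintro ⟨y, hy⟩ -
    have hy' := FA_S24_F0_one_le K hy
    have key : ∀ e ∈ IntermediateField.adjoin K {FA_S24_g 1},
        ∀ he : e ∈ FA_S24_F0 K FA_S24_g 1,
          (⟨e, he⟩ : ↥(FA_S24_F0 K FA_S24_g 1)) ∈ IntermediateField.adjoin K
            {(⟨FA_S24_g 1, hmem⟩ : ↥(FA_S24_F0 K FA_S24_g 1))} := by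
      intro e he
      induction he using IntermediateField.adjoin_induction with
      | mem x hx =>
          intro he'
          rw [Set.mem_singleton_iff] at hx
          subst hx
          exact IntermediateField.subset_adjoin K _ rfl
      | algebraMap c =>
          intro _
          exact IntermediateField.algebraMap_mem _ c
      | add a b ha hb iha ihb =>
          intro _
          have ha' : a ∈ FA_S24_F0 K FA_S24_g 1 :=
            IntermediateField.adjoin.mono K _ _ (by
              rintro x rfl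
              exact ⟨1, dvd_rfl, rfl⟩) ha
          have hb' : b ∈ FA_S24_F0 K FA_S24_g 1 :=
            IntermediateField.adjoin.mono K _ _ (by
              rintro x rfl
              exact ⟨1, dvd_rfl, rfl⟩) hb
          exact add_mem (iha ha') (ihb hb')
      | inv a ha iha =>
          intro _
          have ha' : a ∈ FA_S24_F0 K FA_S24_g 1 :=
            IntermediateField.adjoin.mono K _ _ (by
              rintro x rfl
              exact ⟨1, dvd_rfl, rfl⟩) ha
          exact inv_mem (iha ha')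
      | mul a b ha hb iha ihb =>
          intro _
          have ha' : a ∈ FA_S24_F0 K FA_S24_g 1 :=
            IntermediateField.adjoin.mono K _ _ (by
              rintro x rfl
              exact ⟨1, dvd_rfl, rfl⟩) ha
          have hb' : b ∈ FA_S24_F0 K FA_S24_g 1 :=
            IntermediateField.adjoin.mono K _ _ (by
              rintro x rfl
              exact ⟨1, dvd_rfl, rfl⟩) hb
          exact mul_mem (iha ha') (ihb hb')
    exact key y hy' hy
  rw [FA_S24_Rational K ↥(FA_S24_F0 K FA_S24_g 1) _ hx htop, FA_S24_genusFormula_one]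
  simp

include ht in
/-- **S24 over `K`**: the field `F₀ = K(j (d z) : d ∣ N)` of meromorphic functions on `ℍ` has
genus `genusFormula N`. -/
theorem FA_S24_genus_F0
    [HasCanonicalDivisor (K := K) (F := ↥(FA_S24_F0 K FA_S24_g N))] :
    (genus K ↥(FA_S24_F0 K FA_S24_g N) : ℚ) = ModularCurve.genusFormula N := by
  rcases Nat.lt_or_ge N 2 with hN | hN
  · have hN1 : N = 1 := by
      have := NeZero.ne N
      omega
    subst hN1
    exact FA_S24_genus_F0_one K ht
  · exact FA_S24_genus_F0_of_two_le K ht N hN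

end generic

/-- The tower condition for `K = ℂ`. -/
theorem FA_S24_tower_complex : FA_S24_Tower ℂ := fun _ => rfl

end Fermat.Agent.S24
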