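import Fermat.Agent.S24.DInst2
import Fermat.Agent.S24.DInterface2

/-!
# S24 Layer D, instantiation 3: the generators are good; the valuation at `∞` (`valInf`)
-/

set_option autoImplicit false

noncomputable section

open UpperHalfPlane ModularForm EisensteinSeries Complex MatrixGroups Filter
open scoped Manifold Topology

namespace Fermat.Agent.S24

open Fermat.Agent.Mero

/-- The order of `ofPowerSeries s` only depends on the order of `s`. -/
theorem FA_S24_order_ofPS_congr {s s' : PowerSeries ℂ} (h : s.order = s'.order) :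
    (HahnSeries.ofPowerSeries ℤ ℂ s).order = (HahnSeries.ofPowerSeries ℤ ℂ s').order := by
  rcases eq_or_ne s 0 with rfl | hs
  · rw [PowerSeries.order_zero] at h
    have : s' = 0 := PowerSeries.order_eq_top.mp h.symm
    rw [this]
  · have hs' : s' ≠ 0 := by
      rintro rfl
      rw [PowerSeries.order_zero] at h
      exact hs (PowerSeries.order_eq_top.mp h)
    obtain ⟨n, hn⟩ := ENat.ne_top_iff_exists.mp (PowerSeries.order_eq_top.not.mpr hs)
    have hn' : s'.order = n := by rw [← h, hn]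
    have h1 := (PowerSeries.order_eq_nat (φ := s) (n := n)).mp hn.symm
    have h2 := (PowerSeries.order_eq_nat (φ := s') (n := n)).mp hn'
    rw [FA_S24_order_ofPowerSeries s n h1.1 h1.2, FA_S24_order_ofPowerSeries s' n h2.1 h2.2]

theorem FA_S24_order_inv (x : LaurentSeries ℂ) : x⁻¹.order = - x.order := by
  rcases eq_or_ne x 0 with rfl | hx
  · simp
  · have h5 := HahnSeries.order_mul hx (inv_ne_zero hx)
    rw [mul_inv_cancel₀ hx, HahnSeries.order_one] at h5
    omega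

section TW

variable (hTW : FA_S24_Target_TW) (N : ℕ) [NeZero N]

include hTW

/-- The translate of an element of `𝓗⁺_N` under `T ^ t`. -/
theorem FA_S24_TW_hol (f : FA_S24_HolPlus N) (γ : SL(2, ℤ))
    (hγ : γ ∈ Subgroup.zpowers ModularGroup.T) :
    ∃ f' : FA_S24_HolPlus N, γ • FA_S24_toHol N f = FA_S24_toHol N f' ∧
      (FA_S24_qN N f').order = (FA_S24_qN N f).order := by
  obtain ⟨t, rfl⟩ := Subgroup.mem_zpowers_iff.mp hγ
  obtain ⟨h, -, ho⟩ := hTW N f (-t)
  refine ⟨⟨_, h⟩, ?_, ho⟩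
  apply Subtype.ext
  funext z
  show (f : ℍ → ℂ) ((ModularGroup.T ^ t)⁻¹ • z) = (f : ℍ → ℂ) ((ModularGroup.T ^ (-t)) • z)
  rw [zpow_neg]

theorem FA_S24_TW_hol_ne_zero {f : FA_S24_HolPlus N} (hf : f ≠ 0) {f' : FA_S24_HolPlus N}
    (ho : (FA_S24_qN N f').order = (FA_S24_qN N f).order) : f' ≠ 0 := by
  rintro rfl
  rw [map_zero, PowerSeries.order_zero] at ho
  have := PowerSeries.order_eq_top.mp ho.symm
  exact hf (FA_S24_qN_injective (this.trans (map_zero _).symm))

/-- Translation invariance of the order at `∞`. -/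
theorem FA_S24_TW_good {x : FA_Mero_Field} (hx : x ∈ FA_S24_good N) (γ : SL(2, ℤ))
    (hγ : γ ∈ Subgroup.zpowers ModularGroup.T) :
    γ • x ∈ FA_S24_good N ∧ (FA_S24_Qinf N (γ • x)).order = (FA_S24_Qinf N x).order := by
  obtain ⟨y, rfl⟩ := hx
  obtain ⟨a, b, hb, rfl⟩ := IsFractionRing.div_surjective (A := FA_S24_HolPlus N) y
  have hb0 : b ≠ 0 := nonZeroDivisors.ne_zero hb
  obtain ⟨a', ha1, ha2⟩ := FA_S24_TW_hol hTW N a γ hγ
  obtain ⟨b', hb1, hb2⟩ := FA_S24_TW_hol hTW N b γ hγ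
  have hb0' : b' ≠ 0 := FA_S24_TW_hol_ne_zero hTW N hb0 hb2
  have e1 : FA_S24_kappa N (algebraMap _ _ a / algebraMap _ _ b)
      = algebraMap FA_Mero_Hol FA_Mero_Field (FA_S24_toHol N a)
        * (algebraMap FA_Mero_Hol FA_Mero_Field (FA_S24_toHol N b))⁻¹ := by
    rw [map_div₀, FA_S24_kappa_algebraMap, FA_S24_kappa_algebraMap, div_eq_mul_inv]
  have e2 : γ • FA_S24_kappa N (algebraMap _ _ a / algebraMap _ _ b)
      = algebraMap FA_Mero_Hol FA_Mero_Field (FA_S24_toHol N a')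
        * (algebraMap FA_Mero_Hol FA_Mero_Field (FA_S24_toHol N b'))⁻¹ := by
    rw [e1, smul_mul', smul_inv'', FA_Mero_smul_algebraMap, FA_Mero_smul_algebraMap, ha1, hb1]
  have q1 : ∀ u v : FA_S24_HolPlus N,
      FA_S24_Qinf N (algebraMap FA_Mero_Hol FA_Mero_Field (FA_S24_toHol N u)
        * (algebraMap FA_Mero_Hol FA_Mero_Field (FA_S24_toHol N v))⁻¹)
      = HahnSeries.ofPowerSeries ℤ ℂ (FA_S24_qN N u)
        * (HahnSeries.ofPowerSeries ℤ ℂ (FA_S24_qN N v))⁻¹ := by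
    intro u v
    rw [FA_S24_Qinf_mul (FA_S24_hol_mem_good _) (inv_mem (FA_S24_hol_mem_good _)),
      FA_S24_Qinf_inv (FA_S24_hol_mem_good _), FA_S24_Qinf_hol, FA_S24_Qinf_hol]
  have o1 : ∀ u v : FA_S24_HolPlus N, u ≠ 0 → v ≠ 0 →
      (HahnSeries.ofPowerSeries ℤ ℂ (FA_S24_qN N u)
        * (HahnSeries.ofPowerSeries ℤ ℂ (FA_S24_qN N v))⁻¹).order
      = (HahnSeries.ofPowerSeries ℤ ℂ (FA_S24_qN N u)).order
        - (HahnSeries.ofPowerSeries ℤ ℂ (FA_S24_qN N v)).order := by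
    intro u v hu hv
    have hu' : HahnSeries.ofPowerSeries ℤ ℂ (FA_S24_qN N u) ≠ 0 := fun h =>
      hu (FA_S24_qN_injective ((HahnSeries.ofPowerSeries_injective
        (h.trans (map_zero _).symm)).trans (map_zero _).symm))
    have hv' : HahnSeries.ofPowerSeries ℤ ℂ (FA_S24_qN N v) ≠ 0 := fun h =>
      hv (FA_S24_qN_injective ((HahnSeries.ofPowerSeries_injective
        (h.trans (map_zero _).symm)).trans (map_zero _).symm))
    rw [HahnSeries.order_mul hu' (inv_ne_zero hv'), FA_S24_order_inv]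
    ring
  refine ⟨?_, ?_⟩
  · rw [e2]
    exact mul_mem (FA_S24_hol_mem_good _) (inv_mem (FA_S24_hol_mem_good _))
  · rw [e2, e1, q1, q1]
    rcases eq_or_ne a 0 with rfl | ha0
    · have ha0' : a' = 0 := by
        by_contra hcon
        have := FA_S24_TW_hol_ne_zero hTW N (f := a') (f' := 0) hcon (by rw [ha2])
        exact this rfl
      rw [ha0']
      simp
    · have ha0' : a' ≠ 0 := FA_S24_TW_hol_ne_zero hTW N ha0 ha2
      rw [o1 a' b' ha0' hb0', o1 a b ha0 hb0, FA_S24_order_ofPS_congr ha2,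
        FA_S24_order_ofPS_congr hb2]

end TW

section gens

variable (hUT : FA_S24_Target_UT) (hQE : FA_S24_Target_QE)
variable (K : Type) [Field K] [Algebra K ℂ] [Algebra K FA_Mero_Field] (ht : FA_S24_Tower K)
variable (N : ℕ) [NeZero N]

include hUT in
/-- Every generator of `E` is of the form `j ((a z + b)/δ)` with `δ ∣ a N`. -/
theorem FA_S24_gens_eq {x : FA_Mero_Field}
    (hx : x ∈ FA_S24_gens (FA_S24_rho K ht) FA_S24_g N) :
    ∃ (a b δ : ℤ) (ha : 0 < a) (hδ : 0 < δ) (k : ℕ),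
      (k : ℤ) * δ = a * N ∧ x = FA_S24_jaffM a b δ ha hδ := by
  obtain ⟨d, γ, hd, rfl⟩ := hx
  have hN0 : 0 < N := Nat.pos_of_ne_zero (NeZero.ne N)
  have hd0 : 0 < d := Nat.pos_of_dvd_of_pos hd hN0
  have hdZ : 0 < (d : ℤ) := by exact_mod_cast hd0
  obtain ⟨c, hc⟩ := hd
  have hc0 : 0 < c := by
    rcases Nat.eq_zero_or_pos c with h | h
    · rw [h, mul_zero] at hc
      omega
    · exact h
  obtain ⟨a, b, δ, ha, hδ, γ', h1, -, h3⟩ := FA_S24_smul_jaffM_d hUT d hdZ γ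
  refine ⟨a, b, δ, ha, hδ, (a * a * c).toNat, ?_, ?_⟩
  · have hnn : 0 ≤ a * a * c := by positivity
    rw [Int.toNat_of_nonneg hnn, hc]
    push_cast
    rw [← h1]
    ring
  · rw [FA_S24_rho_apply, FA_S24_g_eq hdZ, h3]

include hUT hQE in
theorem FA_S24_gens_mem_good {x : FA_Mero_Field}
    (hx : x ∈ FA_S24_gens (FA_S24_rho K ht) FA_S24_g N) : x ∈ FA_S24_good N := by
  obtain ⟨a, b, δ, ha, hδ, k, hk, rfl⟩ := FA_S24_gens_eq hUT K ht N hx
  exact FA_S24_jaffM_mem_good hQE N a b δ ha hδ k hk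

include ht in
theorem FA_S24_constK_mem_good (c : K) : algebraMap K FA_Mero_Field c ∈ FA_S24_good N := by
  rw [ht c]
  exact FA_S24_const_mem_good _

include hUT hQE in
theorem FA_S24_E_le_good {e : FA_Mero_Field}
    (he : e ∈ FA_S24_E (FA_S24_rho K ht) FA_S24_g N) : e ∈ FA_S24_good N := by
  unfold FA_S24_E at he
  induction he using IntermediateField.adjoin_induction with
  | mem x hx => exact FA_S24_gens_mem_good hUT hQE K ht N hx
  | algebraMap x => exact FA_S24_constK_mem_good K ht N x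
  | add x y _ _ hx hy => exact add_mem hx hy
  | inv x _ hx => exact inv_mem hx
  | mul x y _ _ hx hy => exact mul_mem hx hy

include hQE in
theorem FA_S24_order_Qinf_g_one : (FA_S24_Qinf N (FA_S24_g 1)).order = -(N : ℤ) := by
  have h : 0 < ((1 : ℕ) : ℤ) := by norm_num
  rw [FA_S24_g_eq h]
  exact FA_S24_order_Qinf_jaffM hQE N ((1 : ℕ) : ℤ) 0 1 h one_pos N (by push_cast; ring)

include hUT hQE in
/-- The `valInf` field of the analytic package. -/
theorem FA_S24_valInf (hTW : FA_S24_Target_TW) : ∃ ν : FA_Mero_Field → ℤ,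
    FA_S24_IsVal K (fun e : FA_S24_E (FA_S24_rho K ht) FA_S24_g N => ν (e : FA_Mero_Field)) ∧
    ν (FA_S24_g 1) < 0 ∧
    (∀ γ ∈ Subgroup.zpowers ModularGroup.T, ∀ e ∈ FA_S24_E (FA_S24_rho K ht) FA_S24_g N,
      ν (FA_S24_rho K ht γ e) = ν e) ∧
    - ν (FA_S24_g 1) ≤ (N : ℤ) := by
  have hN0 : (0 : ℤ) < N := by exact_mod_cast Nat.pos_of_ne_zero (NeZero.ne N)
  have hg1 := FA_S24_order_Qinf_g_one hQE N
  refine ⟨fun x => (FA_S24_Qinf N x).order, ⟨?_, ?_, ?_, ?_⟩, ?_, ?_, ?_⟩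
  · intro a b ha hb
    have ha' : (a : FA_Mero_Field) ≠ 0 := fun h => ha (Subtype.ext h)
    have hb' : (b : FA_Mero_Field) ≠ 0 := fun h => hb (Subtype.ext h)
    have hag := FA_S24_E_le_good hUT hQE K ht N a.2
    have hbg := FA_S24_E_le_good hUT hQE K ht N b.2
    show (FA_S24_Qinf N ((a : FA_Mero_Field) * (b : FA_Mero_Field))).order = _
    rw [FA_S24_Qinf_mul hag hbg,
      HahnSeries.order_mul (FA_S24_Qinf_ne_zero hag ha') (FA_S24_Qinf_ne_zero hbg hb')]
  · intro a b ha hb hab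
    have hag := FA_S24_E_le_good hUT hQE K ht N a.2
    have hbg := FA_S24_E_le_good hUT hQE K ht N b.2
    have hab' : (a : FA_Mero_Field) + (b : FA_Mero_Field) ≠ 0 := fun h => hab (Subtype.ext h)
    show min _ _ ≤ (FA_S24_Qinf N ((a : FA_Mero_Field) + (b : FA_Mero_Field))).order
    have h1 := FA_S24_Qinf_ne_zero (add_mem hag hbg) hab'
    rw [FA_S24_Qinf_add hag hbg] at h1 ⊢
    exact HahnSeries.min_order_le_order_add h1
  · intro c _
    show (FA_S24_Qinf N (algebraMap K FA_Mero_Field c)).order = 0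
    rw [ht c, FA_S24_Qinf_const, HahnSeries.order_C]
  · refine ⟨⟨FA_S24_g 1, FA_S24_g_mem_E _ _ _ (one_dvd N)⟩, ?_, ?_⟩
    · intro h
      have h1 : FA_S24_g 1 = 0 := congrArg Subtype.val h
      exact FA_S24_transc K ht (h1 ▸ isAlgebraic_zero)
    · show (FA_S24_Qinf N (FA_S24_g 1)).order ≠ 0
      rw [hg1]
      omega
  · show (FA_S24_Qinf N (FA_S24_g 1)).order < 0
    rw [hg1]
    omega
  · intro γ hγ e he
    show (FA_S24_Qinf N (FA_S24_rho K ht γ e)).order = (FA_S24_Qinf N e).order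
    rw [FA_S24_rho_apply]
    exact (FA_S24_TW_good hTW N (FA_S24_E_le_good hUT hQE K ht N he) γ hγ).2
  · show -(FA_S24_Qinf N (FA_S24_g 1)).order ≤ (N : ℤ)
    rw [hg1]
    omega

end gens

end Fermat.Agent.S24
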