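import Mathlib
import Fermat.Agent.S24.CD

/-!
# S24 Layer C (part 3): the elliptic points `i` and `ρ`.
-/

set_option autoImplicit false

noncomputable section

open UpperHalfPlane hiding I
open ModularForm EisensteinSeries Complex MatrixGroups Filter
open scoped Manifold Topology Real

namespace Fermat.Agent.S24

open Fermat.Agent.Mero

local notation "Δ" => ModularForm.discriminant

/-- The point `i ∈ ℍ`. -/
def FA_S24_pI : ℍ := ⟨Complex.I, by simp⟩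

/-- The point `ρ = (-1 + √3 i)/2 ∈ ℍ`. -/
def FA_S24_pRho : ℍ := ⟨(-1 + (Real.sqrt 3 : ℂ) * Complex.I) / 2, by
  have h3 : (0 : ℝ) < Real.sqrt 3 := Real.sqrt_pos.mpr (by norm_num)
  have : ((-1 + (Real.sqrt 3 : ℂ) * Complex.I) / 2).im = Real.sqrt 3 / 2 := by
    simp
  rw [this]
  positivity⟩

theorem FA_S24_coe_pI : (FA_S24_pI : ℂ) = Complex.I := rfl

theorem FA_S24_coe_pRho : (FA_S24_pRho : ℂ) = (-1 + (Real.sqrt 3 : ℂ) * Complex.I) / 2 := rfl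

theorem FA_S24_sqrt3_sq : ((Real.sqrt 3 : ℝ) : ℂ) ^ 2 = 3 := by
  have : (Real.sqrt 3) ^ 2 = 3 := Real.sq_sqrt (by norm_num)
  exact_mod_cast this

theorem FA_S24_coe_ST_matC :
    ((ModularGroup.S * ModularGroup.T : SL(2, ℤ)) : Matrix (Fin 2) (Fin 2) ℤ)
      = !![0, -1; 1, 1] := by
  rw [Matrix.SpecialLinearGroup.coe_mul, ModularGroup.coe_S, ModularGroup.coe_T]
  ext i j
  fin_cases i <;> fin_cases j <;> simp [Matrix.mul_apply, Fin.sum_univ_two]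

theorem FA_S24_denom_SL (γ : SL(2, ℤ)) (z : ℍ) :
    denom (Matrix.SpecialLinearGroup.mapGL ℝ γ) z
      = ((γ 1 0 : ℤ) : ℂ) * z + ((γ 1 1 : ℤ) : ℂ) := by
  simp [denom]

theorem FA_S24_coe_smul_SL (γ : SL(2, ℤ)) (z : ℍ) :
    ((γ • z : ℍ) : ℂ) = (((γ 0 0 : ℤ) : ℂ) * z + ((γ 0 1 : ℤ) : ℂ))
      / (((γ 1 0 : ℤ) : ℂ) * z + ((γ 1 1 : ℤ) : ℂ)) := by
  rw [coe_specialLinearGroup_apply]
  simp

theorem FA_S24_C_S_entries : (ModularGroup.S : SL(2, ℤ)) 0 0 = 0 ∧ (ModularGroup.S : SL(2, ℤ)) 0 1 = -1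
    ∧ (ModularGroup.S : SL(2, ℤ)) 1 0 = 1 ∧ (ModularGroup.S : SL(2, ℤ)) 1 1 = 0 := by
  refine ⟨?_, ?_, ?_, ?_⟩ <;> simp [ModularGroup.S]

theorem FA_S24_C_ST_entries : (ModularGroup.S * ModularGroup.T : SL(2, ℤ)) 0 0 = 0
    ∧ (ModularGroup.S * ModularGroup.T : SL(2, ℤ)) 0 1 = -1
    ∧ (ModularGroup.S * ModularGroup.T : SL(2, ℤ)) 1 0 = 1
    ∧ (ModularGroup.S * ModularGroup.T : SL(2, ℤ)) 1 1 = 1 := by
  refine ⟨?_, ?_, ?_, ?_⟩ <;> simp

theorem FA_S24_S_smul_pI : ModularGroup.S • FA_S24_pI = FA_S24_pI := by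
  apply UpperHalfPlane.ext
  obtain ⟨h00, h01, h10, h11⟩ := FA_S24_C_S_entries
  rw [FA_S24_coe_smul_SL, h00, h01, h10, h11, FA_S24_coe_pI]
  rw [div_eq_iff (by simp)]
  simp

theorem FA_S24_ST_smul_pRho : (ModularGroup.S * ModularGroup.T) • FA_S24_pRho = FA_S24_pRho := by
  apply UpperHalfPlane.ext
  obtain ⟨h00, h01, h10, h11⟩ := FA_S24_C_ST_entries
  rw [FA_S24_coe_smul_SL, h00, h01, h10, h11, FA_S24_coe_pRho]
  have hne : (((1 : ℤ) : ℂ) * ((-1 + (Real.sqrt 3 : ℂ) * Complex.I) / 2) + ((1 : ℤ) : ℂ)) ≠ 0 := by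
    intro h
    have := congrArg Complex.re h
    simp at this
    norm_num at this
  rw [div_eq_iff hne]
  have h3 := FA_S24_sqrt3_sq
  push_cast
  ring_nf
  rw [h3, Complex.I_sq]
  ring

theorem FA_S24_E6_pI : E₆ FA_S24_pI = 0 := by
  have h := FA_S24_modform_smul E₆ ModularGroup.S FA_S24_pI
  rw [FA_S24_S_smul_pI] at h
  obtain ⟨h00, h01, h10, h11⟩ := FA_S24_C_S_entries
  have hd : denom (Matrix.SpecialLinearGroup.mapGL ℝ ModularGroup.S) FA_S24_pI = Complex.I := by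
    rw [FA_S24_denom_SL, h10, h11, FA_S24_coe_pI]
    simp
  rw [hd] at h
  have hI : (Complex.I : ℂ) ^ (6 : ℤ) = -1 := by
    have : (Complex.I : ℂ) ^ (6 : ℕ) = -1 := by
      rw [show (6 : ℕ) = 2 * 3 by norm_num, pow_mul, Complex.I_sq]
      norm_num
    exact_mod_cast this
  rw [hI] at h
  have h2 : (2 : ℂ) * E₆ FA_S24_pI = 0 := by linear_combination h
  simpa using h2

theorem FA_S24_E4_pRho : E₄ FA_S24_pRho = 0 := by
  have h := FA_S24_modform_smul E₄ (ModularGroup.S * ModularGroup.T) FA_S24_pRho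
  rw [FA_S24_ST_smul_pRho] at h
  obtain ⟨h00, h01, h10, h11⟩ := FA_S24_C_ST_entries
  have hd : denom (Matrix.SpecialLinearGroup.mapGL ℝ (ModularGroup.S * ModularGroup.T)) FA_S24_pRho
      = (1 + (Real.sqrt 3 : ℂ) * Complex.I) / 2 := by
    rw [FA_S24_denom_SL, h10, h11, FA_S24_coe_pRho]
    push_cast
    ring
  rw [hd] at h
  have h3 := FA_S24_sqrt3_sq
  have hpow : ((1 + (Real.sqrt 3 : ℂ) * Complex.I) / 2) ^ (4 : ℤ)
      = (-1 - (Real.sqrt 3 : ℂ) * Complex.I) / 2 := by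
    have : ((1 + (Real.sqrt 3 : ℂ) * Complex.I) / 2) ^ (4 : ℕ)
        = (-1 - (Real.sqrt 3 : ℂ) * Complex.I) / 2 := by
      have hsq : ((1 + (Real.sqrt 3 : ℂ) * Complex.I) / 2) ^ 2
          = (-1 + (Real.sqrt 3 : ℂ) * Complex.I) / 2 := by
        ring_nf
        rw [h3, Complex.I_sq]
        ring
      rw [show (4 : ℕ) = 2 * 2 by norm_num, pow_mul, hsq]
      ring_nf
      rw [h3, Complex.I_sq]
      ring
    exact_mod_cast this
  rw [hpow] at h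
  have hne : (1 : ℂ) - (-1 - (Real.sqrt 3 : ℂ) * Complex.I) / 2 ≠ 0 := by
    intro h0
    have := congrArg Complex.re h0
    simp at this
    norm_num at this
  have h2 : (1 - (-1 - (Real.sqrt 3 : ℂ) * Complex.I) / 2) * E₄ FA_S24_pRho = 0 := by
    linear_combination h
  rcases mul_eq_zero.mp h2 with h5 | h5
  · exact absurd h5 hne
  · exact h5

theorem FA_S24_j_pI : FA_S24_j FA_S24_pI = 1728 := by
  have h := FA_S24_j_sub_eq FA_S24_pI
  rw [FA_S24_E6_pI] at h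
  simp at h
  linear_combination h

theorem FA_S24_j_pRho : FA_S24_j FA_S24_pRho = 0 := by
  unfold FA_S24_j
  rw [FA_S24_E4_pRho]
  simp

end Fermat.Agent.S24
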