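import Fermat.Agent.S24.Interface
import Fermat.Agent.S24.DPlace

/-!
# S24, Layer D, algebraic part 1: the field `E`, the action `φ`, finiteness

Abstract setting: a field `M` over `K`, an action `ρ : SL(2, ℤ) →* (M ≃ₐ[K] M)`, elements
`g d : M` (`d ∣ N`; think of `z ↦ j (d z)`) with `ρ γ (g d) = g d` for `γ ∈ Γ₀(d)`.
`E := K(ρ γ (g d) : d ∣ N, γ)`.
-/

set_option autoImplicit false

noncomputable section

namespace Fermat.Agent.S24

open AlgebraicCurve MatrixGroups IntermediateField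

variable {K M : Type} [Field K] [Field M] [Algebra K M]
variable (ρ : SL(2, ℤ) →* (M ≃ₐ[K] M)) (g : ℕ → M) (N : ℕ)

/-- The generators `ρ γ (g d)`, `d ∣ N`. -/
def FA_S24_gens : Set M := {x | ∃ (d : ℕ) (γ : SL(2, ℤ)), d ∣ N ∧ x = ρ γ (g d)}

/-- The field `E` generated by all translates of the `g d`. -/
def FA_S24_E : IntermediateField K M := adjoin K (FA_S24_gens ρ g N)

variable (K) in
/-- The field `F₀ = K(g d : d ∣ N)`. -/
def FA_S24_F0 : IntermediateField K M := adjoin K {x | ∃ d : ℕ, d ∣ N ∧ x = g d}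

theorem FA_S24_F0_le_E : FA_S24_F0 K g N ≤ FA_S24_E ρ g N := by
  unfold FA_S24_F0 FA_S24_E
  apply adjoin.mono
  rintro x ⟨d, hd, rfl⟩
  exact ⟨d, 1, hd, by simp⟩

theorem FA_S24_gen_mem_E {d : ℕ} (hd : d ∣ N) (γ : SL(2, ℤ)) : ρ γ (g d) ∈ FA_S24_E ρ g N :=
  subset_adjoin K _ ⟨d, γ, hd, rfl⟩

variable (K) in
theorem FA_S24_g_mem_F0 {d : ℕ} (hd : d ∣ N) : g d ∈ FA_S24_F0 K g N :=
  subset_adjoin K _ ⟨d, hd, rfl⟩

theorem FA_S24_g_mem_E {d : ℕ} (hd : d ∣ N) : g d ∈ FA_S24_E ρ g N :=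
  FA_S24_F0_le_E ρ g N (FA_S24_g_mem_F0 K g N hd)

theorem FA_S24_map_gens (γ : SL(2, ℤ)) : (ρ γ) '' (FA_S24_gens ρ g N) ⊆ FA_S24_gens ρ g N := by
  rintro _ ⟨x, ⟨d, γ', hd, rfl⟩, rfl⟩
  exact ⟨d, γ * γ', hd, by rw [map_mul]; rfl⟩

theorem FA_S24_map_mem_E (γ : SL(2, ℤ)) {e : M} (he : e ∈ FA_S24_E ρ g N) :
    ρ γ e ∈ FA_S24_E ρ g N := by
  have h1 : (FA_S24_E ρ g N).map (ρ γ : M →ₐ[K] M) ≤ FA_S24_E ρ g N := by
    unfold FA_S24_E
    rw [adjoin_map, adjoin_le_iff]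
    intro x hx
    exact subset_adjoin K _ (FA_S24_map_gens ρ g N γ hx)
  exact h1 ⟨e, he, rfl⟩

/-- The restriction of `ρ γ` to `E` as an algebra homomorphism. -/
def FA_S24_phiHom (γ : SL(2, ℤ)) : FA_S24_E ρ g N →ₐ[K] FA_S24_E ρ g N :=
  AlgHom.codRestrict (((ρ γ : M →ₐ[K] M)).comp (FA_S24_E ρ g N).val)
    (FA_S24_E ρ g N).toSubalgebra (fun e => FA_S24_map_mem_E ρ g N γ e.2)

@[simp]
theorem FA_S24_phiHom_coe (γ : SL(2, ℤ)) (e : FA_S24_E ρ g N) :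
    ((FA_S24_phiHom ρ g N γ e : FA_S24_E ρ g N) : M) = ρ γ (e : M) := rfl

/-- The restriction of `ρ γ` to `E`. -/
def FA_S24_phiEquiv (γ : SL(2, ℤ)) : FA_S24_E ρ g N ≃ₐ[K] FA_S24_E ρ g N :=
  AlgEquiv.ofAlgHom (FA_S24_phiHom ρ g N γ) (FA_S24_phiHom ρ g N γ⁻¹)
    (by
      ext e
      show ρ γ (ρ γ⁻¹ (e : M)) = (e : M)
      rw [← AlgEquiv.mul_apply, ← map_mul, mul_inv_cancel, map_one]
      rfl)
    (by
      ext e
      show ρ γ⁻¹ (ρ γ (e : M)) = (e : M)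
      rw [← AlgEquiv.mul_apply, ← map_mul, inv_mul_cancel, map_one]
      rfl)

@[simp]
theorem FA_S24_phiEquiv_coe (γ : SL(2, ℤ)) (e : FA_S24_E ρ g N) :
    ((FA_S24_phiEquiv ρ g N γ e : FA_S24_E ρ g N) : M) = ρ γ (e : M) := rfl

/-- The action of `SL(2, ℤ)` on `E`. -/
def FA_S24_phi : SL(2, ℤ) →* (FA_S24_E ρ g N ≃ₐ[K] FA_S24_E ρ g N) where
  toFun := FA_S24_phiEquiv ρ g N
  map_one' := by
    ext e
    show ρ 1 (e : M) = (e : M)
    rw [map_one]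
    rfl
  map_mul' γ γ' := by
    ext e
    show ρ (γ * γ') (e : M) = ρ γ (ρ γ' (e : M))
    rw [map_mul]
    rfl

@[simp]
theorem FA_S24_phi_coe (γ : SL(2, ℤ)) (e : FA_S24_E ρ g N) :
    ((FA_S24_phi ρ g N γ e : FA_S24_E ρ g N) : M) = ρ γ (e : M) := rfl

/-- An element of `SL(2, ℤ)` fixing all generators acts trivially on `E`. -/
theorem FA_S24_phi_eq_one_of_fix (γ : SL(2, ℤ))
    (h : ∀ x ∈ FA_S24_gens ρ g N, ρ γ x = x) : FA_S24_phi ρ g N γ = 1 := by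
  have h1 : ∀ e ∈ FA_S24_E ρ g N, ρ γ e = e := by
    intro e he
    unfold FA_S24_E at he
    induction he using IntermediateField.adjoin_induction with
    | mem x hx => exact h x hx
    | algebraMap x => exact (ρ γ).commutes x
    | add x y _ _ hx hy => rw [map_add, hx, hy]
    | inv x _ hx => rw [map_inv₀, hx]
    | mul x y _ _ hx hy => rw [map_mul, hx, hy]
  ext e
  show ρ γ (e : M) = (e : M)
  exact h1 e e.2

end Fermat.Agent.S24
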