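import Fermat.Agent.S24.DAlg1

/-!
# S24, Layer D, algebraic part 2: the analytic package and its first consequences
-/

set_option autoImplicit false

noncomputable section

namespace Fermat.Agent.S24

open AlgebraicCurve MatrixGroups IntermediateField

/-- Generic version of `FA_S24_I`. -/
def FA_S24_IK {K : Type} [Field K] (c : K) : Subgroup SL(2, ℤ) :=
  letI := Classical.propDecidable
  if c = 0 then Subgroup.zpowers (ModularGroup.S * ModularGroup.T)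
  else if c = 1728 then Subgroup.zpowers ModularGroup.S
  else ⊥

theorem FA_S24_I_eq_IK (c : AlgebraicClosure ℚ) : FA_S24_I c = FA_S24_IK c := rfl

/-- The bound for the ramification index over `j = c`. -/
def FA_S24_eBound {K : Type} [Field K] (c : K) : ℤ :=
  letI := Classical.propDecidable
  if c = 0 then 3 else if c = 1728 then 2 else 1

variable {K M : Type} [Field K] [Field M] [Algebra K M]
variable (ρ : SL(2, ℤ) →* (M ≃ₐ[K] M)) (g : ℕ → M) (N : ℕ)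

/-- The analytic package: what Layers C/D-analytic have to supply. -/
structure FA_S24_Props : Prop where
  g_inv : ∀ d : ℕ, d ∣ N → ∀ γ ∈ CongruenceSubgroup.Gamma0 d, ρ γ (g d) = g d
  stab : ∀ γ : SL(2, ℤ), ρ γ (g N) = g N → γ ∈ CongruenceSubgroup.Gamma0 N
  transc : Transcendental K (g 1)
  invariants : ∀ e ∈ FA_S24_E ρ g N, (∀ γ : SL(2, ℤ), ρ γ e = e) →
    e ∈ IntermediateField.adjoin K {g 1}
  val : ∀ c : K, ∃ ν : M → ℤ,
    FA_S24_IsVal K (fun e : FA_S24_E ρ g N => ν (e : M)) ∧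
    0 < ν (g 1 - algebraMap K M c) ∧
    (∀ γ ∈ FA_S24_IK c, ∀ e ∈ FA_S24_E ρ g N, ν (ρ γ e) = ν e) ∧
    ν (g 1 - algebraMap K M c) ≤ FA_S24_eBound c
  valInf : ∃ ν : M → ℤ,
    FA_S24_IsVal K (fun e : FA_S24_E ρ g N => ν (e : M)) ∧
    ν (g 1) < 0 ∧
    (∀ γ ∈ Subgroup.zpowers ModularGroup.T, ∀ e ∈ FA_S24_E ρ g N, ν (ρ γ e) = ν e) ∧
    - ν (g 1) ≤ (N : ℤ)

variable {ρ g N}

theorem FA_S24_Gamma0_le {d N : ℕ} (hd : d ∣ N) :
    CongruenceSubgroup.Gamma0 N ≤ CongruenceSubgroup.Gamma0 d := by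
  intro γ hγ
  rw [CongruenceSubgroup.Gamma0_mem] at hγ ⊢
  rw [ZMod.intCast_zmod_eq_zero_iff_dvd] at hγ ⊢
  exact (Int.natCast_dvd_natCast.mpr hd).trans hγ

theorem FA_S24_Gamma_le_Gamma0 (N : ℕ) :
    CongruenceSubgroup.Gamma N ≤ CongruenceSubgroup.Gamma0 N := by
  intro γ hγ
  rw [CongruenceSubgroup.Gamma_mem] at hγ
  rw [CongruenceSubgroup.Gamma0_mem]
  exact hγ.2.2.1

namespace FA_S24_Props

variable (hP : FA_S24_Props ρ g N)

include hP

/-- `Γ(N)` acts trivially on `E`. -/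
theorem Gamma_le_ker : CongruenceSubgroup.Gamma N ≤ (FA_S24_phi ρ g N).ker := by
  intro γ₀ hγ₀
  rw [MonoidHom.mem_ker]
  apply FA_S24_phi_eq_one_of_fix
  rintro _ ⟨d, γ, hd, rfl⟩
  have h1 : γ⁻¹ * γ₀ * γ ∈ CongruenceSubgroup.Gamma N := by
    have := (CongruenceSubgroup.Gamma_normal N).conj_mem γ₀ hγ₀ γ⁻¹
    simpa using this
  have h2 : γ⁻¹ * γ₀ * γ ∈ CongruenceSubgroup.Gamma0 d :=
    FA_S24_Gamma0_le hd (FA_S24_Gamma_le_Gamma0 N h1)
  have h3 := hP.g_inv d hd _ h2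
  have h4 : γ₀ * γ = γ * (γ⁻¹ * γ₀ * γ) := by group
  rw [← AlgEquiv.mul_apply, ← map_mul, h4, map_mul, AlgEquiv.mul_apply, h3]

theorem finite_range [NeZero N] : (Set.range (FA_S24_phi ρ g N)).Finite := by
  have h1 : (FA_S24_phi ρ g N).ker.FiniteIndex :=
    Subgroup.finiteIndex_of_le hP.Gamma_le_ker
  have h2 : Finite (SL(2, ℤ) ⧸ (FA_S24_phi ρ g N).ker) := Subgroup.finite_quotient_of_finiteIndex
  have h3 : Finite (FA_S24_phi ρ g N).range :=
    Finite.of_equiv _ (QuotientGroup.quotientKerEquivRange (FA_S24_phi ρ g N)).toEquiv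
  exact Set.finite_coe_iff.mp h3

theorem ker_le : (FA_S24_phi ρ g N).ker ≤ CongruenceSubgroup.Gamma0 N := by
  intro γ hγ
  rw [MonoidHom.mem_ker] at hγ
  apply hP.stab
  have h1 := congrArg (fun σ : FA_S24_E ρ g N ≃ₐ[K] FA_S24_E ρ g N =>
    ((σ ⟨g N, FA_S24_g_mem_E ρ g N dvd_rfl⟩ : FA_S24_E ρ g N) : M)) hγ
  exact h1

theorem fix_F0 (γ : SL(2, ℤ)) (hγ : γ ∈ CongruenceSubgroup.Gamma0 N) {e : M}
    (he : e ∈ FA_S24_F0 K g N) : ρ γ e = e := by
  unfold FA_S24_F0 at he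
  induction he using IntermediateField.adjoin_induction with
  | mem x hx =>
      obtain ⟨d, hd, rfl⟩ := hx
      exact hP.g_inv d hd γ (FA_S24_Gamma0_le hd hγ)
  | algebraMap x => exact (ρ γ).commutes x
  | add x y _ _ hx hy => rw [map_add, hx, hy]
  | inv x _ hx => rw [map_inv₀, hx]
  | mul x y _ _ hx hy => rw [map_mul, hx, hy]

theorem fix_g_one (γ : SL(2, ℤ)) : ρ γ (g 1) = g 1 := by
  apply hP.g_inv 1 (one_dvd N)
  rw [CongruenceSubgroup.Gamma0_mem]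
  exact Subsingleton.elim _ _

end FA_S24_Props

end Fermat.Agent.S24
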