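import Fermat.Agent.S24.DAlg2

/-!
# S24, Layer D, algebraic part 3: the fixed field of `Γ₀(N)` is `F₀`
-/

set_option autoImplicit false

noncomputable section

namespace Fermat.Agent.S24

open AlgebraicCurve MatrixGroups IntermediateField

variable {K M : Type} [Field K] [Field M] [Algebra K M]
variable {ρ : SL(2, ℤ) →* (M ≃ₐ[K] M)} {g : ℕ → M} {N : ℕ}

namespace FA_S24_Props

variable (hP : FA_S24_Props ρ g N)

include hP

set_option synthInstance.maxHeartbeats 400000 in
/-- Galois correspondence: an element of `E` fixed by `Γ₀(N)` lies in `F₀`. -/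
theorem mem_F0_of_fixed [NeZero N] (e : FA_S24_E ρ g N)
    (he : ∀ γ ∈ CongruenceSubgroup.Gamma0 N, FA_S24_phi ρ g N γ e = e) :
    (e : M) ∈ FA_S24_F0 K g N := by
  classical
  -- the finite group `G`
  let G : Subgroup (FA_S24_E ρ g N ≃ₐ[K] FA_S24_E ρ g N) := (FA_S24_phi ρ g N).range
  have hfin : Finite G := Set.finite_coe_iff.mpr hP.finite_range
  -- the intermediate field `F₀'` of `E / E^G`
  let S : Subfield (FA_S24_E ρ g N) := (FA_S24_F0 K g N).toSubfield.comap (FA_S24_E ρ g N).val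
  have hS : ∀ x : FixedPoints.subfield G (FA_S24_E ρ g N),
      algebraMap (FixedPoints.subfield G (FA_S24_E ρ g N)) (FA_S24_E ρ g N) x ∈ S := by
    intro x
    show ((x : FA_S24_E ρ g N) : M) ∈ FA_S24_F0 K g N
    have hx : ∀ γ : SL(2, ℤ), ρ γ ((x : FA_S24_E ρ g N) : M) = ((x : FA_S24_E ρ g N) : M) := by
      intro γ
      have h1 := x.2 ⟨FA_S24_phi ρ g N γ, ⟨γ, rfl⟩⟩
      exact congrArg (fun y : FA_S24_E ρ g N => (y : M)) h1
    have h2 := hP.invariants _ (x : FA_S24_E ρ g N).2 hx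
    have h3 : IntermediateField.adjoin K {g 1} ≤ FA_S24_F0 K g N := by
      rw [adjoin_le_iff]
      rintro y hy
      rw [Set.mem_singleton_iff] at hy
      subst hy
      exact FA_S24_g_mem_F0 K g N (one_dvd N)
    exact h3 h2
  let F0' : IntermediateField (FixedPoints.subfield G (FA_S24_E ρ g N)) (FA_S24_E ρ g N) :=
    S.toIntermediateField hS
  have hcomm : SMulCommClass G (FixedPoints.subfield G (FA_S24_E ρ g N)) (FA_S24_E ρ g N) :=
    inferInstance
  have hcomm' : SMulCommClass (fixingSubgroup G (F0' : Set (FA_S24_E ρ g N)))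
      (FixedPoints.subfield G (FA_S24_E ρ g N)) (FA_S24_E ρ g N) :=
    ⟨fun h x e => smul_comm (h : G) x e⟩
  have key := IsGaloisGroup.fixedPoints_fixingSubgroup G
    (FixedPoints.subfield G (FA_S24_E ρ g N)) (FA_S24_E ρ g N) F0'
  have hmem : e ∈ (FixedPoints.intermediateField (fixingSubgroup G (F0' : Set (FA_S24_E ρ g N))) :
      IntermediateField (FixedPoints.subfield G (FA_S24_E ρ g N)) (FA_S24_E ρ g N)) := by
    rw [FixedPoints.mem_intermediateField_iff]
    rintro ⟨⟨σ, ⟨γ, rfl⟩⟩, hσ⟩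
    show FA_S24_phi ρ g N γ e = e
    apply he
    apply hP.stab
    rw [_root_.mem_fixingSubgroup_iff] at hσ
    have h1 := hσ ⟨g N, FA_S24_g_mem_E ρ g N dvd_rfl⟩
      (show ((⟨g N, FA_S24_g_mem_E ρ g N dvd_rfl⟩ : FA_S24_E ρ g N) : M) ∈ FA_S24_F0 K g N from
        FA_S24_g_mem_F0 K g N dvd_rfl)
    exact congrArg (fun y : FA_S24_E ρ g N => (y : M)) h1
  rw [key] at hmem
  exact hmem

end FA_S24_Props

end Fermat.Agent.S24
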