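import Fermat.Agent.S24.DAlg3

/-!
# S24, Layer D, algebraic part 4: places and the model
-/

set_option autoImplicit false

noncomputable section

namespace Fermat.Agent.S24

open AlgebraicCurve MatrixGroups IntermediateField

/-- The generic form of the model statement (`FA_S24_Target_Model` is the case `K = ℚ̄`,
`F = modularFunctionFieldBar N`). -/
def FA_S24_ModelFor (K F : Type) [Field K] [Field F] [Algebra K F] (N : ℕ) : Prop :=
  ∃ (E : Type) (_ : Field E) (_ : Algebra K E) (_ : Algebra F E) (_ : IsScalarTower K F E)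
    (φ : SL(2, ℤ) →* (E ≃ₐ[K] E)) (x : F),
    (Set.range φ).Finite ∧
    Transcendental K x ∧
    (∀ γ : SL(2, ℤ), φ γ (algebraMap F E x) = algebraMap F E x) ∧
    (∀ e : E, (∀ γ : SL(2, ℤ), φ γ e = e) →
      ∃ f : F, f ∈ IntermediateField.adjoin K {x} ∧ algebraMap F E f = e) ∧
    φ.ker ≤ CongruenceSubgroup.Gamma0 N ∧
    (∀ γ ∈ CongruenceSubgroup.Gamma0 N, ∀ f : F, φ γ (algebraMap F E f) = algebraMap F E f) ∧
    (∀ e : E, (∀ γ ∈ CongruenceSubgroup.Gamma0 N, φ γ e = e) →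
      e ∈ Set.range (algebraMap F E)) ∧
    (∀ c : K, ∃ w : Place K E,
      0 < w.ord (algebraMap F E x - algebraMap K E c) ∧
      (∀ γ ∈ FA_S24_IK c, ∀ e : E, w.ord (φ γ e) = w.ord e) ∧
      w.ord (algebraMap F E x - algebraMap K E c) ≤ (Nat.card ((FA_S24_IK c).map φ) : ℤ)) ∧
    (∃ w : Place K E,
      w.ord (algebraMap F E x) < 0 ∧
      (∀ γ ∈ Subgroup.zpowers ModularGroup.T, ∀ e : E, w.ord (φ γ e) = w.ord e) ∧
      - w.ord (algebraMap F E x) ≤ (Nat.card ((Subgroup.zpowers ModularGroup.T).map φ) : ℤ))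

theorem FA_S24_target_model_iff :
    FA_S24_Target_Model ↔ ∀ (N : ℕ) [NeZero N], 2 ≤ N →
      FA_S24_ModelFor (AlgebraicClosure ℚ) (ModularCurve.modularFunctionFieldBar N) N :=
  Iff.rfl

end Fermat.Agent.S24
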