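import Mathlib

/-!
# S24, Layer D: elementary matrix facts about `S`, `T`, `Γ₀(N)`
-/

set_option autoImplicit false

namespace Fermat.Agent.S24

open MatrixGroups ModularGroup

theorem FA_S24_one_ne_zero_zmod {N : ℕ} (hN : 2 ≤ N) : ((1 : ℤ) : ZMod N) ≠ 0 := by
  have : Fact (1 < N) := ⟨hN⟩
  rw [Int.cast_one]
  exact one_ne_zero

theorem FA_S24_S_not_mem {N : ℕ} (hN : 2 ≤ N) : S ∉ CongruenceSubgroup.Gamma0 N := by
  rw [CongruenceSubgroup.Gamma0_mem]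
  have : (S 1 0 : ℤ) = 1 := by simp [S]
  rw [this]
  exact FA_S24_one_ne_zero_zmod hN

theorem FA_S24_coe_ST : ((S * T : SL(2, ℤ)) : Matrix (Fin 2) (Fin 2) ℤ) = !![0, -1; 1, 1] := by
  rw [Matrix.SpecialLinearGroup.coe_mul, coe_S, coe_T]
  ext i j
  fin_cases i <;> fin_cases j <;> simp [Matrix.mul_apply, Fin.sum_univ_two]

theorem FA_S24_coe_ST_sq :
    (((S * T) ^ 2 : SL(2, ℤ)) : Matrix (Fin 2) (Fin 2) ℤ) = !![-1, -1; 1, 0] := by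
  rw [pow_two, Matrix.SpecialLinearGroup.coe_mul, FA_S24_coe_ST]
  ext i j
  fin_cases i <;> fin_cases j <;> simp [Matrix.mul_apply, Fin.sum_univ_two]

theorem FA_S24_ST_not_mem {N : ℕ} (hN : 2 ≤ N) : S * T ∉ CongruenceSubgroup.Gamma0 N := by
  rw [CongruenceSubgroup.Gamma0_mem]
  have : ((S * T : SL(2, ℤ)) 1 0 : ℤ) = 1 := by
    show ((S * T : SL(2, ℤ)) : Matrix (Fin 2) (Fin 2) ℤ) 1 0 = 1
    rw [FA_S24_coe_ST]
    simp
  rw [this]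
  exact FA_S24_one_ne_zero_zmod hN

theorem FA_S24_ST_sq_not_mem {N : ℕ} (hN : 2 ≤ N) :
    (S * T) ^ 2 ∉ CongruenceSubgroup.Gamma0 N := by
  rw [CongruenceSubgroup.Gamma0_mem]
  have : (((S * T) ^ 2 : SL(2, ℤ)) 1 0 : ℤ) = 1 := by
    show (((S * T) ^ 2 : SL(2, ℤ)) : Matrix (Fin 2) (Fin 2) ℤ) 1 0 = 1
    rw [FA_S24_coe_ST_sq]
    simp
  rw [this]
  exact FA_S24_one_ne_zero_zmod hN

theorem FA_S24_coe_conj_T_pow (m : ℕ) :
    ((S⁻¹ * T ^ m * S : SL(2, ℤ)) : Matrix (Fin 2) (Fin 2) ℤ) = !![1, 0; -(m : ℤ), 1] := by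
  have hT : ((T ^ m : SL(2, ℤ)) : Matrix (Fin 2) (Fin 2) ℤ) = !![1, (m : ℤ); 0, 1] := by
    have := coe_T_zpow (m : ℤ)
    rwa [zpow_natCast] at this
  rw [Matrix.SpecialLinearGroup.coe_mul, Matrix.SpecialLinearGroup.coe_mul, hT,
    Matrix.SpecialLinearGroup.coe_inv, coe_S, Matrix.adjugate_fin_two]
  ext i j
  fin_cases i <;> fin_cases j <;> simp [Matrix.mul_apply, Fin.sum_univ_two]

theorem FA_S24_conj_T_pow_mem {N : ℕ} {m : ℕ}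
    (h : S⁻¹ * T ^ m * S ∈ CongruenceSubgroup.Gamma0 N) : N ∣ m := by
  rw [CongruenceSubgroup.Gamma0_mem] at h
  have h1 : ((S⁻¹ * T ^ m * S : SL(2, ℤ)) 1 0 : ℤ) = -(m : ℤ) := by
    show ((S⁻¹ * T ^ m * S : SL(2, ℤ)) : Matrix (Fin 2) (Fin 2) ℤ) 1 0 = -(m : ℤ)
    rw [FA_S24_coe_conj_T_pow]
    simp
  rw [h1, Int.cast_neg, neg_eq_zero, Int.cast_natCast, ZMod.natCast_eq_zero_iff] at h
  exact h

end Fermat.Agent.S24
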