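import Fermat.Agent.S24.DAlg4
import Fermat.Agent.S24.DMat

/-!
# S24, Layer D, algebraic part 5: sizes of the inertia images, places, the model
-/

set_option autoImplicit false

noncomputable section

namespace Fermat.Agent.S24

open AlgebraicCurve MatrixGroups IntermediateField

section card

variable {Γ A : Type*} [Group Γ] [Group A]

/-- If `x ^ m ∉ ker φ` for `0 < m < k`, then `φ (⟨x⟩)` has at least `k` elements. -/
theorem FA_S24_le_card_map_zpowers (φ : Γ →* A) (hfin : (Set.range φ).Finite) (x : Γ) (k : ℕ)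
    (h : ∀ m : ℕ, 0 < m → m < k → x ^ m ∉ φ.ker) :
    k ≤ Nat.card ((Subgroup.zpowers x).map φ) := by
  classical
  have hfin' : Finite ((Subgroup.zpowers x).map φ) := by
    apply Set.Finite.to_subtype
    apply hfin.subset
    rintro _ ⟨y, _, rfl⟩
    exact ⟨y, rfl⟩
  let f : Fin k → ((Subgroup.zpowers x).map φ) := fun i =>
    ⟨φ (x ^ (i : ℕ)), ⟨x ^ (i : ℕ), Subgroup.pow_mem _ (Subgroup.mem_zpowers x) _, rfl⟩⟩
  have hf : Function.Injective f := by
    have key : ∀ a b : ℕ, a < b → b < k → φ (x ^ a) ≠ φ (x ^ b) := by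
      intro a b hab hbk heq
      apply h (b - a) (by omega) (by omega)
      rw [MonoidHom.mem_ker]
      have h1 : x ^ b = x ^ (b - a) * x ^ a := by rw [← pow_add]; congr 1; omega
      rw [h1, map_mul] at heq
      exact (mul_eq_right.mp heq.symm)
    intro a b hab
    have hab' : φ (x ^ (a : ℕ)) = φ (x ^ (b : ℕ)) := congrArg Subtype.val hab
    rcases lt_trichotomy (a : ℕ) (b : ℕ) with h1 | h1 | h1
    · exact absurd hab' (key _ _ h1 b.2)
    · exact Fin.ext h1
    · exact absurd hab'.symm (key _ _ h1 a.2)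
  have := Nat.card_le_card_of_injective f hf
  simpa using this

theorem FA_S24_one_le_card_map (φ : Γ →* A) (hfin : (Set.range φ).Finite) (I : Subgroup Γ) :
    1 ≤ Nat.card (I.map φ) := by
  have hfin' : Finite (I.map φ) := by
    apply Set.Finite.to_subtype
    apply hfin.subset
    rintro _ ⟨y, _, rfl⟩
    exact ⟨y, rfl⟩
  exact Nat.one_le_iff_ne_zero.mpr Nat.card_pos.ne'

end card

variable {K M : Type} [Field K] [Field M] [Algebra K M]
variable {ρ : SL(2, ℤ) →* (M ≃ₐ[K] M)} {g : ℕ → M} {N : ℕ}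

namespace FA_S24_Props

variable (hP : FA_S24_Props ρ g N)

include hP

theorem card_ST [NeZero N] (hN : 2 ≤ N) :
    (3 : ℤ) ≤ Nat.card ((Subgroup.zpowers (ModularGroup.S * ModularGroup.T)).map
      (FA_S24_phi ρ g N)) := by
  have := FA_S24_le_card_map_zpowers (FA_S24_phi ρ g N) hP.finite_range
    (ModularGroup.S * ModularGroup.T) 3 (by
      intro m hm0 hm3 hmem
      have hmem' := hP.ker_le hmem
      interval_cases m
      · rw [pow_one] at hmem'
        exact FA_S24_ST_not_mem hN hmem'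
      · exact FA_S24_ST_sq_not_mem hN hmem')
  exact_mod_cast this

theorem card_S [NeZero N] (hN : 2 ≤ N) :
    (2 : ℤ) ≤ Nat.card ((Subgroup.zpowers ModularGroup.S).map (FA_S24_phi ρ g N)) := by
  have := FA_S24_le_card_map_zpowers (FA_S24_phi ρ g N) hP.finite_range
    ModularGroup.S 2 (by
      intro m hm0 hm3 hmem
      have hmem' := hP.ker_le hmem
      interval_cases m
      rw [pow_one] at hmem'
      exact FA_S24_S_not_mem hN hmem')
  exact_mod_cast this

theorem card_T [NeZero N] :
    (N : ℤ) ≤ Nat.card ((Subgroup.zpowers ModularGroup.T).map (FA_S24_phi ρ g N)) := by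
  have := FA_S24_le_card_map_zpowers (FA_S24_phi ρ g N) hP.finite_range
    ModularGroup.T N (by
      intro m hm0 hmN hmem
      rw [MonoidHom.mem_ker] at hmem
      -- `T ^ m` fixes `ρ S (g N)`
      have h1 := congrArg (fun σ : FA_S24_E ρ g N ≃ₐ[K] FA_S24_E ρ g N =>
        ((σ ⟨ρ ModularGroup.S (g N), FA_S24_gen_mem_E ρ g N dvd_rfl ModularGroup.S⟩ :
          FA_S24_E ρ g N) : M)) hmem
      have h2 : ρ (ModularGroup.T ^ m) (ρ ModularGroup.S (g N)) = ρ ModularGroup.S (g N) := h1
      have h3 : ρ (ModularGroup.S⁻¹ * ModularGroup.T ^ m * ModularGroup.S) (g N) = g N := by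
        rw [map_mul, map_mul, AlgEquiv.mul_apply, AlgEquiv.mul_apply, h2,
          ← AlgEquiv.mul_apply, ← map_mul, inv_mul_cancel, map_one]
        rfl
      have h4 := FA_S24_conj_T_pow_mem (hP.stab _ h3)
      exact absurd (Nat.le_of_dvd hm0 h4) (by omega))
  exact_mod_cast this

theorem eBound_le_card [NeZero N] (hN : 2 ≤ N) (c : K) :
    FA_S24_eBound c ≤ Nat.card ((FA_S24_IK c).map (FA_S24_phi ρ g N)) := by
  classical
  unfold FA_S24_eBound FA_S24_IK
  by_cases h0 : c = 0
  · rw [if_pos h0, if_pos h0]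
    exact hP.card_ST hN
  · rw [if_neg h0, if_neg h0]
    by_cases h1 : c = 1728
    · rw [if_pos h1, if_pos h1]
      exact hP.card_S hN
    · rw [if_neg h1, if_neg h1]
      exact_mod_cast FA_S24_one_le_card_map (FA_S24_phi ρ g N) hP.finite_range ⊥

end FA_S24_Props

end Fermat.Agent.S24
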