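import Fermat.Agent.S24.DAlg5

/-!
# S24, Layer D, algebraic part 6: the model from the analytic package
-/

set_option autoImplicit false

noncomputable section

namespace Fermat.Agent.S24

open AlgebraicCurve MatrixGroups IntermediateField

variable {K M : Type} [Field K] [Field M] [Algebra K M]
variable {ρ : SL(2, ℤ) →* (M ≃ₐ[K] M)} {g : ℕ → M} {N : ℕ}

namespace FA_S24_Props

variable (hP : FA_S24_Props ρ g N)

include hP

theorem g_one_sub_ne_zero (c : K) : g 1 - algebraMap K M c ≠ 0 := by
  intro h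
  have h1 : g 1 = algebraMap K M c := sub_eq_zero.mp h
  exact hP.transc (h1 ▸ isAlgebraic_algebraMap c)

theorem g_one_ne_zero : g 1 ≠ 0 := by
  have := hP.g_one_sub_ne_zero 0
  simpa using this

/-- **The model from the analytic package.** -/
theorem modelFor [NeZero N] (hN : 2 ≤ N) (F : Type) [Field F] [Algebra K F] (τ : F →ₐ[K] M)
    (hτ : Set.range τ = (FA_S24_F0 K g N : Set M)) : FA_S24_ModelFor K F N := by
  classical
  have hτmem : ∀ f : F, τ f ∈ FA_S24_F0 K g N := fun f => by
    have : τ f ∈ Set.range τ := ⟨f, rfl⟩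
    rw [hτ] at this
    exact this
  have hτsurj : ∀ y ∈ FA_S24_F0 K g N, ∃ f : F, τ f = y := fun y hy => by
    have : y ∈ Set.range τ := by rw [hτ]; exact hy
    exact this
  let τE : F →ₐ[K] FA_S24_E ρ g N :=
    AlgHom.codRestrict τ (FA_S24_E ρ g N).toSubalgebra
      (fun f => FA_S24_F0_le_E ρ g N (hτmem f))
  let algFE : Algebra F (FA_S24_E ρ g N) := τE.toRingHom.toAlgebra
  have hcoe : ∀ f : F, ((algebraMap F (FA_S24_E ρ g N) f : FA_S24_E ρ g N) : M) = τ f :=
    fun f => rfl
  have tower : IsScalarTower K F (FA_S24_E ρ g N) :=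
    IsScalarTower.of_algebraMap_eq (fun c => (τE.commutes c).symm)
  obtain ⟨x, hx⟩ := hτsurj (g 1) (FA_S24_g_mem_F0 K g N (one_dvd N))
  have hcoeK : ∀ c : K, ((algebraMap K (FA_S24_E ρ g N) c : FA_S24_E ρ g N) : M)
      = algebraMap K M c := fun c => rfl
  refine ⟨FA_S24_E ρ g N, inferInstance, inferInstance, algFE, tower, FA_S24_phi ρ g N, x,
    hP.finite_range, ?_, ?_, ?_, hP.ker_le, ?_, ?_, ?_, ?_⟩
  · -- transcendence
    intro hx'
    apply hP.transc
    rw [← hx]
    exact hx'.algHom τ
  · intro γ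
    apply Subtype.ext
    show ρ γ (τ x) = τ x
    rw [hx]
    exact hP.fix_g_one γ
  · intro e he
    have he' : ∀ γ : SL(2, ℤ), ρ γ (e : M) = (e : M) := fun γ =>
      congrArg (fun y : FA_S24_E ρ g N => (y : M)) (he γ)
    have h1 := hP.invariants (e : M) e.2 he'
    have h2 : (IntermediateField.adjoin K {x}).map τ = IntermediateField.adjoin K {g 1} := by
      rw [IntermediateField.adjoin_map, Set.image_singleton, hx]
    rw [← h2] at h1
    obtain ⟨f, hf, hfe⟩ := h1
    exact ⟨f, hf, Subtype.ext hfe⟩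
  · intro γ hγ f
    apply Subtype.ext
    show ρ γ (τ f) = τ f
    exact hP.fix_F0 γ hγ (hτmem f)
  · intro e he
    obtain ⟨f, hf⟩ := hτsurj _ (hP.mem_F0_of_fixed e he)
    exact ⟨f, Subtype.ext hf⟩
  · -- finite places
    intro c
    obtain ⟨ν, hν, hpos, hinv, hle⟩ := hP.val c
    obtain ⟨w, m, hm, hord, -⟩ := hν.exists_place
    have ha0 : (algebraMap F (FA_S24_E ρ g N) x - algebraMap K (FA_S24_E ρ g N) c) ≠ 0 := by
      intro h
      have h1 := congrArg (fun y : FA_S24_E ρ g N => (y : M)) h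
      have h2 : τ x - algebraMap K M c = 0 := h1
      rw [hx] at h2
      exact hP.g_one_sub_ne_zero c h2
    have hval : ν (g 1 - algebraMap K M c)
        = m * w.ord (algebraMap F (FA_S24_E ρ g N) x - algebraMap K (FA_S24_E ρ g N) c) := by
      rw [← hord _ ha0]
      show ν (g 1 - algebraMap K M c) = ν (τ x - algebraMap K M c)
      rw [hx]
    have hwpos : 0 < w.ord (algebraMap F (FA_S24_E ρ g N) x
        - algebraMap K (FA_S24_E ρ g N) c) := by
      rw [hval] at hpos
      by_contra hcon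
      have hcon' := not_lt.mp hcon
      exact absurd hpos (not_lt.mpr (mul_nonpos_of_nonneg_of_nonpos hm.le hcon'))
    refine ⟨w, hwpos, ?_, ?_⟩
    · intro γ hγ e
      by_cases he0 : e = 0
      · subst he0
        rw [map_zero]
      have he0' : FA_S24_phi ρ g N γ e ≠ 0 := by
        rwa [ne_eq, EmbeddingLike.map_eq_zero_iff]
      have h1 := hord _ he0
      have h2 := hord _ he0'
      have h3 : ν ((FA_S24_phi ρ g N γ e : FA_S24_E ρ g N) : M) = ν (e : M) :=
        hinv γ hγ e e.2
      rw [h3, h1] at h2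
      exact (mul_left_cancel₀ hm.ne' h2).symm
    · have h1 : w.ord (algebraMap F (FA_S24_E ρ g N) x - algebraMap K (FA_S24_E ρ g N) c)
          ≤ m * w.ord (algebraMap F (FA_S24_E ρ g N) x - algebraMap K (FA_S24_E ρ g N) c) := by
        nlinarith
      calc w.ord (algebraMap F (FA_S24_E ρ g N) x - algebraMap K (FA_S24_E ρ g N) c)
          ≤ ν (g 1 - algebraMap K M c) := by rw [hval]; exact h1
        _ ≤ FA_S24_eBound c := hle
        _ ≤ _ := hP.eBound_le_card hN c
  · -- the place at infinity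
    obtain ⟨ν, hν, hneg, hinv, hle⟩ := hP.valInf
    obtain ⟨w, m, hm, hord, -⟩ := hν.exists_place
    have ha0 : (algebraMap F (FA_S24_E ρ g N) x) ≠ 0 := by
      intro h
      have h1 := congrArg (fun y : FA_S24_E ρ g N => (y : M)) h
      have h2 : τ x = 0 := h1
      rw [hx] at h2
      exact hP.g_one_ne_zero h2
    have hval : ν (g 1) = m * w.ord (algebraMap F (FA_S24_E ρ g N) x) := by
      rw [← hord _ ha0]
      show ν (g 1) = ν (τ x)
      rw [hx]
    have hwneg : w.ord (algebraMap F (FA_S24_E ρ g N) x) < 0 := by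
      rw [hval] at hneg
      by_contra hcon
      have hcon' := not_lt.mp hcon
      exact absurd hneg (not_lt.mpr (mul_nonneg hm.le hcon'))
    refine ⟨w, hwneg, ?_, ?_⟩
    · intro γ hγ e
      by_cases he0 : e = 0
      · subst he0
        rw [map_zero]
      have he0' : FA_S24_phi ρ g N γ e ≠ 0 := by
        rwa [ne_eq, EmbeddingLike.map_eq_zero_iff]
      have h1 := hord _ he0
      have h2 := hord _ he0'
      have h3 : ν ((FA_S24_phi ρ g N γ e : FA_S24_E ρ g N) : M) = ν (e : M) :=
        hinv γ hγ e e.2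
      rw [h3, h1] at h2
      exact (mul_left_cancel₀ hm.ne' h2).symm
    · have h1 : - w.ord (algebraMap F (FA_S24_E ρ g N) x)
          ≤ - (m * w.ord (algebraMap F (FA_S24_E ρ g N) x)) := by
        nlinarith
      calc - w.ord (algebraMap F (FA_S24_E ρ g N) x)
          ≤ - ν (g 1) := by rw [hval]; exact h1
        _ ≤ (N : ℤ) := hle
        _ ≤ _ := hP.card_T

end FA_S24_Props

end Fermat.Agent.S24
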