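import Fermat.Agent.S24.DQ4
import Fermat.Agent.S24.CD
import Fermat.Agent.S24.CFix

/-!
# S24 Layer D, instantiation 1: `transc` and `val`
-/

set_option autoImplicit false

noncomputable section

open UpperHalfPlane ModularForm EisensteinSeries Complex MatrixGroups Filter
open scoped Manifold Topology

namespace Fermat.Agent.S24

open Fermat.Agent.Mero

local notation "Δ" => ModularForm.discriminant

theorem FA_S24_aff_one (h : 0 < ((1 : ℕ) : ℤ)) (z : ℍ) :
    FA_S24_aff ((1 : ℕ) : ℤ) 0 1 h one_pos z = z := by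
  apply UpperHalfPlane.ext
  rw [FA_S24_aff_coe]
  simp

theorem FA_S24_jaff_one (h : 0 < ((1 : ℕ) : ℤ)) :
    FA_S24_jaff ((1 : ℕ) : ℤ) 0 1 h one_pos = FA_S24_jHol := by
  apply Subtype.ext
  funext z
  show FA_S24_j (FA_S24_aff ((1 : ℕ) : ℤ) 0 1 h one_pos z) = FA_S24_j z
  rw [FA_S24_aff_one]

theorem FA_S24_g_one : FA_S24_g 1 = algebraMap FA_Mero_Hol FA_Mero_Field FA_S24_jHol := by
  have h : 0 < ((1 : ℕ) : ℤ) := by norm_num
  rw [FA_S24_g_eq h]
  unfold FA_S24_jaffM
  rw [FA_S24_jaff_one h]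

/-- Evaluation of a polynomial in `j`, pointwise. -/
theorem FA_S24_aeval_jHol_apply (Q : Polynomial ℂ) (z : ℍ) :
    ((Polynomial.aeval FA_S24_jHol Q : FA_Mero_Hol) : ℍ → ℂ) z = Q.eval (FA_S24_j z) := by
  have h1 := Polynomial.aeval_algHom_apply
    ((Pi.evalAlgHom ℂ (fun _ : ℍ => ℂ) z).comp FA_Mero_Hol.val) FA_S24_jHol Q
  rw [Polynomial.aeval_def, Polynomial.eval₂_eq_eval_map] at h1
  simp only [Algebra.algebraMap_self, Polynomial.map_id] at h1
  exact h1.symm

section

variable (K : Type) [Field K] [Algebra K ℂ] [Algebra K FA_Mero_Field] (ht : FA_S24_Tower K)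

include ht

theorem FA_S24_algebraMap_K_eq :
    algebraMap K FA_Mero_Field = (algebraMap ℂ FA_Mero_Field).comp (algebraMap K ℂ) :=
  RingHom.ext fun c => ht c

theorem FA_S24_algebraMap_K_hol (c : K) :
    algebraMap K FA_Mero_Field c
      = algebraMap FA_Mero_Hol FA_Mero_Field (algebraMap ℂ FA_Mero_Hol (algebraMap K ℂ c)) := by
  rw [ht c, IsScalarTower.algebraMap_apply ℂ FA_Mero_Hol FA_Mero_Field]

theorem FA_S24_aeval_g_one (P : Polynomial K) :
    Polynomial.aeval (FA_S24_g 1) P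
      = algebraMap FA_Mero_Hol FA_Mero_Field
          (Polynomial.aeval FA_S24_jHol (P.map (algebraMap K ℂ))) := by
  rw [Polynomial.aeval_def, FA_S24_algebraMap_K_eq K ht, ← Polynomial.eval₂_map, FA_S24_g_one,
    ← Polynomial.aeval_def, Polynomial.aeval_algebraMap_apply]

/-- `j` is transcendental over `K`. -/
theorem FA_S24_transc : Transcendental K (FA_S24_g 1) := by
  intro halg
  obtain ⟨P, hP0, hP⟩ := halg
  rw [FA_S24_aeval_g_one K ht] at hP
  have h1 : Polynomial.aeval FA_S24_jHol (P.map (algebraMap K ℂ)) = 0 :=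
    FA_Mero_algebraMap_injective (hP.trans (map_zero _).symm)
  have h2 : P.map (algebraMap K ℂ) = 0 := by
    apply Polynomial.funext
    intro c
    obtain ⟨z, rfl⟩ := FA_S24_j_surjective c
    rw [← FA_S24_aeval_jHol_apply, h1]
    simp
  exact hP0 ((Polynomial.map_eq_zero _).mp h2)

end

end Fermat.Agent.S24
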