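import Fermat.Agent.S24.DInst1

/-!
# S24 Layer D, instantiation 2: the valuations at finite points (`val`)
-/

set_option autoImplicit false

noncomputable section

open UpperHalfPlane ModularForm EisensteinSeries Complex MatrixGroups Filter
open scoped Manifold Topology

namespace Fermat.Agent.S24

open Fermat.Agent.Mero

section

variable (K : Type) [Field K] [Algebra K ℂ] [Algebra K FA_Mero_Field] (ht : FA_S24_Tower K)

/-- A point of `ℍ` over `c`: `ρ` over `0`, `i` over `1728`. -/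
def FA_S24_pt (c : K) : ℍ :=
  letI := Classical.propDecidable
  if c = 0 then FA_S24_pRho
  else if c = 1728 then FA_S24_pI
  else (FA_S24_j_surjective (algebraMap K ℂ c)).choose

theorem FA_S24_j_pt (c : K) : FA_S24_j (FA_S24_pt K c) = algebraMap K ℂ c := by
  classical
  unfold FA_S24_pt
  split_ifs with h0 h1
  · rw [FA_S24_j_pRho, h0, map_zero]
  · rw [FA_S24_j_pI, h1, map_ofNat]
  · exact (FA_S24_j_surjective (algebraMap K ℂ c)).choose_spec

theorem FA_S24_eJ_le (c : K) : (FA_S24_eJ (algebraMap K ℂ c) : ℤ) ≤ FA_S24_eBound c := by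
  classical
  unfold FA_S24_eJ FA_S24_eBound
  have hinj : Function.Injective (algebraMap K ℂ) := (algebraMap K ℂ).injective
  by_cases h0 : c = 0
  · rw [if_pos h0, if_pos (by rw [h0, map_zero])]
    norm_num
  · have h0' : algebraMap K ℂ c ≠ 0 := fun h => h0 (hinj (h.trans (map_zero _).symm))
    rw [if_neg h0, if_neg h0']
    by_cases h1 : c = 1728
    · rw [if_pos h1, if_pos (by rw [h1, map_ofNat])]
      norm_num
    · have h1' : algebraMap K ℂ c ≠ 1728 := fun h => h1 (hinj (h.trans (map_ofNat _ _).symm))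
      rw [if_neg h1, if_neg h1']
      norm_num

theorem FA_S24_eJ_pos (c : ℂ) : 0 < FA_S24_eJ c := by
  classical
  unfold FA_S24_eJ
  split_ifs <;> norm_num

theorem FA_S24_zpowers_smul_fix {γ₀ : SL(2, ℤ)} {z₀ : ℍ} (h : γ₀ • z₀ = z₀)
    {γ : SL(2, ℤ)} (hγ : γ ∈ Subgroup.zpowers γ₀) : γ⁻¹ • z₀ = z₀ := by
  have h1 : Subgroup.zpowers γ₀ ≤ MulAction.stabilizer SL(2, ℤ) z₀ := by
    rw [Subgroup.zpowers_le]
    exact h
  have h2 : γ⁻¹ ∈ MulAction.stabilizer SL(2, ℤ) z₀ := inv_mem (h1 hγ)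
  exact h2

theorem FA_S24_IK_fix (c : K) {γ : SL(2, ℤ)} (hγ : γ ∈ FA_S24_IK c) :
    γ⁻¹ • FA_S24_pt K c = FA_S24_pt K c := by
  classical
  unfold FA_S24_IK at hγ
  unfold FA_S24_pt
  split_ifs at hγ ⊢ with h0 h1
  · exact FA_S24_zpowers_smul_fix FA_S24_ST_smul_pRho hγ
  · exact FA_S24_zpowers_smul_fix FA_S24_S_smul_pI hγ
  · rw [Subgroup.mem_bot] at hγ
    rw [hγ, inv_one, one_smul]

include ht

theorem FA_S24_g_one_sub (c : K) :
    FA_S24_g 1 - algebraMap K FA_Mero_Field c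
      = algebraMap FA_Mero_Hol FA_Mero_Field
          (FA_S24_jHol - algebraMap ℂ FA_Mero_Hol (FA_S24_j (FA_S24_pt K c))) := by
  rw [FA_S24_g_one, FA_S24_algebraMap_K_hol K ht, FA_S24_j_pt, map_sub]

theorem FA_S24_ord_g_one_sub (c : K) :
    FA_Mero_ord (FA_S24_pt K c) (FA_S24_g 1 - algebraMap K FA_Mero_Field c)
      = FA_S24_eJ (algebraMap K ℂ c) := by
  rw [FA_S24_g_one_sub K ht, FA_Mero_ord_algebraMap_hol, FA_S24_ordHol_j_sub, FA_S24_j_pt]

/-- The `val` field of the analytic package. -/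
theorem FA_S24_val (N : ℕ) (c : K) : ∃ ν : FA_Mero_Field → ℤ,
    FA_S24_IsVal K (fun e : FA_S24_E (FA_S24_rho K ht) FA_S24_g N => ν (e : FA_Mero_Field)) ∧
    0 < ν (FA_S24_g 1 - algebraMap K FA_Mero_Field c) ∧
    (∀ γ ∈ FA_S24_IK c, ∀ e ∈ FA_S24_E (FA_S24_rho K ht) FA_S24_g N,
      ν (FA_S24_rho K ht γ e) = ν e) ∧
    ν (FA_S24_g 1 - algebraMap K FA_Mero_Field c) ≤ FA_S24_eBound c := by
  have hpos : 0 < FA_Mero_ord (FA_S24_pt K c) (FA_S24_g 1 - algebraMap K FA_Mero_Field c) := by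
    rw [FA_S24_ord_g_one_sub K ht]
    exact_mod_cast FA_S24_eJ_pos _
  refine ⟨FA_Mero_ord (FA_S24_pt K c), ⟨?_, ?_, ?_, ?_⟩, hpos, ?_, ?_⟩
  · intro a b ha hb
    have ha' : (a : FA_Mero_Field) ≠ 0 := fun h => ha (Subtype.ext h)
    have hb' : (b : FA_Mero_Field) ≠ 0 := fun h => hb (Subtype.ext h)
    exact FA_Mero_ord_mul _ ha' hb'
  · intro a b ha hb hab
    have ha' : (a : FA_Mero_Field) ≠ 0 := fun h => ha (Subtype.ext h)
    have hb' : (b : FA_Mero_Field) ≠ 0 := fun h => hb (Subtype.ext h)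
    have hab' : (a : FA_Mero_Field) + (b : FA_Mero_Field) ≠ 0 := fun h => hab (Subtype.ext h)
    exact FA_Mero_ord_add _ hab' ha' hb'
  · intro c' _
    show FA_Mero_ord (FA_S24_pt K c) (algebraMap K FA_Mero_Field c') = 0
    rw [ht c', FA_Mero_ord_algebraMap]
  · refine ⟨⟨FA_S24_g 1 - algebraMap K FA_Mero_Field c, ?_⟩, ?_, ?_⟩
    · exact sub_mem (FA_S24_g_mem_E _ _ _ (one_dvd N)) (IntermediateField.algebraMap_mem _ _)
    · intro h
      have h1 := congrArg Subtype.val h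
      have h2 : FA_S24_g 1 - algebraMap K FA_Mero_Field c = 0 := h1
      rw [h2, FA_Mero_ord_zero] at hpos
      exact lt_irrefl _ hpos
    · exact hpos.ne'
  · intro γ hγ e _
    rw [FA_S24_rho_apply, FA_Mero_ord_smul, FA_S24_IK_fix K c hγ]
  · rw [FA_S24_ord_g_one_sub K ht]
    exact FA_S24_eJ_le K c

end

end Fermat.Agent.S24
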