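import Fermat.Agent.S24.DInst3
import Fermat.Agent.S24.CQ
import Fermat.Agent.S24.CEta
import Fermat.Prelude.Def_ModularCurve_X0

/-!
# S24 Layer D, instantiation 4: the ring of "nice" functions

Elements of the `K`-algebra generated by the translates of `j (d z)` are holomorphic on `ℍ`,
`N`-good at `∞` and their expansion at `∞` has coefficients in `L` (a subfield of `ℂ` containing
the image of `K` and the roots of unity).
-/

set_option autoImplicit false

noncomputable section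

open UpperHalfPlane ModularForm EisensteinSeries Complex MatrixGroups Filter
open scoped Manifold Topology

namespace Fermat.Agent.S24

open Fermat.Agent.Mero

local notation "Δ" => ModularForm.discriminant

section coeffs

variable (L : Subfield ℂ) (S : Subfield (LaurentSeries ℂ))
  (hS : ∀ x : LaurentSeries ℂ, x ∈ S ↔ ∀ i : ℤ, x.coeff i ∈ L)

include hS

theorem FA_S24_ofPS_mem (s : PowerSeries ℂ) (h : ∀ m : ℕ, PowerSeries.coeff m s ∈ L) :
    HahnSeries.ofPowerSeries ℤ ℂ s ∈ S := by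
  rw [hS]
  intro i
  rcases lt_or_ge i 0 with hi | hi
  · rw [ModularCurve.ofPowerSeries_coeff_of_neg s hi]
    exact zero_mem L
  · obtain ⟨n, rfl⟩ := Int.eq_ofNat_of_zero_le hi
    rw [HahnSeries.ofPowerSeries_apply_coeff]
    exact h n

theorem FA_S24_C_mem {c : ℂ} (hc : c ∈ L) : (HahnSeries.C c : LaurentSeries ℂ) ∈ S := by
  rw [hS]
  intro i
  rw [HahnSeries.C_apply, HahnSeries.coeff_single]
  split_ifs
  · exact hc
  · exact zero_mem L

end coeffs

theorem FA_S24_exp_root (b n δ : ℤ) (hδ : 0 < δ) :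
    Complex.exp (2 * Real.pi * Complex.I * (b : ℂ) * (n : ℂ) / (δ : ℂ)) ^ δ.toNat = 1 := by
  have hδ' : ((δ.toNat : ℕ) : ℂ) = (δ : ℂ) := by
    have : ((δ.toNat : ℕ) : ℤ) = δ := Int.toNat_of_nonneg hδ.le
    exact_mod_cast this
  have hδ0 : (δ : ℂ) ≠ 0 := by exact_mod_cast hδ.ne'
  rw [← Complex.exp_nat_mul, hδ']
  have : (δ : ℂ) * (2 * Real.pi * Complex.I * (b : ℂ) * (n : ℂ) / (δ : ℂ))
      = ((b * n : ℤ) : ℂ) * (2 * Real.pi * Complex.I) := by
    push_cast
    field_simp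
  rw [this, Complex.exp_int_mul_two_pi_mul_I]

section formAff

variable (hQE : FA_S24_Target_QE) (L : Subfield ℂ)
  (hroots : ∀ (n : ℕ) (z : ℂ), 0 < n → z ^ n = 1 → z ∈ L)
variable {wt : ℤ} {F : Type*} [FunLike F ℍ ℂ] [instMF : ModularFormClass F 𝒮ℒ wt] (f : F)
variable (N : ℕ) [NeZero N] (a b δ : ℤ) (ha : 0 < a) (hδ : 0 < δ) (k : ℕ)
  (hk : (k : ℤ) * δ = a * N)

include hroots instMF in
theorem FA_S24_qN_formAff_coeff_mem (hf : ∀ m : ℕ, (qExpansion (1 : ℝ) f).coeff m ∈ L) (m : ℕ) :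
    PowerSeries.coeff m (FA_S24_qN N (FA_S24_formAff hQE f N a b δ ha hδ k hk)) ∈ L := by
  rw [FA_S24_qN_formAff_coeff]
  split_ifs
  · refine mul_mem (hf _) ?_
    have h1 := FA_S24_exp_root b ((m / k : ℕ) : ℤ) δ hδ
    have h2 : 0 < δ.toNat := by omega
    exact hroots δ.toNat _ h2 (by exact_mod_cast h1)
  · exact zero_mem L

end formAff

theorem FA_S24_qExp_E4_mem (L : Subfield ℂ) (m : ℕ) : (qExpansion (1 : ℝ) E₄).coeff m ∈ L := by
  rw [FA_S24_qExpansion_E4_coeff]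
  exact intCast_mem L _

theorem FA_S24_qExp_disc_mem (L : Subfield ℂ) (m : ℕ) :
    (qExpansion (1 : ℝ) CuspForm.discriminant).coeff m ∈ L := by
  have h : qExpansion (1 : ℝ) (CuspForm.discriminant : ℍ → ℂ)
      = PowerSeries.map (Int.castRingHom ℂ) (PowerSeries.X * ModularCurve.etaProd ^ 24) :=
    FA_S24_qExpansion_disc
  rw [h, PowerSeries.coeff_map]
  exact intCast_mem L _

section jaffM

variable (hQE : FA_S24_Target_QE) (L : Subfield ℂ)
  (hroots : ∀ (n : ℕ) (z : ℂ), 0 < n → z ^ n = 1 → z ∈ L)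
  (S : Subfield (LaurentSeries ℂ))
  (hS : ∀ x : LaurentSeries ℂ, x ∈ S ↔ ∀ i : ℤ, x.coeff i ∈ L)
variable (N : ℕ) [NeZero N] (a b δ : ℤ) (ha : 0 < a) (hδ : 0 < δ) (k : ℕ)
  (hk : (k : ℤ) * δ = a * N)

include hQE hroots hS hk in
theorem FA_S24_Qinf_jaffM_mem : FA_S24_Qinf N (FA_S24_jaffM a b δ ha hδ) ∈ S := by
  rw [FA_S24_Qinf_jaffM hQE N a b δ ha hδ k hk]
  refine mul_mem (pow_mem (FA_S24_ofPS_mem L S hS _ ?_) 3) (inv_mem (FA_S24_ofPS_mem L S hS _ ?_))
  · exact FA_S24_qN_formAff_coeff_mem hQE L hroots E₄ N a b δ ha hδ k hk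
      (FA_S24_qExp_E4_mem L)
  · exact FA_S24_qN_formAff_coeff_mem hQE L hroots CuspForm.discriminant N a b δ ha hδ k hk
      (FA_S24_qExp_disc_mem L)

end jaffM

section nice

variable (N : ℕ) [NeZero N] (S : Subfield (LaurentSeries ℂ))

/-- The ring of nice functions: holomorphic on `ℍ`, good at `∞`, expansion in `S`. -/
def FA_S24_nice : Subring FA_Mero_Field where
  carrier := {x | x ∈ (algebraMap FA_Mero_Hol FA_Mero_Field).range ∧ x ∈ FA_S24_good N ∧
    FA_S24_Qinf N x ∈ S}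
  mul_mem' := by
    rintro x y ⟨hx1, hx2, hx3⟩ ⟨hy1, hy2, hy3⟩
    refine ⟨mul_mem hx1 hy1, mul_mem hx2 hy2, ?_⟩
    rw [FA_S24_Qinf_mul hx2 hy2]
    exact mul_mem hx3 hy3
  one_mem' := by
    refine ⟨one_mem _, one_mem _, ?_⟩
    have := FA_S24_Qinf_const (N := N) 1
    rw [map_one, map_one] at this
    rw [this]
    exact one_mem S
  add_mem' := by
    rintro x y ⟨hx1, hx2, hx3⟩ ⟨hy1, hy2, hy3⟩
    refine ⟨add_mem hx1 hy1, add_mem hx2 hy2, ?_⟩
    rw [FA_S24_Qinf_add hx2 hy2]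
    exact add_mem hx3 hy3
  zero_mem' := by
    refine ⟨zero_mem _, zero_mem _, ?_⟩
    have := FA_S24_Qinf_const (N := N) 0
    rw [map_zero, map_zero] at this
    rw [this]
    exact zero_mem S
  neg_mem' := by
    rintro x ⟨hx1, hx2, hx3⟩
    refine ⟨neg_mem hx1, neg_mem hx2, ?_⟩
    have h1 : FA_S24_Qinf N (-x) + FA_S24_Qinf N x = 0 := by
      rw [← FA_S24_Qinf_add (neg_mem hx2) hx2, neg_add_cancel]
      have := FA_S24_Qinf_const (N := N) 0
      rw [map_zero, map_zero] at this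
      exact this
    rw [eq_neg_of_add_eq_zero_left h1]
    exact neg_mem hx3

theorem FA_S24_mem_nice {x : FA_Mero_Field} :
    x ∈ FA_S24_nice N S ↔ x ∈ (algebraMap FA_Mero_Hol FA_Mero_Field).range ∧
      x ∈ FA_S24_good N ∧ FA_S24_Qinf N x ∈ S := Iff.rfl

end nice

section adjoin

variable (hUT : FA_S24_Target_UT) (hQE : FA_S24_Target_QE)
variable (K : Type) [Field K] [Algebra K ℂ] [Algebra K FA_Mero_Field] (ht : FA_S24_Tower K)
variable (N : ℕ) [NeZero N]
variable (L : Subfield ℂ) (hroots : ∀ (n : ℕ) (z : ℂ), 0 < n → z ^ n = 1 → z ∈ L)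
  (hKL : ∀ c : K, algebraMap K ℂ c ∈ L)
  (S : Subfield (LaurentSeries ℂ))
  (hS : ∀ x : LaurentSeries ℂ, x ∈ S ↔ ∀ i : ℤ, x.coeff i ∈ L)

include hUT hQE hroots hS in
theorem FA_S24_gens_mem_nice {x : FA_Mero_Field}
    (hx : x ∈ FA_S24_gens (FA_S24_rho K ht) FA_S24_g N) : x ∈ FA_S24_nice N S := by
  obtain ⟨a, b, δ, ha, hδ, k, hk, rfl⟩ := FA_S24_gens_eq hUT K ht N hx
  exact ⟨⟨_, rfl⟩, FA_S24_jaffM_mem_good hQE N a b δ ha hδ k hk,
    FA_S24_Qinf_jaffM_mem hQE L hroots S hS N a b δ ha hδ k hk⟩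

include ht hKL hS in
theorem FA_S24_constK_mem_nice (c : K) : algebraMap K FA_Mero_Field c ∈ FA_S24_nice N S := by
  refine ⟨⟨algebraMap ℂ FA_Mero_Hol (algebraMap K ℂ c), (FA_S24_algebraMap_K_hol K ht c).symm⟩,
    FA_S24_constK_mem_good K ht N c, ?_⟩
  rw [ht c, FA_S24_Qinf_const]
  exact FA_S24_C_mem L S hS (hKL c)

include hUT hQE hroots hS hKL in
theorem FA_S24_adjoin_le_nice {x : FA_Mero_Field}
    (hx : x ∈ Algebra.adjoin K (FA_S24_gens (FA_S24_rho K ht) FA_S24_g N)) :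
    x ∈ FA_S24_nice N S := by
  induction hx using Algebra.adjoin_induction with
  | mem x hx => exact FA_S24_gens_mem_nice hUT hQE K ht N L hroots S hS hx
  | algebraMap c => exact FA_S24_constK_mem_nice K ht N L hKL S hS c
  | add x y _ _ hx hy => exact add_mem hx hy
  | mul x y _ _ hx hy => exact mul_mem hx hy

end adjoin

end Fermat.Agent.S24
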