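import Fermat.Agent.S24.DInst4

/-!
# S24 Layer D, instantiation 5: invariant nice functions are polynomials in `j` (`invariants`)
-/

set_option autoImplicit false

noncomputable section

open UpperHalfPlane ModularForm EisensteinSeries Complex MatrixGroups Filter
open scoped Manifold Topology

namespace Fermat.Agent.S24

open Fermat.Agent.Mero

local notation "Δ" => ModularForm.discriminant

section generic

variable {K M : Type} [Field K] [Field M] [Algebra K M]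
variable (ρ : SL(2, ℤ) →* (M ≃ₐ[K] M)) (g : ℕ → M) (N : ℕ)

theorem FA_S24_Gamma_fix_gens
    (hg : ∀ d : ℕ, d ∣ N → ∀ γ ∈ CongruenceSubgroup.Gamma0 d, ρ γ (g d) = g d)
    {γ₀ : SL(2, ℤ)} (hγ₀ : γ₀ ∈ CongruenceSubgroup.Gamma N) {s : M}
    (hs : s ∈ FA_S24_gens ρ g N) : ρ γ₀ s = s := by
  obtain ⟨d, γ, hd, rfl⟩ := hs
  have h1 : γ⁻¹ * γ₀ * γ ∈ CongruenceSubgroup.Gamma N := by
    have := (CongruenceSubgroup.Gamma_normal N).conj_mem γ₀ hγ₀ γ⁻¹
    simpa using this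
  have h2 : γ⁻¹ * γ₀ * γ ∈ CongruenceSubgroup.Gamma0 d :=
    FA_S24_Gamma0_le hd (FA_S24_Gamma_le_Gamma0 N h1)
  have h3 := hg d hd _ h2
  have h4 : γ₀ * γ = γ * (γ⁻¹ * γ₀ * γ) := by group
  rw [← AlgEquiv.mul_apply, ← map_mul, h4, map_mul, AlgEquiv.mul_apply, h3]

theorem FA_S24_exists_finset [NeZero N]
    (hg : ∀ d : ℕ, d ∣ N → ∀ γ ∈ CongruenceSubgroup.Gamma0 d, ρ γ (g d) = g d) :
    ∃ T : Finset SL(2, ℤ), ∀ γ : SL(2, ℤ), ∃ t ∈ T, ∀ s ∈ FA_S24_gens ρ g N, ρ γ s = ρ t s := by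
  classical
  have hfin : Finite (SL(2, ℤ) ⧸ CongruenceSubgroup.Gamma N) :=
    Subgroup.finite_quotient_of_finiteIndex
  let _ : Fintype (SL(2, ℤ) ⧸ CongruenceSubgroup.Gamma N) := Fintype.ofFinite _
  refine ⟨Finset.univ.image (fun q : SL(2, ℤ) ⧸ CongruenceSubgroup.Gamma N => q.out), ?_⟩
  intro γ
  refine ⟨(QuotientGroup.mk γ : SL(2, ℤ) ⧸ CongruenceSubgroup.Gamma N).out,
    Finset.mem_image_of_mem _ (Finset.mem_univ _), ?_⟩
  intro s hs
  set t := (QuotientGroup.mk γ : SL(2, ℤ) ⧸ CongruenceSubgroup.Gamma N).out with ht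
  have h1 : (QuotientGroup.mk t : SL(2, ℤ) ⧸ CongruenceSubgroup.Gamma N) = QuotientGroup.mk γ :=
    QuotientGroup.out_eq' _
  have h2 : t⁻¹ * γ ∈ CongruenceSubgroup.Gamma N := QuotientGroup.eq.mp h1
  have h3 := FA_S24_Gamma_fix_gens ρ g N hg h2 hs
  have h4 : γ = t * (t⁻¹ * γ) := by group
  rw [h4, map_mul, AlgEquiv.mul_apply, h3]

end generic

section QA

variable (N : ℕ) [NeZero N]

theorem FA_S24_Qinf_one : FA_S24_Qinf N 1 = 1 := by
  have := FA_S24_Qinf_const (N := N) 1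
  rwa [map_one, map_one] at this

theorem FA_S24_Qinf_pow {x : FA_Mero_Field} (hx : x ∈ FA_S24_good N) (n : ℕ) :
    FA_S24_Qinf N (x ^ n) = FA_S24_Qinf N x ^ n := by
  induction n with
  | zero => rw [pow_zero, pow_zero, FA_S24_Qinf_one]
  | succ n ih => rw [pow_succ, pow_succ, FA_S24_Qinf_mul (pow_mem hx n) hx, ih]

/-- Expansion at `∞` of a polynomial in a good function. -/
theorem FA_S24_Qinf_aeval {x : FA_Mero_Field} (hx : x ∈ FA_S24_good N) (P : Polynomial ℂ) :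
    Polynomial.aeval x P ∈ FA_S24_good N ∧
      FA_S24_Qinf N (Polynomial.aeval x P) = Polynomial.aeval (FA_S24_Qinf N x) P := by
  induction P using Polynomial.induction_on' with
  | add p q hp hq =>
      rw [map_add, map_add]
      exact ⟨add_mem hp.1 hq.1, by rw [FA_S24_Qinf_add hp.1 hq.1, hp.2, hq.2]⟩
  | monomial n c =>
      rw [Polynomial.aeval_monomial, Polynomial.aeval_monomial]
      refine ⟨mul_mem (FA_S24_const_mem_good c) (pow_mem hx n), ?_⟩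
      rw [FA_S24_Qinf_mul (FA_S24_const_mem_good c) (pow_mem hx n), FA_S24_Qinf_const,
        FA_S24_Qinf_pow N hx, ModularCurve.algebraMap_laurentSeries_eq_single]
      rfl

end QA

section ML

variable (hQE : FA_S24_Target_QE) (hBDD : FA_S24_Target_BDD) (hHOL : FA_S24_Target_HOL)
  (hRAT : FA_S24_Target_RAT)
variable (N : ℕ) [NeZero N]
variable (L : Subfield ℂ) (S : Subfield (LaurentSeries ℂ))
  (hS : ∀ x : LaurentSeries ℂ, x ∈ S ↔ ∀ i : ℤ, x.coeff i ∈ L)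

theorem FA_S24_DN_aux : 0 < ((1 : ℕ) : ℤ) := by norm_num

/-- `Δ` as an element of `𝓗⁺_N`. -/
def FA_S24_DN : FA_S24_HolPlus N :=
  FA_S24_Daff hQE N ((1 : ℕ) : ℤ) 0 1 FA_S24_DN_aux one_pos N (by push_cast; ring)

theorem FA_S24_DN_apply (z : ℍ) : ((FA_S24_DN hQE N : FA_S24_HolPlus N) : ℍ → ℂ) z = Δ z := by
  unfold FA_S24_DN
  rw [FA_S24_Daff_apply, FA_S24_aff_one]

theorem FA_S24_DN_order : (FA_S24_qN N (FA_S24_DN hQE N)).order = (N : ℕ∞) := by
  unfold FA_S24_DN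
  exact PowerSeries.order_eq_nat.mpr
    ⟨FA_S24_qN_Daff_coeff_k hQE N _ 0 1 FA_S24_DN_aux one_pos N (by push_cast; ring),
      fun m hm => FA_S24_qN_Daff_coeff_lt hQE N _ 0 1 FA_S24_DN_aux one_pos N
        (by push_cast; ring) hm⟩

include hQE hBDD hHOL in
/-- A holomorphic, `SL(2, ℤ)`-invariant function which is `N`-good at `∞` is a polynomial
in `j`. -/
theorem FA_S24_invariant_eq_poly (h : FA_Mero_Hol)
    (hgood : algebraMap FA_Mero_Hol FA_Mero_Field h ∈ FA_S24_good N)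
    (hinv : ∀ γ : SL(2, ℤ), γ • algebraMap FA_Mero_Hol FA_Mero_Field h
      = algebraMap FA_Mero_Hol FA_Mero_Field h) :
    ∃ P : Polynomial ℂ, h = Polynomial.aeval FA_S24_jHol P := by
  -- invariance, pointwise
  have hinv' : ∀ (γ : SL(2, ℤ)) (z : ℍ), (h : ℍ → ℂ) (γ • z) = (h : ℍ → ℂ) z := by
    intro γ z
    have h1 := hinv γ⁻¹
    rw [FA_Mero_smul_algebraMap] at h1
    have h2 := FA_Mero_algebraMap_injective h1
    have h3 := congrArg (fun f : FA_Mero_Hol => (f : ℍ → ℂ) z) h2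
    simp only [FA_Mero_Hol_smul_apply, inv_inv] at h3
    exact h3
  -- write `h = a / b`
  obtain ⟨y, hy⟩ := hgood
  obtain ⟨a, b, hb, rfl⟩ := IsFractionRing.div_surjective (A := FA_S24_HolPlus N) y
  have hb0 : b ≠ 0 := nonZeroDivisors.ne_zero hb
  have hb0' : algebraMap FA_Mero_Hol FA_Mero_Field (FA_S24_toHol N b) ≠ 0 := by
    intro hcon
    have h1 := FA_Mero_algebraMap_injective (hcon.trans (map_zero _).symm)
    exact hb0 (FA_S24_toHol_injective (h1.trans (map_zero _).symm))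
  rw [map_div₀, FA_S24_kappa_algebraMap, FA_S24_kappa_algebraMap, div_eq_iff hb0',
    ← map_mul] at hy
  have hy' : FA_S24_toHol N a = h * FA_S24_toHol N b := FA_Mero_algebraMap_injective hy
  have hpt : ∀ z : ℍ, (h : ℍ → ℂ) z * (b : ℍ → ℂ) z = (a : ℍ → ℂ) z := by
    intro z
    have := congrArg (fun f : FA_Mero_Hol => (f : ℍ → ℂ) z) hy'
    exact this.symm
  -- the exponent
  have hqb : FA_S24_qN N b ≠ 0 := fun hcon =>
    hb0 (FA_S24_qN_injective (hcon.trans (map_zero _).symm))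
  set m : ℕ := (FA_S24_qN N b).order.toNat with hm
  have hmb : ((m : ℕ) : ℕ∞) = (FA_S24_qN N b).order := PowerSeries.coe_toNat_order hqb
  have hord : (FA_S24_qN N b).order ≤ (FA_S24_qN N (FA_S24_DN hQE N ^ m * a)).order := by
    rw [map_mul, map_pow, PowerSeries.order_mul, PowerSeries.order_pow, FA_S24_DN_order, ← hmb]
    have hN1 : (1 : ℕ∞) ≤ (N : ℕ∞) := by
      exact_mod_cast Nat.pos_of_ne_zero (NeZero.ne N)
    calc ((m : ℕ) : ℕ∞) = m • (1 : ℕ∞) := by simp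
      _ ≤ m • (N : ℕ∞) := nsmul_le_nsmul_right hN1 m
      _ ≤ m • (N : ℕ∞) + (FA_S24_qN N a).order := le_self_add
  have hbdd : IsBoundedAtImInfty (fun z : ℍ => Δ z ^ m * (h : ℍ → ℂ) z) := by
    refine hBDD N (FA_S24_DN hQE N ^ m * a) b _ hb0 ?_ hord
    intro z
    show Δ z ^ m * (h : ℍ → ℂ) z * (b : ℍ → ℂ) z
      = ((FA_S24_DN hQE N : FA_S24_HolPlus N) : ℍ → ℂ) z ^ m * (a : ℍ → ℂ) z
    rw [FA_S24_DN_apply, mul_assoc, hpt z]
  obtain ⟨P, -, hP⟩ := hHOL (h : ℍ → ℂ) m h.2 hinv' hbdd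
  refine ⟨P, ?_⟩
  apply Subtype.ext
  funext z
  rw [hP z, FA_S24_aeval_jHol_apply]

include hQE hBDD hHOL hRAT hS in
/-- **Main lemma**: an invariant nice function is a polynomial in `j` with coefficients
in `L`. -/
theorem FA_S24_invariant_nice (hJ : FA_S24_Qinf N (FA_S24_g 1) ∈ S) {X : FA_Mero_Field}
    (hX : X ∈ FA_S24_nice N S) (hinv : ∀ γ : SL(2, ℤ), γ • X = X) :
    ∃ P : Polynomial ℂ, (∀ i : ℕ, P.coeff i ∈ L) ∧
      X = algebraMap FA_Mero_Hol FA_Mero_Field (Polynomial.aeval FA_S24_jHol P) := by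
  obtain ⟨⟨h, rfl⟩, hgood, hcoef⟩ := hX
  obtain ⟨P, hP⟩ := FA_S24_invariant_eq_poly hQE hBDD hHOL N h hgood hinv
  refine ⟨P, ?_, by rw [hP]⟩
  have hg1good : FA_S24_g 1 ∈ FA_S24_good N := by
    have h1 : 0 < ((1 : ℕ) : ℤ) := by norm_num
    rw [FA_S24_g_eq h1]
    exact FA_S24_jaffM_mem_good hQE N _ 0 1 h1 one_pos N (by push_cast; ring)
  have hQ := (FA_S24_Qinf_aeval N hg1good P).2
  have hX' : algebraMap FA_Mero_Hol FA_Mero_Field h = Polynomial.aeval (FA_S24_g 1) P := by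
    rw [hP, FA_S24_g_one, Polynomial.aeval_algebraMap_apply]
  rw [← hX'] at hQ
  refine hRAT L (FA_S24_Qinf N (FA_S24_g 1)) P ?_ ((hS _).mp hJ) ?_
  · rw [FA_S24_order_Qinf_g_one hQE N]
    have : (0 : ℤ) < N := by exact_mod_cast Nat.pos_of_ne_zero (NeZero.ne N)
    omega
  · rw [← hQ]
    exact (hS _).mp hcoef

end ML

section invariants

variable (hUT : FA_S24_Target_UT) (hQE : FA_S24_Target_QE) (hBDD : FA_S24_Target_BDD)
  (hHOL : FA_S24_Target_HOL) (hRAT : FA_S24_Target_RAT) (hNORM : FA_S24_Target_NORM)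
variable (K : Type) [Field K] [Algebra K ℂ] [Algebra K FA_Mero_Field] (ht : FA_S24_Tower K)
variable (N : ℕ) [NeZero N]

include hUT hQE hBDD hHOL hRAT hNORM in
/-- The `invariants` field of the analytic package. -/
theorem FA_S24_invariants
    (hg : ∀ d : ℕ, d ∣ N → ∀ γ ∈ CongruenceSubgroup.Gamma0 d,
      FA_S24_rho K ht γ (FA_S24_g d) = FA_S24_g d)
    (hroots : ∀ (n : ℕ) (z : ℂ), 0 < n → z ^ n = 1 → z ∈ (algebraMap K ℂ).fieldRange)
    (S : Subfield (LaurentSeries ℂ))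
    (hS : ∀ x : LaurentSeries ℂ, x ∈ S ↔ ∀ i : ℤ, x.coeff i ∈ (algebraMap K ℂ).fieldRange) :
    ∀ e ∈ FA_S24_E (FA_S24_rho K ht) FA_S24_g N,
      (∀ γ : SL(2, ℤ), FA_S24_rho K ht γ e = e) →
      e ∈ IntermediateField.adjoin K {FA_S24_g 1} := by
  intro e he hinv
  obtain ⟨A, B, hA, hB, hB0, hAinv, hBinv, hAB⟩ :=
    hNORM K FA_Mero_Field SL(2, ℤ) (FA_S24_rho K ht)
      (FA_S24_gens (FA_S24_rho K ht) FA_S24_g N)
      (fun γ s hs => FA_S24_map_gens _ _ _ γ ⟨s, hs, rfl⟩)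
      (FA_S24_exists_finset _ _ N hg) e he hinv
  have hKL : ∀ c : K, algebraMap K ℂ c ∈ (algebraMap K ℂ).fieldRange := fun c => ⟨c, rfl⟩
  have hJ : FA_S24_Qinf N (FA_S24_g 1) ∈ S := by
    have h1 : FA_S24_g 1 ∈ FA_S24_gens (FA_S24_rho K ht) FA_S24_g N :=
      ⟨1, 1, one_dvd N, by simp⟩
    exact (FA_S24_gens_mem_nice hUT hQE K ht N _ hroots S hS h1).2.2
  have key : ∀ X ∈ Algebra.adjoin K (FA_S24_gens (FA_S24_rho K ht) FA_S24_g N),
      (∀ γ : SL(2, ℤ), FA_S24_rho K ht γ X = X) →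
      X ∈ IntermediateField.adjoin K {FA_S24_g 1} := by
    intro X hX hXinv
    have hXn := FA_S24_adjoin_le_nice hUT hQE K ht N _ hroots hKL S hS hX
    obtain ⟨P, hPL, hP⟩ := FA_S24_invariant_nice hQE hBDD hHOL hRAT N _ S hS hJ hXn hXinv
    have hP' : P ∈ (Polynomial.mapRingHom (algebraMap K ℂ)).range :=
      (Polynomial.mem_map_range (algebraMap K ℂ)).mpr hPL
    obtain ⟨P₀, hP₀⟩ := hP'
    rw [Polynomial.coe_mapRingHom] at hP₀
    rw [hP, ← hP₀, ← FA_S24_aeval_g_one K ht]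
    have h2 : Polynomial.aeval (FA_S24_g 1) P₀ ∈ Algebra.adjoin K {FA_S24_g 1} :=
      Polynomial.aeval_mem_adjoin_singleton K _
    exact IntermediateField.algebra_adjoin_le_adjoin K _ h2
  have hAm := key A hA hAinv
  have hBm := key B hB hBinv
  have : e = A * B⁻¹ := by
    rw [← hAB, mul_assoc, mul_inv_cancel₀ hB0, mul_one]
  rw [this]
  exact mul_mem hAm (inv_mem hBm)

end invariants

end Fermat.Agent.S24
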