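import Fermat.Agent.S24.DInst5
import Fermat.Agent.S24.DInterface3

/-!
# S24 Layer D, instantiation 6: the key identity for the expansions, the transfer, the model
-/

set_option autoImplicit false

noncomputable section

open UpperHalfPlane ModularForm EisensteinSeries Complex MatrixGroups Filter
open scoped Manifold Topology

namespace Fermat.Agent.S24

open Fermat.Agent.Mero

local notation "Δ" => ModularForm.discriminant

theorem FA_S24_coeffMap_qExpand {R S : Type*} [CommRing R] [CommRing S] (f : R →+* S) (n : ℕ)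
    [NeZero n] (x : LaurentSeries R) :
    ModularCurve.coeffMap f (ModularCurve.qExpand R n x)
      = ModularCurve.qExpand S n (ModularCurve.coeffMap f x) := by
  ext k
  by_cases hk : (n : ℤ) ∣ k
  · obtain ⟨m, rfl⟩ := hk
    rw [ModularCurve.coeffMap_coeff, ModularCurve.qExpand_coeff_mul,
      ModularCurve.qExpand_coeff_mul, ModularCurve.coeffMap_coeff]
  · rw [ModularCurve.coeffMap_coeff, ModularCurve.qExpand_coeff_of_not_dvd n _ hk,
      ModularCurve.qExpand_coeff_of_not_dvd n _ hk, map_zero]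

section KI

variable (hQE : FA_S24_Target_QE) (hQX : FA_S24_Target_QX) (hJQ : FA_S24_Target_JQ)
variable (N : ℕ) [NeZero N]

include hQX in
theorem FA_S24_ofPS_qN_formAff {wt : ℤ} {F : Type*} [FunLike F ℍ ℂ]
    [ModularFormClass F 𝒮ℒ wt] (f : F) (d : ℕ) [NeZero d] (hd : 0 < (d : ℤ))
    (hk : (((d * N : ℕ) : ℕ) : ℤ) * 1 = (d : ℤ) * N) :
    HahnSeries.ofPowerSeries ℤ ℂ
        (FA_S24_qN N (FA_S24_formAff hQE f N (d : ℤ) 0 1 hd one_pos (d * N) hk))
      = ModularCurve.qExpand ℂ (d * N) (HahnSeries.ofPowerSeries ℤ ℂ (qExpansion (1 : ℝ) f)) := by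
  apply hQX
  intro m
  rw [FA_S24_qN_formAff_coeff]
  split_ifs
  · simp
  · rfl

/-- The formal `j` over `ℂ`. -/
def FA_S24_jqC : LaurentSeries ℂ := ModularCurve.coeffMap (algebraMap ℚ ℂ) ModularCurve.jq

include hJQ in
theorem FA_S24_jqC_eq :
    HahnSeries.ofPowerSeries ℤ ℂ (qExpansion (1 : ℝ) E₄) ^ 3
      * (HahnSeries.ofPowerSeries ℤ ℂ (qExpansion (1 : ℝ) CuspForm.discriminant))⁻¹
      = FA_S24_jqC := by
  have h1 : qExpansion (1 : ℝ) (CuspForm.discriminant : ℍ → ℂ)
      = PowerSeries.map (Int.castRingHom ℂ) (PowerSeries.X * ModularCurve.etaProd ^ 24) :=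
    FA_S24_qExpansion_disc
  have h0 : HahnSeries.ofPowerSeries ℤ ℂ (qExpansion (1 : ℝ) CuspForm.discriminant) ≠ 0 := by
    intro h
    have h2 := HahnSeries.ofPowerSeries_injective (h.trans (map_zero _).symm)
    have h3 : (qExpansion (1 : ℝ) CuspForm.discriminant).coeff 1 = 1 :=
      discriminant_qExpansion_coeff_one
    rw [h2] at h3
    simp at h3
  rw [FA_S24_qExpansion_E4, h1, ← hJQ, mul_assoc, mul_inv_cancel₀ (by rw [← h1]; exact h0),
    mul_one]
  rfl

include hQE hQX hJQ in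
/-- **Key identity**: the expansion at `∞` of `j (d z)` is the prelude's `j(q^d)`. -/
theorem FA_S24_Qinf_g (d : ℕ) [NeZero d] :
    FA_S24_Qinf N (FA_S24_g d) = ModularCurve.qExpand ℂ (d * N) FA_S24_jqC := by
  have hd : 0 < (d : ℤ) := by exact_mod_cast Nat.pos_of_ne_zero (NeZero.ne d)
  have hk : (((d * N : ℕ) : ℕ) : ℤ) * 1 = (d : ℤ) * N := by push_cast; ring
  rw [FA_S24_g_eq hd, FA_S24_Qinf_jaffM hQE N (d : ℤ) 0 1 hd one_pos (d * N) hk]
  unfold FA_S24_E4aff FA_S24_Daff
  rw [FA_S24_ofPS_qN_formAff hQE hQX N E₄ d hd hk,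
    FA_S24_ofPS_qN_formAff hQE hQX N CuspForm.discriminant d hd hk, ← map_pow, ← map_inv₀,
    ← map_mul, FA_S24_jqC_eq hJQ]

end KI

section transfer

variable (K : Type) [Field K] [Algebra ℚ K] [Algebra K ℂ] [Algebra K FA_Mero_Field]
  (ht : FA_S24_Tower K)
variable (N : ℕ) [NeZero N]

/-- The comparison map `K((q)) → ℂ((q_N))`. -/
def FA_S24_Lam : LaurentSeries K →+* LaurentSeries ℂ :=
  (ModularCurve.qExpand ℂ N).comp (ModularCurve.coeffMap (algebraMap K ℂ))

omit [Algebra ℚ K] [Algebra K FA_Mero_Field] in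
theorem FA_S24_Lam_const (c : K) :
    FA_S24_Lam K N (algebraMap K (LaurentSeries K) c) = HahnSeries.C (algebraMap K ℂ c) := by
  unfold FA_S24_Lam
  rw [RingHom.comp_apply, ModularCurve.algebraMap_laurentSeries_eq_single,
    ModularCurve.coeffMap_single, ModularCurve.qExpand_single, mul_zero]
  rfl

omit [Algebra K FA_Mero_Field] in
theorem FA_S24_Lam_gen (d : ℕ) [NeZero d] :
    FA_S24_Lam K N (ModularCurve.coeffEmb K (ModularCurve.qExpand ℚ d ModularCurve.jq))
      = ModularCurve.qExpand ℂ (d * N) FA_S24_jqC := by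
  unfold FA_S24_Lam ModularCurve.coeffEmb FA_S24_jqC
  rw [RingHom.comp_apply, ModularCurve.coeffMap_coeffMap,
    ModularCurve.coeffMap_congr (g := algebraMap ℚ ℂ) (Subsingleton.elim _ _),
    FA_S24_coeffMap_qExpand, ModularCurve.qExpand_qExpand]
  exact ModularCurve.qExpand_congr (mul_comm N d) _

theorem FA_S24_transport {K' B M' : Type} [Field K'] [Field B] [Field M'] [Algebra K' B]
    [Algebra K' M'] {F1 F2 : IntermediateField K' B} (h : F1 = F2) (τ : F2 →ₐ[K'] M') :
    ∃ τ' : F1 →ₐ[K'] M', Set.range τ' = Set.range τ := by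
  subst h
  exact ⟨τ, rfl⟩

end transfer

end Fermat.Agent.S24
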