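import Fermat.Agent.S24.DInst6

/-!
# S24 Layer D: the analytic package and the model, from the leaves
-/

set_option autoImplicit false

noncomputable section

open UpperHalfPlane ModularForm EisensteinSeries Complex MatrixGroups Filter
open scoped Manifold Topology

namespace Fermat.Agent.S24

open Fermat.Agent.Mero

theorem FA_S24_roots_mem (K : Type) [Field K] [IsAlgClosed K] [Algebra K ℂ] (n : ℕ) (z : ℂ)
    (hn : 0 < n) (hz : z ^ n = 1) : z ∈ (algebraMap K ℂ).fieldRange := by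
  have hsp : (Polynomial.X ^ n - 1 : Polynomial K).Splits := IsAlgClosed.splits _
  have h0 : (Polynomial.X ^ n - 1 : Polynomial K) ≠ 0 := Polynomial.X_pow_sub_C_ne_zero hn 1
  have hroot : ((Polynomial.X ^ n - 1 : Polynomial K).map (algebraMap K ℂ)).IsRoot z := by
    rw [Polynomial.IsRoot.def]
    simp [hz]
  exact hsp.mem_range_of_isRoot h0 hroot

theorem FA_S24_neZero_of_dvd {d N : ℕ} [NeZero N] (h : d ∣ N) : NeZero d :=
  ⟨fun h0 => NeZero.ne N (by rw [h0] at h; exact Nat.eq_zero_of_zero_dvd h)⟩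

section props

variable (hUT : FA_S24_Target_UT) (hUT0 : FA_S24_Target_UT0) (hQE : FA_S24_Target_QE)
  (hTW : FA_S24_Target_TW) (hBDD : FA_S24_Target_BDD) (hHOL : FA_S24_Target_HOL)
  (hRAT : FA_S24_Target_RAT) (hNORM : FA_S24_Target_NORM) (hCOEF : FA_S24_Target_COEF)
variable (K : Type) [Field K] [Algebra K ℂ] [Algebra K FA_Mero_Field] (ht : FA_S24_Tower K)
variable (N : ℕ) [NeZero N]

include hUT0 in
theorem FA_S24_g_inv (d : ℕ) (hd : d ∣ N) (γ : SL(2, ℤ))
    (hγ : γ ∈ CongruenceSubgroup.Gamma0 d) :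
    FA_S24_rho K ht γ (FA_S24_g d) = FA_S24_g d := by
  have hd0 : 0 < (d : ℤ) := by
    have := (FA_S24_neZero_of_dvd hd).out
    exact_mod_cast Nat.pos_of_ne_zero this
  rw [FA_S24_rho_apply]
  exact FA_S24_g_inv_aux hUT0 d hd0 γ hγ

include hUT hUT0 hQE hTW hBDD hHOL hRAT hNORM hCOEF in
/-- **The analytic package** for the field of meromorphic functions on `ℍ`. -/
theorem FA_S24_props
    (hroots : ∀ (n : ℕ) (z : ℂ), 0 < n → z ^ n = 1 → z ∈ (algebraMap K ℂ).fieldRange) :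
    FA_S24_Props (FA_S24_rho K ht) FA_S24_g N := by
  obtain ⟨S, hS⟩ := hCOEF (algebraMap K ℂ).fieldRange
  exact
    { g_inv := fun d hd γ hγ => FA_S24_g_inv hUT0 K ht N d hd γ hγ
      stab := fun γ h => FA_S24_stab_aux hUT hQE N γ h
      transc := FA_S24_transc K ht
      invariants := FA_S24_invariants hUT hQE hBDD hHOL hRAT hNORM K ht N
        (fun d hd γ hγ => FA_S24_g_inv hUT0 K ht N d hd γ hγ) hroots S hS
      val := fun c => FA_S24_val K ht N c
      valInf := FA_S24_valInf hUT hQE K ht N hTW }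

end props

section transfer

variable (hQE : FA_S24_Target_QE) (hQX : FA_S24_Target_QX) (hJQ : FA_S24_Target_JQ)
  (hTR : FA_S24_Target_TR)
variable (K : Type) [Field K] [Algebra ℚ K] [Algebra K ℂ] [Algebra K FA_Mero_Field]
  (ht : FA_S24_Tower K)
variable (N : ℕ) [NeZero N]

/-- The formal generators. -/
def FA_S24_sGen (i : {d : ℕ // d ∣ N}) : LaurentSeries K :=
  haveI : NeZero i.1 := FA_S24_neZero_of_dvd i.2
  ModularCurve.coeffEmb K (ModularCurve.qExpand ℚ i.1 ModularCurve.jq)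

omit [Algebra K ℂ] [Algebra K FA_Mero_Field] in
theorem FA_S24_range_sGen :
    Set.range (FA_S24_sGen K N) = {x | ∃ (d : ℕ) (_ : NeZero d), d ∣ N ∧
      x = ModularCurve.coeffEmb K (ModularCurve.qExpand ℚ d ModularCurve.jq)} := by
  ext x
  constructor
  · rintro ⟨i, rfl⟩
    exact ⟨i.1, FA_S24_neZero_of_dvd i.2, i.2, rfl⟩
  · rintro ⟨d, hd, hdN, rfl⟩
    exact ⟨⟨d, hdN⟩, rfl⟩

omit [NeZero N] in
theorem FA_S24_range_tGen :
    Set.range (fun i : {d : ℕ // d ∣ N} => FA_S24_g i.1)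
      = {x | ∃ d : ℕ, d ∣ N ∧ x = FA_S24_g d} := by
  ext x
  constructor
  · rintro ⟨i, rfl⟩
    exact ⟨i.1, i.2, rfl⟩
  · rintro ⟨d, hdN, rfl⟩
    exact ⟨⟨d, hdN⟩, rfl⟩

include hQE hQX hJQ hTR ht in
/-- The transfer: the formal field `K(j(q^d) : d ∣ N)` embeds in the meromorphic functions with
image `F₀ = K(j (d z) : d ∣ N)`. -/
theorem FA_S24_transfer :
    ∃ τ : IntermediateField.adjoin K {x : LaurentSeries K | ∃ (d : ℕ) (_ : NeZero d), d ∣ N ∧
        x = ModularCurve.coeffEmb K (ModularCurve.qExpand ℚ d ModularCurve.jq)}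
          →ₐ[K] FA_Mero_Field,
      Set.range τ = (FA_S24_F0 K FA_S24_g N : Set FA_Mero_Field) := by
  obtain ⟨τ, hτ, -⟩ := hTR K FA_Mero_Field (LaurentSeries K) (LaurentSeries ℂ) (FA_S24_Lam K N)
    (FA_S24_good N) (FA_S24_Qinf N)
    (fun x hx y hy => FA_S24_Qinf_add hx hy)
    (fun x hx y hy => FA_S24_Qinf_mul hx hy)
    (fun x hx h0 => by
      by_contra hne
      exact FA_S24_Qinf_ne_zero hx hne h0)
    (fun c => ⟨FA_S24_constK_mem_good K ht N c, by
      rw [FA_S24_Lam_const, ht c, FA_S24_Qinf_const]⟩)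
    {d : ℕ // d ∣ N} (FA_S24_sGen K N) (fun i => FA_S24_g i.1)
    (fun i => by
      have : NeZero i.1 := FA_S24_neZero_of_dvd i.2
      have hd : 0 < (i.1 : ℤ) := by exact_mod_cast Nat.pos_of_ne_zero (NeZero.ne i.1)
      refine ⟨?_, ?_⟩
      · rw [FA_S24_g_eq hd]
        exact FA_S24_jaffM_mem_good hQE N _ 0 1 hd one_pos (i.1 * N) (by push_cast; ring)
      · rw [FA_S24_Qinf_g hQE hQX hJQ N i.1]
        unfold FA_S24_sGen
        rw [FA_S24_Lam_gen])
  have h1 : IntermediateField.adjoin K {x : LaurentSeries K | ∃ (d : ℕ) (_ : NeZero d), d ∣ N ∧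
        x = ModularCurve.coeffEmb K (ModularCurve.qExpand ℚ d ModularCurve.jq)}
      = IntermediateField.adjoin K (Set.range (FA_S24_sGen K N)) := by
    rw [FA_S24_range_sGen]
  obtain ⟨τ', hτ'⟩ := FA_S24_transport h1 τ
  refine ⟨τ', ?_⟩
  rw [hτ', hτ, FA_S24_range_tGen]
  rfl

end transfer

section model

variable (hUT : FA_S24_Target_UT) (hUT0 : FA_S24_Target_UT0) (hQE : FA_S24_Target_QE)
  (hTW : FA_S24_Target_TW) (hBDD : FA_S24_Target_BDD) (hHOL : FA_S24_Target_HOL)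
  (hRAT : FA_S24_Target_RAT) (hNORM : FA_S24_Target_NORM) (hCOEF : FA_S24_Target_COEF)
  (hQX : FA_S24_Target_QX) (hJQ : FA_S24_Target_JQ) (hTR : FA_S24_Target_TR)
  (hBC : FA_S24_Target_BC)

include hUT hUT0 hQE hTW hBDD hHOL hRAT hNORM hCOEF hQX hJQ hTR hBC in
/-- **Layers C + D**: the modular model, from the leaves. -/
theorem FA_S24_Model_of : FA_S24_Target_Model := by
  rw [FA_S24_target_model_iff]
  intro N _ hN
  have halg : Algebra.IsAlgebraic ℚ (AlgebraicClosure ℚ) := AlgebraicClosure.isAlgebraic ℚ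
  let algC : Algebra (AlgebraicClosure ℚ) ℂ :=
    (IsAlgClosed.lift (R := ℚ) (S := AlgebraicClosure ℚ) (M := ℂ)).toRingHom.toAlgebra
  let algM : Algebra (AlgebraicClosure ℚ) FA_Mero_Field :=
    ((algebraMap ℂ FA_Mero_Field).comp (algebraMap (AlgebraicClosure ℚ) ℂ)).toAlgebra
  have ht : FA_S24_Tower (AlgebraicClosure ℚ) := fun c => rfl
  have hP := FA_S24_props hUT hUT0 hQE hTW hBDD hHOL hRAT hNORM hCOEF (AlgebraicClosure ℚ) ht N
    (FA_S24_roots_mem (AlgebraicClosure ℚ))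
  obtain ⟨τ, hτ⟩ := FA_S24_transfer hQE hQX hJQ hTR (AlgebraicClosure ℚ) ht N
  obtain ⟨τ', hτ'⟩ := FA_S24_transport (hBC N) τ
  exact hP.modelFor hN _ τ' (hτ'.trans hτ)

end model

end Fermat.Agent.S24
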