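import Fermat.Agent.S24.DQ2

/-!
# S24 Layer D, `q`-expansions 3: expansions of `f ∘ aff` for level one forms, order of `j ∘ aff`
-/

set_option autoImplicit false

noncomputable section

open UpperHalfPlane ModularForm EisensteinSeries Complex MatrixGroups Filter
open scoped Manifold Topology

namespace Fermat.Agent.S24

open Fermat.Agent.Mero

local notation "Δ" => ModularForm.discriminant

section formAff

variable (hQE : FA_S24_Target_QE) {wt : ℤ} {F : Type*} [FunLike F ℍ ℂ]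
  [instMF : ModularFormClass F 𝒮ℒ wt] (f : F)
variable (N : ℕ) [NeZero N] (a b δ : ℤ) (ha : 0 < a) (hδ : 0 < δ) (k : ℕ)
  (hk : (k : ℤ) * δ = a * N)

include instMF in
theorem FA_S24_levelOne_per : Function.Periodic ((f : ℍ → ℂ) ∘ ofComplex) (1 : ℝ) :=
  SlashInvariantFormClass.periodic_comp_ofComplex f one_mem_strictPeriods_SL

include instMF in
theorem FA_S24_levelOne_bdd : IsBoundedAtImInfty (f : ℍ → ℂ) := by
  have : Fact (IsCusp OnePoint.infty 𝒮ℒ) :=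
    ⟨Subgroup.isCusp_of_mem_strictPeriods one_pos one_mem_strictPeriods_SL⟩
  exact ModularFormClass.bdd_at_infty f

include hQE hk instMF in
theorem FA_S24_formAff_mem : ((f : ℍ → ℂ) ∘ FA_S24_aff a b δ ha hδ) ∈ FA_S24_HolPlus N := by
  obtain ⟨h1, h2, h3, -⟩ := hQE f (ModularFormClass.holo f) (FA_S24_levelOne_per f)
    (FA_S24_levelOne_bdd f) N (Nat.pos_of_ne_zero (NeZero.ne N)) a b δ ha hδ k hk
  exact ⟨h1, h2, h3⟩

include instMF in
/-- `f ∘ aff` as an element of `𝓗⁺_N`. -/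
def FA_S24_formAff : FA_S24_HolPlus N :=
  ⟨(f : ℍ → ℂ) ∘ FA_S24_aff a b δ ha hδ, FA_S24_formAff_mem hQE f N a b δ ha hδ k hk⟩

include instMF in
theorem FA_S24_formAff_coe :
    ((FA_S24_formAff hQE f N a b δ ha hδ k hk : FA_S24_HolPlus N) : ℍ → ℂ)
      = (f : ℍ → ℂ) ∘ FA_S24_aff a b δ ha hδ := rfl

include instMF in
theorem FA_S24_qN_formAff_coeff (m : ℕ) :
    PowerSeries.coeff m (FA_S24_qN N (FA_S24_formAff hQE f N a b δ ha hδ k hk)) =
      if k ∣ m then (qExpansion (1 : ℝ) f).coeff (m / k)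
        * Complex.exp (2 * Real.pi * Complex.I * (b : ℂ) * ((m / k : ℕ) : ℂ) / (δ : ℂ))
      else 0 := by
  obtain ⟨-, -, -, h4⟩ := hQE f (ModularFormClass.holo f) (FA_S24_levelOne_per f)
    (FA_S24_levelOne_bdd f) N (Nat.pos_of_ne_zero (NeZero.ne N)) a b δ ha hδ k hk
  exact h4 m

include hk ha hδ in
theorem FA_S24_k_pos : 0 < k := by
  have h1 : (0 : ℤ) < a * N := mul_pos ha (by exact_mod_cast Nat.pos_of_ne_zero (NeZero.ne N))
  rw [← hk] at h1
  have h2 : (0 : ℤ) < k := by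
    by_contra hcon
    have hcon' : (k : ℤ) ≤ 0 := not_lt.mp hcon
    exact absurd h1 (not_lt.mpr (mul_nonpos_of_nonpos_of_nonneg hcon' hδ.le))
  exact_mod_cast h2

end formAff

section jaff

variable (hQE : FA_S24_Target_QE)
variable (N : ℕ) [NeZero N] (a b δ : ℤ) (ha : 0 < a) (hδ : 0 < δ) (k : ℕ)
  (hk : (k : ℤ) * δ = a * N)

/-- `E₄ ∘ aff` in `𝓗⁺_N`. -/
def FA_S24_E4aff : FA_S24_HolPlus N := FA_S24_formAff hQE E₄ N a b δ ha hδ k hk

/-- `Δ ∘ aff` in `𝓗⁺_N`. -/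
def FA_S24_Daff : FA_S24_HolPlus N :=
  FA_S24_formAff hQE CuspForm.discriminant N a b δ ha hδ k hk

theorem FA_S24_Daff_apply (z : ℍ) :
    ((FA_S24_Daff hQE N a b δ ha hδ k hk : FA_S24_HolPlus N) : ℍ → ℂ) z
      = Δ (FA_S24_aff a b δ ha hδ z) := rfl

theorem FA_S24_E4aff_apply (z : ℍ) :
    ((FA_S24_E4aff hQE N a b δ ha hδ k hk : FA_S24_HolPlus N) : ℍ → ℂ) z
      = E₄ (FA_S24_aff a b δ ha hδ z) := rfl

theorem FA_S24_Daff_ne_zero : FA_S24_Daff hQE N a b δ ha hδ k hk ≠ 0 := by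
  intro h
  have h1 := congrArg (fun x : FA_S24_HolPlus N => (x : ℍ → ℂ) UpperHalfPlane.I) h
  simp only [FA_S24_Daff_apply] at h1
  exact discriminant_ne_zero _ h1

theorem FA_S24_jaff_mul_Daff :
    FA_S24_jaff a b δ ha hδ * FA_S24_toHol N (FA_S24_Daff hQE N a b δ ha hδ k hk)
      = FA_S24_toHol N (FA_S24_E4aff hQE N a b δ ha hδ k hk) ^ 3 := by
  apply Subtype.ext
  funext z
  show FA_S24_j (FA_S24_aff a b δ ha hδ z) * Δ (FA_S24_aff a b δ ha hδ z)
    = E₄ (FA_S24_aff a b δ ha hδ z) ^ 3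
  unfold FA_S24_j
  have := discriminant_ne_zero (FA_S24_aff a b δ ha hδ z)
  field_simp

theorem FA_S24_qN_E4aff_coeff_zero :
    PowerSeries.coeff 0 (FA_S24_qN N (FA_S24_E4aff hQE N a b δ ha hδ k hk)) = 1 := by
  unfold FA_S24_E4aff
  rw [FA_S24_qN_formAff_coeff, if_pos (dvd_zero k)]
  simp only [Nat.zero_div, Nat.cast_zero, mul_zero, zero_div, Complex.exp_zero, mul_one]
  exact E_qExpansion_coeff_zero _ ⟨2, rfl⟩

theorem FA_S24_qN_Daff_coeff_lt {m : ℕ} (hm : m < k) :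
    PowerSeries.coeff m (FA_S24_qN N (FA_S24_Daff hQE N a b δ ha hδ k hk)) = 0 := by
  unfold FA_S24_Daff
  rw [FA_S24_qN_formAff_coeff]
  split_ifs with h
  · have hm0 : m = 0 := Nat.eq_zero_of_dvd_of_lt h hm
    subst hm0
    simp only [Nat.zero_div]
    rw [CuspFormClass.qExpansion_coeff_zero _ one_pos one_mem_strictPeriods_SL, zero_mul]
  · rfl

theorem FA_S24_qN_Daff_coeff_k :
    PowerSeries.coeff k (FA_S24_qN N (FA_S24_Daff hQE N a b δ ha hδ k hk)) ≠ 0 := by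
  unfold FA_S24_Daff
  have hk0 := FA_S24_k_pos N a δ ha hδ k hk
  rw [FA_S24_qN_formAff_coeff, if_pos dvd_rfl, Nat.div_self hk0]
  have h1 : (qExpansion (1 : ℝ) CuspForm.discriminant).coeff 1 = 1 :=
    discriminant_qExpansion_coeff_one
  rw [h1, one_mul]
  exact Complex.exp_ne_zero _

/-- `j ∘ aff` as a meromorphic function. -/
def FA_S24_jaffM : FA_Mero_Field := algebraMap FA_Mero_Hol FA_Mero_Field (FA_S24_jaff a b δ ha hδ)

theorem FA_S24_DaffM_ne_zero :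
    algebraMap FA_Mero_Hol FA_Mero_Field (FA_S24_toHol N (FA_S24_Daff hQE N a b δ ha hδ k hk))
      ≠ 0 := by
  intro h
  have h1 := (IsFractionRing.injective FA_Mero_Hol FA_Mero_Field) (h.trans (map_zero _).symm)
  have h2 := FA_S24_toHol_injective (h1.trans (map_zero _).symm)
  exact FA_S24_Daff_ne_zero hQE N a b δ ha hδ k hk h2

theorem FA_S24_jaffM_eq :
    FA_S24_jaffM a b δ ha hδ =
      algebraMap FA_Mero_Hol FA_Mero_Field
          (FA_S24_toHol N (FA_S24_E4aff hQE N a b δ ha hδ k hk)) ^ 3 *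
        (algebraMap FA_Mero_Hol FA_Mero_Field
          (FA_S24_toHol N (FA_S24_Daff hQE N a b δ ha hδ k hk)))⁻¹ := by
  have h1 := congrArg (algebraMap FA_Mero_Hol FA_Mero_Field)
    (FA_S24_jaff_mul_Daff hQE N a b δ ha hδ k hk)
  rw [map_mul, map_pow] at h1
  rw [← h1, mul_assoc, mul_inv_cancel₀ (FA_S24_DaffM_ne_zero hQE N a b δ ha hδ k hk), mul_one]
  rfl

include hQE hk in
theorem FA_S24_jaffM_mem_good : FA_S24_jaffM a b δ ha hδ ∈ FA_S24_good N := by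
  rw [FA_S24_jaffM_eq hQE N a b δ ha hδ k hk]
  exact mul_mem (pow_mem (FA_S24_hol_mem_good _) 3) (inv_mem (FA_S24_hol_mem_good _))

theorem FA_S24_Qinf_jaffM :
    FA_S24_Qinf N (FA_S24_jaffM a b δ ha hδ) =
      HahnSeries.ofPowerSeries ℤ ℂ (FA_S24_qN N (FA_S24_E4aff hQE N a b δ ha hδ k hk)) ^ 3 *
        (HahnSeries.ofPowerSeries ℤ ℂ
          (FA_S24_qN N (FA_S24_Daff hQE N a b δ ha hδ k hk)))⁻¹ := by
  rw [FA_S24_jaffM_eq hQE N a b δ ha hδ k hk,
    FA_S24_Qinf_mul (pow_mem (FA_S24_hol_mem_good _) 3) (inv_mem (FA_S24_hol_mem_good _)),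
    FA_S24_Qinf_inv (FA_S24_hol_mem_good _), FA_S24_Qinf_hol, pow_succ, pow_two,
    FA_S24_Qinf_mul (mul_mem (FA_S24_hol_mem_good _) (FA_S24_hol_mem_good _))
      (FA_S24_hol_mem_good _),
    FA_S24_Qinf_mul (FA_S24_hol_mem_good _) (FA_S24_hol_mem_good _), FA_S24_Qinf_hol]
  ring

include hQE hk in
theorem FA_S24_order_Qinf_jaffM :
    (FA_S24_Qinf N (FA_S24_jaffM a b δ ha hδ)).order = -(k : ℤ) := by
  have h1 : (HahnSeries.ofPowerSeries ℤ ℂ
      (FA_S24_qN N (FA_S24_E4aff hQE N a b δ ha hδ k hk))).order = ((0 : ℕ) : ℤ) :=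
    FA_S24_order_ofPowerSeries _ 0
      (by rw [FA_S24_qN_E4aff_coeff_zero]; exact one_ne_zero) (fun m hm => absurd hm (by omega))
  have h2 : (HahnSeries.ofPowerSeries ℤ ℂ
      (FA_S24_qN N (FA_S24_Daff hQE N a b δ ha hδ k hk))).order = (k : ℤ) :=
    FA_S24_order_ofPowerSeries _ k (FA_S24_qN_Daff_coeff_k hQE N a b δ ha hδ k hk)
      (fun m hm => FA_S24_qN_Daff_coeff_lt hQE N a b δ ha hδ k hk hm)
  have hE0 : HahnSeries.ofPowerSeries ℤ ℂ
      (FA_S24_qN N (FA_S24_E4aff hQE N a b δ ha hδ k hk)) ≠ 0 := by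
    intro h
    have := FA_S24_qN_E4aff_coeff_zero hQE N a b δ ha hδ k hk
    have h3 := HahnSeries.ofPowerSeries_injective (h.trans (map_zero _).symm)
    rw [h3] at this
    simp at this
  have hD0 : HahnSeries.ofPowerSeries ℤ ℂ
      (FA_S24_qN N (FA_S24_Daff hQE N a b δ ha hδ k hk)) ≠ 0 := by
    intro h
    have := FA_S24_qN_Daff_coeff_k hQE N a b δ ha hδ k hk
    have h3 := HahnSeries.ofPowerSeries_injective (h.trans (map_zero _).symm)
    rw [h3] at this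
    simp at this
  rw [FA_S24_Qinf_jaffM hQE N a b δ ha hδ k hk,
    HahnSeries.order_mul (pow_ne_zero 3 hE0) (inv_ne_zero hD0), pow_succ, pow_two,
    HahnSeries.order_mul (mul_ne_zero hE0 hE0) hE0, HahnSeries.order_mul hE0 hE0, h1]
  have h4 : (HahnSeries.ofPowerSeries ℤ ℂ
      (FA_S24_qN N (FA_S24_Daff hQE N a b δ ha hδ k hk)))⁻¹.order = -(k : ℤ) := by
    have h5 := HahnSeries.order_mul hD0 (inv_ne_zero hD0)
    rw [mul_inv_cancel₀ hD0, HahnSeries.order_one, h2] at h5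
    omega
  rw [h4]
  simp

end jaff


end Fermat.Agent.S24
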