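import Fermat.Agent.S24.DQ3
import Fermat.Agent.S24.DAlg6

/-!
# S24 Layer D, concrete data: `ρ`, `g`, the generators, `g_inv`, `stab`
-/

set_option autoImplicit false

noncomputable section

open UpperHalfPlane ModularForm EisensteinSeries Complex MatrixGroups Filter
open scoped Manifold Topology

namespace Fermat.Agent.S24

open Fermat.Agent.Mero

local notation "Δ" => ModularForm.discriminant

section rho

/-- Compatibility of the `K`-algebra structures on `ℂ` and on the meromorphic functions. -/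
def FA_S24_Tower (K : Type) [Field K] [Algebra K ℂ] [Algebra K FA_Mero_Field] : Prop :=
  ∀ c : K, algebraMap K FA_Mero_Field c = algebraMap ℂ FA_Mero_Field (algebraMap K ℂ c)

theorem FA_S24_smul_algebraMap_K (K : Type) [Field K] [Algebra K ℂ] [Algebra K FA_Mero_Field]
    (ht : FA_S24_Tower K) (γ : SL(2, ℤ)) (c : K) :
    γ • (algebraMap K FA_Mero_Field c) = algebraMap K FA_Mero_Field c := by
  rw [ht c, FA_Mero_smul_algebraMap_complex]

/-- The action of `SL(2, ℤ)` on the meromorphic functions, `K`-linearly. -/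
def FA_S24_rho (K : Type) [Field K] [Algebra K ℂ] [Algebra K FA_Mero_Field]
    (ht : FA_S24_Tower K) : SL(2, ℤ) →* (FA_Mero_Field ≃ₐ[K] FA_Mero_Field) where
  toFun γ :=
    { MulSemiringAction.toRingEquiv SL(2, ℤ) FA_Mero_Field γ with
      commutes' := fun c => FA_S24_smul_algebraMap_K K ht γ c }
  map_one' := by
    ext x
    show (1 : SL(2, ℤ)) • x = x
    rw [one_smul]
  map_mul' γ γ' := by
    ext x
    show (γ * γ') • x = γ • (γ' • x)
    rw [mul_smul]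

@[simp]
theorem FA_S24_rho_apply (K : Type) [Field K] [Algebra K ℂ] [Algebra K FA_Mero_Field]
    (ht : FA_S24_Tower K) (γ : SL(2, ℤ)) (x : FA_Mero_Field) :
    FA_S24_rho K ht γ x = γ • x := rfl

end rho

/-- The function `j (d z)` as a meromorphic function (`0` if `d = 0`). -/
def FA_S24_g (d : ℕ) : FA_Mero_Field :=
  if h : 0 < (d : ℤ) then FA_S24_jaffM d 0 1 h one_pos else 0

theorem FA_S24_g_eq {d : ℕ} (h : 0 < (d : ℤ)) : FA_S24_g d = FA_S24_jaffM d 0 1 h one_pos := by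
  unfold FA_S24_g
  rw [dif_pos h]

theorem FA_S24_smul_jaff_eq (d : ℕ) (hd : 0 < (d : ℤ)) (γ γ' : SL(2, ℤ))
    (a b δ : ℤ) (ha : 0 < a) (hδ : 0 < δ)
    (h3 : ∀ z : ℍ, FA_S24_aff d 0 1 hd one_pos (γ⁻¹ • z) = γ' • FA_S24_aff a b δ ha hδ z) :
    γ • FA_S24_jaff d 0 1 hd one_pos = FA_S24_jaff a b δ ha hδ := by
  apply Subtype.ext
  funext z
  show FA_S24_j (FA_S24_aff d 0 1 hd one_pos (γ⁻¹ • z)) = FA_S24_j (FA_S24_aff a b δ ha hδ z)
  rw [h3 z, FA_S24_j_smul]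

/-- The translates of `j (d z)` are of the form `j ((a z + b)/δ)`. -/
theorem FA_S24_smul_jaffM_d (hUT : FA_S24_Target_UT) (d : ℕ) (hd : 0 < (d : ℤ))
    (γ : SL(2, ℤ)) :
    ∃ (a b δ : ℤ) (ha : 0 < a) (hδ : 0 < δ) (γ' : SL(2, ℤ)),
      a * δ = d ∧
      (!![(d : ℤ), 0; 0, 1] * ((γ⁻¹ : SL(2, ℤ)) : Matrix (Fin 2) (Fin 2) ℤ)
        = (γ' : Matrix (Fin 2) (Fin 2) ℤ) * !![a, b; 0, δ]) ∧
      γ • FA_S24_jaffM d 0 1 hd one_pos = FA_S24_jaffM a b δ ha hδ := by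
  obtain ⟨a, b, δ, ha, hδ, γ', h1, h2, h3⟩ := hUT d hd γ⁻¹
  refine ⟨a, b, δ, ha, hδ, γ', h1, h2, ?_⟩
  unfold FA_S24_jaffM
  rw [FA_Mero_smul_algebraMap, FA_S24_smul_jaff_eq d hd γ γ' a b δ ha hδ h3]

theorem FA_S24_g_inv_aux (hUT0 : FA_S24_Target_UT0) (d : ℕ) (hd : 0 < (d : ℤ))
    (γ : SL(2, ℤ)) (hγ : γ ∈ CongruenceSubgroup.Gamma0 d) :
    γ • FA_S24_g d = FA_S24_g d := by
  obtain ⟨γ', h3⟩ := hUT0 d hd γ⁻¹ (inv_mem hγ)
  rw [FA_S24_g_eq hd]
  unfold FA_S24_jaffM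
  rw [FA_Mero_smul_algebraMap, FA_S24_smul_jaff_eq d hd γ γ' d 0 1 hd one_pos h3]

/-- The stabiliser of `j (N z)` is contained in `Γ₀(N)`. -/
theorem FA_S24_stab_aux (hUT : FA_S24_Target_UT) (hQE : FA_S24_Target_QE) (N : ℕ) [NeZero N]
    (γ : SL(2, ℤ)) (h : γ • FA_S24_g N = FA_S24_g N) : γ ∈ CongruenceSubgroup.Gamma0 N := by
  have hN : 0 < (N : ℤ) := by exact_mod_cast Nat.pos_of_ne_zero (NeZero.ne N)
  rw [FA_S24_g_eq hN] at h
  obtain ⟨a, b, δ, ha, hδ, γ', h1, h2, h3⟩ := FA_S24_smul_jaffM_d hUT N hN γ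
  rw [h3] at h
  -- compare orders at infinity
  have hδN : δ ∣ (N : ℤ) := ⟨a, by rw [← h1]; ring⟩
  obtain ⟨c, hc⟩ := hδN
  have hc0 : 0 < c := by
    by_contra hcon
    have hcon' : c ≤ 0 := not_lt.mp hcon
    have : (N : ℤ) ≤ 0 := by rw [hc]; exact mul_nonpos_of_nonneg_of_nonpos hδ.le hcon'
    omega
  have hk1 : (((a * c).toNat : ℕ) : ℤ) * δ = a * N := by
    rw [Int.toNat_of_nonneg (mul_pos ha hc0).le, hc]; ring
  have hk2 : (((N * N : ℕ)) : ℤ) * 1 = (N : ℤ) * N := by push_cast; ring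
  have ho1 := FA_S24_order_Qinf_jaffM hQE N a b δ ha hδ (a * c).toNat hk1
  have ho2 := FA_S24_order_Qinf_jaffM hQE N N 0 1 hN one_pos (N * N) hk2
  rw [h, ho2] at ho1
  have h4 : a * c = N * N := by
    have : ((a * c).toNat : ℤ) = ((N * N : ℕ) : ℤ) := by omega
    rw [Int.toNat_of_nonneg (mul_pos ha hc0).le] at this
    rw [this]; push_cast; ring
  -- hence `δ = 1`
  have h5 : δ = 1 := by
    have h6 : a * c * (δ * δ) = (N : ℤ) * N := by
      calc a * c * (δ * δ) = (a * δ) * (δ * c) := by ring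
        _ = N * N := by rw [h1, ← hc]
    rw [h4] at h6
    have hNN : (0 : ℤ) < N * N := mul_pos hN hN
    have h7 : δ * δ = 1 := by
      have := mul_left_cancel₀ hNN.ne' (h6.trans (mul_one _).symm)
      exact this
    nlinarith
  subst h5
  -- now use the matrix identity
  have h8 := congrFun (congrFun h2 1) 0
  simp [Matrix.mul_apply, Fin.sum_univ_two] at h8
  have h9 : γ⁻¹ ∈ CongruenceSubgroup.Gamma0 N := by
    rw [CongruenceSubgroup.Gamma0_mem]
    have h10 : ((γ⁻¹ : SL(2, ℤ)) 1 0 : ℤ) = γ' 1 0 * a := h8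
    rw [h10]
    have : a = N := by rw [← h1]; ring
    rw [this]
    push_cast
    simp
  exact inv_mem_iff.mp h9

end Fermat.Agent.S24
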